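import Mathlib
import Fermat.Prelude.Def_ModularCurve_X0ModL

/-!
Shared definitions for the S28 project (Igusa: the special fibre of the Igusa model is integral).
Formal `q`-series objects over an arbitrary commutative ring `R`.
-/

set_option autoImplicit false

open ModularCurve

namespace Fermat.Agent.S28

noncomputable section

variable (R : Type*) [CommRing R]

/-- The substitution `q ↦ q^d` as a total function of `d` (the identity for `d = 0`). -/
def qE (d : ℕ) : LaurentSeries R →+* LaurentSeries R :=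
  if h : d = 0 then RingHom.id _ else
    haveI : NeZero d := ⟨h⟩
    qExpand R d

theorem qE_of_neZero (d : ℕ) [NeZero d] : qE R d = qExpand R d := by
  unfold qE
  rw [dif_neg (NeZero.ne d)]

theorem qE_of_ne_zero {d : ℕ} (hd : d ≠ 0) :
    qE R d = (haveI : NeZero d := ⟨hd⟩; qExpand R d) := by
  unfold qE
  rw [dif_neg hd]

theorem qE_injective (d : ℕ) : Function.Injective (qE R d) := by
  by_cases hd : d = 0
  · subst hd
    unfold qE
    rw [dif_pos rfl]
    exact fun _ _ h => h
  · haveI : NeZero d := ⟨hd⟩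
    rw [qE_of_neZero]
    exact qExpand_injective d

theorem qE_one : qE R 1 = RingHom.id _ := by
  rw [qE_of_neZero]
  exact RingHom.ext fun f => qExpand_one_apply f

theorem qE_qE {a b : ℕ} (ha : a ≠ 0) (hb : b ≠ 0) (f : LaurentSeries R) :
    qE R a (qE R b f) = qE R (a * b) f := by
  haveI : NeZero a := ⟨ha⟩
  haveI : NeZero b := ⟨hb⟩
  haveI : NeZero (a * b) := ⟨Nat.mul_ne_zero ha hb⟩
  rw [qE_of_neZero, qE_of_neZero, qE_of_neZero]
  exact qExpand_qExpand b a f

/-- `J(q^d)` over `R` (`J` itself for `d = 0`). -/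
def JdC (d : ℕ) : LaurentSeries R := qE R d (jqModC R)

theorem JdC_of_neZero (d : ℕ) [NeZero d] : JdC R d = qExpand R d (jqModC R) := by
  unfold JdC
  rw [qE_of_neZero]

theorem JdC_one : JdC R 1 = jqModC R := by
  rw [JdC_of_neZero]
  exact qExpand_one_apply _

/-- The formal discriminant `Δ = q ∏ (1 - q^n)^24` over `R`. -/
def DeltaSer : LaurentSeries R :=
  HahnSeries.single (1 : ℤ) 1 *
    HahnSeries.ofPowerSeries ℤ R (dedekindEtaUnit.map (Int.castRingHom R))

/-- The inverse of the formal discriminant. -/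
def DeltaInv : LaurentSeries R :=
  HahnSeries.single (-1 : ℤ) 1 *
    HahnSeries.ofPowerSeries ℤ R (dedekindEtaUnitInv.map (Int.castRingHom R))

/-- Evaluation `ℤ[Y] → R((q))`, `Y ↦ J`. -/
def evJ : Polynomial ℤ →+* LaurentSeries R :=
  Polynomial.eval₂RingHom (Int.castRingHom (LaurentSeries R)) (jqModC R)

/-- Evaluation `ℤ[Y] → R((q))`, `Y ↦ J(q^d)`. -/
def evJd (d : ℕ) : Polynomial ℤ →+* LaurentSeries R :=
  Polynomial.eval₂RingHom (Int.castRingHom (LaurentSeries R)) (JdC R d)

variable {R}

/-- `θ = q d/dq`: the coefficient of `q^n` is multiplied by `n`. -/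
def theta (f : LaurentSeries R) : LaurentSeries R where
  coeff n := (n : R) * f.coeff n
  isPWO_support' := f.isPWO_support.mono fun n hn => by
    simp only [Function.mem_support, ne_eq] at hn ⊢
    intro h
    exact hn (by rw [h, mul_zero])

@[simp] theorem theta_coeff (f : LaurentSeries R) (n : ℤ) :
    (theta f).coeff n = (n : R) * f.coeff n := rfl

/-- The substitution `q ↦ ζ q`: the coefficient of `q^n` is multiplied by `ζ^n`. -/
def twistFun (ζ : Rˣ) (f : LaurentSeries R) : LaurentSeries R where
  coeff n := ((ζ ^ n : Rˣ) : R) * f.coeff n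
  isPWO_support' := f.isPWO_support.mono fun n hn => by
    simp only [Function.mem_support, ne_eq] at hn ⊢
    intro h
    exact hn (by rw [h, mul_zero])

@[simp] theorem twistFun_coeff (ζ : Rˣ) (f : LaurentSeries R) (n : ℤ) :
    (twistFun ζ f).coeff n = ((ζ ^ n : Rˣ) : R) * f.coeff n := rfl

theorem theta_support (f : LaurentSeries R) : (theta f).support ⊆ f.support := fun n hn => by
  simp only [HahnSeries.mem_support, theta_coeff, ne_eq] at hn ⊢
  intro h
  exact hn (by rw [h, mul_zero])

theorem twistFun_support (ζ : Rˣ) (f : LaurentSeries R) : (twistFun ζ f).support ⊆ f.support :=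
  fun n hn => by
    simp only [HahnSeries.mem_support, twistFun_coeff, ne_eq] at hn ⊢
    intro h
    exact hn (by rw [h, mul_zero])

theorem coeff_mul_both {x y : LaurentSeries R} {a : ℤ} {s t : Set ℤ} (hs : s.IsPWO) (ht : t.IsPWO)
    (hxs : x.support ⊆ s) (hyt : y.support ⊆ t) :
    (x * y).coeff a = ∑ ij ∈ Finset.antidiagonal hs ht a, x.coeff ij.1 * y.coeff ij.2 := by
  rw [HahnSeries.coeff_mul_left' hs hxs]
  refine Finset.sum_subset (Finset.antidiagonal_mono_right hyt) fun ij hij hij' => ?_
  rw [Finset.mem_antidiagonal] at hij hij'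
  have : ij.2 ∉ y.support := fun h => hij' ⟨hij.1, h, hij.2.2⟩
  rw [HahnSeries.mem_support, not_not] at this
  rw [this, mul_zero]

theorem theta_add (f g : LaurentSeries R) : theta (f + g) = theta f + theta g := by
  ext n
  simp [mul_add]

theorem theta_zero : theta (0 : LaurentSeries R) = 0 := by
  ext n
  simp

/-- Leibniz rule. -/
theorem theta_mul (f g : LaurentSeries R) : theta (f * g) = theta f * g + f * theta g := by
  ext n
  rw [theta_coeff, HahnSeries.coeff_add, HahnSeries.coeff_mul,
    HahnSeries.coeff_mul_left' f.isPWO_support (theta_support f),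
    HahnSeries.coeff_mul_right' g.isPWO_support (theta_support g), Finset.mul_sum,
    ← Finset.sum_add_distrib]
  refine Finset.sum_congr rfl fun ij hij => ?_
  rw [Finset.mem_antidiagonal] at hij
  rw [theta_coeff, theta_coeff, ← hij.2.2]
  push_cast
  ring

theorem theta_single (n : ℤ) (r : R) :
    theta (HahnSeries.single n r : LaurentSeries R) = HahnSeries.single n ((n : R) * r) := by
  ext m
  rw [theta_coeff]
  by_cases h : m = n
  · subst h
    simp
  · simp [HahnSeries.coeff_single_of_ne h]

theorem theta_C (r : R) : theta (HahnSeries.C r : LaurentSeries R) = 0 := by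
  rw [HahnSeries.C_apply, theta_single]
  simp

theorem theta_one : theta (1 : LaurentSeries R) = 0 := by
  have h := theta_C (1 : R)
  rwa [map_one] at h

theorem theta_pow (f : LaurentSeries R) (n : ℕ) :
    theta (f ^ (n + 1)) = ((n + 1 : ℕ) : LaurentSeries R) * f ^ n * theta f := by
  induction n with
  | zero => simp
  | succ n ih =>
    rw [pow_succ, theta_mul, ih]
    push_cast
    ring

theorem theta_qExpand (N : ℕ) [NeZero N] (f : LaurentSeries R) :
    theta (qExpand R N f) = (N : LaurentSeries R) * qExpand R N (theta f) := by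
  ext n
  have hN : ((N : LaurentSeries R)) = HahnSeries.C (N : R) := by simp
  rw [theta_coeff, hN, HahnSeries.C_mul_eq_smul, HahnSeries.coeff_smul, smul_eq_mul]
  by_cases hn : (N : ℤ) ∣ n
  · obtain ⟨m, rfl⟩ := hn
    rw [qExpand_coeff_mul, qExpand_coeff_mul, theta_coeff]
    push_cast
    ring
  · rw [qExpand_coeff_of_not_dvd N f hn, qExpand_coeff_of_not_dvd N _ hn, mul_zero, mul_zero]

theorem coeffMap_theta {S : Type*} [CommRing S] (φ : R →+* S) (f : LaurentSeries R) :
    coeffMap φ (theta f) = theta (coeffMap φ f) := by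
  ext n
  simp

/-- The substitution `q ↦ ζ q` as a ring homomorphism. -/
def twist (ζ : Rˣ) : LaurentSeries R →+* LaurentSeries R where
  toFun := twistFun ζ
  map_zero' := by
    ext n
    simp
  map_one' := by
    ext n
    rw [twistFun_coeff, HahnSeries.coeff_one]
    split_ifs with h
    · subst h
      simp
    · simp
  map_add' f g := by
    ext n
    simp [mul_add]
  map_mul' f g := by
    ext n
    rw [twistFun_coeff, HahnSeries.coeff_mul,
      coeff_mul_both f.isPWO_support g.isPWO_support (twistFun_support ζ f)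
        (twistFun_support ζ g), Finset.mul_sum]
    refine Finset.sum_congr rfl fun ij hij => ?_
    rw [Finset.mem_antidiagonal] at hij
    rw [twistFun_coeff, twistFun_coeff, ← hij.2.2, zpow_add]
    push_cast
    ring

@[simp] theorem twist_coeff (ζ : Rˣ) (f : LaurentSeries R) (n : ℤ) :
    (twist ζ f).coeff n = ((ζ ^ n : Rˣ) : R) * f.coeff n := rfl

theorem twist_one (f : LaurentSeries R) : twist (1 : Rˣ) f = f := by
  ext n
  simp

theorem twist_twist (ζ ξ : Rˣ) (f : LaurentSeries R) : twist ζ (twist ξ f) = twist (ζ * ξ) f := by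
  ext n
  rw [twist_coeff, twist_coeff, twist_coeff, mul_zpow]
  push_cast
  ring

theorem twist_injective (ζ : Rˣ) : Function.Injective (twist ζ : LaurentSeries R → LaurentSeries R) :=
  fun f g h => by
    have := congrArg (twist ζ⁻¹) h
    rwa [twist_twist, twist_twist, inv_mul_cancel, twist_one, twist_one] at this

theorem twist_qExpand (ζ : Rˣ) (N : ℕ) [NeZero N] (f : LaurentSeries R) :
    twist ζ (qExpand R N f) = qExpand R N (twist (ζ ^ N) f) := by
  ext n
  rw [twist_coeff]
  by_cases hn : (N : ℤ) ∣ n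
  · obtain ⟨m, rfl⟩ := hn
    rw [qExpand_coeff_mul, qExpand_coeff_mul, twist_coeff, zpow_mul, zpow_natCast]
  · rw [qExpand_coeff_of_not_dvd N f hn, qExpand_coeff_of_not_dvd N _ hn, mul_zero]

/-- `q ↦ ζ q` fixes every series in `q^N` when `ζ^N = 1`. -/
theorem twist_qExpand_of_pow_eq_one (ζ : Rˣ) (N : ℕ) [NeZero N] (h : ζ ^ N = 1)
    (f : LaurentSeries R) : twist ζ (qExpand R N f) = qExpand R N f := by
  rw [twist_qExpand, h, twist_one]

theorem twist_C (ζ : Rˣ) (r : R) : twist ζ (HahnSeries.C r : LaurentSeries R) = HahnSeries.C r := by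
  ext n
  rw [twist_coeff, HahnSeries.C_apply, HahnSeries.coeff_single]
  split_ifs with h
  · subst h
    simp
  · simp

theorem coeffMap_qE {S : Type*} [CommRing S] (φ : R →+* S) (d : ℕ) (f : LaurentSeries R) :
    coeffMap φ (qE R d f) = qE S d (coeffMap φ f) := by
  by_cases hd : d = 0
  · subst hd
    unfold qE
    rw [dif_pos rfl, dif_pos rfl]
    rfl
  · haveI : NeZero d := ⟨hd⟩
    rw [qE_of_neZero, qE_of_neZero]
    exact coeffMap_qExpand φ d f

theorem coeffMap_JdC {S : Type*} [CommRing S] (φ : R →+* S) (d : ℕ) :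
    coeffMap φ (JdC R d) = JdC S d := by
  unfold JdC
  rw [coeffMap_qE, coeffMap_jqModC]

theorem coeffMap_DeltaSer {S : Type*} [CommRing S] (φ : R →+* S) :
    coeffMap φ (DeltaSer R) = DeltaSer S := by
  rw [DeltaSer, map_mul, coeffMap_single, map_one, coeffMap_ofPowerSeries,
    ← RingHom.comp_apply (PowerSeries.map φ) (PowerSeries.map (Int.castRingHom R)),
    ← PowerSeries.map_comp, RingHom.ext_int (φ.comp (Int.castRingHom R)) (Int.castRingHom S)]
  rfl

theorem coeffMap_DeltaInv {S : Type*} [CommRing S] (φ : R →+* S) :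
    coeffMap φ (DeltaInv R) = DeltaInv S := by
  rw [DeltaInv, map_mul, coeffMap_single, map_one, coeffMap_ofPowerSeries,
    ← RingHom.comp_apply (PowerSeries.map φ) (PowerSeries.map (Int.castRingHom R)),
    ← PowerSeries.map_comp, RingHom.ext_int (φ.comp (Int.castRingHom R)) (Int.castRingHom S)]
  rfl

variable (R) in
theorem DeltaSer_mul_DeltaInv : DeltaSer R * DeltaInv R = 1 := by
  have h1 : (HahnSeries.single (1 : ℤ) (1 : R) : LaurentSeries R) * HahnSeries.single (-1 : ℤ) 1 = 1 := by
    rw [HahnSeries.single_mul_single]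
    simp
  have h2 : HahnSeries.ofPowerSeries ℤ R (dedekindEtaUnit.map (Int.castRingHom R)) *
      HahnSeries.ofPowerSeries ℤ R (dedekindEtaUnitInv.map (Int.castRingHom R)) = 1 := by
    rw [← map_mul, ← map_mul, dedekindEtaUnit_mul_inv, map_one, map_one]
  calc DeltaSer R * DeltaInv R
      = (HahnSeries.single (1 : ℤ) (1 : R) * HahnSeries.single (-1 : ℤ) 1) *
          (HahnSeries.ofPowerSeries ℤ R (dedekindEtaUnit.map (Int.castRingHom R)) *
            HahnSeries.ofPowerSeries ℤ R (dedekindEtaUnitInv.map (Int.castRingHom R))) := by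
        unfold DeltaSer DeltaInv
        ring
    _ = 1 := by rw [h1, h2, mul_one]

theorem coeffMap_twist {S : Type*} [CommRing S] (φ : R →+* S) (ζ : Rˣ) (f : LaurentSeries R) :
    coeffMap φ (twist ζ f) = twist (Units.map (φ : R →* S) ζ) (coeffMap φ f) := by
  ext n
  rw [coeffMap_coeff, twist_coeff, twist_coeff, coeffMap_coeff, map_mul, ← map_zpow]
  rfl

theorem theta_qE (d : ℕ) (hd : d ≠ 0) (f : LaurentSeries R) :
    theta (qE R d f) = (d : LaurentSeries R) * qE R d (theta f) := by
  haveI : NeZero d := ⟨hd⟩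
  rw [qE_of_neZero]
  exact theta_qExpand d f

theorem twist_qE (ζ : Rˣ) (d : ℕ) (hd : d ≠ 0) (f : LaurentSeries R) :
    twist ζ (qE R d f) = qE R d (twist (ζ ^ d) f) := by
  haveI : NeZero d := ⟨hd⟩
  rw [qE_of_neZero]
  exact twist_qExpand ζ d f

end

end Fermat.Agent.S28
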