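import Fermat.Agent.S28.LevelOne
import Fermat.Agent.S28.Defs
import Fermat.Agent.S24.ModIntegral

/-!
S28, Part A (shared analytic/algebraic engine).

A `Γ₀(N)`-invariant holomorphic function `u₀` on `ℍ`, all of whose `SL(2,ℤ)`-translates have an
expansion at `i∞` (in `w = e^{2πiτ/N}`) with coefficients in a subring `R ⊆ ℂ`, is a root of a
monic polynomial whose coefficients are `R`-polynomials in Klein's `j`
(`exists_monic_of_invariant`).  If `u₀` itself has the expansion `qExpand N U₀`, the identity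
holds formally in `ℂ((q))` (`formal_root_q`); and if `R` is the ring of algebraic integers, the
coefficients can be taken in `ℤ[j]` (`exists_int_monic`).  Finally `eval₂_int_of_complex`
transports the identity to `ℤ((q))`.
-/

set_option autoImplicit false

open ModularCurve AlgebraicCurve MatrixGroups UpperHalfPlane ModularForm EisensteinSeries

open scoped Manifold

open Fermat.Agent.S24

namespace Fermat.Agent.S28

/-! ### Functions with an expansion with coefficients in a subring -/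

theorem h22_coeff_mul_mem (R : Subring ℂ) {L M : LaurentSeries ℂ} (hL : ∀ n, L.coeff n ∈ R)
    (hM : ∀ n, M.coeff n ∈ R) (n : ℤ) : (L * M).coeff n ∈ R := by
  rw [HahnSeries.coeff_mul]
  exact R.sum_mem fun ij _ => R.mul_mem (hL _) (hM _)

theorem h22_coeff_C_mem (R : Subring ℂ) {c : ℂ} (hc : c ∈ R) (n : ℤ) :
    (HahnSeries.C c : LaurentSeries ℂ).coeff n ∈ R := by
  rw [HahnSeries.C_apply, HahnSeries.coeff_single]
  split_ifs
  · exact hc
  · exact R.zero_mem

/-- The subring of functions on `ℍ` having an expansion at `i∞` (in `w = e^{2πiτ/N}`) with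
coefficients in `R`. -/
def expSubring (N : ℕ) [NeZero N] (R : Subring ℂ) : Subring (ℍ → ℂ) where
  carrier := {f | ∃ L : LaurentSeries ℂ, HasWExp N f L ∧ ∀ n, L.coeff n ∈ R}
  mul_mem' := by
    rintro f g ⟨L, hL, hLR⟩ ⟨M, hM, hMR⟩
    exact ⟨L * M, hL.mul hM, h22_coeff_mul_mem R hLR hMR⟩
  one_mem' := ⟨HahnSeries.C 1, hasWExp_const N 1, h22_coeff_C_mem R R.one_mem⟩
  add_mem' := by
    rintro f g ⟨L, hL, hLR⟩ ⟨M, hM, hMR⟩
    refine ⟨L + M, hL.add hM, fun n => ?_⟩
    rw [HahnSeries.coeff_add]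
    exact R.add_mem (hLR n) (hMR n)
  zero_mem' := ⟨HahnSeries.C 0, hasWExp_const N 0, h22_coeff_C_mem R R.zero_mem⟩
  neg_mem' := by
    rintro f ⟨L, hL, hLR⟩
    refine ⟨HahnSeries.C (-1) * L, ?_, h22_coeff_mul_mem R
      (h22_coeff_C_mem R (R.neg_mem R.one_mem)) hLR⟩
    have e : -f = (fun _ : ℍ => (-1 : ℂ)) * f := by
      funext τ
      simp
    rw [e]
    exact (hasWExp_const N (-1)).mul hL

theorem mem_expSubring {N : ℕ} [NeZero N] {R : Subring ℂ} {f : ℍ → ℂ} :
    f ∈ expSubring N R ↔ ∃ L : LaurentSeries ℂ, HasWExp N f L ∧ ∀ n, L.coeff n ∈ R := Iff.rfl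

/-! ### The translates of a `Γ₀(N)`-invariant function, indexed by cosets -/

/-- The translate `actFn g u₀` as a function of the coset `g Γ₀(N)`. -/
noncomputable def cosetFn (N : ℕ) (u₀ : ℍ → ℂ)
    (hΓ : ∀ γ ∈ CongruenceSubgroup.Gamma0 N, actFn γ u₀ = u₀)
    (x : SL(2, ℤ) ⧸ CongruenceSubgroup.Gamma0 N) : ℍ → ℂ :=
  Quotient.liftOn' x (fun g => actFn g u₀) (by
    intro a b hab
    rw [QuotientGroup.leftRel_apply] at hab
    have : b = a * (a⁻¹ * b) := by group
    change actFn a u₀ = actFn b u₀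
    rw [this, actFn_mul, hΓ _ hab])

theorem cosetFn_mk (N : ℕ) (u₀ : ℍ → ℂ)
    (hΓ : ∀ γ ∈ CongruenceSubgroup.Gamma0 N, actFn γ u₀ = u₀) (g : SL(2, ℤ)) :
    cosetFn N u₀ hΓ (g : SL(2, ℤ) ⧸ CongruenceSubgroup.Gamma0 N) = actFn g u₀ := rfl

theorem cosetFn_act (N : ℕ) (u₀ : ℍ → ℂ)
    (hΓ : ∀ γ ∈ CongruenceSubgroup.Gamma0 N, actFn γ u₀ = u₀) (h : SL(2, ℤ))
    (x : SL(2, ℤ) ⧸ CongruenceSubgroup.Gamma0 N) :
    actFn h (cosetFn N u₀ hΓ x) = cosetFn N u₀ hΓ (h • x) := by
  induction x using QuotientGroup.induction_on with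
  | H g =>
    rw [cosetFn_mk, ← actFn_mul]
    rfl

/-- The ring homomorphism `R[Y] → ℂ`, `Y ↦ j(τ)`. -/
noncomputable def evalJ (R : Subring ℂ) (τ : ℍ) : Polynomial R →+* ℂ :=
  (Polynomial.evalRingHom (kleinJ τ)).comp (Polynomial.mapRingHom R.subtype)

theorem evalJ_apply (R : Subring ℂ) (τ : ℍ) (P : Polynomial R) :
    evalJ R τ P = (P.map R.subtype).eval (kleinJ τ) := rfl

/-- **Integrality over `R[j]`.** -/
theorem exists_monic_of_invariant (N : ℕ) [NeZero N] (R : Subring ℂ) (u₀ : ℍ → ℂ)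
    (hΓ : ∀ γ ∈ CongruenceSubgroup.Gamma0 N, actFn γ u₀ = u₀)
    (hexp : ∀ g : SL(2, ℤ), ∃ L : LaurentSeries ℂ, HasWExp N (actFn g u₀) L ∧
      ∀ n, L.coeff n ∈ R) :
    ∃ Q : Polynomial (Polynomial R), Q.Monic ∧ ∀ τ : ℍ, Q.eval₂ (evalJ R τ) (u₀ τ) = 0 := by
  classical
  have : Finite (SL(2, ℤ) ⧸ CongruenceSubgroup.Gamma0 N) :=
    Subgroup.finite_quotient_of_finiteIndex
  let : Fintype (SL(2, ℤ) ⧸ CongruenceSubgroup.Gamma0 N) := Fintype.ofFinite _
  have hmem : ∀ x : SL(2, ℤ) ⧸ CongruenceSubgroup.Gamma0 N,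
      cosetFn N u₀ hΓ x ∈ expSubring N R := by
    intro x
    induction x using QuotientGroup.induction_on with
    | H g => exact hexp g
  let Q' : Polynomial (expSubring N R) :=
    ∏ x : SL(2, ℤ) ⧸ CongruenceSubgroup.Gamma0 N,
      (Polynomial.X - Polynomial.C ⟨cosetFn N u₀ hΓ x, hmem x⟩)
  let Qf : Polynomial (ℍ → ℂ) :=
    ∏ x : SL(2, ℤ) ⧸ CongruenceSubgroup.Gamma0 N,
      (Polynomial.X - Polynomial.C (cosetFn N u₀ hΓ x))
  have hQQ' : Qf = Q'.map (expSubring N R).subtype := by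
    simp only [Qf, Q', Polynomial.map_prod, Polynomial.map_sub, Polynomial.map_X, Polynomial.map_C]
    rfl
  have hQmonic : Qf.Monic := Polynomial.monic_prod_of_monic _ _ fun x _ => Polynomial.monic_X_sub_C _
  have hQmem : ∀ i, Qf.coeff i ∈ expSubring N R := by
    intro i
    rw [hQQ', Polynomial.coeff_map]
    exact (Q'.coeff i).2
  have hQinv : ∀ h : SL(2, ℤ), Qf.map (wpA5b2_actHom h) = Qf := by
    intro h
    simp only [Qf, Polynomial.map_prod, Polynomial.map_sub, Polynomial.map_X, Polynomial.map_C]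
    have : ∀ x : SL(2, ℤ) ⧸ CongruenceSubgroup.Gamma0 N,
        (wpA5b2_actHom h) (cosetFn N u₀ hΓ x) = cosetFn N u₀ hΓ (h • x) := cosetFn_act N u₀ hΓ h
    simp only [this]
    exact Equiv.prod_comp (MulAction.toPerm h)
      (fun x : SL(2, ℤ) ⧸ CongruenceSubgroup.Gamma0 N =>
        Polynomial.X - Polynomial.C (cosetFn N u₀ hΓ x))
  have hQcoeff : ∀ i, ∃ P : Polynomial R,
      Qf.coeff i = fun τ => (P.map R.subtype).eval (kleinJ τ) := by
    intro i
    obtain ⟨L, hL, hLR⟩ := hQmem i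
    refine invariant_eq_eval_kleinJ N R _ (fun h => ?_) L hL hLR
    have := congrArg (fun P => Polynomial.coeff P i) (hQinv h)
    simp only [Polynomial.coeff_map] at this
    exact this
  choose P hP using hQcoeff
  set d := Qf.natDegree with hd
  refine ⟨Polynomial.X ^ d + ∑ i : Fin d, Polynomial.C (P i) * Polynomial.X ^ (i : ℕ),
    Polynomial.monic_X_pow_add (Polynomial.degree_sum_fin_lt _), fun τ => ?_⟩
  -- evaluate at `τ`
  have hroot : (Qf.map (Pi.evalRingHom (fun _ : ℍ => ℂ) τ)).eval (u₀ τ) = 0 := by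
    simp only [Qf, Polynomial.map_prod, Polynomial.map_sub, Polynomial.map_X, Polynomial.map_C,
      Polynomial.eval_prod]
    refine Finset.prod_eq_zero
      (Finset.mem_univ ((1 : SL(2, ℤ)) : SL(2, ℤ) ⧸ CongruenceSubgroup.Gamma0 N)) ?_
    rw [cosetFn_mk, actFn_one]
    simp
  have hsum : Qf = Polynomial.X ^ d + ∑ i ∈ Finset.range d,
      Polynomial.C (Qf.coeff i) * Polynomial.X ^ i := hQmonic.as_sum
  rw [hsum] at hroot
  simp only [Polynomial.map_add, Polynomial.map_pow, Polynomial.map_X, Polynomial.map_sum,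
    Polynomial.map_mul, Polynomial.map_C, Polynomial.eval_add, Polynomial.eval_pow,
    Polynomial.eval_X, Polynomial.eval_finsetSum, Polynomial.eval_mul, Polynomial.eval_C,
    Pi.evalRingHom_apply] at hroot
  rw [Polynomial.eval₂_add, Polynomial.eval₂_pow, Polynomial.eval₂_X, Polynomial.eval₂_finsetSum,
    Fin.sum_univ_eq_sum_range
      (fun i => Polynomial.eval₂ (evalJ R τ) (u₀ τ) (Polynomial.C (P i) * Polynomial.X ^ i)) d]
  rw [← hroot]
  congr 1
  refine Finset.sum_congr rfl fun i _ => ?_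
  rw [Polynomial.eval₂_mul, Polynomial.eval₂_C, Polynomial.eval₂_pow, Polynomial.eval₂_X,
    evalJ_apply, hP i]

/-! ### The formal identity -/

/-- The ring homomorphism `R[Y] → ℂ((w))`, `Y ↦` the expansion of `j` in `w = e^{2πiτ/N}`. -/
noncomputable def evalJser (R : Subring ℂ) (J : LaurentSeries ℂ) :
    Polynomial R →+* LaurentSeries ℂ :=
  (Polynomial.eval₂RingHom HahnSeries.C J).comp (Polynomial.mapRingHom R.subtype)

theorem evalJser_apply (R : Subring ℂ) (J : LaurentSeries ℂ) (P : Polynomial R) :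
    evalJser R J P = (P.map R.subtype).eval₂ HahnSeries.C J := rfl

theorem hasWExp_eval₂ (N : ℕ) [NeZero N] (R : Subring ℂ) (Q : Polynomial (Polynomial R))
    (u₀ : ℍ → ℂ) (L₀ : LaurentSeries ℂ) (h₀ : HasWExp N u₀ L₀) :
    HasWExp N (fun τ => Q.eval₂ (evalJ R τ) (u₀ τ)) (Q.eval₂ (evalJser R (JcN N)) L₀) := by
  induction Q using Polynomial.induction_on' with
  | add p q hp hq =>
    have e : (fun τ => (p + q).eval₂ (evalJ R τ) (u₀ τ)) =
        (fun τ => p.eval₂ (evalJ R τ) (u₀ τ)) + (fun τ => q.eval₂ (evalJ R τ) (u₀ τ)) := by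
      funext τ
      simp [Polynomial.eval₂_add]
    rw [e, Polynomial.eval₂_add]
    exact hp.add hq
  | monomial n a =>
    have e : (fun τ => (Polynomial.monomial n a).eval₂ (evalJ R τ) (u₀ τ)) =
        (fun τ => (a.map R.subtype).eval (kleinJ τ)) * u₀ ^ n := by
      funext τ
      simp [Polynomial.eval₂_monomial, evalJ_apply]
    rw [e, Polynomial.eval₂_monomial, evalJser_apply]
    exact (hasWExp_eval_kleinJ N (a.map R.subtype)).mul (wpA4c_hasWExp_pow h₀ n)

/-- The pointwise identity implies the identity of expansions in `w`. -/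
theorem formal_root (N : ℕ) [NeZero N] (R : Subring ℂ) (Q : Polynomial (Polynomial R))
    (u₀ : ℍ → ℂ) (L₀ : LaurentSeries ℂ) (h₀ : HasWExp N u₀ L₀)
    (hQ : ∀ τ : ℍ, Q.eval₂ (evalJ R τ) (u₀ τ) = 0) :
    Q.eval₂ (evalJser R (JcN N)) L₀ = 0 := by
  have h := hasWExp_eval₂ N R Q u₀ L₀ h₀
  have h0 : (fun τ => Q.eval₂ (evalJ R τ) (u₀ τ)) = 0 := funext hQ
  exact h.eq_zero_iff.1 h0

/-- The expansion of `kleinJ` in `w` is the formal `j` with `q` replaced by `w ^ N`. -/
theorem JcN_eq (N : ℕ) [NeZero N] : JcN N = qExpand ℂ N (jqModC ℂ) := by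
  rw [JcN, coeffEmb, ← jqModC_rat, coeffMap_jqModC, coeffMap_qExpand, coeffMap_jqModC]

theorem qExpand_comp_evalJser (N : ℕ) [NeZero N] (R : Subring ℂ) :
    (qExpand ℂ N).comp (evalJser R (jqModC ℂ)) = evalJser R (JcN N) := by
  refine Polynomial.ringHom_ext (fun a => ?_) ?_
  · simp [evalJser]
  · simp [evalJser, JcN_eq]

/-- The pointwise identity implies the formal identity in `ℂ((q))`. -/
theorem formal_root_q (N : ℕ) [NeZero N] (R : Subring ℂ) (Q : Polynomial (Polynomial R))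
    (u₀ : ℍ → ℂ) (U₀ : LaurentSeries ℂ) (h₀ : HasWExp N u₀ (qExpand ℂ N U₀))
    (hQ : ∀ τ : ℍ, Q.eval₂ (evalJ R τ) (u₀ τ) = 0) :
    Q.eval₂ (evalJser R (jqModC ℂ)) U₀ = 0 := by
  have h := formal_root N R Q u₀ _ h₀ hQ
  rw [← qExpand_comp_evalJser, ← Polynomial.hom_eval₂] at h
  exact qExpand_injective N (by rw [h, map_zero])

/-! ### From algebraic integers to integers -/

/-- The ring of algebraic integers of `ℂ`. -/
noncomputable def Zbar : Subring ℂ := (integralClosure ℤ ℂ).toSubring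

theorem mem_Zbar {x : ℂ} : x ∈ Zbar ↔ IsIntegral ℤ x := Iff.rfl

theorem exists_int_monic (U₀ : LaurentSeries ℂ) (Q : Polynomial (Polynomial Zbar))
    (hQm : Q.Monic) (hQ : Q.eval₂ (evalJser Zbar (jqModC ℂ)) U₀ = 0) :
    ∃ P : Polynomial (Polynomial ℤ), P.Monic ∧ P.eval₂ (evJ ℂ) U₀ = 0 := by
  let _ : Algebra (Polynomial ℤ) (LaurentSeries ℂ) := (evJ ℂ).toAlgebra
  have halg : ∀ P : Polynomial ℤ, algebraMap (Polynomial ℤ) (LaurentSeries ℂ) P = evJ ℂ P :=
    fun _ => rfl
  -- every value of `evalJser` is integral over `ℤ[Y]`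
  have hB : ∀ P : Polynomial Zbar,
      evalJser Zbar (jqModC ℂ) P ∈ integralClosure (Polynomial ℤ) (LaurentSeries ℂ) := by
    intro P
    induction P using Polynomial.induction_on' with
    | add p q hp hq =>
      rw [map_add]
      exact Subalgebra.add_mem _ hp hq
    | monomial n a =>
      have e : evalJser Zbar (jqModC ℂ) (Polynomial.monomial n a) =
          HahnSeries.C (a : ℂ) * jqModC ℂ ^ n := by
        simp [evalJser_apply, Polynomial.eval₂_monomial]
      rw [e]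
      refine Subalgebra.mul_mem _ ?_ (Subalgebra.pow_mem _ ?_ n)
      · -- constants which are algebraic integers
        have ha : IsIntegral ℤ (a : ℂ) := a.2
        obtain ⟨m, hm, hm0⟩ := ha
        refine ⟨m.map (algebraMap ℤ (Polynomial ℤ)), hm.map _, ?_⟩
        rw [Polynomial.eval₂_map]
        have : (algebraMap (Polynomial ℤ) (LaurentSeries ℂ)).comp (algebraMap ℤ (Polynomial ℤ)) =
            (HahnSeries.C : ℂ →+* LaurentSeries ℂ).comp (algebraMap ℤ ℂ) := RingHom.ext_int _ _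
        rw [this, ← Polynomial.hom_eval₂, hm0, map_zero]
      · have : jqModC ℂ = algebraMap (Polynomial ℤ) (LaurentSeries ℂ) Polynomial.X := by
          rw [halg]
          simp [evJ]
        rw [this]
        exact Subalgebra.algebraMap_mem _ _
  -- `U₀` is integral over the integral closure
  have hU : IsIntegral (integralClosure (Polynomial ℤ) (LaurentSeries ℂ)) U₀ := by
    let ψ : Polynomial Zbar →+* integralClosure (Polynomial ℤ) (LaurentSeries ℂ) :=
      (evalJser Zbar (jqModC ℂ)).codRestrict _ hB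
    refine ⟨Q.map ψ, hQm.map ψ, ?_⟩
    rw [Polynomial.eval₂_map]
    have : (algebraMap (integralClosure (Polynomial ℤ) (LaurentSeries ℂ)) (LaurentSeries ℂ)).comp ψ =
        evalJser Zbar (jqModC ℂ) := RingHom.ext fun _ => rfl
    rw [this]
    exact hQ
  obtain ⟨P, hPm, hP⟩ := isIntegral_trans (R := Polynomial ℤ) U₀ hU
  exact ⟨P, hPm, hP⟩

/-! ### Transport to `ℤ((q))` -/

theorem coeffMap_intCast_injective :
    Function.Injective (coeffMap (Int.castRingHom ℂ) : LaurentSeries ℤ → LaurentSeries ℂ) := by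
  intro x y h
  ext k
  have := congrArg (fun L : LaurentSeries ℂ => L.coeff k) h
  simpa using this

theorem coeffMap_comp_evJ :
    (coeffMap (Int.castRingHom ℂ)).comp (evJ ℤ) = evJ ℂ := by
  refine Polynomial.ringHom_ext (fun a => ?_) ?_
  · simp [evJ]
  · simp [evJ, coeffMap_jqModC]

theorem eval₂_int_of_complex (P : Polynomial (Polynomial ℤ)) (U : LaurentSeries ℤ)
    (h : P.eval₂ (evJ ℂ) (coeffMap (Int.castRingHom ℂ) U) = 0) : P.eval₂ (evJ ℤ) U = 0 := by
  apply coeffMap_intCast_injective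
  rw [Polynomial.hom_eval₂, coeffMap_comp_evJ, h, map_zero]

end Fermat.Agent.S28
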