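/-
S28, Part A3 (helper85): the formal identity `(θJ)^6 = J^4 (J - 1728)^3 Δ`, in power-series form
over `ℤ`:  `(X · jNum' - jNum)^6 = jNum^4 (jNum - 1728 X)^3 · dedekindEtaUnit`.
-/
import Fermat.Agent.S24.EtaBridge
import Fermat.Agent.S24.KleinJOrder
import Fermat.Agent.S28.Defs

set_option autoImplicit false

open scoped Topology
open MatrixGroups UpperHalfPlane ModularForm EisensteinSeries ModularFormClass
open Fermat.Agent.S24

namespace Fermat.Agent.S28

noncomputable section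

/-! ### More on Taylor series -/

theorem a3_ts_deriv (f : ℂ → ℂ) :
    aj5_ts (deriv f) = PowerSeries.derivative ℂ (aj5_ts f) := by
  ext n
  rw [aj5_ts_coeff, PowerSeries.coeff_derivative, aj5_ts_coeff, ← iteratedDeriv_succ']
  have h : ((n + 1).factorial : ℂ) = (n + 1 : ℂ) * (n.factorial : ℂ) := by
    rw [Nat.factorial_succ]; push_cast; ring
  rw [h]
  have h1 : (n.factorial : ℂ) ≠ 0 := by exact_mod_cast Nat.factorial_ne_zero n
  have h2 : (n + 1 : ℂ) ≠ 0 := by exact_mod_cast Nat.succ_ne_zero n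
  field_simp

theorem a3_ts_sub {f g : ℂ → ℂ} (hf : AnalyticAt ℂ f 0) (hg : AnalyticAt ℂ g 0) :
    aj5_ts (fun q => f q - g q) = aj5_ts f - aj5_ts g := by
  ext n
  have : iteratedDeriv n (fun q => f q - g q) 0 = iteratedDeriv n f 0 - iteratedDeriv n g 0 :=
    iteratedDeriv_sub hf.contDiffAt hg.contDiffAt
  rw [map_sub, aj5_ts_coeff, aj5_ts_coeff, aj5_ts_coeff, this, mul_sub]

theorem a3_ts_id : aj5_ts (fun q : ℂ => q) = PowerSeries.X := by
  ext n
  rw [aj5_ts_coeff, iteratedDeriv_fun_id_zero, PowerSeries.coeff_X]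
  by_cases h : n = 1
  · subst h; simp
  · simp [h]

/-! ### Surjectivity of `q` onto the punctured disc, and a continuity principle -/

theorem a3_exists_tau {q : ℂ} (hq : ‖q‖ < 1) (hq0 : q ≠ 0) :
    ∃ τ : ℍ, Function.Periodic.qParam 1 (τ : ℂ) = q :=
  ⟨⟨Function.Periodic.invQParam 1 q,
      Function.Periodic.im_invQParam_pos_of_norm_lt_one one_pos hq hq0⟩,
    Function.Periodic.qParam_right_inv one_ne_zero hq0⟩

theorem a3_eq_at_zero {f g : ℂ → ℂ} (hf : ContinuousAt f 0) (hg : ContinuousAt g 0)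
    (h : ∀ q : ℂ, ‖q‖ < 1 → q ≠ 0 → f q = g q) : f 0 = g 0 := by
  have h1 : Filter.Tendsto f (𝓝[≠] (0 : ℂ)) (𝓝 (f 0)) := hf.tendsto.mono_left nhdsWithin_le_nhds
  have h2 : Filter.Tendsto g (𝓝[≠] (0 : ℂ)) (𝓝 (g 0)) := hg.tendsto.mono_left nhdsWithin_le_nhds
  have h3 : f =ᶠ[𝓝[≠] (0 : ℂ)] g := by
    filter_upwards [self_mem_nhdsWithin, nhdsWithin_le_nhds aj5_ball_mem_nhds] with q hq0 hq
    exact h q (by simpa using hq) hq0
  exact tendsto_nhds_unique (h1.congr' h3) h2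

theorem a3_eqOn_ball {f g : ℂ → ℂ} (hf : ContinuousAt f 0) (hg : ContinuousAt g 0)
    (h : ∀ q : ℂ, ‖q‖ < 1 → q ≠ 0 → f q = g q) : f =ᶠ[𝓝 0] g := by
  filter_upwards [aj5_ball_mem_nhds] with q hq
  by_cases hq0 : q = 0
  · rw [hq0]; exact a3_eq_at_zero hf hg h
  · exact h q (by simpa using hq) hq0

/-! ### The cusp functions of `E₄`, `E₆` -/

theorem a3_diffOn_cusp {k : ℤ} (f : ModularForm 𝒮ℒ k) :
    DifferentiableOn ℂ (cuspFunction 1 f) (Metric.ball 0 1) := fun q hq =>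
  (ModularFormClass.differentiableAt_cuspFunction f one_pos one_mem_strictPeriods_SL
    (by simpa using hq)).differentiableWithinAt

theorem a3_cusp_qParam {k : ℤ} (f : ModularForm 𝒮ℒ k) (τ : ℍ) :
    cuspFunction 1 f (Function.Periodic.qParam 1 τ) = f τ :=
  SlashInvariantFormClass.eq_cuspFunction f τ one_mem_strictPeriods_SL one_ne_zero

theorem a3_cusp_zero {k : ℤ} (f : ModularForm 𝒮ℒ k) :
    cuspFunction 1 f 0 = (qExpansion 1 f).coeff 0 := by
  rw [qExpansion_coeff]; simp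

theorem a3_deriv_cusp_zero {k : ℤ} (f : ModularForm 𝒮ℒ k) :
    deriv (cuspFunction 1 f) 0 = (qExpansion 1 f).coeff 1 := by
  rw [qExpansion_coeff]; simp

theorem a3_E4_zero : cuspFunction 1 E₄ 0 = 1 := by
  rw [a3_cusp_zero]; exact E_qExpansion_coeff_zero _ ⟨2, rfl⟩

theorem a3_E6_zero : cuspFunction 1 E₆ 0 = 1 := by
  rw [a3_cusp_zero]; exact E_qExpansion_coeff_zero _ ⟨3, rfl⟩

theorem a3_deriv_E4_zero : deriv (cuspFunction 1 E₄) 0 = 240 := by
  rw [a3_deriv_cusp_zero]; exact E₄_qExpansion_coeff_one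

theorem a3_deriv_E6_zero : deriv (cuspFunction 1 E₆) 0 = -504 := by
  rw [a3_deriv_cusp_zero]; exact E₆_qExpansion_coeff_one

theorem a3_discriminant_eq (τ : ℍ) :
    ModularForm.discriminant τ = Function.Periodic.qParam 1 τ *
      (∏' n : ℕ, (1 - Function.Periodic.qParam 1 (τ : ℂ) ^ (n + 1))) ^ 24 := by
  have hq : ‖Function.Periodic.qParam 1 (τ : ℂ)‖ < 1 :=
    Function.Periodic.norm_qParam_lt_one one_pos τ.im_pos
  rw [ModularForm.discriminant_eq_q_prod, (ModularForm.multipliable_one_sub_pow hq).tprod_pow]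

/-- The Rankin–Cohen bracket `3 D E₄ · E₆ - 2 E₄ · D E₆` equals `1728 Δ`. -/
theorem a3_H_eq (τ : ℍ) : wpA3_H τ = 1728 * ModularForm.discriminant τ := by
  obtain ⟨c, hc⟩ := wpA3_exists_H_eq
  suffices hc' : c = 1728 by rw [hc τ, hc']
  have h4 := a3_diffOn_cusp E₄
  have h6 := a3_diffOn_cusp E₆
  have hd4 : DifferentiableOn ℂ (deriv (cuspFunction 1 E₄)) (Metric.ball 0 1) :=
    h4.deriv Metric.isOpen_ball
  have hd6 : DifferentiableOn ℂ (deriv (cuspFunction 1 E₆)) (Metric.ball 0 1) :=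
    h6.deriv Metric.isOpen_ball
  have hP : DifferentiableOn ℂ (fun q : ℂ => (∏' n : ℕ, (1 - q ^ (n + 1))) ^ 24)
      (Metric.ball 0 1) := ModularForm.differentiableOn_tprod_one_sub_pow.fun_pow 24
  have hφ : ContinuousAt (fun q : ℂ => 3 * deriv (cuspFunction 1 E₄) q * cuspFunction 1 E₆ q -
      2 * cuspFunction 1 E₄ q * deriv (cuspFunction 1 E₆) q) 0 :=
    ((((hd4.const_mul 3).mul h6).sub ((h4.const_mul 2).mul hd6)).differentiableAt
      aj5_ball_mem_nhds).continuousAt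
  have hψ : ContinuousAt (fun q : ℂ => c * (∏' n : ℕ, (1 - q ^ (n + 1))) ^ 24) 0 :=
    ((hP.const_mul c).differentiableAt aj5_ball_mem_nhds).continuousAt
  have key := a3_eq_at_zero hφ hψ ?_
  · simp only [a3_E4_zero, a3_E6_zero, a3_deriv_E4_zero, a3_deriv_E6_zero] at key
    have hone : (∏' n : ℕ, (1 - (0 : ℂ) ^ (n + 1))) = 1 := by simp
    rw [hone] at key
    rw [← mul_one c]
    rw [one_pow] at key
    rw [← key]; norm_num
  · intro q hq hq0
    obtain ⟨τ, rfl⟩ := a3_exists_tau hq hq0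
    have hH := hc τ
    unfold wpA3_H at hH
    rw [wpA3_D_eq_q_mul E₄ τ, wpA3_D_eq_q_mul E₆ τ, a3_discriminant_eq τ,
      ← a3_cusp_qParam E₄ τ, ← a3_cusp_qParam E₆ τ] at hH
    have hq0' : Function.Periodic.qParam 1 (τ : ℂ) ≠ 0 := hq0
    apply mul_left_cancel₀ hq0'
    linear_combination hH

/-! ### The derivative of `j·q` in the `q`-coordinate -/

/-- `P24 q = ∏ (1 - q^(n+1))^24`, so that `Δ = q · P24(q)`. -/
def a3_P24 (q : ℂ) : ℂ := (∏' n : ℕ, (1 - q ^ (n + 1))) ^ 24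

theorem a3_diffOn_P24 : DifferentiableOn ℂ a3_P24 (Metric.ball 0 1) :=
  ModularForm.differentiableOn_tprod_one_sub_pow.fun_pow 24

theorem a3_ts_P24 :
    aj5_ts a3_P24 = PowerSeries.map (Int.castRingHom ℂ) ModularCurve.dedekindEtaUnit := by
  have hF : AnalyticAt ℂ (fun q : ℂ => ∏' n : ℕ, (1 - q ^ (n + 1))) 0 :=
    ModularForm.differentiableOn_tprod_one_sub_pow.analyticAt aj5_ball_mem_nhds
  have : a3_P24 = fun q : ℂ => (fun q : ℂ => ∏' n : ℕ, (1 - q ^ (n + 1))) q ^ 24 := rfl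
  rw [this, aj5_ts_pow hF, aj5_ts_tprod, ModularCurve.dedekindEtaUnit, map_pow]

theorem a3_hasDerivAt_qParam (z : ℂ) :
    HasDerivAt (Function.Periodic.qParam 1)
      (Function.Periodic.qParam 1 z * (2 * Real.pi * Complex.I)) z := by
  unfold Function.Periodic.qParam
  have h1 : HasDerivAt (fun z : ℂ => 2 * Real.pi * Complex.I * z / ((1 : ℝ) : ℂ))
      (2 * Real.pi * Complex.I) z := by
    simpa using ((hasDerivAt_id z).const_mul (2 * Real.pi * Complex.I))
  exact h1.cexp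

theorem a3_deriv_jNumFun (τ : ℍ) :
    Function.Periodic.qParam 1 τ * deriv aj5_jNumFun (Function.Periodic.qParam 1 τ) -
        aj5_jNumFun (Function.Periodic.qParam 1 τ) =
      -(Function.Periodic.qParam 1 τ * E₄ τ ^ 2 * E₆ τ / ModularForm.discriminant τ) := by
  have hq : ‖Function.Periodic.qParam 1 (τ : ℂ)‖ < 1 :=
    Function.Periodic.norm_qParam_lt_one one_pos τ.im_pos
  have hq0 : Function.Periodic.qParam 1 (τ : ℂ) ≠ 0 := Function.Periodic.qParam_ne_zero _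
  have hG : HasDerivAt aj5_jNumFun (deriv aj5_jNumFun (Function.Periodic.qParam 1 τ))
      (Function.Periodic.qParam 1 τ) :=
    (aj5_differentiableOn_jNumFun.differentiableAt
      (Metric.isOpen_ball.mem_nhds (by simpa using hq))).hasDerivAt
  have hqd := a3_hasDerivAt_qParam (τ : ℂ)
  have hcomp : (kleinJ ∘ ofComplex) =ᶠ[𝓝 (τ : ℂ)]
      fun z : ℂ => aj5_jNumFun (Function.Periodic.qParam 1 z) / Function.Periodic.qParam 1 z := by
    filter_upwards [isOpen_upperHalfPlaneSet.mem_nhds τ.im_pos] with w hw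
    simp only [Function.comp_apply, ofComplex_apply_of_im_pos hw]
    have h := aj5_jNumFun_qParam ⟨w, hw⟩
    have hw0 : Function.Periodic.qParam 1 w ≠ 0 := Function.Periodic.qParam_ne_zero _
    change aj5_jNumFun (Function.Periodic.qParam 1 w) = _ at h
    rw [h, kleinJ]
    field_simp
  have hd : HasDerivAt
      (fun z : ℂ => aj5_jNumFun (Function.Periodic.qParam 1 z) / Function.Periodic.qParam 1 z)
      ((deriv aj5_jNumFun (Function.Periodic.qParam 1 τ) *
            (Function.Periodic.qParam 1 τ * (2 * Real.pi * Complex.I)) *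
            Function.Periodic.qParam 1 τ -
          aj5_jNumFun (Function.Periodic.qParam 1 τ) *
            (Function.Periodic.qParam 1 τ * (2 * Real.pi * Complex.I))) /
        Function.Periodic.qParam 1 τ ^ 2) (τ : ℂ) :=
    (hG.comp (τ : ℂ) hqd).div hqd hq0
  have h1 := hcomp.deriv_eq
  rw [hd.deriv, wpA3_deriv_kleinJ 1728 a3_H_eq τ] at h1
  have hΔ := ModularForm.discriminant_ne_zero τ
  have hpi : (2 * Real.pi * Complex.I : ℂ) ≠ 0 := by
    simp [Real.pi_ne_zero]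
  field_simp at h1 ⊢
  exact h1.symm

/-- The analytic identity on the punctured unit disc. -/
theorem a3_pointwise (q : ℂ) (hq : ‖q‖ < 1) (hq0 : q ≠ 0) :
    (q * deriv aj5_jNumFun q - aj5_jNumFun q) ^ 6 =
      aj5_jNumFun q ^ 4 * (aj5_jNumFun q - 1728 * q) ^ 3 * a3_P24 q := by
  obtain ⟨τ, rfl⟩ := a3_exists_tau hq hq0
  rw [a3_deriv_jNumFun τ, aj5_jNumFun_qParam τ]
  have hΔ := a3_discriminant_eq τ
  have hΔ0 := ModularForm.discriminant_ne_zero τ
  have h1728 := ModularForm.discriminant_eq_E₄_cube_sub_E₆_sq τ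
  have hP : a3_P24 (Function.Periodic.qParam 1 τ) =
      ModularForm.discriminant τ / Function.Periodic.qParam 1 τ := by
    rw [eq_div_iff hq0, hΔ, a3_P24]; ring
  have hb : E₆ τ ^ 2 = E₄ τ ^ 3 - 1728 * ModularForm.discriminant τ := by
    rw [h1728]; ring
  rw [hP]
  have e1 : (-(Function.Periodic.qParam 1 τ * E₄ τ ^ 2 * E₆ τ / ModularForm.discriminant τ)) ^ 6 =
      Function.Periodic.qParam 1 τ ^ 6 * E₄ τ ^ 12 * (E₆ τ ^ 2) ^ 3 /
        ModularForm.discriminant τ ^ 6 := by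
    field_simp
  rw [e1, hb]
  field_simp

/-! ### The formal identity -/

theorem a3_map_derivative {R S : Type*} [CommSemiring R] [CommSemiring S] (φ : R →+* S)
    (f : PowerSeries R) :
    PowerSeries.map φ (PowerSeries.derivative R f) =
      PowerSeries.derivative S (PowerSeries.map φ f) := by
  ext n
  simp [PowerSeries.coeff_derivative]

theorem a3_analyticAt_jNumFun : AnalyticAt ℂ aj5_jNumFun 0 :=
  aj5_differentiableOn_jNumFun.analyticAt aj5_ball_mem_nhds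

theorem a3_analyticAt_P24 : AnalyticAt ℂ a3_P24 0 :=
  a3_diffOn_P24.analyticAt aj5_ball_mem_nhds

/-- **Part A3**: `(θJ)^6 = J^4 (J - 1728)^3 Δ`, multiplied by `q^6`, as an identity of power
series over `ℤ` (`J = q⁻¹ · jNum`, `Δ = q · dedekindEtaUnit`, `θ = q d/dq`). -/
theorem a3_jNum_identity :
    (PowerSeries.X * PowerSeries.derivative ℤ ModularCurve.jNum - ModularCurve.jNum) ^ 6 =
      ModularCurve.jNum ^ 4 * (ModularCurve.jNum - 1728 * PowerSeries.X) ^ 3 *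
        ModularCurve.dedekindEtaUnit := by
  have hG := a3_analyticAt_jNumFun
  have hG' : AnalyticAt ℂ (deriv aj5_jNumFun) 0 := hG.deriv
  have hid : AnalyticAt ℂ (fun q : ℂ => q) 0 := analyticAt_id
  have hP := a3_analyticAt_P24
  have hc : AnalyticAt ℂ (fun _ : ℂ => (1728 : ℂ)) 0 := analyticAt_const
  have hL1 : AnalyticAt ℂ (fun q : ℂ => q * deriv aj5_jNumFun q) 0 := hid.fun_mul hG'
  have hL2 : AnalyticAt ℂ (fun q : ℂ => q * deriv aj5_jNumFun q - aj5_jNumFun q) 0 :=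
    hL1.fun_sub hG
  have hR1 : AnalyticAt ℂ (fun q : ℂ => (1728 : ℂ) * q) 0 := hc.fun_mul hid
  have hR2 : AnalyticAt ℂ (fun q : ℂ => aj5_jNumFun q - 1728 * q) 0 := hG.fun_sub hR1
  have hR3 : AnalyticAt ℂ (fun q : ℂ => (aj5_jNumFun q - 1728 * q) ^ 3) 0 := hR2.fun_pow 3
  have hR4 : AnalyticAt ℂ (fun q : ℂ => aj5_jNumFun q ^ 4) 0 := hG.fun_pow 4
  have hR5 : AnalyticAt ℂ (fun q : ℂ => aj5_jNumFun q ^ 4 * (aj5_jNumFun q - 1728 * q) ^ 3) 0 :=
    hR4.fun_mul hR3
  have hL : AnalyticAt ℂ (fun q : ℂ => (q * deriv aj5_jNumFun q - aj5_jNumFun q) ^ 6) 0 :=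
    hL2.fun_pow 6
  have hR : AnalyticAt ℂ
      (fun q : ℂ => aj5_jNumFun q ^ 4 * (aj5_jNumFun q - 1728 * q) ^ 3 * a3_P24 q) 0 :=
    hR5.fun_mul hP
  have heq := aj5_ts_congr (a3_eqOn_ball hL.continuousAt hR.continuousAt a3_pointwise)
  have tsL : aj5_ts (fun q : ℂ => (q * deriv aj5_jNumFun q - aj5_jNumFun q) ^ 6) =
      PowerSeries.map (Int.castRingHom ℂ)
        ((PowerSeries.X * PowerSeries.derivative ℤ ModularCurve.jNum - ModularCurve.jNum) ^ 6) := by
    have : (fun q : ℂ => (q * deriv aj5_jNumFun q - aj5_jNumFun q) ^ 6) =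
        fun q : ℂ => (fun q : ℂ => q * deriv aj5_jNumFun q - aj5_jNumFun q) q ^ 6 := rfl
    rw [this, aj5_ts_pow hL2, a3_ts_sub hL1 hG, aj5_ts_mul hid hG', a3_ts_id, a3_ts_deriv,
      aj5_ts_jNumFun, map_pow, map_sub, map_mul, PowerSeries.map_X, a3_map_derivative]
  have tsR : aj5_ts
      (fun q : ℂ => aj5_jNumFun q ^ 4 * (aj5_jNumFun q - 1728 * q) ^ 3 * a3_P24 q) =
      PowerSeries.map (Int.castRingHom ℂ)
        (ModularCurve.jNum ^ 4 * (ModularCurve.jNum - 1728 * PowerSeries.X) ^ 3 *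
          ModularCurve.dedekindEtaUnit) := by
    have e1 : (fun q : ℂ => aj5_jNumFun q ^ 4 * (aj5_jNumFun q - 1728 * q) ^ 3 * a3_P24 q) =
        fun q : ℂ => (fun q : ℂ => aj5_jNumFun q ^ 4 * (aj5_jNumFun q - 1728 * q) ^ 3) q *
          a3_P24 q := rfl
    have e2 : (fun q : ℂ => aj5_jNumFun q ^ 4 * (aj5_jNumFun q - 1728 * q) ^ 3) =
        fun q : ℂ => (fun q : ℂ => aj5_jNumFun q ^ 4) q *
          (fun q : ℂ => (aj5_jNumFun q - 1728 * q) ^ 3) q := rfl
    have e3 : (fun q : ℂ => (aj5_jNumFun q - 1728 * q) ^ 3) =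
        fun q : ℂ => (fun q : ℂ => aj5_jNumFun q - 1728 * q) q ^ 3 := rfl
    have e4 : (fun q : ℂ => (1728 : ℂ) * q) =
        fun q : ℂ => (fun _ : ℂ => (1728 : ℂ)) q * (fun q : ℂ => q) q := rfl
    have h1728 : PowerSeries.C (1728 : ℂ) = 1728 := map_ofNat _ 1728
    have h1728' : PowerSeries.map (Int.castRingHom ℂ) (1728 : PowerSeries ℤ) = 1728 :=
      map_ofNat _ 1728
    rw [e1, aj5_ts_mul hR5 hP, e2, aj5_ts_mul hR4 hR3, aj5_ts_pow hG, e3, aj5_ts_pow hR2,
      a3_ts_sub hG hR1, e4, aj5_ts_mul hc hid, aj5_ts_const, a3_ts_id, aj5_ts_jNumFun, a3_ts_P24,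
      map_mul, map_mul, map_pow, map_pow, map_sub, map_mul, PowerSeries.map_X, h1728, h1728']
  rw [tsL, tsR] at heq
  exact PowerSeries.map_injective (Int.castRingHom ℂ) Int.cast_injective heq

/-! ### Laurent-series form (the frozen interface statement) -/

theorem a3_theta_ofPowerSeries (f : PowerSeries ℤ) :
    theta (HahnSeries.ofPowerSeries ℤ ℤ f) =
      HahnSeries.ofPowerSeries ℤ ℤ (PowerSeries.X * PowerSeries.derivative ℤ f) := by
  ext n
  rw [theta_coeff]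
  rcases le_or_gt 0 n with hn | hn
  · lift n to ℕ using hn
    rw [HahnSeries.ofPowerSeries_apply_coeff, HahnSeries.ofPowerSeries_apply_coeff]
    cases n with
    | zero => simp
    | succ m =>
      rw [PowerSeries.coeff_succ_X_mul, PowerSeries.coeff_derivative]
      push_cast
      ring
  · rw [ModularCurve.ofPowerSeries_coeff_of_neg _ hn, ModularCurve.ofPowerSeries_coeff_of_neg _ hn,
      mul_zero]

theorem a3_map_int (f : PowerSeries ℤ) : f.map (Int.castRingHom ℤ) = f := by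
  ext n
  simp

/-- **(A3)** `(θJ)^6 = J^4 (J - 1728)^3 Δ` in `ℤ((q))`. -/
theorem theta_J_pow_six :
    theta (ModularCurve.jqModC ℤ) ^ 6 =
      ModularCurve.jqModC ℤ ^ 4 * (ModularCurve.jqModC ℤ - 1728) ^ 3 * DeltaSer ℤ := by
  have hJ : ModularCurve.jqModC ℤ =
      HahnSeries.single (-1 : ℤ) (1 : ℤ) * HahnSeries.ofPowerSeries ℤ ℤ ModularCurve.jNum := by
    rw [ModularCurve.jqModC, a3_map_int]
  have hΔ : DeltaSer ℤ =
      HahnSeries.single (1 : ℤ) (1 : ℤ) *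
        HahnSeries.ofPowerSeries ℤ ℤ ModularCurve.dedekindEtaUnit := by
    rw [DeltaSer, a3_map_int]
  have hst : (HahnSeries.single (-1 : ℤ) (1 : ℤ) : LaurentSeries ℤ) *
      HahnSeries.single (1 : ℤ) (1 : ℤ) = 1 := by
    rw [HahnSeries.single_mul_single]
    simp
  have hneg : (HahnSeries.single (-1 : ℤ) (((-1 : ℤ) : ℤ) * 1) : LaurentSeries ℤ) =
      -HahnSeries.single (-1 : ℤ) (1 : ℤ) := by
    rw [mul_one, ← HahnSeries.single_neg]
  have hθ : theta (ModularCurve.jqModC ℤ) =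
      HahnSeries.single (-1 : ℤ) (1 : ℤ) *
        HahnSeries.ofPowerSeries ℤ ℤ
          (PowerSeries.X * PowerSeries.derivative ℤ ModularCurve.jNum - ModularCurve.jNum) := by
    rw [hJ, theta_mul, theta_single, a3_theta_ofPowerSeries, map_sub]
    have e : (((-1 : ℤ) : ℤ) : ℤ) = -1 := rfl
    rw [Int.cast_neg, Int.cast_one, hneg]
    ring
  have hX : HahnSeries.ofPowerSeries ℤ ℤ (PowerSeries.X : PowerSeries ℤ) =
      HahnSeries.single (1 : ℤ) (1 : ℤ) := HahnSeries.ofPowerSeries_X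
  have h1728 : ModularCurve.jqModC ℤ - 1728 =
      HahnSeries.single (-1 : ℤ) (1 : ℤ) *
        HahnSeries.ofPowerSeries ℤ ℤ (ModularCurve.jNum - 1728 * PowerSeries.X) := by
    have h17 : HahnSeries.ofPowerSeries ℤ ℤ (1728 : PowerSeries ℤ) = (1728 : LaurentSeries ℤ) :=
      map_ofNat (HahnSeries.ofPowerSeries ℤ ℤ) 1728
    rw [hJ, map_sub, map_mul, hX, h17]
    linear_combination (1728 : LaurentSeries ℤ) * hst
  have hid := congrArg (HahnSeries.ofPowerSeries ℤ ℤ) a3_jNum_identity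
  simp only [map_mul, map_pow] at hid
  rw [hθ, h1728, hΔ]
  rw [hJ]
  linear_combination (HahnSeries.single (-1 : ℤ) (1 : ℤ) : LaurentSeries ℤ) ^ 6 * hid -
    (HahnSeries.single (-1 : ℤ) (1 : ℤ) : LaurentSeries ℤ) ^ 6 *
      (HahnSeries.ofPowerSeries ℤ ℤ ModularCurve.jNum) ^ 4 *
      (HahnSeries.ofPowerSeries ℤ ℤ (ModularCurve.jNum - 1728 * PowerSeries.X)) ^ 3 *
      HahnSeries.ofPowerSeries ℤ ℤ ModularCurve.dedekindEtaUnit * hst

end

end Fermat.Agent.S28

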