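import Mathlib
import Fermat.Prelude.Def_ModularCurve_IgusaScheme

/-!
# S28, Part D (helper19): the rank bound `hcard` for the two charts

`partD_hcard`: a family of elements of the function field `F_N` that is linearly independent over
`ℤ_(ℓ)[j]` (resp. `ℤ_(ℓ)[1/j]`) is linearly independent over `ℚ(j)`, hence has at most `ψ(N)`
elements once Part B is known.  This is the `hcard` hypothesis of `partD_exists_red`.
-/

set_option autoImplicit false

namespace Fermat.Agent.S28

open ModularCurve ModularCurve.IgusaScheme IntermediateField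

section Abstract

variable (R : Type*) {F L : Type*} [CommRing R] [Field F] [Field L] [Algebra R F]
  [FaithfulSMul R F] (ι : F →+* L)

/-- `x : L` is a fraction of two elements of `R` (mapped to `L` through `F`). -/
def partD_IsFrac (x : L) : Prop :=
  ∃ d a : R, d ≠ 0 ∧ ι (algebraMap R F d) * x = ι (algebraMap R F a)

variable {R}

theorem partD_ne_zero_of_ne_zero {d : R} (hd : d ≠ 0) : ι (algebraMap R F d) ≠ 0 := by
  intro h
  have h1 : algebraMap R F d = 0 := ι.injective (by rw [h, map_zero])
  exact hd (FaithfulSMul.algebraMap_injective R F (by rw [h1, map_zero]))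

theorem partD_isFrac_add {x y : L} (hx : partD_IsFrac R ι x) (hy : partD_IsFrac R ι y) :
    partD_IsFrac R ι (x + y) := by
  have : IsDomain R := IsDomain.of_faithfulSMul R F
  obtain ⟨d, a, hd, hda⟩ := hx
  obtain ⟨e, c, he, hec⟩ := hy
  refine ⟨d * e, e * a + d * c, mul_ne_zero hd he, ?_⟩
  simp only [map_mul, map_add]
  rw [← hda, ← hec]; ring

theorem partD_isFrac_mul {x y : L} (hx : partD_IsFrac R ι x) (hy : partD_IsFrac R ι y) :
    partD_IsFrac R ι (x * y) := by
  have : IsDomain R := IsDomain.of_faithfulSMul R F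
  obtain ⟨d, a, hd, hda⟩ := hx
  obtain ⟨e, c, he, hec⟩ := hy
  refine ⟨d * e, a * c, mul_ne_zero hd he, ?_⟩
  simp only [map_mul]
  rw [← hda, ← hec]; ring

theorem partD_isFrac_inv {x : L} (hx : partD_IsFrac R ι x) : partD_IsFrac R ι x⁻¹ := by
  obtain ⟨d, a, hd, hda⟩ := hx
  by_cases hx0 : x = 0
  · have : Nontrivial R := (IsDomain.of_faithfulSMul R F).toNontrivial
    exact ⟨1, 0, one_ne_zero, by rw [hx0, inv_zero, mul_zero, map_zero, map_zero]⟩
  · have hd' := partD_ne_zero_of_ne_zero ι hd
    have ha : a ≠ 0 := by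
      rintro rfl
      rw [map_zero, map_zero] at hda
      exact (mul_ne_zero hd' hx0) hda
    refine ⟨a, d, ha, ?_⟩
    rw [← hda]; field_simp

/-- Every element of `k(S)` is a fraction of elements of `R` as soon as the constants and the
generators are. -/
theorem partD_isFrac_adjoin {k : Type*} [Field k] [Algebra k L] (S : Set L)
    (hk : ∀ r : k, partD_IsFrac R ι (algebraMap k L r)) (hS : ∀ s ∈ S, partD_IsFrac R ι s)
    {x : L} (hx : x ∈ IntermediateField.adjoin k S) : partD_IsFrac R ι x := by
  induction hx using IntermediateField.adjoin_induction with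
  | mem x hx => exact hS x hx
  | algebraMap r => exact hk r
  | add x y _ _ hx hy => exact partD_isFrac_add ι hx hy
  | inv x _ hx => exact partD_isFrac_inv ι hx
  | mul x y _ _ hx hy => exact partD_isFrac_mul ι hx hy

/-- `R`-independent families of `F` stay independent over any intermediate field of `L` whose
elements are fractions of elements of `R`. -/
theorem partD_linearIndependent_of_isFrac {k : Type*} [Field k] [Algebra k L]
    (K0 : IntermediateField k L) (hK0 : ∀ x ∈ K0, partD_IsFrac R ι x)
    {n : ℕ} (c : Fin n → F) (hc : LinearIndependent R c) :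
    LinearIndependent K0 (fun i => ι (c i)) := by
  classical
  have : IsDomain R := IsDomain.of_faithfulSMul R F
  rw [Fintype.linearIndependent_iff]
  intro g hg i0
  have hfr : ∀ i, partD_IsFrac R ι (g i : L) := fun i => hK0 _ (g i).2
  choose d a hd hda using hfr
  have hD : (∏ i, d i) ≠ 0 := Finset.prod_ne_zero_iff.mpr fun i _ => hd i
  have hD' := partD_ne_zero_of_ne_zero ι hD
  -- numerators over the common denominator
  have hnum : ∀ i, ι (algebraMap R F (∏ k, d k)) * (g i : L) =
      ι (algebraMap R F ((∏ k ∈ Finset.univ.erase i, d k) * a i)) := by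
    intro i
    have e : (∏ k, d k) = (∏ k ∈ Finset.univ.erase i, d k) * d i := by
      rw [mul_comm, Finset.mul_prod_erase _ _ (Finset.mem_univ i)]
    rw [e, map_mul, map_mul, map_mul, map_mul, mul_assoc, hda i]
  have hsum : ∑ i, ((∏ k ∈ Finset.univ.erase i, d k) * a i) • c i = 0 := by
    apply ι.injective
    rw [map_zero, map_sum]
    have h2 : ι (algebraMap R F (∏ k, d k)) * ∑ i, g i • ι (c i) = 0 := by rw [hg, mul_zero]
    rw [Finset.mul_sum] at h2
    rw [← h2]
    refine Finset.sum_congr rfl fun i _ => ?_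
    rw [Algebra.smul_def, map_mul, ← hnum i, mul_assoc]
    rfl
  have h0 := (Fintype.linearIndependent_iff.mp hc) _ hsum i0
  have h1 := hnum i0
  rw [h0, map_zero, map_zero] at h1
  have h2 : (g i0 : L) = 0 := (mul_eq_zero.mp h1).resolve_left hD'
  exact Subtype.ext h2

end Abstract

section Concrete

variable (N : ℕ) [NeZero N] (ℓ : ℕ) [Fact ℓ.Prime]

omit [Fact ℓ.Prime] in
/-- The rank bound for the two charts: families of `F_N` independent over `ℤ_(ℓ)[j]`
(resp. `ℤ_(ℓ)[1/j]`) have at most `ψ(N)` elements, given Part B. -/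
theorem partD_hcard
    (hB2 : ∀ (n : ℕ) (b : Fin n → LaurentSeries ℚ), (∀ i, b i ∈ modularFunctionFieldFull N) →
      LinearIndependent ℚ⟮jq⟯ b → n ≤ dedekindPsi N)
    (g : ↥(modularFunctionFieldFull N)) (hg : g = jFull N ∨ g = (jFull N)⁻¹) (n : ℕ)
    (c : Fin n → ↥(modularFunctionFieldFull N))
    (hc : LinearIndependent ↥(Algebra.adjoin ↥(GaloisRep.ratLocalizedAt ℓ) {g}) c) :
    n ≤ dedekindPsi N := by
  have hinj : Function.Injective (algebraMap ↥(Algebra.adjoin ↥(GaloisRep.ratLocalizedAt ℓ) {g})
      ↥(modularFunctionFieldFull N)) := Subtype.val_injective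
  have : FaithfulSMul ↥(Algebra.adjoin ↥(GaloisRep.ratLocalizedAt ℓ) {g})
      ↥(modularFunctionFieldFull N) := (faithfulSMul_iff_algebraMap_injective _ _).mpr hinj
  have hgmem : g ∈ Algebra.adjoin ↥(GaloisRep.ratLocalizedAt ℓ) {g} :=
    Algebra.subset_adjoin (Set.mem_singleton g)
  have hj0 : jFull N ≠ 0 := jFull_ne_zero N
  have hfrac : ∀ x ∈ ℚ⟮jq⟯, partD_IsFrac ↥(Algebra.adjoin ↥(GaloisRep.ratLocalizedAt ℓ) {g})
      (algebraMap ↥(modularFunctionFieldFull N) (LaurentSeries ℚ)) x := by
    intro x hx
    refine partD_isFrac_adjoin _ {jq} ?_ ?_ hx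
    · intro r
      refine ⟨(r.den : ↥(Algebra.adjoin ↥(GaloisRep.ratLocalizedAt ℓ) {g})),
        (r.num : ↥(Algebra.adjoin ↥(GaloisRep.ratLocalizedAt ℓ) {g})), ?_, ?_⟩
      · intro h
        have h2 : ((r.den : ↥(Algebra.adjoin ↥(GaloisRep.ratLocalizedAt ℓ) {g})) :
            ↥(modularFunctionFieldFull N)) = 0 := by rw [h]; rfl
        have h3 : (((r.den : ↥(Algebra.adjoin ↥(GaloisRep.ratLocalizedAt ℓ) {g})) :
            ↥(modularFunctionFieldFull N)) : LaurentSeries ℚ) = 0 := by rw [h2]; rfl
        have h4 : ((r.den : ℕ) : LaurentSeries ℚ) = 0 := h3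
        have h5 : algebraMap ℚ (LaurentSeries ℚ) (r.den : ℚ) = 0 := by rw [map_natCast]; exact h4
        have h6 : (r.den : ℚ) = 0 :=
          (algebraMap ℚ (LaurentSeries ℚ)).injective (by rw [h5, map_zero])
        exact r.den_ne_zero (by exact_mod_cast h6)
      · rw [map_natCast, map_natCast, map_intCast, map_intCast]
        have h3 : (r.den : ℚ) * r = r.num := by
          rw [mul_comm]; exact Rat.mul_den_eq_num r
        have h4 := congrArg (algebraMap ℚ (LaurentSeries ℚ)) h3
        rw [map_mul, map_natCast, map_intCast] at h4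
        exact h4
    · intro s hs
      rw [Set.mem_singleton_iff] at hs
      subst hs
      rcases hg with rfl | rfl
      · refine ⟨1, ⟨jFull N, hgmem⟩, one_ne_zero, ?_⟩
        rw [map_one, map_one, one_mul]
        rfl
      · refine ⟨⟨(jFull N)⁻¹, hgmem⟩, 1, ?_, ?_⟩
        · intro h
          have h2 := congrArg Subtype.val h
          exact (inv_ne_zero hj0) h2
        · rw [map_one, map_one]
          change ((jFull N)⁻¹ : ↥(modularFunctionFieldFull N)).1 * jq = 1
          have h5 : ((jFull N)⁻¹ * jFull N : ↥(modularFunctionFieldFull N)) = 1 :=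
            inv_mul_cancel₀ hj0
          have h6 := congrArg Subtype.val h5
          exact h6
  have hli := partD_linearIndependent_of_isFrac (algebraMap ↥(modularFunctionFieldFull N) (LaurentSeries ℚ))
    ℚ⟮jq⟯ hfrac c hc
  exact hB2 n _ (fun i => (c i).2) hli

end Concrete

end Fermat.Agent.S28
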