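import Mathlib

/-!
# S28, Part D (helper19): abstract reduction lemma

`R ⊆ F` an integrally closed (UFD) domain inside a field, `ℓ` a prime element of `R`,
`F0 ⊆ F` a subring with a ring hom `ρ : F0 → Ω` (kernel `ℓ F0`).  Given a finite family `b`
spanning `F` over `Frac R` with `ρ`-independent reductions, the integral closure `B` of `R` in `F`
carries a ring hom `φ : B → Ω` with kernel exactly `ℓ B`.
-/

set_option autoImplicit false

namespace Fermat.Agent.S28

open Polynomial

section Normality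

variable {R F : Type*} [CommRing R] [IsDomain R] [IsIntegrallyClosed R] [Field F] [Algebra R F]
  [FaithfulSMul R F]

attribute [local instance] FractionRing.liftAlgebra

/-- If `ℓ y` and `s y` are integral over an integrally closed domain `R`, `ℓ` prime, `ℓ ∤ s`,
then `y` is integral. -/
theorem partD_isIntegral_of_smul {ℓ s : R} (hℓ : Prime ℓ) (hs : ¬ ℓ ∣ s) {y : F}
    (h1 : IsIntegral R (ℓ • y)) (h2 : IsIntegral R (s • y)) : IsIntegral R y := by
  classical
  have hinj : Function.Injective (algebraMap R F) := FaithfulSMul.algebraMap_injective R F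
  have hinjK : Function.Injective (algebraMap R (FractionRing R)) :=
    IsFractionRing.injective R (FractionRing R)
  have hℓ0 : ℓ ≠ 0 := hℓ.ne_zero
  have hs0 : s ≠ 0 := fun h => hs (h ▸ dvd_zero ℓ)
  have hℓF : algebraMap R F ℓ ≠ 0 := fun h => hℓ0 (hinj (by rw [h, map_zero]))
  have hℓK : algebraMap R (FractionRing R) ℓ ≠ 0 := fun h => hℓ0 (hinjK (by rw [h, map_zero]))
  have hsK : algebraMap R (FractionRing R) s ≠ 0 := fun h => hs0 (hinjK (by rw [h, map_zero]))
  have hc0 : algebraMap R (FractionRing R) s / algebraMap R (FractionRing R) ℓ ≠ 0 :=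
    div_ne_zero hsK hℓK
  have hwz : s • y = algebraMap (FractionRing R) F
      (algebraMap R (FractionRing R) s / algebraMap R (FractionRing R) ℓ) * (ℓ • y) := by
    rw [map_div₀, ← IsScalarTower.algebraMap_apply, ← IsScalarTower.algebraMap_apply,
      Algebra.smul_def, Algebra.smul_def]
    field_simp
  have hzw : ℓ • y = algebraMap (FractionRing R) F
      (algebraMap R (FractionRing R) s / algebraMap R (FractionRing R) ℓ)⁻¹ * (s • y) := by
    rw [hwz, ← mul_assoc, ← map_mul, inv_mul_cancel₀ hc0, map_one, one_mul]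
  have hpz : minpoly (FractionRing R) (ℓ • y) =
      (minpoly R (ℓ • y)).map (algebraMap R (FractionRing R)) :=
    minpoly.isIntegrallyClosed_eq_field_fractions (FractionRing R) F h1
  have hpw : minpoly (FractionRing R) (s • y) =
      (minpoly R (s • y)).map (algebraMap R (FractionRing R)) :=
    minpoly.isIntegrallyClosed_eq_field_fractions (FractionRing R) F h2
  have hzK : IsIntegral (FractionRing R) (ℓ • y) := h1.tower_top
  have hwK : IsIntegral (FractionRing R) (s • y) := h2.tower_top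
  have hgm : (scaleRoots (minpoly (FractionRing R) (ℓ • y))
      (algebraMap R (FractionRing R) s / algebraMap R (FractionRing R) ℓ)).Monic :=
    (monic_scaleRoots_iff _).mpr (minpoly.monic hzK)
  have hgw : aeval (s • y) (scaleRoots (minpoly (FractionRing R) (ℓ • y))
      (algebraMap R (FractionRing R) s / algebraMap R (FractionRing R) ℓ)) = 0 := by
    rw [hwz]; exact scaleRoots_aeval_eq_zero (minpoly.aeval (FractionRing R) (ℓ • y))
  have hdvd := minpoly.dvd (FractionRing R) (s • y) hgw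
  have hdeg : (scaleRoots (minpoly (FractionRing R) (ℓ • y))
      (algebraMap R (FractionRing R) s / algebraMap R (FractionRing R) ℓ)).natDegree ≤
      (minpoly (FractionRing R) (s • y)).natDegree := by
    rw [natDegree_scaleRoots]
    have h1' : aeval (ℓ • y) (scaleRoots (minpoly (FractionRing R) (s • y))
        (algebraMap R (FractionRing R) s / algebraMap R (FractionRing R) ℓ)⁻¹) = 0 := by
      rw [hzw]; exact scaleRoots_aeval_eq_zero (minpoly.aeval (FractionRing R) (s • y))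
    have hne : scaleRoots (minpoly (FractionRing R) (s • y))
        (algebraMap R (FractionRing R) s / algebraMap R (FractionRing R) ℓ)⁻¹ ≠ 0 :=
      ((monic_scaleRoots_iff _).mpr (minpoly.monic hwK)).ne_zero
    have := natDegree_le_natDegree (minpoly.degree_le_of_ne_zero (FractionRing R) (ℓ • y) hne h1')
    rwa [natDegree_scaleRoots] at this
  have hgeq := eq_of_monic_of_dvd_of_natDegree_le (minpoly.monic hwK) hgm hdvd hdeg
  have hr : (minpoly (FractionRing R) (ℓ • y)).natDegree = (minpoly R (ℓ • y)).natDegree := by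
    rw [hpz]; exact (minpoly.monic h1).natDegree_map _
  have key : ∀ i, ℓ ^ ((minpoly R (ℓ • y)).natDegree - i) ∣ (minpoly R (ℓ • y)).coeff i := by
    intro i
    have h3 := congrArg (fun q : (FractionRing R)[X] => q.coeff i) hgeq
    simp only [coeff_scaleRoots, hr] at h3
    rw [hpz, hpw, coeff_map, coeff_map, div_pow] at h3
    have h4 : (minpoly R (ℓ • y)).coeff i * s ^ ((minpoly R (ℓ • y)).natDegree - i) =
        (minpoly R (s • y)).coeff i * ℓ ^ ((minpoly R (ℓ • y)).natDegree - i) := by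
      apply hinjK
      rw [map_mul, map_mul, map_pow, map_pow, ← h3]
      field_simp
    exact hℓ.pow_dvd_of_dvd_mul_right _ (fun h => hs (hℓ.dvd_of_dvd_pow h))
      ⟨(minpoly R (s • y)).coeff i, by rw [h4, mul_comm]⟩
  choose e he using key
  set r := (minpoly R (ℓ • y)).natDegree with hrdef
  refine ⟨X ^ r + ∑ i ∈ Finset.range r, C (e i) * X ^ i, ?_, ?_⟩
  · refine monic_X_pow_add ?_
    rw [degree_lt_iff_coeff_zero]
    intro m hm
    rw [finsetSum_coeff]
    refine Finset.sum_eq_zero fun i hi => ?_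
    rw [coeff_C_mul_X_pow, if_neg]
    have := Finset.mem_range.mp hi
    omega
  · have hsum : aeval (ℓ • y) (minpoly R (ℓ • y)) = 0 := minpoly.aeval R (ℓ • y)
    rw [aeval_eq_sum_range, ← hrdef, Finset.sum_range_succ] at hsum
    have hlead : (minpoly R (ℓ • y)).coeff r = 1 := (minpoly.monic h1).coeff_natDegree
    rw [hlead, one_smul] at hsum
    have hfin : algebraMap R F ℓ ^ r *
        (eval₂ (algebraMap R F) y (X ^ r + ∑ i ∈ Finset.range r, C (e i) * X ^ i)) = 0 := by
      rw [← hsum, eval₂_add, eval₂_pow, eval₂_X, eval₂_finsetSum, mul_add, Finset.mul_sum,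
        add_comm]
      congr 1
      · refine Finset.sum_congr rfl fun i hi => ?_
        have hi' := Finset.mem_range.mp hi
        rw [eval₂_mul, eval₂_C, eval₂_pow, eval₂_X, he i, Algebra.smul_def, Algebra.smul_def,
          map_mul, map_pow, mul_pow]
        have : algebraMap R F ℓ ^ r =
            algebraMap R F ℓ ^ (r - i) * algebraMap R F ℓ ^ i := by
          rw [← pow_add]; congr 1; omega
        rw [this]; ring
      · rw [Algebra.smul_def, mul_pow]
    exact (mul_eq_zero.mp hfin).resolve_left (pow_ne_zero _ hℓF)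

end Normality

section Core

variable {R F Ω : Type*} [CommRing R] [IsDomain R] [Field F] [Algebra R F] [FaithfulSMul R F]
  [Field Ω]

/-- The restriction of `ρ : F0 → Ω` to `R ⊆ F0`. -/
noncomputable def partD_resR (F0 : Subring F) (hmem : ∀ a : R, algebraMap R F a ∈ F0)
    (ρ : F0 →+* Ω) : R →+* Ω :=
  ρ.comp ((algebraMap R F).codRestrict F0 hmem)

omit [IsDomain R] [FaithfulSMul R F] in
theorem partD_resR_apply (F0 : Subring F) (hmem : ∀ a : R, algebraMap R F a ∈ F0)
    (ρ : F0 →+* Ω) (a : R) : partD_resR F0 hmem ρ a = ρ ⟨algebraMap R F a, hmem a⟩ := rfl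

/-- The reduction function on `F`: `x ↦ ρ (s x) / ρ s` for a denominator `s ∉ (ℓ)` with
`s x ∈ F0` (junk value `0` if there is none). -/
noncomputable def partD_red (ℓ : R) (F0 : Subring F) (hmem : ∀ a : R, algebraMap R F a ∈ F0)
    (ρ : F0 →+* Ω) (x : F) : Ω :=
  open Classical in
  if h : ∃ s : R, ¬ ℓ ∣ s ∧ algebraMap R F s * x ∈ F0 then
    ρ ⟨algebraMap R F h.choose * x, h.choose_spec.2⟩ * (partD_resR F0 hmem ρ h.choose)⁻¹
  else 0

omit [IsDomain R] [FaithfulSMul R F] in
theorem partD_red_eq {ℓ : R} (F0 : Subring F) (hmem : ∀ a : R, algebraMap R F a ∈ F0)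
    (ρ : F0 →+* Ω) (hker : ∀ a : R, partD_resR F0 hmem ρ a = 0 → ℓ ∣ a)
    {x : F} {s : R} (hs : ¬ ℓ ∣ s) (hx : algebraMap R F s * x ∈ F0) :
    partD_red ℓ F0 hmem ρ x = ρ ⟨algebraMap R F s * x, hx⟩ * (partD_resR F0 hmem ρ s)⁻¹ := by
  classical
  have hex : ∃ s : R, ¬ ℓ ∣ s ∧ algebraMap R F s * x ∈ F0 := ⟨s, hs, hx⟩
  unfold partD_red
  rw [dif_pos hex]
  have h1 : partD_resR F0 hmem ρ hex.choose ≠ 0 := fun h => hex.choose_spec.1 (hker _ h)
  have h2 : partD_resR F0 hmem ρ s ≠ 0 := fun h => hs (hker _ h)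
  rw [mul_inv_eq_iff_eq_mul₀ h1, mul_assoc, mul_comm _ (partD_resR F0 hmem ρ hex.choose),
    ← mul_assoc, eq_mul_inv_iff_mul_eq₀ h2]
  rw [partD_resR_apply, partD_resR_apply, ← map_mul, ← map_mul]
  congr 1
  apply Subtype.ext
  simp only [Subring.coe_mul]
  ring

omit [IsDomain R] [FaithfulSMul R F] in
theorem partD_red_of_mem {ℓ : R} (hℓ : Prime ℓ) (F0 : Subring F)
    (hmem : ∀ a : R, algebraMap R F a ∈ F0)
    (ρ : F0 →+* Ω) (hker : ∀ a : R, partD_resR F0 hmem ρ a = 0 → ℓ ∣ a)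
    {x : F} (hx : x ∈ F0) : partD_red ℓ F0 hmem ρ x = ρ ⟨x, hx⟩ := by
  have h1 : algebraMap R F 1 * x ∈ F0 := by rwa [map_one, one_mul]
  rw [partD_red_eq F0 hmem ρ hker hℓ.not_dvd_one h1]
  have e : (⟨algebraMap R F 1 * x, h1⟩ : F0) = ⟨x, hx⟩ := Subtype.ext (show algebraMap R F 1 * x = x by rw [map_one, one_mul])
  rw [e, map_one, inv_one, mul_one]

omit [IsDomain R] [FaithfulSMul R F] in
theorem partD_red_mul {ℓ : R} (hℓ : Prime ℓ) (F0 : Subring F)
    (hmem : ∀ a : R, algebraMap R F a ∈ F0)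
    (ρ : F0 →+* Ω) (hker : ∀ a : R, partD_resR F0 hmem ρ a = 0 → ℓ ∣ a)
    {x y : F} {s t : R} (hs : ¬ ℓ ∣ s) (hx : algebraMap R F s * x ∈ F0)
    (ht : ¬ ℓ ∣ t) (hy : algebraMap R F t * y ∈ F0) :
    partD_red ℓ F0 hmem ρ (x * y) = partD_red ℓ F0 hmem ρ x * partD_red ℓ F0 hmem ρ y := by
  have hst : ¬ ℓ ∣ s * t := fun h => (hℓ.dvd_or_dvd h).elim hs ht
  have e0 : algebraMap R F (s * t) * (x * y) =
      algebraMap R F s * x * (algebraMap R F t * y) := by rw [map_mul]; ring
  have hxy : algebraMap R F (s * t) * (x * y) ∈ F0 := by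
    rw [e0]; exact F0.mul_mem hx hy
  rw [partD_red_eq F0 hmem ρ hker hst hxy, partD_red_eq F0 hmem ρ hker hs hx,
    partD_red_eq F0 hmem ρ hker ht hy]
  have e : (⟨algebraMap R F (s * t) * (x * y), hxy⟩ : F0) =
      ⟨algebraMap R F s * x, hx⟩ * ⟨algebraMap R F t * y, hy⟩ := Subtype.ext e0
  rw [e, map_mul, map_mul, mul_inv]
  ring

omit [IsDomain R] [FaithfulSMul R F] in
theorem partD_red_add {ℓ : R} (hℓ : Prime ℓ) (F0 : Subring F)
    (hmem : ∀ a : R, algebraMap R F a ∈ F0)
    (ρ : F0 →+* Ω) (hker : ∀ a : R, partD_resR F0 hmem ρ a = 0 → ℓ ∣ a)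
    {x y : F} {s t : R} (hs : ¬ ℓ ∣ s) (hx : algebraMap R F s * x ∈ F0)
    (ht : ¬ ℓ ∣ t) (hy : algebraMap R F t * y ∈ F0) :
    partD_red ℓ F0 hmem ρ (x + y) = partD_red ℓ F0 hmem ρ x + partD_red ℓ F0 hmem ρ y := by
  have hst : ¬ ℓ ∣ s * t := fun h => (hℓ.dvd_or_dvd h).elim hs ht
  have e0 : algebraMap R F (s * t) * (x + y) =
      algebraMap R F t * (algebraMap R F s * x) + algebraMap R F s * (algebraMap R F t * y) := by
    rw [map_mul]; ring
  have hxy : algebraMap R F (s * t) * (x + y) ∈ F0 := by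
    rw [e0]; exact F0.add_mem (F0.mul_mem (hmem t) hx) (F0.mul_mem (hmem s) hy)
  rw [partD_red_eq F0 hmem ρ hker hst hxy, partD_red_eq F0 hmem ρ hker hs hx,
    partD_red_eq F0 hmem ρ hker ht hy]
  have e : (⟨algebraMap R F (s * t) * (x + y), hxy⟩ : F0) =
      ⟨algebraMap R F t, hmem t⟩ * ⟨algebraMap R F s * x, hx⟩ +
        ⟨algebraMap R F s, hmem s⟩ * ⟨algebraMap R F t * y, hy⟩ := Subtype.ext e0
  have h1 : partD_resR F0 hmem ρ s ≠ 0 := fun h => hs (hker _ h)
  have h2 : partD_resR F0 hmem ρ t ≠ 0 := fun h => ht (hker _ h)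
  rw [e, map_add, map_mul, map_mul, ← partD_resR_apply, ← partD_resR_apply,
    map_mul (partD_resR F0 hmem ρ)]
  field_simp

omit [IsDomain R] [FaithfulSMul R F] in
/-- `ρ` of an `R`-combination of the `bᵢ`. -/
theorem partD_rho_sum (F0 : Subring F) (hmem : ∀ a : R, algebraMap R F a ∈ F0) (ρ : F0 →+* Ω)
    {ι : Type*} [Fintype ι] (b : ι → F) (hb : ∀ i, b i ∈ F0) (a : ι → R)
    (h : (∑ i, algebraMap R F (a i) * b i) ∈ F0) :
    ρ ⟨∑ i, algebraMap R F (a i) * b i, h⟩ =
      ∑ i, partD_resR F0 hmem ρ (a i) * ρ ⟨b i, hb i⟩ := by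
  have e : (⟨∑ i, algebraMap R F (a i) * b i, h⟩ : F0) =
      ∑ i, (⟨algebraMap R F (a i), hmem (a i)⟩ : F0) * ⟨b i, hb i⟩ := by
    apply Subtype.ext
    rw [← Subring.coe_subtype F0, map_sum]
    rfl
  rw [e, map_sum]
  refine Finset.sum_congr rfl fun i _ => ?_
  rw [map_mul, partD_resR_apply]

omit [IsDomain R] [FaithfulSMul R F] in
theorem partD_sum_mem (F0 : Subring F) (hmem : ∀ a : R, algebraMap R F a ∈ F0)
    {ι : Type*} [Fintype ι] (b : ι → F) (hb : ∀ i, b i ∈ F0) (a : ι → R) :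
    (∑ i, algebraMap R F (a i) * b i) ∈ F0 :=
  F0.sum_mem fun i _ => F0.mul_mem (hmem (a i)) (hb i)

/-- Step 1: integral elements are `R_(ℓ)`-combinations of the `bᵢ`. -/
theorem partD_span_of_isIntegral [WfDvdMonoid R] {ℓ : R} (hℓ : Prime ℓ) (F0 : Subring F)
    (hmem : ∀ a : R, algebraMap R F a ∈ F0) (ρ : F0 →+* Ω)
    (hρℓ : partD_resR F0 hmem ρ ℓ = 0)
    {ι : Type*} [Fintype ι] (b : ι → F) (hb : ∀ i, b i ∈ F0)
    (hind : ∀ a : ι → R, ∑ i, partD_resR F0 hmem ρ (a i) * ρ ⟨b i, hb i⟩ = 0 → ∀ i, ℓ ∣ a i)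
    (hspan : ∀ x : F, ∃ (d : R) (a : ι → R), d ≠ 0 ∧
      algebraMap R F d * x = ∑ i, algebraMap R F (a i) * b i)
    {x : F} (hx : IsIntegral R x) :
    ∃ (s : R) (a : ι → R), ¬ ℓ ∣ s ∧ algebraMap R F s * x = ∑ i, algebraMap R F (a i) * b i := by
  classical
  have hinj : Function.Injective (algebraMap R F) := FaithfulSMul.algebraMap_injective R F
  have hℓF : algebraMap R F ℓ ≠ 0 := fun h => hℓ.ne_zero (hinj (by rw [h, map_zero]))
  obtain ⟨d, a, hd, hda⟩ := hspan x
  obtain ⟨m, s, hs, rfl⟩ := WfDvdMonoid.max_power_factor hd hℓ.irreducible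
  clear hd
  induction m generalizing a with
  | zero => exact ⟨s, a, hs, by simpa using hda⟩
  | succ m ih =>
    obtain ⟨p, hpm, hpx⟩ := hx
    have hzmem := partD_sum_mem F0 hmem b hb a
    have hroot : eval₂ (algebraMap R F) (∑ i, algebraMap R F (a i) * b i)
        (scaleRoots p (ℓ ^ (m + 1) * s)) = 0 := by
      rw [← hda]; exact scaleRoots_eval₂_eq_zero _ hpx
    have hroot0 : eval₂ ((algebraMap R F).codRestrict F0 hmem)
        (⟨∑ i, algebraMap R F (a i) * b i, hzmem⟩ : F0) (scaleRoots p (ℓ ^ (m + 1) * s)) = 0 := by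
      apply Subtype.ext
      have h := hom_eval₂ (scaleRoots p (ℓ ^ (m + 1) * s))
        ((algebraMap R F).codRestrict F0 hmem) F0.subtype
        (⟨∑ i, algebraMap R F (a i) * b i, hzmem⟩ : F0)
      rw [Subring.coe_subtype] at h
      rw [h]
      exact hroot
    have hrootΩ : eval₂ (partD_resR F0 hmem ρ)
        (ρ ⟨∑ i, algebraMap R F (a i) * b i, hzmem⟩) (scaleRoots p (ℓ ^ (m + 1) * s)) = 0 := by
      have h := hom_eval₂ (scaleRoots p (ℓ ^ (m + 1) * s))
        ((algebraMap R F).codRestrict F0 hmem) ρ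
        (⟨∑ i, algebraMap R F (a i) * b i, hzmem⟩ : F0)
      rw [hroot0, map_zero] at h
      exact h.symm
    have hρz : ρ ⟨∑ i, algebraMap R F (a i) * b i, hzmem⟩ = 0 := by
      have hlc : partD_resR F0 hmem ρ p.leadingCoeff ≠ 0 := by
        rw [hpm.leadingCoeff, map_one]; exact one_ne_zero
      rw [← eval_map, map_scaleRoots _ _ _ hlc, map_mul, map_pow, hρℓ,
        zero_pow (Nat.succ_ne_zero m), zero_mul, scaleRoots_zero,
        (hpm.map (partD_resR F0 hmem ρ)).leadingCoeff, one_smul, eval_pow, eval_X] at hrootΩ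
      exact eq_zero_of_pow_eq_zero hrootΩ
    rw [partD_rho_sum F0 hmem ρ b hb a hzmem] at hρz
    have hdiv := hind a hρz
    choose a' ha' using hdiv
    refine ih a' ?_
    apply mul_left_cancel₀ hℓF
    rw [← mul_assoc, ← map_mul, Finset.mul_sum]
    have e1 : ℓ * (ℓ ^ m * s) = ℓ ^ (m + 1) * s := by ring
    rw [e1, hda]
    refine Finset.sum_congr rfl fun i _ => ?_
    rw [ha' i, map_mul, mul_assoc]

/-- Step 3: an integral element whose `R_(ℓ)`-coordinates are all divisible by `ℓ` is `ℓ` times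
an integral element. -/
theorem partD_kernel [IsIntegrallyClosed R] {ℓ : R} (hℓ : Prime ℓ)
    {ι : Type*} [Fintype ι] (b : ι → F)
    (hbint : ∀ i, ∃ s : R, ¬ ℓ ∣ s ∧ IsIntegral R (algebraMap R F s * b i))
    {x : F} (hx : IsIntegral R x) {s : R} {a : ι → R} (hs : ¬ ℓ ∣ s)
    (hsa : algebraMap R F s * x = ∑ i, algebraMap R F (a i) * b i) (hdiv : ∀ i, ℓ ∣ a i) :
    ∃ y : F, IsIntegral R y ∧ x = algebraMap R F ℓ * y := by
  classical
  have hinj : Function.Injective (algebraMap R F) := FaithfulSMul.algebraMap_injective R F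
  have hℓF : algebraMap R F ℓ ≠ 0 := fun h => hℓ.ne_zero (hinj (by rw [h, map_zero]))
  choose a' ha' using hdiv
  choose t ht htint using hbint
  have hSℓ : ¬ ℓ ∣ ∏ i, t i := by
    rw [hℓ.dvd_finsetProd_iff]
    rintro ⟨i, _, hi⟩
    exact ht i hi
  have hSb : ∀ i, IsIntegral R (algebraMap R F (∏ k, t k) * b i) := by
    intro i
    have e : (∏ k, t k) = (∏ k ∈ Finset.univ.erase i, t k) * t i := by
      rw [mul_comm, Finset.mul_prod_erase _ _ (Finset.mem_univ i)]
    rw [e, map_mul, mul_assoc]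
    exact isIntegral_algebraMap.mul (htint i)
  have hSw : IsIntegral R (algebraMap R F (∏ k, t k) * ∑ i, algebraMap R F (a' i) * b i) := by
    rw [Finset.mul_sum]
    refine IsIntegral.sum _ fun i _ => ?_
    have e : algebraMap R F (∏ k, t k) * (algebraMap R F (a' i) * b i) =
        algebraMap R F (a' i) * (algebraMap R F (∏ k, t k) * b i) := by ring
    rw [e]; exact isIntegral_algebraMap.mul (hSb i)
  have hsx : algebraMap R F s * x = algebraMap R F ℓ * ∑ i, algebraMap R F (a' i) * b i := by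
    rw [hsa, Finset.mul_sum]
    refine Finset.sum_congr rfl fun i _ => ?_
    rw [ha' i, map_mul, mul_assoc]
  refine ⟨(algebraMap R F ℓ)⁻¹ * x, ?_, ?_⟩
  · refine partD_isIntegral_of_smul hℓ (s := s * ∏ k, t k)
      (fun h => (hℓ.dvd_or_dvd h).elim hs hSℓ) ?_ ?_
    · rw [Algebra.smul_def, ← mul_assoc, mul_inv_cancel₀ hℓF, one_mul]; exact hx
    · rw [Algebra.smul_def]
      have e : algebraMap R F (s * ∏ k, t k) * ((algebraMap R F ℓ)⁻¹ * x) =
          algebraMap R F (∏ k, t k) * ∑ i, algebraMap R F (a' i) * b i := by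
        rw [map_mul]
        calc algebraMap R F s * algebraMap R F (∏ k, t k) * ((algebraMap R F ℓ)⁻¹ * x)
            = algebraMap R F (∏ k, t k) * (algebraMap R F ℓ)⁻¹ * (algebraMap R F s * x) := by
              ring
          _ = _ := by rw [hsx]; field_simp
      rw [e]; exact hSw
  · rw [← mul_assoc, mul_inv_cancel₀ hℓF, one_mul]

/-- Gauss-type lemma: independence of the reductions implies `R`-linear independence. -/
theorem partD_linearIndependent [WfDvdMonoid R] {ℓ : R} (hℓ : Prime ℓ) (F0 : Subring F)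
    (hmem : ∀ a : R, algebraMap R F a ∈ F0) (ρ : F0 →+* Ω)
    {ι : Type*} [Fintype ι] (b : ι → F) (hb : ∀ i, b i ∈ F0)
    (hind : ∀ a : ι → R, ∑ i, partD_resR F0 hmem ρ (a i) * ρ ⟨b i, hb i⟩ = 0 → ∀ i, ℓ ∣ a i) :
    LinearIndependent R b := by
  classical
  have hinj : Function.Injective (algebraMap R F) := FaithfulSMul.algebraMap_injective R F
  have hℓF : algebraMap R F ℓ ≠ 0 := fun h => hℓ.ne_zero (hinj (by rw [h, map_zero]))
  have key : ∀ g : ι → R, ∑ i, algebraMap R F (g i) * b i = 0 → ∀ i, ℓ ∣ g i := by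
    intro g hg
    apply hind g
    rw [← partD_rho_sum F0 hmem ρ b hb g (partD_sum_mem F0 hmem b hb g)]
    have e : (⟨∑ i, algebraMap R F (g i) * b i, partD_sum_mem F0 hmem b hb g⟩ : F0) = 0 :=
      Subtype.ext hg
    rw [e, map_zero]
  rw [Fintype.linearIndependent_iff]
  intro g hg i0
  simp only [Algebra.smul_def] at hg
  by_contra hne
  obtain ⟨m, s, hs, hms⟩ := WfDvdMonoid.max_power_factor hne hℓ.irreducible
  clear hne
  induction m generalizing g with
  | zero =>
    have h := key g hg i0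
    rw [hms, pow_zero, one_mul] at h
    exact hs h
  | succ m ih =>
    have hdiv := key g hg
    choose g' hg' using hdiv
    refine ih g' ?_ ?_
    · apply mul_left_cancel₀ hℓF
      rw [mul_zero, Finset.mul_sum, ← hg]
      refine Finset.sum_congr rfl fun i _ => ?_
      rw [hg' i, map_mul, mul_assoc]
    · apply mul_left_cancel₀ hℓ.ne_zero
      rw [← hg' i0, hms]; ring

omit [IsDomain R] [FaithfulSMul R F] in
/-- Spanning from independence and the dimension bound. -/
theorem partD_hspan {ι : Type*} [Fintype ι] (b : ι → F) (hli : LinearIndependent R b)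
    (hcard : ∀ (n : ℕ) (c : Fin n → F), LinearIndependent R c → n ≤ Fintype.card ι) (x : F) :
    ∃ (d : R) (a : ι → R), d ≠ 0 ∧
      algebraMap R F d * x = ∑ i, algebraMap R F (a i) * b i := by
  classical
  by_contra hcon
  push Not at hcon
  have hopt : LinearIndependent R (fun o : Option ι => o.elim x b) := by
    rw [Fintype.linearIndependent_iff]
    intro g hg
    rw [Fintype.sum_option] at hg
    simp only [Option.elim] at hg
    have h0 : g none = 0 := by
      by_contra h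
      refine hcon (g none) (fun i => - g (some i)) h ?_
      rw [← Algebra.smul_def, eq_neg_of_add_eq_zero_left hg, ← Finset.sum_neg_distrib]
      refine Finset.sum_congr rfl fun i _ => ?_
      rw [map_neg, neg_mul, Algebra.smul_def]
    intro o
    cases o with
    | none => exact h0
    | some i =>
      rw [h0, zero_smul, zero_add] at hg
      exact (Fintype.linearIndependent_iff.mp hli) (fun i => g (some i)) hg i
  have h := hcard _ _ (hopt.comp (Fintype.equivFin (Option ι)).symm (Equiv.injective _))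
  rw [Fintype.card_option] at h
  omega

end Core

/-- **Part D1 (abstract reduction lemma).**  `R ⊆ F` an integrally closed domain in a field, `ℓ`
a prime element, `F0 ⊆ F` a subring containing `R` with a ring hom `ρ : F0 → Ω` killing `ℓ`;
`b` a finite family in `F0`, integral over `R` up to denominators prime to `ℓ`, whose reductions
are `ρ(R)`-independent, of cardinality at least the `R`-rank of `F`.  Then the integral closure
`B` of `R` in `F` carries a ring hom to `Ω` extending `ρ`, with kernel exactly `ℓ B`. -/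
theorem partD_exists_red {R F Ω B : Type*} [CommRing R] [IsDomain R] [IsIntegrallyClosed R]
    [WfDvdMonoid R] [Field F] [Algebra R F] [FaithfulSMul R F] [Field Ω] [CommRing B]
    {ℓ : R} (hℓ : Prime ℓ) (F0 : Subring F) (hmem : ∀ a : R, algebraMap R F a ∈ F0)
    (ρ : F0 →+* Ω) (hρℓ : ρ ⟨algebraMap R F ℓ, hmem ℓ⟩ = 0)
    {ι : Type*} [Fintype ι] (b : ι → F) (hb : ∀ i, b i ∈ F0)
    (hind : ∀ a : ι → R,
      ∑ i, ρ ⟨algebraMap R F (a i), hmem (a i)⟩ * ρ ⟨b i, hb i⟩ = 0 → ∀ i, ℓ ∣ a i)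
    (hbint : ∀ i, ∃ s : R, ¬ ℓ ∣ s ∧ IsIntegral R (algebraMap R F s * b i))
    (hcard : ∀ (n : ℕ) (c : Fin n → F), LinearIndependent R c → n ≤ Fintype.card ι)
    (j : B →+* F) (hB : ∀ x : F, (∃ y, j y = x) ↔ IsIntegral R x) :
    ∃ φ : B →+* Ω, (∀ x : B, φ x = 0 ↔ ∃ y : B, j x = algebraMap R F ℓ * j y) ∧
      (∀ (x : B) (hx : j x ∈ F0), φ x = ρ ⟨j x, hx⟩) := by
  classical
  have hinj : Function.Injective (algebraMap R F) := FaithfulSMul.algebraMap_injective R F
  have hℓF : algebraMap R F ℓ ≠ 0 := fun h => hℓ.ne_zero (hinj (by rw [h, map_zero]))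
  have hind' : ∀ a : ι → R,
      ∑ i, partD_resR F0 hmem ρ (a i) * ρ ⟨b i, hb i⟩ = 0 → ∀ i, ℓ ∣ a i := hind
  -- `ι` is nonempty
  have hne : Nonempty ι := by
    have h1 : LinearIndependent R (fun _ : Fin 1 => (1 : F)) := by
      rw [Fintype.linearIndependent_iff]
      intro g hg i
      rw [Fin.sum_univ_one, Algebra.smul_def, mul_one] at hg
      have : g 0 = 0 := hinj (by rw [hg, map_zero])
      rw [Subsingleton.elim i 0]; exact this
    have := hcard 1 _ h1
    exact Fintype.card_pos_iff.mp (by omega)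
  obtain ⟨i0⟩ := hne
  have hker : ∀ a : R, partD_resR F0 hmem ρ a = 0 → ℓ ∣ a := by
    intro a ha
    refine hind' (fun _ => a) ?_ i0
    simp [ha]
  have hli := partD_linearIndependent hℓ F0 hmem ρ b hb hind'
  have hspan := partD_hspan b hli hcard
  have hLam : ∀ x : F, IsIntegral R x → ∃ (s : R) (a : ι → R), ¬ ℓ ∣ s ∧
      algebraMap R F s * x = ∑ i, algebraMap R F (a i) * b i := fun x hx =>
    partD_span_of_isIntegral hℓ F0 hmem ρ hρℓ b hb hind' hspan hx
  have hLam' : ∀ x : B, ∃ s : R, ¬ ℓ ∣ s ∧ algebraMap R F s * j x ∈ F0 := by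
    intro x
    obtain ⟨s, a, hs, hsa⟩ := hLam (j x) ((hB _).mp ⟨x, rfl⟩)
    exact ⟨s, hs, by rw [hsa]; exact partD_sum_mem F0 hmem b hb a⟩
  refine ⟨{ toFun := fun x => partD_red ℓ F0 hmem ρ (j x)
            map_one' := ?_, map_mul' := ?_, map_zero' := ?_, map_add' := ?_ }, ?_, ?_⟩
  · rw [map_one, partD_red_of_mem hℓ F0 hmem ρ hker F0.one_mem]
    exact map_one ρ
  · intro x y
    obtain ⟨s, hs, hx⟩ := hLam' x
    obtain ⟨t, ht, hy⟩ := hLam' y
    rw [map_mul]
    exact partD_red_mul hℓ F0 hmem ρ hker hs hx ht hy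
  · rw [map_zero, partD_red_of_mem hℓ F0 hmem ρ hker F0.zero_mem]
    exact map_zero ρ
  · intro x y
    obtain ⟨s, hs, hx⟩ := hLam' x
    obtain ⟨t, ht, hy⟩ := hLam' y
    rw [map_add]
    exact partD_red_add hℓ F0 hmem ρ hker hs hx ht hy
  · intro x
    change partD_red ℓ F0 hmem ρ (j x) = 0 ↔ _
    constructor
    · intro h0
      have hxint : IsIntegral R (j x) := (hB _).mp ⟨x, rfl⟩
      obtain ⟨s, a, hs, hsa⟩ := hLam (j x) hxint
      have hmemx : algebraMap R F s * j x ∈ F0 := by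
        rw [hsa]; exact partD_sum_mem F0 hmem b hb a
      rw [partD_red_eq F0 hmem ρ hker hs hmemx] at h0
      have h2 : partD_resR F0 hmem ρ s ≠ 0 := fun h => hs (hker _ h)
      have h3 : ρ ⟨algebraMap R F s * j x, hmemx⟩ = 0 := by
        rcases mul_eq_zero.mp h0 with h | h
        · exact h
        · exact absurd (inv_eq_zero.mp h) h2
      have h4 : ∑ i, partD_resR F0 hmem ρ (a i) * ρ ⟨b i, hb i⟩ = 0 := by
        rw [← partD_rho_sum F0 hmem ρ b hb a (partD_sum_mem F0 hmem b hb a), ← h3]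
        congr 1
        exact Subtype.ext hsa.symm
      obtain ⟨y, hy, hxy⟩ := partD_kernel hℓ b hbint hxint hs hsa (hind' a h4)
      obtain ⟨y', rfl⟩ := (hB y).mpr hy
      exact ⟨y', hxy⟩
    · rintro ⟨y, hxy⟩
      obtain ⟨t, ht, hy⟩ := hLam' y
      rw [hxy, partD_red_mul hℓ F0 hmem ρ hker hℓ.not_dvd_one
        (by rw [map_one, one_mul]; exact hmem ℓ) ht hy,
        partD_red_of_mem hℓ F0 hmem ρ hker (hmem ℓ), hρℓ, zero_mul]
  · intro x hx
    exact partD_red_of_mem hℓ F0 hmem ρ hker hx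

/-- The special case `B = integralClosure R F`. -/
theorem partD_exists_red_integralClosure {R F Ω : Type*} [CommRing R] [IsDomain R]
    [IsIntegrallyClosed R] [WfDvdMonoid R] [Field F] [Algebra R F] [FaithfulSMul R F] [Field Ω]
    {ℓ : R} (hℓ : Prime ℓ) (F0 : Subring F) (hmem : ∀ a : R, algebraMap R F a ∈ F0)
    (ρ : F0 →+* Ω) (hρℓ : ρ ⟨algebraMap R F ℓ, hmem ℓ⟩ = 0)
    {ι : Type*} [Fintype ι] (b : ι → F) (hb : ∀ i, b i ∈ F0)
    (hind : ∀ a : ι → R,
      ∑ i, ρ ⟨algebraMap R F (a i), hmem (a i)⟩ * ρ ⟨b i, hb i⟩ = 0 → ∀ i, ℓ ∣ a i)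
    (hbint : ∀ i, ∃ s : R, ¬ ℓ ∣ s ∧ IsIntegral R (algebraMap R F s * b i))
    (hcard : ∀ (n : ℕ) (c : Fin n → F), LinearIndependent R c → n ≤ Fintype.card ι) :
    ∃ φ : integralClosure R F →+* Ω,
      (∀ x : integralClosure R F, φ x = 0 ↔ ∃ y : integralClosure R F, x = ℓ • y) ∧
      (∀ (x : integralClosure R F) (hx : (x : F) ∈ F0), φ x = ρ ⟨x, hx⟩) := by
  obtain ⟨φ, h1, h2⟩ := partD_exists_red hℓ F0 hmem ρ hρℓ b hb hind hbint hcard
    (integralClosure R F).val.toRingHom
    (fun x => ⟨fun ⟨y, hy⟩ => hy ▸ y.2, fun hx => ⟨⟨x, hx⟩, rfl⟩⟩)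
  refine ⟨φ, fun x => ?_, h2⟩
  rw [h1]
  refine exists_congr fun y => ?_
  constructor
  · intro h
    apply Subtype.ext
    rw [Algebra.smul_def]
    exact h
  · intro h
    rw [h, Algebra.smul_def]
    rfl

end Fermat.Agent.S28
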