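import Mathlib
import Fermat.Prelude.Def_ModularCurve_X0

/-!
# S28, Part C (Igusa in characteristic `ℓ`): interface definitions

Everything lives in `LaurentSeries k`, `k` a field.  `J` plays the role of the reduction of `jq`,
`Δ` that of `q * etaProd ^ 24`, and `qExpand k d` is the substitution `q ↦ q ^ d`.
-/

set_option autoImplicit false

open ModularCurve Polynomial

namespace Fermat.Agent.S28

variable {k : Type*} [Field k]

/-- The prime-level input of Part C at the prime `p` (all identities in `LaurentSeries k`):
the modular equation (both identities) and integrality of the modular unit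
`p ^ 12 * Δ(q ^ p) / Δ(q)` over `k[J]`. -/
structure PartCLevel (J Δ : LaurentSeries k) (p : ℕ) [NeZero p] : Prop where
  exists_modEq : ∃ Φ : Polynomial (Polynomial k), Φ.Monic ∧ Φ.natDegree = p + 1 ∧
    Φ.eval₂ (aeval J : Polynomial k →ₐ[k] LaurentSeries k).toRingHom (qExpand k p J) = 0 ∧
    Φ.eval₂ (aeval (qExpand k p J) : Polynomial k →ₐ[k] LaurentSeries k).toRingHom J = 0
  isIntegral_unit : IsIntegral (Algebra.adjoin k {J})
    (HahnSeries.C ((p : k) ^ 12) * qExpand k p Δ * Δ⁻¹)

/-- The generators `J(q ^ d)`, `d ∣ N`. -/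
def partC_divSet (J : LaurentSeries k) (N : ℕ) : Set (LaurentSeries k) :=
  {x | ∃ (d : ℕ) (_ : NeZero d), d ∣ N ∧ x = qExpand k d J}

end Fermat.Agent.S28
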