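import Fermat.Agent.S28.Defs
import Fermat.Agent.S28.CDefs

/-!
S28 / row C-Bridge (helper58): the bridge from the abstract Part C statement `partC_igusa`
(`relrank ≥ ψ(N)` over an algebraically closed field `k` of characteristic `ℓ`) to the frozen
cross-part statement `exists_independent` (`ψ(N)` integer polynomial expressions in the `J(q^d)`,
linearly independent over `𝔽_ℓ(J)`).

This file is stub-free: everything is proved from hypotheses having the exact shapes of the
Skel statements (A1), (A2), (A3), (B1) and of the conclusion of `partC_igusa`.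
* `h58_level_modEq`, `h58_level_unit` (the fields of `PartCLevel`, which this file does not
  mention, so it compiles against either shape of that structure; `h58_level_unit_inv` is the
  spare third field of the old shape), `h58_theta_pow_six`, `h58_DeltaSer_coeff_one`,
  `h58_DeltaSer_coeff_of_lt`:
  the hypotheses of `partC_igusa` for `J = jqModC k`, `Δ = DeltaSer k`, `T = theta J`;
* `h58_monomials_of_relrank`: `relrank ≥ n` gives `n` independent monomials (uses (B1));
* `h58_descent`: descent of linear independence from `k` to a subfield along `coeffMap`;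
* `h58_exists_independent_of_relrank`: the combination.
-/

set_option autoImplicit false

open ModularCurve IntermediateField

namespace Fermat.Agent.S28

noncomputable section

/-- `coeffMap` along a field homomorphism is injective. -/
theorem h58_coeffMap_injective {F k : Type*} [Field F] [Field k] (φ : F →+* k) :
    Function.Injective (coeffMap φ) := by
  intro x y h
  ext n
  have := congrArg (fun z => z.coeff n) h
  simp only [coeffMap_coeff] at this
  exact φ.injective this

/-- `coeffMap` maps constants to constants. -/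
theorem h58_coeffMap_algebraMap {F k : Type*} [Field F] [Field k] (φ : F →+* k) (c : F) :
    coeffMap φ (algebraMap F (LaurentSeries F) c) = algebraMap k (LaurentSeries k) (φ c) := by
  rw [algebraMap_laurentSeries_eq_single, algebraMap_laurentSeries_eq_single, coeffMap_single]

/-- `coeffMap` maps `F(J)` into `k(J)`. -/
theorem h58_coeffMap_mem_adjoin {F k : Type*} [Field F] [Field k] (φ : F →+* k)
    {x : LaurentSeries F} (hx : x ∈ IntermediateField.adjoin F {jqModC F}) :
    coeffMap φ x ∈ IntermediateField.adjoin k {jqModC k} := by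
  let S : IntermediateField F (LaurentSeries F) :=
    { ((IntermediateField.adjoin k {jqModC k}).toSubfield.comap (coeffMap φ)) with
      algebraMap_mem' := fun c => by
        show coeffMap φ (algebraMap F (LaurentSeries F) c) ∈ IntermediateField.adjoin k {jqModC k}
        rw [h58_coeffMap_algebraMap]
        exact IntermediateField.algebraMap_mem _ _ }
  have hle : IntermediateField.adjoin F {jqModC F} ≤ S := by
    rw [IntermediateField.adjoin_le_iff]
    rintro y rfl
    show coeffMap φ (jqModC F) ∈ IntermediateField.adjoin k {jqModC k}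
    rw [coeffMap_jqModC]
    exact IntermediateField.mem_adjoin_simple_self k _
  exact hle hx

/-- Descent of linear independence along `coeffMap`. -/
theorem h58_descent {F k : Type*} [Field F] [Field k] (φ : F →+* k) {ι : Type*}
    (v : ι → LaurentSeries F)
    (h : LinearIndependent (IntermediateField.adjoin k {jqModC k}) (fun i => coeffMap φ (v i))) :
    LinearIndependent (IntermediateField.adjoin F {jqModC F}) v := by
  rw [linearIndependent_iff'] at h ⊢
  intro s g hg i hi
  have h1 := h s (fun j => ⟨coeffMap φ (g j : LaurentSeries F), h58_coeffMap_mem_adjoin φ (g j).2⟩)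
    (by
      have h2 := congrArg (coeffMap φ) hg
      rw [map_sum, map_zero] at h2
      rw [← h2]
      refine Finset.sum_congr rfl fun j _ => ?_
      rw [IntermediateField.smul_def, IntermediateField.smul_def, smul_eq_mul, smul_eq_mul, map_mul]) i hi
  have h3 : coeffMap φ (g i : LaurentSeries F) = 0 := congrArg Subtype.val h1
  have h4 : (g i : LaurentSeries F) = 0 := h58_coeffMap_injective φ (by rw [h3, map_zero])
  exact Subtype.ext h4

/-- a ring hom `ℤ[Y] → R((q))` with `Y ↦ J` is `evJ`. -/
theorem h58_eq_evJ {R : Type*} [CommRing R] (f : Polynomial ℤ →+* LaurentSeries R)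
    (hf : f Polynomial.X = jqModC R) : f = evJ R := by
  refine Polynomial.ringHom_ext' (Subsingleton.elim _ _) ?_
  rw [hf]
  simp [evJ]

/-- a ring hom `ℤ[Y] → R((q))` with `Y ↦ J(q^d)` is `evJd`. -/
theorem h58_eq_evJd {R : Type*} [CommRing R] (d : ℕ) (f : Polynomial ℤ →+* LaurentSeries R)
    (hf : f Polynomial.X = JdC R d) : f = evJd R d := by
  refine Polynomial.ringHom_ext' (Subsingleton.elim _ _) ?_
  rw [hf]
  simp [evJd]

/-- transfer of a polynomial identity along `coeffMap`. -/
theorem h58_eval₂_transfer {k : Type*} [Field k] (f : Polynomial ℤ →+* LaurentSeries ℤ)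
    (g : Polynomial ℤ →+* LaurentSeries k)
    (hfg : (coeffMap (Int.castRingHom k)).comp f = g) (P : Polynomial (Polynomial ℤ))
    (x : LaurentSeries ℤ) (h : P.eval₂ f x = 0) :
    P.eval₂ g (coeffMap (Int.castRingHom k) x) = 0 := by
  rw [← hfg, ← Polynomial.hom_eval₂, h, map_zero]

theorem h58_coeffMap_comp_evJ (k : Type*) [Field k] :
    (coeffMap (Int.castRingHom k)).comp (evJ ℤ) = evJ k :=
  h58_eq_evJ _ (by simp [evJ, coeffMap_jqModC])

theorem h58_coeffMap_comp_evJd (k : Type*) [Field k] (d : ℕ) :
    (coeffMap (Int.castRingHom k)).comp (evJd ℤ d) = evJd k d :=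
  h58_eq_evJd d _ (by simp [evJd, coeffMap_JdC])

/-- integrality over any ring `A → k((q))` containing `J`, from a monic integer relation. -/
theorem h58_isIntegral_of_eval₂ {k : Type*} [Field k] {A : Type*} [CommRing A]
    [Algebra A (LaurentSeries k)] (j : A) (hj : algebraMap A (LaurentSeries k) j = jqModC k)
    (P : Polynomial (Polynomial ℤ)) (hP : P.Monic) (x : LaurentSeries k)
    (h : P.eval₂ (evJ k) x = 0) : IsIntegral A x :=
  ⟨P.map (Polynomial.eval₂RingHom (Int.castRingHom A) j), hP.map _, by
    have hcomp : (algebraMap A (LaurentSeries k)).comp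
        (Polynomial.eval₂RingHom (Int.castRingHom A) j) = evJ k :=
      h58_eq_evJ _ (by simp [hj])
    rw [Polynomial.eval₂_map, hcomp]
    exact h⟩

/-- (B1) over `k`: `J(q^d)` is integral over `k(J)`. -/
theorem h58_isIntegral_JdC {k : Type*} [Field k]
    (hB1 : ∀ d : ℕ, d ≠ 0 → ∃ P : Polynomial (Polynomial ℤ), P.Monic ∧
      P.eval₂ (evJ ℤ) (JdC ℤ d) = 0) (d : ℕ) (hd : d ≠ 0) :
    IsIntegral (IntermediateField.adjoin k {jqModC k}) (JdC k d) := by
  obtain ⟨P, hP, h⟩ := hB1 d hd
  refine h58_isIntegral_of_eval₂ ⟨jqModC k, IntermediateField.mem_adjoin_simple_self k _⟩ rfl P hP _ ?_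
  have := h58_eval₂_transfer (evJ ℤ) (evJ k) (h58_coeffMap_comp_evJ k) P _ h
  rwa [coeffMap_JdC] at this

theorem h58_DeltaSer_inv (k : Type*) [Field k] : (DeltaSer k)⁻¹ = DeltaInv k :=
  inv_eq_of_mul_eq_one_right (DeltaSer_mul_DeltaInv k)

theorem h58_qExpand_DeltaSer_inv (k : Type*) [Field k] (p : ℕ) [NeZero p] :
    (qExpand k p (DeltaSer k))⁻¹ = qExpand k p (DeltaInv k) :=
  inv_eq_of_mul_eq_one_right (by rw [← map_mul, DeltaSer_mul_DeltaInv, map_one])

theorem h58_C_natCast_pow (k : Type*) [Field k] (p n : ℕ) :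
    (HahnSeries.C ((p : k) ^ n) : LaurentSeries k) = (p : LaurentSeries k) ^ n := by
  rw [map_pow, map_natCast]

/-- The prime-level modular equation of Part C over a field `k`, from (A1) over `ℤ`
(the field `exists_modEq` of `PartCLevel`). -/
theorem h58_level_modEq {k : Type*} [Field k] (p : ℕ) [NeZero p]
    (hA1 : ∃ Φ : Polynomial (Polynomial ℤ), Φ.Monic ∧ Φ.natDegree = p + 1 ∧
      Φ.eval₂ (evJ ℤ) (JdC ℤ p) = 0 ∧ Φ.eval₂ (evJd ℤ p) (jqModC ℤ) = 0) :
    ∃ Φ : Polynomial (Polynomial k), Φ.Monic ∧ Φ.natDegree = p + 1 ∧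
      Φ.eval₂ (Polynomial.aeval (jqModC k) : Polynomial k →ₐ[k] LaurentSeries k).toRingHom
        (qExpand k p (jqModC k)) = 0 ∧
      Φ.eval₂ (Polynomial.aeval (qExpand k p (jqModC k)) :
        Polynomial k →ₐ[k] LaurentSeries k).toRingHom (jqModC k) = 0 := by
  obtain ⟨Φ, hΦ, hdeg, h1, h2⟩ := hA1
  refine ⟨Φ.map (Polynomial.mapRingHom (Int.castRingHom k)), hΦ.map _, ?_, ?_, ?_⟩
  · rw [hΦ.natDegree_map, hdeg]
  · have hcomp : ((Polynomial.aeval (jqModC k) : Polynomial k →ₐ[k] LaurentSeries k).toRingHom).comp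
        (Polynomial.mapRingHom (Int.castRingHom k)) = evJ k :=
      h58_eq_evJ _ (by simp)
    rw [Polynomial.eval₂_map, hcomp]
    have := h58_eval₂_transfer (evJ ℤ) (evJ k) (h58_coeffMap_comp_evJ k) Φ _ h1
    rwa [coeffMap_JdC, JdC_of_neZero] at this
  · have hcomp : ((Polynomial.aeval (qExpand k p (jqModC k)) :
        Polynomial k →ₐ[k] LaurentSeries k).toRingHom).comp
        (Polynomial.mapRingHom (Int.castRingHom k)) = evJd k p :=
      h58_eq_evJd p _ (by simp [JdC_of_neZero])
    rw [Polynomial.eval₂_map, hcomp]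
    have := h58_eval₂_transfer (evJd ℤ p) (evJd k p) (h58_coeffMap_comp_evJd k p) Φ _ h2
    rwa [coeffMap_jqModC] at this

/-- Integrality of the modular unit `U = p ^ 12 Δ(q ^ p) / Δ(q)` over `k[J]`, from (A2) over `ℤ`
(the field `isIntegral_unit` of `PartCLevel`). -/
theorem h58_level_unit {k : Type*} [Field k] (p : ℕ) [NeZero p]
    (hA2 : ∃ P : Polynomial (Polynomial ℤ), P.Monic ∧
      P.eval₂ (evJ ℤ) ((p : LaurentSeries ℤ) ^ 12 * (qE ℤ p (DeltaSer ℤ) * DeltaInv ℤ)) = 0) :
    IsIntegral (Algebra.adjoin k {jqModC k})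
      (HahnSeries.C ((p : k) ^ 12) * qExpand k p (DeltaSer k) * (DeltaSer k)⁻¹) := by
  obtain ⟨P, hP, h3⟩ := hA2
  refine h58_isIntegral_of_eval₂ ⟨jqModC k, Algebra.subset_adjoin rfl⟩ rfl P hP _ ?_
  have := h58_eval₂_transfer (evJ ℤ) (evJ k) (h58_coeffMap_comp_evJ k) P _ h3
  rw [map_mul, map_pow, map_natCast, map_mul, coeffMap_qE, coeffMap_DeltaSer,
    coeffMap_DeltaInv, qE_of_neZero] at this
  rw [h58_C_natCast_pow, h58_DeltaSer_inv, mul_assoc]
  exact this

/-- Integrality of the inverse unit `V = p ^ 12 Δ(q) / Δ(q ^ p)` over `k[J]`, from the second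
equation of the old two-equation form of (A2) (not needed after the simplification of Part C;
kept as a spare). -/
theorem h58_level_unit_inv {k : Type*} [Field k] (p : ℕ) [NeZero p]
    (hA2 : ∃ Q : Polynomial (Polynomial ℤ), Q.Monic ∧
      Q.eval₂ (evJ ℤ) ((p : LaurentSeries ℤ) ^ 12 * (DeltaSer ℤ * qE ℤ p (DeltaInv ℤ))) = 0) :
    IsIntegral (Algebra.adjoin k {jqModC k})
      (HahnSeries.C ((p : k) ^ 12) * DeltaSer k * (qExpand k p (DeltaSer k))⁻¹) := by
  obtain ⟨Q, hQ, h4⟩ := hA2
  refine h58_isIntegral_of_eval₂ ⟨jqModC k, Algebra.subset_adjoin rfl⟩ rfl Q hQ _ ?_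
  have := h58_eval₂_transfer (evJ ℤ) (evJ k) (h58_coeffMap_comp_evJ k) Q _ h4
  rw [map_mul, map_pow, map_natCast, map_mul, coeffMap_qE, coeffMap_DeltaSer,
    coeffMap_DeltaInv, qE_of_neZero] at this
  rw [h58_C_natCast_pow, h58_qExpand_DeltaSer_inv, mul_assoc]
  exact this

/-- (A3) over a field `k`. -/
theorem h58_theta_pow_six {k : Type*} [Field k]
    (hA3 : theta (jqModC ℤ) ^ 6 = jqModC ℤ ^ 4 * (jqModC ℤ - 1728) ^ 3 * DeltaSer ℤ) :
    theta (jqModC k) ^ 6 =
      jqModC k ^ 4 * (jqModC k - HahnSeries.C (1728 : k)) ^ 3 * DeltaSer k := by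
  have h := congrArg (coeffMap (Int.castRingHom k)) hA3
  rw [map_pow, coeffMap_theta, coeffMap_jqModC, map_mul, map_mul, map_pow, map_pow, map_sub,
    coeffMap_jqModC, coeffMap_DeltaSer, map_ofNat] at h
  rw [h, map_ofNat]

theorem h58_DeltaSer_coeff_one (k : Type*) [Field k] : (DeltaSer k).coeff 1 = 1 := by
  rw [DeltaSer, HahnSeries.coeff_single_mul, one_mul, sub_self,
    show (0 : ℤ) = ((0 : ℕ) : ℤ) from rfl, HahnSeries.ofPowerSeries_apply_coeff,
    PowerSeries.coeff_map, PowerSeries.coeff_zero_eq_constantCoeff,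
    constantCoeff_dedekindEtaUnit]
  simp

theorem h58_DeltaSer_coeff_of_lt (k : Type*) [Field k] (n : ℤ) (hn : n < 1) :
    (DeltaSer k).coeff n = 0 := by
  rw [DeltaSer, HahnSeries.coeff_single_mul, one_mul]
  exact ofPowerSeries_coeff_of_neg _ (by omega)

/-- The field generated over `k` by the `J(q^d)`, `d ∣ N`, lies in the `k(J)`-span of the
monomials in the `J(q^d)` (as soon as these are integral over `k(J)`). -/
theorem h58_adjoin_le_span {k : Type} [Field k] (N : ℕ) [NeZero N]
    (hint : ∀ d : ℕ, d ≠ 0 → IsIntegral (IntermediateField.adjoin k {jqModC k}) (JdC k d))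
    {x : LaurentSeries k} (hx : x ∈ IntermediateField.adjoin k (partC_divSet (jqModC k) N)) :
    x ∈ Submodule.span (IntermediateField.adjoin k {jqModC k})
      (Submonoid.closure (partC_divSet (jqModC k) N) : Set (LaurentSeries k)) := by
  rw [← Algebra.adjoin_eq_span]
  show x ∈ Algebra.adjoin (IntermediateField.adjoin k {jqModC k}) (partC_divSet (jqModC k) N)
  have hWint : Algebra.IsIntegral (IntermediateField.adjoin k {jqModC k})
      (Algebra.adjoin (IntermediateField.adjoin k {jqModC k}) (partC_divSet (jqModC k) N)) :=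
    Algebra.IsIntegral.adjoin (fun x hx => by
      obtain ⟨d, hd, hdN, rfl⟩ := hx
      have := hint d (NeZero.ne d)
      rwa [JdC_of_neZero] at this)
  have hWfield : IsField
      (Algebra.adjoin (IntermediateField.adjoin k {jqModC k}) (partC_divSet (jqModC k) N)) :=
    isField_of_isIntegral_of_isField' (Field.toIsField (IntermediateField.adjoin k {jqModC k}))
  induction hx using IntermediateField.adjoin_induction with
  | mem x hx => exact Algebra.subset_adjoin hx
  | algebraMap c =>
    rw [IsScalarTower.algebraMap_apply k (IntermediateField.adjoin k {jqModC k}) (LaurentSeries k)]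
    exact Subalgebra.algebraMap_mem _ _
  | add x y _ _ hx hy => exact add_mem hx hy
  | inv x _ hx =>
    by_cases hx0 : x = 0
    · rw [hx0, inv_zero]; exact zero_mem _
    · obtain ⟨y, hy⟩ := hWfield.mul_inv_cancel (a := ⟨x, hx⟩)
        (fun h => hx0 (congrArg Subtype.val h))
      have hxy : x * (y : LaurentSeries k) = 1 := congrArg Subtype.val hy
      rw [inv_eq_of_mul_eq_one_right hxy]
      exact y.2
  | mul x y _ _ hx hy => exact mul_mem hx hy

/-- every monomial in the `J(q^d)`, `d ∣ N`, is the value of an integer polynomial. -/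
theorem h58_exists_mvPolynomial {k : Type} [Field k] (N : ℕ) [NeZero N] {x : LaurentSeries k}
    (hx : x ∈ Submonoid.closure (partC_divSet (jqModC k) N)) :
    ∃ m : MvPolynomial N.divisors ℤ, MvPolynomial.eval₂ (Int.castRingHom (LaurentSeries k))
        (fun d : N.divisors => JdC k d.1) m = x := by
  induction hx using Submonoid.closure_induction with
  | mem x hx =>
    obtain ⟨d, hd, hdN, rfl⟩ := hx
    refine ⟨MvPolynomial.X ⟨d, Nat.mem_divisors.mpr ⟨hdN, NeZero.ne N⟩⟩, ?_⟩
    rw [MvPolynomial.eval₂_X, JdC_of_neZero]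
  | one => exact ⟨1, MvPolynomial.eval₂_one _ _⟩
  | mul x y _ _ hx hy =>
    obtain ⟨a, rfl⟩ := hx
    obtain ⟨b, rfl⟩ := hy
    exact ⟨a * b, MvPolynomial.eval₂_mul _ _⟩

theorem h58_adjoin_simple_le {k : Type} [Field k] (N : ℕ) [NeZero N] :
    IntermediateField.adjoin k {jqModC k} ≤
      IntermediateField.adjoin k (partC_divSet (jqModC k) N) := by
  rw [IntermediateField.adjoin_le_iff]
  rintro x rfl
  refine IntermediateField.subset_adjoin k _ ⟨1, inferInstance, one_dvd N, ?_⟩
  exact (qExpand_one_apply _).symm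

/-- From `relrank ≥ n` to `n` monomials (integer polynomial expressions) in the `J(q^d)`,
linearly independent over `k(J)`. -/
theorem h58_monomials_of_relrank {k : Type} [Field k] (N : ℕ) [NeZero N] (n : ℕ)
    (hint : ∀ d : ℕ, d ≠ 0 → IsIntegral (IntermediateField.adjoin k {jqModC k}) (JdC k d))
    (hrank : (n : Cardinal) ≤ IntermediateField.relrank (IntermediateField.adjoin k {jqModC k})
      (IntermediateField.adjoin k (partC_divSet (jqModC k) N))) :
    ∃ b : Fin n → MvPolynomial N.divisors ℤ,
      LinearIndependent (IntermediateField.adjoin k {jqModC k})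
        (fun i => MvPolynomial.eval₂ (Int.castRingHom (LaurentSeries k))
          (fun d : N.divisors => JdC k d.1) (b i)) := by
  classical
  rw [IntermediateField.relrank_eq_rank_of_le (h58_adjoin_simple_le N)] at hrank
  have h1 : Module.rank (IntermediateField.adjoin k {jqModC k})
        ↥(extendScalars (h58_adjoin_simple_le (k := k) N)) ≤
      Module.rank (IntermediateField.adjoin k {jqModC k})
        ↥(Submodule.span (IntermediateField.adjoin k {jqModC k})
          (Submonoid.closure (partC_divSet (jqModC k) N) : Set (LaurentSeries k))) :=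
    Submodule.rank_mono
      (s := (extendScalars (h58_adjoin_simple_le (k := k) N)).toSubalgebra.toSubmodule)
      (fun x hx => h58_adjoin_le_span N hint hx)
  obtain ⟨s, hsM, hspan, hli⟩ := exists_linearIndependent (IntermediateField.adjoin k {jqModC k})
    (Submonoid.closure (partC_divSet (jqModC k) N) : Set (LaurentSeries k))
  have h2 : Module.rank (IntermediateField.adjoin k {jqModC k})
      ↥(Submodule.span (IntermediateField.adjoin k {jqModC k})
        (Submonoid.closure (partC_divSet (jqModC k) N) : Set (LaurentSeries k))) = Cardinal.mk s := by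
    rw [← hspan]
    exact rank_span_set hli
  have h3 : Cardinal.mk (Fin n) ≤ Cardinal.mk s := by
    rw [Cardinal.mk_fin]
    exact hrank.trans (h1.trans h2.le)
  obtain ⟨f⟩ := (Cardinal.le_def _ _).mp h3
  have hev : ∀ x ∈ Submonoid.closure (partC_divSet (jqModC k) N),
      ∃ m : MvPolynomial N.divisors ℤ, MvPolynomial.eval₂ (Int.castRingHom (LaurentSeries k))
          (fun d : N.divisors => JdC k d.1) m = x := fun x hx => h58_exists_mvPolynomial N hx
  choose! m hm using hev
  refine ⟨fun i => m ((f i : s) : LaurentSeries k), ?_⟩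
  have hfun : (fun i => MvPolynomial.eval₂ (Int.castRingHom (LaurentSeries k))
      (fun d : N.divisors => JdC k d.1) (m ((f i : s) : LaurentSeries k))) =
      (fun i => ((f i : s) : LaurentSeries k)) := funext fun i => hm _ (hsM (f i).2)
  rw [hfun]
  exact hli.comp f f.injective

/-- The bridge: from (B1) and the conclusion of `partC_igusa` over `k = 𝔽̄_ℓ` to the frozen
statement `exists_independent`. -/
theorem h58_exists_independent_of_relrank (ℓ : ℕ) [Fact ℓ.Prime] (N : ℕ) [NeZero N]
    (hB1 : ∀ d : ℕ, d ≠ 0 → ∃ P : Polynomial (Polynomial ℤ), P.Monic ∧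
      P.eval₂ (evJ ℤ) (JdC ℤ d) = 0)
    (hrank : (dedekindPsi N : Cardinal) ≤ IntermediateField.relrank
      (IntermediateField.adjoin (AlgebraicClosure (ZMod ℓ)) {jqModC (AlgebraicClosure (ZMod ℓ))})
      (IntermediateField.adjoin (AlgebraicClosure (ZMod ℓ))
        (partC_divSet (jqModC (AlgebraicClosure (ZMod ℓ))) N))) :
    ∃ b : Fin (dedekindPsi N) → MvPolynomial N.divisors ℤ,
      LinearIndependent (IntermediateField.adjoin (ZMod ℓ) {jqModC (ZMod ℓ)})
        (fun i => MvPolynomial.eval₂ (Int.castRingHom (LaurentSeries (ZMod ℓ)))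
          (fun d : N.divisors => JdC (ZMod ℓ) d.1) (b i)) := by
  obtain ⟨b, hb⟩ := h58_monomials_of_relrank (k := AlgebraicClosure (ZMod ℓ)) N (dedekindPsi N)
    (fun d hd => h58_isIntegral_JdC hB1 d hd) hrank
  refine ⟨b, h58_descent (algebraMap (ZMod ℓ) (AlgebraicClosure (ZMod ℓ))) _ ?_⟩
  convert hb using 2 with i
  rw [MvPolynomial.eval₂_comp_left]
  congr 1
  · exact Subsingleton.elim _ _
  · funext d
    exact coeffMap_JdC _ _

end

end Fermat.Agent.S28
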