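import Fermat.Agent.S28.Defs

/-!
# S28, Part B1 (helper56): `J(q^d)` is integral over `ℤ[J]`

From the modular equations of prime level (A1, taken as a hypothesis), by induction on the
prime factorisation of `d` and transitivity of integrality.
-/

set_option autoImplicit false

open ModularCurve Polynomial

namespace Fermat.Agent.S28

noncomputable section

/-- `q ↦ q^a` turns the evaluation at `J` into the evaluation at `J(q^a)`. -/
theorem h56_qE_comp_evJ (a : ℕ) : (qE ℤ a).comp (evJ ℤ) = evJd ℤ a := by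
  apply Polynomial.ringHom_ext
  · intro n
    simp [evJ, evJd]
  · simp [evJ, evJd, JdC]

theorem h56_qE_JdC {a b : ℕ} (ha : a ≠ 0) (hb : b ≠ 0) : qE ℤ a (JdC ℤ b) = JdC ℤ (a * b) := by
  unfold JdC
  exact qE_qE ℤ ha hb _

/-- Transitivity: if `y` is integral over `ℤ[J]` and `x` is a root of a monic polynomial with
coefficients in `ℤ[y]`, then `x` is integral over `ℤ[J]`. -/
theorem h56_isIntegralElem_trans (y x : LaurentSeries ℤ) (hy : (evJ ℤ).IsIntegralElem y)
    (P : Polynomial (Polynomial ℤ)) (hP : P.Monic)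
    (hx : P.eval₂ (Polynomial.eval₂RingHom (Int.castRingHom (LaurentSeries ℤ)) y) x = 0) :
    (evJ ℤ).IsIntegralElem x := by
  let _ : Algebra (Polynomial ℤ) (LaurentSeries ℤ) := (evJ ℤ).toAlgebra
  have hyIC : y ∈ integralClosure (Polynomial ℤ) (LaurentSeries ℤ) := hy
  have hmem : ∀ f : Polynomial ℤ,
      Polynomial.eval₂RingHom (Int.castRingHom (LaurentSeries ℤ)) y f ∈
        (integralClosure (Polynomial ℤ) (LaurentSeries ℤ)).toSubring := by
    intro f
    rw [Polynomial.coe_eval₂RingHom, Polynomial.eval₂_eq_sum_range]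
    refine Subring.sum_mem _ fun i _ => Subring.mul_mem _ ?_ (Subring.pow_mem _ hyIC _)
    exact intCast_mem _ _
  let φ : Polynomial ℤ →+* ↥(integralClosure (Polynomial ℤ) (LaurentSeries ℤ)) :=
    RingHom.codRestrict _ (integralClosure (Polynomial ℤ) (LaurentSeries ℤ)).toSubring hmem
  have hxIC : IsIntegral ↥(integralClosure (Polynomial ℤ) (LaurentSeries ℤ)) x := by
    refine ⟨P.map φ, hP.map φ, ?_⟩
    rw [Polynomial.eval₂_map]
    exact hx
  exact isIntegral_trans x hxIC

/-- (B1) from (A1): `J(q^d)` is integral over `ℤ[J]` for every `d ≠ 0`. -/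
theorem exists_monic_JdC_of_modEq
    (hA1 : ∀ p : ℕ, p.Prime →
      ∃ Φ : Polynomial (Polynomial ℤ), Φ.Monic ∧ Φ.eval₂ (evJ ℤ) (JdC ℤ p) = 0)
    (d : ℕ) (hd : d ≠ 0) :
    ∃ P : Polynomial (Polynomial ℤ), P.Monic ∧ P.eval₂ (evJ ℤ) (JdC ℤ d) = 0 := by
  induction d using Nat.recOnMul with
  | zero => exact absurd rfl hd
  | one => exact ⟨X - C X, monic_X_sub_C _, by simp [JdC_one, evJ]⟩
  | prime p hp => exact hA1 p hp
  | mul a b iha ihb =>
    have ha : a ≠ 0 := left_ne_zero_of_mul hd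
    have hb : b ≠ 0 := right_ne_zero_of_mul hd
    obtain ⟨Pb, hPb, hPb0⟩ := ihb hb
    have h := congrArg (qE ℤ a) hPb0
    rw [Polynomial.hom_eval₂, map_zero, h56_qE_comp_evJ, h56_qE_JdC ha hb] at h
    exact h56_isIntegralElem_trans (JdC ℤ a) _ (iha ha) Pb hPb h

end

end Fermat.Agent.S28
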