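import Fermat.Agent.S24.Infinity
import Fermat.Agent.S24.ModIntegral
import Fermat.Prelude.Def_ModularCurve_X0ModL

/-!
# S28, Part A core (helper93): invariant functions with integral expansions

* `h93_inv_poly`: a holomorphic `SL(2,ℤ)`-invariant function on `ℍ` having an expansion in
  `w = e^{2πiτ/N}` with coefficients in a subring `A ⊆ ℂ` is a polynomial in Klein's `j` with
  coefficients in `A` (and the expansion is the corresponding polynomial in the formal `j`).
* `h93_family`: for a finite family of functions permuted by `SL(2,ℤ)`, with expansions over `A`,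
  the polynomial `∏ (X - L i)` has coefficients which are `A`-polynomials in the formal `j`.
-/

set_option autoImplicit false

open ModularCurve MatrixGroups UpperHalfPlane ModularForm
open Fermat.Agent.S24
open scoped Manifold

namespace Fermat.Agent.S28

variable {N : ℕ} [NeZero N]

/-- The expansion of `kleinJ` at level `N`, with universal coefficients. -/
theorem h93_hasWExp_kleinJ : HasWExp N kleinJ (qExpand ℂ N (jqModC ℂ)) := by
  have h := wpA4c_hasWExp_kleinJ (N := N)
  have e : coeffMap phi (qExpand Kbar N (coeffEmb Kbar jq)) = qExpand ℂ N (jqModC ℂ) := by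
    rw [coeffMap_qExpand, coeffEmb, coeffMap_coeffMap, ← jqModC_rat, coeffMap_jqModC]
  rwa [e] at h

omit [NeZero N] in
theorem h93_coeffMap_injective {R S : Type*} [CommRing R] [CommRing S] (f : R →+* S)
    (hf : Function.Injective f) : Function.Injective (coeffMap f) := by
  intro x y hxy
  ext n
  apply hf
  have := congrArg (fun z : LaurentSeries S => z.coeff n) hxy
  simpa using this

omit [NeZero N] in
theorem h93_coeffMap_C {R S : Type*} [CommRing R] [CommRing S] (f : R →+* S) (a : R) :
    coeffMap f (HahnSeries.C a) = HahnSeries.C (f a) := by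
  rw [HahnSeries.C_apply, HahnSeries.C_apply, coeffMap_single]

omit [NeZero N] in
theorem h93_algebraMap_eq_C (R : Type*) [CommRing R] (c : R) :
    algebraMap R (LaurentSeries R) c = HahnSeries.C c := by
  have h1 : algebraMap R (PowerSeries R) c = PowerSeries.C c := by simp
  rw [HahnSeries.algebraMap_apply', h1, HahnSeries.ofPowerSeries_C]

theorem h93_jpow_coeff_self (R : Type*) [CommRing R] (M : ℕ) :
    ((qExpand R N (jqModC R)) ^ M).coeff (-((N : ℤ) * M)) = 1 := by
  rw [← map_pow, show -((N : ℤ) * M) = (N : ℤ) * (-(M : ℤ)) by ring, qExpand_coeff_mul,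
    coeff_jqModC_pow_self]

theorem h93_jpow_coeff_of_lt (R : Type*) [CommRing R] (M : ℕ) {k : ℤ}
    (hk : k < -((N : ℤ) * M)) : ((qExpand R N (jqModC R)) ^ M).coeff k = 0 := by
  rw [← map_pow]
  by_cases hdvd : (N : ℤ) ∣ k
  · obtain ⟨k', rfl⟩ := hdvd
    have hN : (0 : ℤ) < N := by exact_mod_cast Nat.pos_of_ne_zero (NeZero.ne N)
    have hk' : k' < -(M : ℤ) := by nlinarith
    rw [qExpand_coeff_mul, coeff_jqModC_pow_of_lt _ hk']
  · exact qExpand_coeff_of_not_dvd N _ hdvd

/-- Core induction: an invariant function whose expansion has coefficients in the image of an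
injective ring homomorphism `φ : R →+* ℂ` is an `R`-polynomial in `kleinJ`. -/
theorem h93_inv_aux {R : Type*} [CommRing R] (φ : R →+* ℂ) (hφ : Function.Injective φ)
    (M : ℕ) : ∀ f : ℍ → ℂ,
    (∀ g : SL(2, ℤ), actFn g f = f) → ∀ L : LaurentSeries R,
    HasWExp N f (coeffMap φ L) → (∀ n : ℤ, n < -(M : ℤ) → L.coeff n = 0) →
    ∃ P : Polynomial R, L = qExpand R N (Polynomial.aeval (jqModC R) P) ∧
      ∀ τ : ℍ, f τ = P.eval₂ φ (kleinJ τ) := by
  induction M with
  | zero =>
    intro f hinv L hL hcoeff
    have ht := hL.tendsto (by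
      intro n hn
      rw [coeffMap_coeff, hcoeff n (by simpa using hn), map_zero])
    rw [coeffMap_coeff] at ht
    have hconst := wpA4c_const_of_invariant hL.mdiff hinv ht
    refine ⟨Polynomial.C (L.coeff 0), ?_, ?_⟩
    · have h1 : HasWExp N f (HahnSeries.C (φ (L.coeff 0))) := by
        rw [hconst]
        exact hasWExp_const N _
      have h2 : coeffMap φ L = coeffMap φ (HahnSeries.C (L.coeff 0)) := by
        rw [h93_coeffMap_C]
        exact hL.unique h1
      have h3 := h93_coeffMap_injective φ hφ h2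
      rw [Polynomial.aeval_C, h93_algebraMap_eq_C, qExpand_C]
      exact h3
    · intro τ
      rw [Polynomial.eval₂_C, hconst]
  | succ M ih =>
    intro f hinv L hL hcoeff
    by_cases hc : L.coeff (-((M : ℤ) + 1)) = 0
    · apply ih f hinv L hL
      intro n hn
      rcases lt_or_eq_of_le (show n ≤ -((M : ℤ) + 1) by omega) with h | h
      · exact hcoeff n (by push_cast; omega)
      · rw [h]; exact hc
    · have h1 := hL.twist 1
      rw [pow_one, hinv] at h1
      have h2 : twistL N 1 (coeffMap φ L) = coeffMap φ L := h1.unique hL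
      have h3 : (N : ℤ) ∣ ((1 : ℕ) : ℤ) * (-((M : ℤ) + 1)) :=
        wpA4c_dvd_of_twistL_eq h2 (by
          rw [coeffMap_coeff]
          exact fun h => hc (hφ (by simpa using h)))
      obtain ⟨e, he⟩ := h3
      have hNpos : (0 : ℤ) < N := by exact_mod_cast Nat.pos_of_ne_zero (NeZero.ne N)
      have he0 : e < 0 := by
        by_contra hcon
        have : 0 ≤ (N : ℤ) * e := mul_nonneg hNpos.le (not_lt.1 hcon)
        push_cast at he
        omega
      obtain ⟨M', hM'⟩ : ∃ M' : ℕ, (M' : ℤ) = -e := ⟨(-e).toNat, Int.toNat_of_nonneg (by omega)⟩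
      have hNM : (N : ℤ) * M' = (M : ℤ) + 1 := by
        rw [hM']
        push_cast at he
        linarith
      set c : R := L.coeff (-((M : ℤ) + 1)) with hcdef
      set f' : ℍ → ℂ := f + (fun _ : ℍ => -(φ c)) * kleinJ ^ M' with hf'
      set L' : LaurentSeries R := L + HahnSeries.C (-c) * (qExpand R N (jqModC R)) ^ M' with hL'def
      have hinv' : ∀ g : SL(2, ℤ), actFn g f' = f' := by
        intro g
        funext τ
        have e1 := congrFun (hinv g) τ
        have e2 := congrFun (wpA4c_actFn_kleinJ g) τ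
        simp only [hf', actFn_apply, Pi.add_apply, Pi.mul_apply, Pi.pow_apply] at e1 e2 ⊢
        rw [e1, e2]
      have hL' : HasWExp N f' (coeffMap φ L') := by
        have e : coeffMap φ L' = coeffMap φ L +
            HahnSeries.C (-(φ c)) * (qExpand ℂ N (jqModC ℂ)) ^ M' := by
          rw [hL'def, map_add, map_mul, map_pow, coeffMap_qExpand, coeffMap_jqModC, h93_coeffMap_C,
            map_neg]
        rw [e]
        exact hL.add ((hasWExp_const N (-(φ c))).mul (wpA4c_hasWExp_pow h93_hasWExp_kleinJ M'))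
      have hcoeff' : ∀ n : ℤ, n < -(M : ℤ) → L'.coeff n = 0 := by
        intro n hn
        rw [hL'def, HahnSeries.coeff_add, HahnSeries.C_mul_eq_smul, HahnSeries.coeff_smul,
          smul_eq_mul]
        rcases lt_or_eq_of_le (show n ≤ -((M : ℤ) + 1) by omega) with h | h
        · rw [hcoeff n (by push_cast; omega), h93_jpow_coeff_of_lt R M' (by rw [hNM]; exact h)]
          simp
        · have h' : n = -((N : ℤ) * M') := by rw [hNM]; exact h
          rw [h', h93_jpow_coeff_self, ← hNM] at *
          rw [hcdef]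
          ring
      obtain ⟨P', hP'L, hP'f⟩ := ih f' hinv' L' hL' hcoeff'
      refine ⟨P' + Polynomial.C c * Polynomial.X ^ M', ?_, ?_⟩
      · have : L = L' + HahnSeries.C c * (qExpand R N (jqModC R)) ^ M' := by
          rw [hL'def, map_neg]
          ring
        rw [this, hP'L, map_add, map_add, map_mul, map_mul, Polynomial.aeval_C, map_pow, map_pow,
          Polynomial.aeval_X, h93_algebraMap_eq_C, qExpand_C]
      · intro τ
        have h5 := hP'f τ
        simp only [hf', Pi.add_apply, Pi.mul_apply, Pi.pow_apply] at h5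
        rw [Polynomial.eval₂_add, Polynomial.eval₂_mul, Polynomial.eval₂_C, Polynomial.eval₂_pow,
          Polynomial.eval₂_X, ← h5]
        ring

/-- An `SL(2,ℤ)`-invariant function whose expansion has coefficients in the image of an
injective `φ : R →+* ℂ` is an `R`-polynomial in `j`. -/
theorem h93_inv_poly {R : Type*} [CommRing R] (φ : R →+* ℂ) (hφ : Function.Injective φ)
    (f : ℍ → ℂ) (hinv : ∀ g : SL(2, ℤ), actFn g f = f)
    (L : LaurentSeries R) (hL : HasWExp N f (coeffMap φ L)) :
    ∃ P : Polynomial R, L = qExpand R N (Polynomial.aeval (jqModC R) P) ∧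
      ∀ τ : ℍ, f τ = P.eval₂ φ (kleinJ τ) := by
  by_cases hL0 : L = 0
  · refine h93_inv_aux (N := N) φ hφ 0 f hinv L hL ?_
    intro n _
    rw [hL0]
    rfl
  · obtain ⟨M, hM⟩ : ∃ M : ℕ, -(M : ℤ) ≤ L.order :=
      ⟨(-L.order).toNat, by have := Int.self_le_toNat (-L.order); omega⟩
    exact h93_inv_aux φ hφ M f hinv L hL
      (fun n hn => HahnSeries.coeff_eq_zero_of_lt_order (lt_of_lt_of_le hn hM))

/-! ### Families of conjugates -/

/-- The relation `HasWExp N` as a subring of `(ℍ → ℂ) × ℂ((w))`. -/
def h93_relSubring (N : ℕ) [NeZero N] : Subring ((ℍ → ℂ) × LaurentSeries ℂ) where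
  carrier := {x | HasWExp N x.1 x.2}
  mul_mem' := fun ha hb => ha.mul hb
  one_mem' := by
    have h := hasWExp_const N (1 : ℂ)
    rw [map_one] at h
    exact h
  add_mem' := fun ha hb => ha.add hb
  zero_mem' := by
    have h := hasWExp_const N (0 : ℂ)
    rw [map_zero] at h
    exact h
  neg_mem' := by
    intro x hx
    have h := (hasWExp_const N (-1 : ℂ)).mul hx
    have e1 : (fun _ : ℍ => (-1 : ℂ)) * x.1 = (-x).1 := by
      funext τ
      simp
    have e2 : HahnSeries.C (-1 : ℂ) * x.2 = (-x).2 := by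
      rw [map_neg, map_one]
      simp
    rw [e1, e2] at h
    exact h

theorem h93_mem_relSubring {x : (ℍ → ℂ) × LaurentSeries ℂ} :
    x ∈ h93_relSubring N ↔ HasWExp N x.1 x.2 := Iff.rfl

/-- For a finite family of functions with expansions, the coefficients of `∏ (X - F i)` have
the coefficients of `∏ (X - L i)` as expansions. -/
theorem h93_family_hasWExp {ι : Type*} [Fintype ι] (F : ι → ℍ → ℂ)
    (L : ι → LaurentSeries ℂ) (hL : ∀ i, HasWExp N (F i) (L i)) (k : ℕ) :
    HasWExp N ((∏ i, (Polynomial.X - Polynomial.C (F i)) : Polynomial (ℍ → ℂ)).coeff k)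
      ((∏ i, (Polynomial.X - Polynomial.C (L i)) : Polynomial (LaurentSeries ℂ)).coeff k) := by
  classical
  let S := h93_relSubring N
  let Q : Polynomial S := ∏ i, (Polynomial.X - Polynomial.C (⟨(F i, L i), hL i⟩ : S))
  have h1 : Q.map ((RingHom.fst (ℍ → ℂ) (LaurentSeries ℂ)).comp S.subtype) =
      ∏ i, (Polynomial.X - Polynomial.C (F i)) := by
    simp only [Q, Polynomial.map_prod, Polynomial.map_sub, Polynomial.map_X, Polynomial.map_C]
    rfl
  have h2 : Q.map ((RingHom.snd (ℍ → ℂ) (LaurentSeries ℂ)).comp S.subtype) =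
      ∏ i, (Polynomial.X - Polynomial.C (L i)) := by
    simp only [Q, Polynomial.map_prod, Polynomial.map_sub, Polynomial.map_X, Polynomial.map_C]
    rfl
  have h3 := (Q.coeff k).2
  rw [h93_mem_relSubring] at h3
  have e1 : ((Q.coeff k : S) : (ℍ → ℂ) × LaurentSeries ℂ).1 =
      (∏ i, (Polynomial.X - Polynomial.C (F i)) : Polynomial (ℍ → ℂ)).coeff k := by
    rw [← h1, Polynomial.coeff_map]
    rfl
  have e2 : ((Q.coeff k : S) : (ℍ → ℂ) × LaurentSeries ℂ).2 =
      (∏ i, (Polynomial.X - Polynomial.C (L i)) : Polynomial (LaurentSeries ℂ)).coeff k := by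
    rw [← h2, Polynomial.coeff_map]
    rfl
  rw [e1, e2] at h3
  exact h3

omit [NeZero N] in
/-- For a finite family of functions permuted by `SL(2,ℤ)`, the coefficients of `∏ (X - F i)`
are invariant. -/
theorem h93_family_inv {ι : Type*} [Fintype ι] (F : ι → ℍ → ℂ)
    (hperm : ∀ g : SL(2, ℤ), ∃ σ : Equiv.Perm ι, ∀ i, actFn g (F i) = F (σ i))
    (g : SL(2, ℤ)) (k : ℕ) :
    actFn g ((∏ i, (Polynomial.X - Polynomial.C (F i)) : Polynomial (ℍ → ℂ)).coeff k) =
      (∏ i, (Polynomial.X - Polynomial.C (F i)) : Polynomial (ℍ → ℂ)).coeff k := by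
  classical
  obtain ⟨σ, hσ⟩ := hperm g
  have hmap : (∏ i, (Polynomial.X - Polynomial.C (F i)) : Polynomial (ℍ → ℂ)).map
      (wpA5b2_actHom g) = ∏ i, (Polynomial.X - Polynomial.C (F i)) := by
    simp only [Polynomial.map_prod, Polynomial.map_sub, Polynomial.map_X, Polynomial.map_C]
    have : ∀ i, (wpA5b2_actHom g) (F i) = F (σ i) := hσ
    simp only [this]
    exact Equiv.prod_comp σ (fun i => Polynomial.X - Polynomial.C (F i))
  have := congrArg (fun P => Polynomial.coeff P k) hmap
  simp only [Polynomial.coeff_map] at this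
  exact this

/-- **Family theorem.** For a finite family of functions on `ℍ` permuted by `SL(2,ℤ)`, with
expansions `L i`, such that the coefficients of `∏ (X - L i)` have coefficients in the image of
an injective `φ : R →+* ℂ`: the polynomial `∏ (X - L i)` is the image of a monic polynomial over
`R[Y]` under `Y ↦ j(w^N)`. -/
theorem h93_family {R : Type*} [CommRing R] (φ : R →+* ℂ) (hφ : Function.Injective φ)
    {ι : Type*} [Fintype ι] (F : ι → ℍ → ℂ)
    (L : ι → LaurentSeries ℂ) (hL : ∀ i, HasWExp N (F i) (L i))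
    (hperm : ∀ g : SL(2, ℤ), ∃ σ : Equiv.Perm ι, ∀ i, actFn g (F i) = F (σ i))
    (hint : ∀ k : ℕ, ∃ M : LaurentSeries R, coeffMap φ M =
      (∏ i, (Polynomial.X - Polynomial.C (L i)) : Polynomial (LaurentSeries ℂ)).coeff k) :
    ∃ Φ : Polynomial (Polynomial R), Φ.Monic ∧ Φ.natDegree = Fintype.card ι ∧
      Φ.map ((coeffMap φ).comp ((qExpand R N).comp (Polynomial.aeval (jqModC R)).toRingHom)) =
        ∏ i, (Polynomial.X - Polynomial.C (L i)) := by
  classical
  haveI : Nontrivial R := RingHom.domain_nontrivial φ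
  set ΨL : Polynomial (LaurentSeries ℂ) := ∏ i, (Polynomial.X - Polynomial.C (L i)) with hΨL
  choose M hM using hint
  have step3 : ∀ k, ∃ P : Polynomial R, M k = qExpand R N (Polynomial.aeval (jqModC R) P) := by
    intro k
    obtain ⟨P, hP, -⟩ := h93_inv_poly (N := N) φ hφ _ (fun g => h93_family_inv F hperm g k) (M k)
      (by rw [hM k]; exact h93_family_hasWExp F L hL k)
    exact ⟨P, hP⟩
  choose P hP using step3
  set n := Fintype.card ι with hn
  have hmonL : ΨL.Monic := Polynomial.monic_prod_of_monic _ _ fun i _ => Polynomial.monic_X_sub_C _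
  have hdegL : ΨL.natDegree = n := by
    rw [hΨL, Polynomial.natDegree_prod_of_monic _ _ fun i _ => Polynomial.monic_X_sub_C _]
    simp [hn]
  set Rm : Polynomial (Polynomial R) :=
    ∑ k ∈ Finset.range n, Polynomial.C (P k) * Polynomial.X ^ k with hR
  have hRdeg : Rm.degree < (n : WithBot ℕ) := by
    refine (Polynomial.degree_sum_le _ _).trans_lt ?_
    refine (Finset.sup_lt_iff (WithBot.bot_lt_coe n)).2 ?_
    intro k hk
    exact (Polynomial.degree_C_mul_X_pow_le k (P k)).trans_lt
      (WithBot.coe_lt_coe.2 (Finset.mem_range.1 hk))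
  have hnat : (Polynomial.X ^ n + Rm : Polynomial (Polynomial R)).natDegree = n := by
    rw [Polynomial.natDegree_add_eq_left_of_degree_lt (by rw [Polynomial.degree_X_pow]; exact hRdeg),
      Polynomial.natDegree_X_pow]
  refine ⟨Polynomial.X ^ n + Rm, Polynomial.monic_X_pow_add hRdeg, hnat, ?_⟩
  have hsum : Rm.map ((coeffMap φ).comp ((qExpand R N).comp
      (Polynomial.aeval (jqModC R)).toRingHom)) =
      ∑ k ∈ Finset.range n, Polynomial.C (ΨL.coeff k) * Polynomial.X ^ k := by
    rw [hR, Polynomial.map_sum]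
    refine Finset.sum_congr rfl fun k _ => ?_
    rw [Polynomial.map_mul, Polynomial.map_pow, Polynomial.map_X, Polynomial.map_C, ← hM k, hP k]
    rfl
  have h1 := hmonL.as_sum
  rw [hdegL] at h1
  rw [Polynomial.map_add, Polynomial.map_pow, Polynomial.map_X, hsum]
  exact h1.symm

end Fermat.Agent.S28
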