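import Fermat.Agent.S28.Defs
import Fermat.Agent.S23.Helper47Aut

/-!
S28, Part A1 (pure algebra): the coefficients of the polynomial
`(X - J(w^(p^2))) * ∏_b (X - J(ζ^b w))` over `ℂ((w))` are Laurent series with integer coefficients
(descent from `ℤ[ζ]` to `ℤ`: integral and fixed by every ring endomorphism of `ℂ`).
-/

set_option autoImplicit false

open ModularCurve

namespace Fermat.Agent.S28

noncomputable section

/-- A complex Laurent series all of whose coefficients are integers comes from `ℤ((q))`. -/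
theorem h82_exists_int_series (f : LaurentSeries ℂ) (h : ∀ n, ∃ z : ℤ, (z : ℂ) = f.coeff n) :
    ∃ M : LaurentSeries ℤ, coeffMap (Int.castRingHom ℂ) M = f := by
  choose z hz using h
  refine ⟨⟨z, f.isPWO_support.mono fun n hn => ?_⟩, ?_⟩
  · simp only [Function.mem_support, ne_eq] at hn
    rw [HahnSeries.mem_support]
    intro h0
    apply hn
    have h1 := hz n
    rw [h0] at h1
    exact_mod_cast h1
  · ext n
    rw [coeffMap_coeff]
    exact hz n

/-- The polynomial `(X - J(q^(p^2))) * ∏_b (X - J(ζ^b q))` over `R((q))`. -/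
def h82_Phi (R : Type*) [CommRing R] (p : ℕ) [NeZero p] (ζ : Rˣ) : Polynomial (LaurentSeries R) :=
  (Polynomial.X - Polynomial.C (qExpand R p (qExpand R p (jqModC R)))) *
    ∏ b : Fin p, (Polynomial.X - Polynomial.C (twist (ζ ^ (b : ℕ)) (jqModC R)))

theorem h82_Phi_map {R S : Type*} [CommRing R] [CommRing S] (φ : R →+* S) (p : ℕ) [NeZero p]
    (ζ : Rˣ) :
    (h82_Phi R p ζ).map (coeffMap φ) = h82_Phi S p (Units.map (φ : R →* S) ζ) := by
  unfold h82_Phi
  rw [Polynomial.map_mul, Polynomial.map_sub, Polynomial.map_X, Polynomial.map_C,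
    Polynomial.map_prod, coeffMap_qExpand, coeffMap_qExpand, coeffMap_jqModC]
  congr 1
  refine Finset.prod_congr rfl fun b _ => ?_
  rw [Polynomial.map_sub, Polynomial.map_X, Polynomial.map_C, coeffMap_twist, coeffMap_jqModC,
    map_pow]

theorem h82_prod_pow_coprime {M G : Type*} [CommMonoid M] [Group G] (p : ℕ) [NeZero p] (ζ : G)
    (hζ : ζ ^ p = 1) (c : ℕ) (hc : Nat.Coprime c p) (g : G → M) :
    ∏ b : Fin p, g ((ζ ^ c) ^ (b : ℕ)) = ∏ b : Fin p, g (ζ ^ (b : ℕ)) := by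
  have hinj : Function.Injective
      (fun b : Fin p => (⟨(c * b) % p, Nat.mod_lt _ (NeZero.pos p)⟩ : Fin p)) := by
    intro a b hab
    simp only [Fin.mk.injEq] at hab
    have h1 : c * a ≡ c * b [MOD p] := hab
    have h2 : (a : ℕ) ≡ b [MOD p] :=
      Nat.ModEq.cancel_left_of_coprime (by rwa [Nat.coprime_comm] at hc) h1
    exact Fin.ext (Nat.ModEq.eq_of_lt_of_lt h2 a.2 b.2)
  refine Fintype.prod_equiv (Equiv.ofBijective _ (Finite.injective_iff_bijective.mp hinj)) _ _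
    fun b => ?_
  congr 1
  rw [Equiv.ofBijective_apply, ← pow_mul]
  exact pow_eq_pow_mod _ hζ

theorem h82_Phi_pow_coprime {R : Type*} [CommRing R] (p : ℕ) [NeZero p] (ζ : Rˣ)
    (hζ : ζ ^ p = 1) (c : ℕ) (hc : Nat.Coprime c p) :
    h82_Phi R p (ζ ^ c) = h82_Phi R p ζ := by
  unfold h82_Phi
  congr 1
  exact h82_prod_pow_coprime p ζ hζ c hc
    (fun μ => (Polynomial.X - Polynomial.C (twist μ (jqModC R)) : Polynomial (LaurentSeries R)))

/-- The polynomial is fixed by every ring endomorphism of `ℂ`. -/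
theorem h82_Phi_fixed (p : ℕ) [NeZero p] (ζ : ℂˣ) (hζ : IsPrimitiveRoot ζ p) (σ : ℂ →+* ℂ) :
    (h82_Phi ℂ p ζ).map (coeffMap σ) = h82_Phi ℂ p ζ := by
  rw [h82_Phi_map]
  have hζ' : IsPrimitiveRoot (ζ : ℂ) p := IsPrimitiveRoot.coe_units_iff.mpr hζ
  have hσ : IsPrimitiveRoot (σ (ζ : ℂ)) p := hζ'.map_of_injective σ.injective
  obtain ⟨c, -, hc⟩ := hζ'.eq_pow_of_pow_eq_one hσ.pow_eq_one
  have hcop : c.Coprime p := by
    rw [← hζ'.pow_iff_coprime (NeZero.pos p)]
    rwa [hc]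
  have hu : Units.map (σ : ℂ →* ℂ) ζ = ζ ^ c := by
    apply Units.ext
    rw [Units.coe_map, Units.val_pow_eq_pow_val, hc]
    rfl
  rw [hu]
  exact h82_Phi_pow_coprime p ζ hζ.pow_eq_one c hcop

/-- The ring of algebraic integers of `ℂ`. -/
abbrev h82_Abar : Subring ℂ := (integralClosure ℤ ℂ).toSubring

/-- Every coefficient of every coefficient of the polynomial is an algebraic integer. -/
theorem h82_Phi_integral (p : ℕ) [NeZero p] (ζ : ℂˣ) (hζ : IsPrimitiveRoot ζ p) (k : ℕ) (n : ℤ) :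
    IsIntegral ℤ (((h82_Phi ℂ p ζ).coeff k).coeff n) := by
  have hζ' : IsPrimitiveRoot (ζ : ℂ) p := IsPrimitiveRoot.coe_units_iff.mpr hζ
  have h1 : IsIntegral ℤ (ζ : ℂ) := hζ'.isIntegral (NeZero.pos p)
  have h2 : IsIntegral ℤ ((ζ⁻¹ : ℂˣ) : ℂ) := by
    have h3 : ((ζ⁻¹ : ℂˣ) : ℂ) = (ζ : ℂ) ^ (p - 1) := by
      have h4 : (ζ : ℂ) * (ζ : ℂ) ^ (p - 1) = 1 := by
        rw [← pow_succ', Nat.sub_add_cancel (NeZero.pos p)]
        exact hζ'.pow_eq_one
      rw [Units.val_inv_eq_inv_val]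
      exact inv_eq_of_mul_eq_one_right h4
    rw [h3]
    exact h1.pow _
  let ζ0 : (h82_Abar)ˣ :=
    ⟨⟨(ζ : ℂ), h1⟩, ⟨((ζ⁻¹ : ℂˣ) : ℂ), h2⟩, Subtype.ext (by simp), Subtype.ext (by simp)⟩
  have hmap : Units.map ((h82_Abar).subtype : h82_Abar →* ℂ) ζ0 = ζ := Units.ext rfl
  have h5 : h82_Phi ℂ p ζ = (h82_Phi h82_Abar p ζ0).map (coeffMap (h82_Abar).subtype) := by
    rw [h82_Phi_map, hmap]
  rw [h5, Polynomial.coeff_map, coeffMap_coeff]
  exact (((h82_Phi h82_Abar p ζ0).coeff k).coeff n).2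

/-- **Descent for the modular equation**: the coefficients of
`(X - J(w^(p^2))) * ∏_b (X - J(ζ^b w))` are Laurent series with integer coefficients. -/
theorem modEq_descent (p : ℕ) [NeZero p] (hp : p.Prime) (ζ : ℂˣ) (hζ : IsPrimitiveRoot ζ p)
    (k : ℕ) :
    ∃ M : LaurentSeries ℤ, coeffMap (Int.castRingHom ℂ) M =
      (((Polynomial.X - Polynomial.C (qExpand ℂ p (qExpand ℂ p (jqModC ℂ)))) *
        ∏ b : Fin p, (Polynomial.X - Polynomial.C (twist (ζ ^ (b : ℕ)) (jqModC ℂ)))) :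
          Polynomial (LaurentSeries ℂ)).coeff k := by
  have _ := hp
  refine h82_exists_int_series _ fun n => ?_
  change ∃ z : ℤ, (z : ℂ) = ((h82_Phi ℂ p ζ).coeff k).coeff n
  have hfix : ∀ σ : ℂ →+* ℂ, σ (((h82_Phi ℂ p ζ).coeff k).coeff n) =
      ((h82_Phi ℂ p ζ).coeff k).coeff n := fun σ => by
    conv_rhs => rw [← h82_Phi_fixed p ζ hζ σ]
    rw [Polynomial.coeff_map, coeffMap_coeff]
  obtain ⟨r, hr⟩ := Fermat.Agent.S23.exists_rat_of_forall_ringHom_fixed _ hfix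
  have hint : IsIntegral ℤ (((h82_Phi ℂ p ζ).coeff k).coeff n) := h82_Phi_integral p ζ hζ k n
  rw [← hr] at hint ⊢
  have hint' : IsIntegral ℤ r :=
    (isIntegral_algebraMap_iff (algebraMap ℚ ℂ).injective).mp hint
  obtain ⟨z, hz⟩ := IsIntegrallyClosed.isIntegral_iff.mp hint'
  refine ⟨z, ?_⟩
  rw [← hz]
  simp

theorem h82_coeffMap_injective {R S : Type*} [CommRing R] [CommRing S] (φ : R →+* S)
    (hφ : Function.Injective φ) : Function.Injective (coeffMap φ) := fun f g h => by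
  ext n
  have h1 := congrArg (fun x : LaurentSeries S => x.coeff n) h
  simp only [coeffMap_coeff] at h1
  exact hφ h1

theorem h82_Phi_monic (R : Type*) [CommRing R] (p : ℕ) [NeZero p] (ζ : Rˣ) :
    (h82_Phi R p ζ).Monic :=
  (Polynomial.monic_X_sub_C _).mul (Polynomial.monic_prod_of_monic _ _ fun _ _ =>
    Polynomial.monic_X_sub_C _)

theorem h82_Phi_natDegree (R : Type*) [CommRing R] [Nontrivial R] (p : ℕ) [NeZero p] (ζ : Rˣ) :
    (h82_Phi R p ζ).natDegree = p + 1 := by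
  unfold h82_Phi
  rw [Polynomial.Monic.natDegree_mul (Polynomial.monic_X_sub_C _)
    (Polynomial.monic_prod_of_monic _ _ fun _ _ => Polynomial.monic_X_sub_C _),
    Polynomial.natDegree_X_sub_C, Polynomial.natDegree_prod_of_monic _ _ (fun _ _ =>
    Polynomial.monic_X_sub_C _)]
  simp [add_comm]

/-- **Descent for the modular equation, polynomial form**: the polynomial
`(X - J(w^(p^2))) * ∏_b (X - J(ζ^b w))` is the image of a monic polynomial of degree `p + 1`
over `ℤ((w))`. -/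
theorem modEq_descent_poly (p : ℕ) [NeZero p] (hp : p.Prime) (ζ : ℂˣ) (hζ : IsPrimitiveRoot ζ p) :
    ∃ Ψ : Polynomial (LaurentSeries ℤ), Ψ.Monic ∧ Ψ.natDegree = p + 1 ∧
      Ψ.map (coeffMap (Int.castRingHom ℂ)) =
        (Polynomial.X - Polynomial.C (qExpand ℂ p (qExpand ℂ p (jqModC ℂ)))) *
          ∏ b : Fin p, (Polynomial.X - Polynomial.C (twist (ζ ^ (b : ℕ)) (jqModC ℂ))) := by
  choose M hM using fun k => modEq_descent p hp ζ hζ k
  change ∀ k, coeffMap (Int.castRingHom ℂ) (M k) = (h82_Phi ℂ p ζ).coeff k at hM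
  change ∃ Ψ : Polynomial (LaurentSeries ℤ), Ψ.Monic ∧ Ψ.natDegree = p + 1 ∧
      Ψ.map (coeffMap (Int.castRingHom ℂ)) = h82_Phi ℂ p ζ
  have hinj : Function.Injective (coeffMap (Int.castRingHom ℂ)) :=
    h82_coeffMap_injective _ Int.cast_injective
  let Ψ : Polynomial (LaurentSeries ℤ) :=
    ∑ k ∈ Finset.range ((h82_Phi ℂ p ζ).natDegree + 1), Polynomial.monomial k (M k)
  have hΨ : Ψ.map (coeffMap (Int.castRingHom ℂ)) = h82_Phi ℂ p ζ := by
    conv_rhs => rw [(h82_Phi ℂ p ζ).as_sum_range]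
    rw [Polynomial.map_sum]
    refine Finset.sum_congr rfl fun k _ => ?_
    rw [Polynomial.map_monomial, hM]
  refine ⟨Ψ, ?_, ?_, hΨ⟩
  · refine Polynomial.monic_of_injective hinj ?_
    rw [hΨ]
    exact h82_Phi_monic ℂ p ζ
  · rw [← Polynomial.natDegree_map_eq_of_injective hinj, hΨ]
    exact h82_Phi_natDegree ℂ p ζ

end

end Fermat.Agent.S28
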