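import Fermat.Agent.S28.Defs
import Fermat.Agent.S28.Helper93Inv
import Fermat.Agent.S28.ModEqDescent
import Fermat.Agent.Lib.Gamma0Cosets
import Fermat.Agent.S23.Helper47Aut

/-!
# S28, Part A1 (helper93): the modular equation of prime level `p`

`exists_modular_equation`: there is `Φ ∈ ℤ[Y][X]`, monic of degree `p + 1` in `X`, with
`Φ(J(q^p), J(q)) = 0` and `Φ(J(q), J(q^p)) = 0` in `ℤ((q))`.

Route: the `p + 1` functions `j(pτ)`, `j((τ+b)/p)` (`b < p`) are the `SL(2,ℤ)`-conjugates of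
`j(pτ)` (cosets of `Γ₀(p)`); their expansions in `w = e^{2πiτ/p}` are `J(w^{p²})`, `J(ζ^b w)`;
the coefficients of `∏ (X - conjugate)` are invariant, with expansions having integer
coefficients (Galois descent from `ℤ[ζ]`), hence integer polynomials in `j`.
-/

set_option autoImplicit false

open ModularCurve MatrixGroups UpperHalfPlane ModularForm
open Fermat.Agent.S24
open scoped Manifold

namespace Fermat.Agent.S28

/-! ### Coset representatives -/

/-- The matrix `S T^b = [[0,-1],[1,b]]`. -/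
def h93_A (b : ℤ) : SL(2, ℤ) := ⟨!![0, -1; 1, b], by simp [Matrix.det_fin_two]⟩

/-- The representative `(S T^b)⁻¹ = [[b,1],[-1,0]]`. -/
def h93_rep (b : ℤ) : SL(2, ℤ) := ⟨!![b, 1; -1, 0], by simp [Matrix.det_fin_two]⟩

theorem h93_rep_inv (b : ℤ) : (h93_rep b)⁻¹ = h93_A b := by
  apply Subtype.ext
  rw [Matrix.SpecialLinearGroup.coe_inv]
  simp only [h93_rep, h93_A, Matrix.adjugate_fin_two_of]
  simp

section family

variable (p : ℕ) [NeZero p]

/-- The family of coset representatives of `SL(2,ℤ)/Γ₀(p)`, indexed by `Option (Fin p)`. -/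
def h93_repFam : Option (Fin p) → SL(2, ℤ)
  | none => 1
  | some b => h93_rep (b : ℕ)

/-- The cosets. -/
def h93_cosetFam (i : Option (Fin p)) : SL(2, ℤ) ⧸ CongruenceSubgroup.Gamma0 p :=
  (h93_repFam p i : SL(2, ℤ))

theorem h93_cosetFam_injective (hp : p.Prime) : Function.Injective (h93_cosetFam p) := by
  haveI : Fact p.Prime := ⟨hp⟩
  intro i j hij
  unfold h93_cosetFam at hij
  rw [Fermat.Agent.Lib.G0C.mk_eq_mk_iff] at hij
  rcases i with _ | b <;> rcases j with _ | c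
  · rfl
  · exfalso
    simp [h93_repFam, h93_rep] at hij
  · exfalso
    simp [h93_repFam, h93_rep] at hij
  · simp only [h93_repFam, h93_rep] at hij
    have h1 : ((b : ℕ) : ZMod p) = ((c : ℕ) : ZMod p) := by
      have h2 : (((b : ℕ) : ℤ) : ZMod p) * ((-1 : ℤ) : ZMod p) -
          ((-1 : ℤ) : ZMod p) * (((c : ℕ) : ℤ) : ZMod p) = 0 := hij
      push_cast at h2
      linear_combination -h2
    have h3 := (ZMod.natCast_eq_natCast_iff' _ _ _).1 h1
    rw [Nat.mod_eq_of_lt b.2, Nat.mod_eq_of_lt c.2] at h3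
    exact congrArg some (Fin.ext h3)

theorem h93_cosetFam_bijective (hp : p.Prime) : Function.Bijective (h93_cosetFam p) := by
  classical
  haveI : Finite (SL(2, ℤ) ⧸ CongruenceSubgroup.Gamma0 p) :=
    Subgroup.finite_quotient_of_finiteIndex
  letI : Fintype (SL(2, ℤ) ⧸ CongruenceSubgroup.Gamma0 p) := Fintype.ofFinite _
  rw [Fintype.bijective_iff_injective_and_card]
  refine ⟨h93_cosetFam_injective p hp, ?_⟩
  rw [← Nat.card_eq_fintype_card (α := SL(2, ℤ) ⧸ CongruenceSubgroup.Gamma0 p),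
    Fermat.Agent.Lib.card_quotient_Gamma0 p]
  have h := Fermat.Agent.Lib.G0C.dedekindPsi_prime_pow hp (e := 1) one_pos
  simp only [pow_one, Nat.sub_self, pow_zero] at h
  rw [h]
  simp

/-! ### The conjugates of `j(pτ)` and their expansions -/

/-- `ζ = e^{2πi/p}` as a unit of `ℂ`. -/
noncomputable def h93_zeta : ℂˣ :=
  Units.mk0 (Complex.exp (2 * Real.pi * Complex.I / p)) (Complex.exp_ne_zero _)

theorem h93_zeta_val : ((h93_zeta p : ℂˣ) : ℂ) = Complex.exp (2 * Real.pi * Complex.I / p) := rfl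

theorem h93_zeta_isPrimitiveRoot : IsPrimitiveRoot ((h93_zeta p : ℂˣ) : ℂ) p :=
  Complex.isPrimitiveRoot_exp p (NeZero.ne p)

/-- The conjugates of `τ ↦ j(pτ)`. -/
noncomputable def h93_F (i : Option (Fin p)) : ℍ → ℂ := genFn (h93_repFam p i) p

/-- Their expansions in `w = e^{2πiτ/p}`: `J(w^{p²})` and `J(ζ^b w)`. -/
noncomputable def h93_L : Option (Fin p) → LaurentSeries ℂ
  | none => qExpand ℂ p (qExpand ℂ p (jqModC ℂ))
  | some b => twist (h93_zeta p ^ (b : ℕ)) (jqModC ℂ)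

omit [NeZero p] in
/-- The twisted expansion of S24 is the twist of the universal `J`. -/
theorem h93_L_eq_twist (ξ : ℂˣ) : wpA4b_L ℂ 1 (ξ : ℂ) = twist ξ (jqModC ℂ) := by
  ext k
  rw [wpA4b_L_coeff, twist_coeff]
  have hJ : ∀ n : ℤ, algebraMap ℚ ℂ (jq.coeff n) = (jqModC ℂ).coeff n := by
    intro n
    rw [← coeffMap_jqModC (algebraMap ℚ ℂ), coeffMap_coeff, jqModC_rat]
  by_cases hk : 0 ≤ k + ((1 : ℕ) : ℤ)
  · rw [if_pos hk]
    obtain ⟨m, hm⟩ := Int.eq_ofNat_of_zero_le hk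
    rw [hm, Int.toNat_natCast]
    simp only [wpA4b_cf, one_dvd, if_true, Nat.div_one]
    have hkm : k = (m : ℤ) - 1 := by push_cast at hm; omega
    rw [hJ, ← hkm, Units.val_zpow_eq_zpow_val, hkm, zpow_sub_one₀ ξ.ne_zero, zpow_natCast]
    ring
  · rw [if_neg hk]
    have hk' : k < -1 := by push_cast at hk; omega
    rw [coeff_jqModC_of_lt ℂ hk', mul_zero]

theorem h93_hasWExp_none : HasWExp p (h93_F p none) (h93_L p none) := by
  have h := wpA4_genFn_one_hasWExp p p dvd_rfl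
  have e : coeffMap phi (qExpand Kbar p (JJ p)) = qExpand ℂ p (qExpand ℂ p (jqModC ℂ)) := by
    rw [JJ_of_neZero, coeffMap_qExpand, coeffEmb, coeffMap_coeffMap, coeffMap_qExpand,
      ← jqModC_rat, coeffMap_jqModC]
  rw [e] at h
  exact h

theorem h93_hasWExp_some (b : Fin p) : HasWExp p (h93_F p (some b)) (h93_L p (some b)) := by
  have hp0 : p ≠ 0 := NeZero.ne p
  have hpC : (p : ℂ) ≠ 0 := Nat.cast_ne_zero.2 hp0
  have hξ : ((h93_zeta p ^ (b : ℕ) : ℂˣ) : ℂ) =
      Complex.exp (2 * Real.pi * Complex.I * ((b : ℕ) : ℤ) / p) := by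
    rw [Units.val_pow_eq_pow_val, h93_zeta_val, ← Complex.exp_nat_mul]
    congr 1
    push_cast
    ring
  show HasWExp p (genFn (h93_rep ((b : ℕ) : ℤ)) p) (twist (h93_zeta p ^ (b : ℕ)) (jqModC ℂ))
  rw [← h93_L_eq_twist]
  apply wpA4b_hasWExp_of_qParam p _ (wpA5_genFn_mdiff _ p) 1 one_pos _ (Units.ne_zero _)
  intro τ
  refine ⟨ModularGroup.S • scaleH p (h93_A ((b : ℕ) : ℤ) • τ), ?_, ?_⟩
  · rw [wpA1_kleinJ_smul, genFn_apply, h93_rep_inv]
  · have hz : ((ModularGroup.S • scaleH p (h93_A ((b : ℕ) : ℤ) • τ) : ℍ) : ℂ) =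
        (((1 : ℕ) : ℂ) * τ + (((b : ℕ) : ℤ) : ℂ)) / p := by
      have hD : ((1 : ℤ) : ℂ) * τ + ((((b : ℕ) : ℤ) : ℤ) : ℂ) ≠ 0 :=
        wpA4b_linear_ne_zero 1 _ (Or.inl one_ne_zero) τ
      rw [UpperHalfPlane.coe_specialLinearGroup_apply, coe_scaleH p hp0,
        UpperHalfPlane.coe_specialLinearGroup_apply]
      have s00 : (ModularGroup.S : SL(2, ℤ)) 0 0 = 0 := rfl
      have s01 : (ModularGroup.S : SL(2, ℤ)) 0 1 = -1 := rfl
      have s10 : (ModularGroup.S : SL(2, ℤ)) 1 0 = 1 := rfl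
      have s11 : (ModularGroup.S : SL(2, ℤ)) 1 1 = 0 := rfl
      have a00 : (h93_A ((b : ℕ) : ℤ)) 0 0 = 0 := rfl
      have a01 : (h93_A ((b : ℕ) : ℤ)) 0 1 = -1 := rfl
      have a10 : (h93_A ((b : ℕ) : ℤ)) 1 0 = 1 := rfl
      have a11 : (h93_A ((b : ℕ) : ℤ)) 1 1 = ((b : ℕ) : ℤ) := rfl
      rw [s00, s01, s10, s11, a00, a01, a10, a11]
      simp only [algebraMap_int_eq, eq_intCast, Complex.ofReal_intCast]
      push_cast at hD ⊢
      simp only [zero_mul, zero_add, add_zero, one_mul] at hD ⊢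
      field_simp
    have h := wpA4b_qParam_eq p τ _ 1 ((b : ℕ) : ℤ) p hp0 dvd_rfl hz
    rw [Nat.div_self (Nat.pos_of_ne_zero hp0), mul_one] at h
    rw [h, hξ]

theorem h93_hasWExp (i : Option (Fin p)) : HasWExp p (h93_F p i) (h93_L p i) := by
  rcases i with _ | b
  · exact h93_hasWExp_none p
  · exact h93_hasWExp_some p b

/-- `SL(2,ℤ)` permutes the conjugates. -/
theorem h93_perm (hp : p.Prime) (g : SL(2, ℤ)) :
    ∃ σ : Equiv.Perm (Option (Fin p)), ∀ i, actFn g (h93_F p i) = h93_F p (σ i) := by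
  let e : Option (Fin p) ≃ SL(2, ℤ) ⧸ CongruenceSubgroup.Gamma0 p :=
    Equiv.ofBijective _ (h93_cosetFam_bijective p hp)
  have hF : ∀ i, h93_F p i = wpA5b2_G p (e i) := fun i => rfl
  refine ⟨(e.trans (MulAction.toPerm g)).trans e.symm, fun i => ?_⟩
  rw [hF, hF, wpA5b2_G_act]
  simp

end family

/-! ### The modular equation -/

/-- **The modular equation of prime level `p`** (Part A1): a polynomial `Φ ∈ ℤ[Y][X]`, monic of
degree `p + 1` in `X`, with `Φ(J(q^p), J(q)) = 0` and `Φ(J(q), J(q^p)) = 0`. -/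
theorem exists_modular_equation (p : ℕ) (hp : p.Prime) :
    ∃ Φ : Polynomial (Polynomial ℤ), Φ.Monic ∧ Φ.natDegree = p + 1 ∧
      Φ.eval₂ (evJ ℤ) (JdC ℤ p) = 0 ∧ Φ.eval₂ (evJd ℤ p) (jqModC ℤ) = 0 := by
  haveI : NeZero p := ⟨hp.ne_zero⟩
  have hζ : IsPrimitiveRoot (h93_zeta p) p := by
    rw [← IsPrimitiveRoot.coe_units_iff]
    exact h93_zeta_isPrimitiveRoot p
  have hprod : (∏ i, (Polynomial.X - Polynomial.C (h93_L p i)) : Polynomial (LaurentSeries ℂ)) =
      (Polynomial.X - Polynomial.C (qExpand ℂ p (qExpand ℂ p (jqModC ℂ)))) *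
        ∏ b : Fin p, (Polynomial.X - Polynomial.C (twist (h93_zeta p ^ (b : ℕ)) (jqModC ℂ))) := by
    rw [Fintype.prod_option]
    rfl
  obtain ⟨Φ, hmon, hdeg, hmap⟩ := h93_family (N := p) (Int.castRingHom ℂ) Int.cast_injective
    (h93_F p) (h93_L p) (h93_hasWExp p) (h93_perm p hp)
    (fun k => by rw [hprod]; exact modEq_descent p hp (h93_zeta p) hζ k)
  have hcard : Fintype.card (Option (Fin p)) = p + 1 := by
    rw [Fintype.card_option, Fintype.card_fin]
  refine ⟨Φ, hmon, by rw [hdeg, hcard], ?_, ?_⟩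
  · -- `Φ(J(q^p), J(q)) = 0`: the root `J(w^(p^2))`
    have hψ : (coeffMap (Int.castRingHom ℂ)).comp
        ((qExpand ℤ p).comp (Polynomial.aeval (jqModC ℤ)).toRingHom) =
        ((coeffMap (Int.castRingHom ℂ)).comp (qExpand ℤ p)).comp (evJ ℤ) := by
      apply Polynomial.ringHom_ext
      · intro a
        simp [evJ]
      · simp [evJ]
    have hinj : Function.Injective ((coeffMap (Int.castRingHom ℂ)).comp (qExpand ℤ p)) :=
      (h93_coeffMap_injective _ Int.cast_injective).comp (qExpand_injective p)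
    apply hinj
    have hroot : ((coeffMap (Int.castRingHom ℂ)).comp (qExpand ℤ p)) (JdC ℤ p) = h93_L p none := by
      show coeffMap _ (qExpand ℤ p (JdC ℤ p)) = qExpand ℂ p (qExpand ℂ p (jqModC ℂ))
      rw [JdC_of_neZero, coeffMap_qExpand, coeffMap_qExpand, coeffMap_jqModC]
    rw [map_zero, Polynomial.hom_eval₂, ← hψ, ← Polynomial.eval_map, hmap, hroot,
      Polynomial.eval_prod]
    exact Finset.prod_eq_zero (Finset.mem_univ none) (by simp)
  · -- `Φ(J(q), J(q^p)) = 0`: the root `J(ζ^0 w) = J(w)`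
    have hψ : (coeffMap (Int.castRingHom ℂ)).comp
        ((qExpand ℤ p).comp (Polynomial.aeval (jqModC ℤ)).toRingHom) =
        (coeffMap (Int.castRingHom ℂ)).comp (evJd ℤ p) := by
      apply Polynomial.ringHom_ext
      · intro a
        simp [evJd]
      · simp [evJd, JdC_of_neZero]
    apply h93_coeffMap_injective (Int.castRingHom ℂ) Int.cast_injective
    have hroot : coeffMap (Int.castRingHom ℂ) (jqModC ℤ) =
        h93_L p (some ⟨0, NeZero.pos p⟩) := by
      show coeffMap _ (jqModC ℤ) = twist (h93_zeta p ^ 0) (jqModC ℂ)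
      rw [pow_zero, twist_one, coeffMap_jqModC]
    rw [map_zero, Polynomial.hom_eval₂, ← hψ, ← Polynomial.eval_map, hmap, hroot,
      Polynomial.eval_prod]
    exact Finset.prod_eq_zero (Finset.mem_univ (some ⟨0, NeZero.pos p⟩)) (by simp)

end Fermat.Agent.S28
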