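import Mathlib
import Fermat.Prelude.Def_ModularCurve_IgusaScheme
import Fermat.Prelude.Def_ModularCurve_X0ModL
import Fermat.Agent.S28.Defs

/-!
S28, Part D-Apply, half X (helper63): the chart base data for helper19's `partD_exists_red`.

* `h63_red ℓ : ℤ_(ℓ) →+* 𝔽_ℓ`, kernel `(ℓ)`; `ℤ_(ℓ)` is a principal ideal ring.
* `h63_F0 N ℓ` : the `ℓ`-integral elements of the function field (those whose `q`-expansion has
  coefficients in `ℤ_(ℓ)`), and `h63_rho N ℓ : h63_F0 N ℓ →+* 𝔽_ℓ((q))`, the reduction.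
* for the chart generators `g = j` and `g = j⁻¹`: `ℤ_(ℓ)[g]` is a UFD (so integrally closed and
  `WfDvdMonoid`), `ℓ` is prime in it, it lies in `h63_F0`, the reduction kills `ℓ`, and an element
  with zero reduction is divisible by `ℓ`.
* the family `h63_bF N P` (`P` an integral polynomial in the `J(q^d)`, `d ∣ N`), its reduction,
  and `hind` in the exact shape of `partD_exists_red` from the Part C independence statement.
Everything is in `namespace Fermat.Agent.S28`; own names are prefixed `h63_`.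
-/

set_option autoImplicit false

open ModularCurve ModularCurve.IgusaScheme

namespace Fermat.Agent.S28

noncomputable section

section ZL

variable (ℓ : ℕ) [Fact ℓ.Prime]

theorem h63_den_ne_zero (r : ↥(GaloisRep.ratLocalizedAt ℓ)) : (((r : ℚ).den : ℕ) : ZMod ℓ) ≠ 0 := by
  rw [Ne, ZMod.natCast_eq_zero_iff]
  have h : (r : ℚ).den.Coprime ℓ := r.2
  exact fun hd => (Nat.Prime.coprime_iff_not_dvd (Fact.out : ℓ.Prime)).mp h.symm hd

/-- The residue map `ℤ_(ℓ) → 𝔽_ℓ`. -/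
def h63_red : ↥(GaloisRep.ratLocalizedAt ℓ) →+* ZMod ℓ where
  toFun r := ((r : ℚ) : ZMod ℓ)
  map_one' := by simp
  map_mul' a b := by
    rw [Subring.coe_mul]
    exact Rat.cast_mul_of_ne_zero (h63_den_ne_zero ℓ a) (h63_den_ne_zero ℓ b)
  map_zero' := by simp
  map_add' a b := by
    rw [Subring.coe_add]
    exact Rat.cast_add_of_ne_zero (h63_den_ne_zero ℓ a) (h63_den_ne_zero ℓ b)

theorem h63_red_natCast_self : h63_red ℓ (ℓ : ↥(GaloisRep.ratLocalizedAt ℓ)) = 0 := by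
  rw [map_natCast]
  exact ZMod.natCast_self ℓ

theorem h63_red_eq_zero_iff (a : ↥(GaloisRep.ratLocalizedAt ℓ)) :
    h63_red ℓ a = 0 ↔ (ℓ : ↥(GaloisRep.ratLocalizedAt ℓ)) ∣ a := by
  constructor
  · intro h
    have h1 : (((a : ℚ).num : ℤ) : ZMod ℓ) = 0 := by
      have h2 : ((a : ℚ) : ZMod ℓ) = 0 := h
      rw [Rat.cast_def, div_eq_zero_iff] at h2
      rcases h2 with h2 | h2
      · exact h2
      · exact absurd h2 (h63_den_ne_zero ℓ a)
    rw [ZMod.intCast_zmod_eq_zero_iff_dvd] at h1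
    obtain ⟨k, hk⟩ := h1
    have hmem : Rat.divInt k ((a : ℚ).den : ℤ) ∈ GaloisRep.ratLocalizedAt ℓ := by
      change (Rat.divInt k ((a : ℚ).den : ℤ)).den.Coprime ℓ
      have hd : ((Rat.divInt k ((a : ℚ).den : ℤ)).den : ℤ) ∣ ((a : ℚ).den : ℤ) := Rat.den_dvd _ _
      have hd' : (Rat.divInt k ((a : ℚ).den : ℤ)).den ∣ (a : ℚ).den := Int.natCast_dvd_natCast.mp hd
      exact Nat.Coprime.coprime_dvd_left hd' a.2
    refine ⟨⟨_, hmem⟩, Subtype.ext ?_⟩
    rw [Subring.coe_mul]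
    change (a : ℚ) = (ℓ : ℚ) * Rat.divInt k ((a : ℚ).den : ℤ)
    have hden : (((a : ℚ).den : ℤ) : ℚ) ≠ 0 := by
      exact_mod_cast (a : ℚ).den_ne_zero
    rw [Rat.divInt_eq_div]
    conv_lhs => rw [← Rat.num_div_den (a : ℚ), hk]
    push_cast
    ring
  · rintro ⟨b, rfl⟩
    rw [map_mul, h63_red_natCast_self, zero_mul]

theorem h63_prime_natCast : Prime (ℓ : ↥(GaloisRep.ratLocalizedAt ℓ)) := by
  refine ⟨?_, ?_, ?_⟩
  · intro h
    have h2 := congrArg Subtype.val h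
    have hℓ : (ℓ : ℚ) ≠ 0 := by exact_mod_cast (Fact.out : ℓ.Prime).ne_zero
    exact hℓ (by simpa using h2)
  · intro hu
    have h1 := hu.map (h63_red ℓ)
    rw [h63_red_natCast_self] at h1
    exact not_isUnit_zero h1
  · intro a b hab
    rw [← h63_red_eq_zero_iff, map_mul, mul_eq_zero] at hab
    rcases hab with h | h
    · exact Or.inl ((h63_red_eq_zero_iff ℓ a).mp h)
    · exact Or.inr ((h63_red_eq_zero_iff ℓ b).mp h)

omit [Fact ℓ.Prime] in
theorem h63_den_isUnit (r : ↥(GaloisRep.ratLocalizedAt ℓ)) :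
    IsUnit ((r : ℚ).den : ↥(GaloisRep.ratLocalizedAt ℓ)) := by
  have hmem : ((r : ℚ).den : ℚ)⁻¹ ∈ GaloisRep.ratLocalizedAt ℓ := by
    change (((r : ℚ).den : ℚ)⁻¹).den.Coprime ℓ
    have h1 : (((r : ℚ).den : ℚ)⁻¹).den = (r : ℚ).den := by
      rw [Rat.inv_natCast_den, if_neg (r : ℚ).den_ne_zero]
    rw [h1]
    exact r.2
  refine IsUnit.of_mul_eq_one ⟨((r : ℚ).den : ℚ)⁻¹, hmem⟩ (Subtype.ext ?_)
  push_cast
  exact mul_inv_cancel₀ (Nat.cast_ne_zero.mpr (r : ℚ).den_ne_zero)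

omit [Fact ℓ.Prime] in
/-- `ℤ_(ℓ)` is a principal ideal ring. -/
instance h63_isPrincipalIdealRing : IsPrincipalIdealRing ↥(GaloisRep.ratLocalizedAt ℓ) := by
  refine ⟨fun I => ?_⟩
  obtain ⟨n, hn⟩ := (IsPrincipalIdealRing.principal
    (I.comap (Int.castRingHom ↥(GaloisRep.ratLocalizedAt ℓ)))).principal
  refine ⟨⟨(n : ↥(GaloisRep.ratLocalizedAt ℓ)), ?_⟩⟩
  apply le_antisymm
  · intro x hx
    obtain ⟨u, hu⟩ := h63_den_isUnit ℓ x
    have hnum : (x * ((x : ℚ).den : ↥(GaloisRep.ratLocalizedAt ℓ)) :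
        ↥(GaloisRep.ratLocalizedAt ℓ)) = ((x : ℚ).num : ↥(GaloisRep.ratLocalizedAt ℓ)) := by
      apply Subtype.ext
      push_cast
      exact Rat.mul_den_eq_num (x : ℚ)
    have h1 : (x : ℚ).num ∈ I.comap (Int.castRingHom ↥(GaloisRep.ratLocalizedAt ℓ)) := by
      rw [Ideal.mem_comap, eq_intCast, ← hnum]
      exact I.mul_mem_right _ hx
    rw [hn] at h1
    obtain ⟨k, hk⟩ := Submodule.mem_span_singleton.mp h1
    have hx' : x = (n : ↥(GaloisRep.ratLocalizedAt ℓ)) * ((k : ↥(GaloisRep.ratLocalizedAt ℓ)) * ((u⁻¹ : (↥(GaloisRep.ratLocalizedAt ℓ))ˣ) : ↥(GaloisRep.ratLocalizedAt ℓ))) := by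
      have h3 : ((x : ℚ).num : ↥(GaloisRep.ratLocalizedAt ℓ)) = (k : ↥(GaloisRep.ratLocalizedAt ℓ)) * (n : ↥(GaloisRep.ratLocalizedAt ℓ)) := by
        rw [← hk]
        simp
      have h4 : x = ((x : ℚ).num : ↥(GaloisRep.ratLocalizedAt ℓ)) * ((u⁻¹ : (↥(GaloisRep.ratLocalizedAt ℓ))ˣ) : ↥(GaloisRep.ratLocalizedAt ℓ)) := by
        rw [← hnum, ← hu, mul_assoc, Units.mul_inv, mul_one]
      rw [h4, h3]
      ring
    rw [hx']
    exact Ideal.mul_mem_right _ _ (Submodule.mem_span_singleton_self _)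
  · rw [Submodule.span_singleton_le_iff_mem] 
    have h1 : n ∈ I.comap (Int.castRingHom ↥(GaloisRep.ratLocalizedAt ℓ)) := by
      rw [hn]
      exact Submodule.mem_span_singleton_self _
    simpa using h1

end ZL

section Lead

variable (S : Type*) [CommRing S]

theorem h63_algebraMap_eq_C (c : S) : algebraMap S (LaurentSeries S) c = HahnSeries.C c := by
  have h1 : algebraMap S (PowerSeries S) c = PowerSeries.C c := by simp
  rw [HahnSeries.algebraMap_apply', h1, HahnSeries.ofPowerSeries_C]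

theorem h63_algebraMap_eq_C' : algebraMap S (LaurentSeries S) = HahnSeries.C :=
  RingHom.ext (h63_algebraMap_eq_C S)

/-- Leading coefficient of a polynomial in `J`. -/
theorem h63_coeff_eval₂_jqModC (P : Polynomial S) :
    (Polynomial.eval₂ HahnSeries.C (jqModC S) P).coeff (-(P.natDegree : ℤ)) = P.leadingCoeff := by
  rw [Polynomial.eval₂_eq_sum_range, HahnSeries.coeff_sum, Finset.sum_range_succ]
  rw [Finset.sum_eq_zero, zero_add, HahnSeries.C_mul_eq_smul, HahnSeries.coeff_smul,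
    coeff_jqModC_pow_self, smul_eq_mul, mul_one, Polynomial.leadingCoeff]
  intro i hi
  rw [Finset.mem_range] at hi
  rw [HahnSeries.C_mul_eq_smul, HahnSeries.coeff_smul, coeff_jqModC_pow_of_lt S (by omega),
    smul_zero]

theorem h63_eval₂_jqModC_eq_zero (P : Polynomial S)
    (h : Polynomial.eval₂ HahnSeries.C (jqModC S) P = 0) : P = 0 := by
  have h1 := h63_coeff_eval₂_jqModC S P
  rw [h, HahnSeries.coeff_zero] at h1
  exact Polynomial.leadingCoeff_eq_zero.mp h1.symm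

theorem h63_transcendental_jqModC : Transcendental S (jqModC S) := by
  rintro ⟨P, hP0, hP⟩
  apply hP0
  apply h63_eval₂_jqModC_eq_zero S P
  rw [← hP, Polynomial.aeval_def, h63_algebraMap_eq_C']

/-- The inverse of `J` as a Laurent series over any ring. -/
def h63_jInv : LaurentSeries S :=
  HahnSeries.single (1 : ℤ) 1 *
    HahnSeries.ofPowerSeries ℤ S ((jNum.invOfUnit 1).map (Int.castRingHom S))

theorem h63_jqModC_mul_jInv : jqModC S * h63_jInv S = 1 := by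
  have h1 : (HahnSeries.single (-1 : ℤ) (1 : S) : LaurentSeries S) * HahnSeries.single (1 : ℤ) 1 = 1 := by
    rw [HahnSeries.single_mul_single]
    simp
  have h0 : jNum * jNum.invOfUnit 1 = 1 :=
    PowerSeries.mul_invOfUnit jNum 1 (by rw [constantCoeff_jNum]; rfl)
  have h2 : HahnSeries.ofPowerSeries ℤ S (jNum.map (Int.castRingHom S)) *
      HahnSeries.ofPowerSeries ℤ S ((jNum.invOfUnit 1).map (Int.castRingHom S)) = 1 := by
    rw [← map_mul, ← map_mul, h0, map_one, map_one]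
  calc jqModC S * h63_jInv S
      = (HahnSeries.single (-1 : ℤ) (1 : S) * HahnSeries.single (1 : ℤ) 1) *
          (HahnSeries.ofPowerSeries ℤ S (jNum.map (Int.castRingHom S)) *
            HahnSeries.ofPowerSeries ℤ S ((jNum.invOfUnit 1).map (Int.castRingHom S))) := by
        unfold jqModC h63_jInv
        ring
    _ = 1 := by rw [h1, h2, mul_one]

variable {S} in
theorem h63_coeffMap_jInv {T : Type*} [CommRing T] (φ : S →+* T) :
    coeffMap φ (h63_jInv S) = h63_jInv T := by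
  rw [h63_jInv, map_mul, coeffMap_single, map_one, coeffMap_ofPowerSeries,
    ← RingHom.comp_apply (PowerSeries.map φ) (PowerSeries.map (Int.castRingHom S)),
    ← PowerSeries.map_comp, RingHom.ext_int (φ.comp (Int.castRingHom S)) (Int.castRingHom T)]
  rfl

theorem h63_jInv_eq_inv (K : Type*) [Field K] : h63_jInv K = (jqModC K)⁻¹ :=
  eq_inv_of_mul_eq_one_right (h63_jqModC_mul_jInv K)

end Lead

section Rho

variable (N : ℕ) [NeZero N] (ℓ : ℕ) [Fact ℓ.Prime]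

/-- Coefficientwise embedding `ℤ_(ℓ)((q)) → ℚ((q))`. -/
def h63_iota : LaurentSeries ↥(GaloisRep.ratLocalizedAt ℓ) →+* LaurentSeries ℚ :=
  coeffMap (algebraMap ↥(GaloisRep.ratLocalizedAt ℓ) ℚ)

omit [Fact ℓ.Prime] in
theorem h63_iota_injective : Function.Injective (h63_iota ℓ) := by
  intro x y h
  refine HahnSeries.ext (funext fun k => Subtype.ext ?_)
  exact congrArg (fun z : LaurentSeries ℚ => z.coeff k) h

/-- Coefficientwise reduction `ℤ_(ℓ)((q)) → 𝔽_ℓ((q))`. -/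
def h63_redL : LaurentSeries ↥(GaloisRep.ratLocalizedAt ℓ) →+* LaurentSeries (ZMod ℓ) :=
  coeffMap (h63_red ℓ)

/-- The `ℓ`-integral elements of the function field: those whose `q`-expansion has coefficients
in `ℤ_(ℓ)`. -/
def h63_F0 : Subring ↥(modularFunctionFieldFull N) :=
  (h63_iota ℓ).range.comap (algebraMap ↥(modularFunctionFieldFull N) (LaurentSeries ℚ))

omit [NeZero N] [Fact ℓ.Prime] in
theorem h63_mem_F0_iff (x : ↥(modularFunctionFieldFull N)) :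
    x ∈ h63_F0 N ℓ ↔ ∃ y : LaurentSeries ↥(GaloisRep.ratLocalizedAt ℓ),
      h63_iota ℓ y = (x : LaurentSeries ℚ) := Iff.rfl

/-- `ℤ_(ℓ)((q))` is isomorphic to its image in `ℚ((q))`. -/
def h63_iotaEquiv :
    LaurentSeries ↥(GaloisRep.ratLocalizedAt ℓ) ≃+* (h63_iota ℓ).range :=
  RingEquiv.ofBijective (h63_iota ℓ).rangeRestrict
    ⟨fun _ _ h => h63_iota_injective ℓ (congrArg Subtype.val h),
      (h63_iota ℓ).rangeRestrict_surjective⟩

/-- The reduction map on `ℓ`-integral elements of the function field. -/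
def h63_rho : ↥(h63_F0 N ℓ) →+* LaurentSeries (ZMod ℓ) :=
  (h63_redL ℓ).comp (((h63_iotaEquiv ℓ).symm : (h63_iota ℓ).range →+* _).comp
    (RingHom.codRestrict ((algebraMap ↥(modularFunctionFieldFull N) (LaurentSeries ℚ)).comp
      (h63_F0 N ℓ).subtype) (h63_iota ℓ).range (fun x => x.2)))

omit [NeZero N] in
theorem h63_rho_spec (x : ↥(h63_F0 N ℓ)) (y : LaurentSeries ↥(GaloisRep.ratLocalizedAt ℓ))
    (h : h63_iota ℓ y = ((x : ↥(modularFunctionFieldFull N)) : LaurentSeries ℚ)) :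
    h63_rho N ℓ x = h63_redL ℓ y := by
  unfold h63_rho
  rw [RingHom.comp_apply, RingHom.comp_apply]
  congr 1
  change (h63_iotaEquiv ℓ).symm _ = y
  rw [RingEquiv.symm_apply_eq]
  exact Subtype.ext h.symm

omit [NeZero N] in
theorem h63_rho_mk (x : ↥(modularFunctionFieldFull N)) (hx : x ∈ h63_F0 N ℓ)
    (y : LaurentSeries ↥(GaloisRep.ratLocalizedAt ℓ))
    (h : h63_iota ℓ y = (x : LaurentSeries ℚ)) :
    h63_rho N ℓ ⟨x, hx⟩ = h63_redL ℓ y :=
  h63_rho_spec N ℓ ⟨x, hx⟩ y h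

end Rho

section Base

variable (N : ℕ) [NeZero N] (ℓ : ℕ) [Fact ℓ.Prime]

omit [Fact ℓ.Prime] in
theorem h63_iota_C (a : ↥(GaloisRep.ratLocalizedAt ℓ)) :
    h63_iota ℓ (HahnSeries.C a) = algebraMap ℚ (LaurentSeries ℚ) (a : ℚ) := by
  rw [h63_algebraMap_eq_C, h63_iota, HahnSeries.C_apply, coeffMap_single, HahnSeries.C_apply]
  rfl

omit [NeZero N] [Fact ℓ.Prime] in
theorem h63_coe_algebraMap (a : ↥(GaloisRep.ratLocalizedAt ℓ)) :
    ((algebraMap ↥(GaloisRep.ratLocalizedAt ℓ) ↥(modularFunctionFieldFull N) a :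
      ↥(modularFunctionFieldFull N)) : LaurentSeries ℚ) = h63_iota ℓ (HahnSeries.C a) := by
  rw [h63_iota_C]
  have h := RingHom.ext_rat ((algebraMap ↥(modularFunctionFieldFull N) (LaurentSeries ℚ)).comp
    (algebraMap ℚ ↥(modularFunctionFieldFull N))) (algebraMap ℚ (LaurentSeries ℚ))
  exact congrFun (congrArg DFunLike.coe h) (a : ℚ)

omit [NeZero N] [Fact ℓ.Prime] in
/-- The `q`-expansion of a polynomial in `g` with coefficients in `ℤ_(ℓ)`. -/
theorem h63_coe_aeval (g : ↥(modularFunctionFieldFull N))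
    (gh : LaurentSeries ↥(GaloisRep.ratLocalizedAt ℓ))
    (hg : h63_iota ℓ gh = (g : LaurentSeries ℚ)) (P : Polynomial ↥(GaloisRep.ratLocalizedAt ℓ)) :
    ((Polynomial.aeval g P : ↥(modularFunctionFieldFull N)) : LaurentSeries ℚ) =
      h63_iota ℓ (P.eval₂ HahnSeries.C gh) := by
  rw [Polynomial.aeval_def, Polynomial.hom_eval₂]
  have h1 : ((Polynomial.eval₂ (algebraMap ↥(GaloisRep.ratLocalizedAt ℓ)
      ↥(modularFunctionFieldFull N)) g P : ↥(modularFunctionFieldFull N)) : LaurentSeries ℚ) =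
      (algebraMap ↥(modularFunctionFieldFull N) (LaurentSeries ℚ))
        (Polynomial.eval₂ (algebraMap ↥(GaloisRep.ratLocalizedAt ℓ)
      ↥(modularFunctionFieldFull N)) g P) := rfl
  rw [h1, Polynomial.hom_eval₂, hg]
  congr 1
  ext a : 1
  rw [RingHom.comp_apply, RingHom.comp_apply, ← h63_coe_algebraMap N ℓ a]
  rfl

omit [NeZero N] [Fact ℓ.Prime] in
theorem h63_aeval_mem_F0 (g : ↥(modularFunctionFieldFull N))
    (gh : LaurentSeries ↥(GaloisRep.ratLocalizedAt ℓ))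
    (hg : h63_iota ℓ gh = (g : LaurentSeries ℚ)) (P : Polynomial ↥(GaloisRep.ratLocalizedAt ℓ)) :
    Polynomial.aeval g P ∈ h63_F0 N ℓ :=
  ⟨P.eval₂ HahnSeries.C gh, (h63_coe_aeval N ℓ g gh hg P).symm⟩

theorem h63_redL_C (a : ↥(GaloisRep.ratLocalizedAt ℓ)) :
    h63_redL ℓ (HahnSeries.C a) = HahnSeries.C (h63_red ℓ a) := by
  rw [h63_redL, HahnSeries.C_apply, coeffMap_single, HahnSeries.C_apply]

omit [NeZero N] in
/-- The reduction of a polynomial in `g` is the reduced polynomial in the reduction of `g`. -/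
theorem h63_rho_aeval (g : ↥(modularFunctionFieldFull N))
    (gh : LaurentSeries ↥(GaloisRep.ratLocalizedAt ℓ))
    (hg : h63_iota ℓ gh = (g : LaurentSeries ℚ)) (P : Polynomial ↥(GaloisRep.ratLocalizedAt ℓ)) :
    h63_rho N ℓ ⟨Polynomial.aeval g P, h63_aeval_mem_F0 N ℓ g gh hg P⟩ =
      (P.map (h63_red ℓ)).eval₂ HahnSeries.C (h63_redL ℓ gh) := by
  rw [h63_rho_mk N ℓ _ _ _ (h63_coe_aeval N ℓ g gh hg P).symm, Polynomial.hom_eval₂,
    Polynomial.eval₂_map]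
  congr 1
  ext a : 1
  rw [RingHom.comp_apply, RingHom.comp_apply, h63_redL_C]

omit [NeZero N] [Fact ℓ.Prime] in
theorem h63_mem_adjoin_iff (g x : ↥(modularFunctionFieldFull N)) :
    x ∈ Algebra.adjoin ↥(GaloisRep.ratLocalizedAt ℓ) {g} ↔
      ∃ P : Polynomial ↥(GaloisRep.ratLocalizedAt ℓ), Polynomial.aeval g P = x := by
  rw [Algebra.adjoin_singleton_eq_range_aeval]
  rfl

omit [NeZero N] [Fact ℓ.Prime] in
/-- `hmem` for a chart generator with an `ℓ`-integral expansion. -/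
theorem h63_adjoin_le_F0 (g : ↥(modularFunctionFieldFull N))
    (gh : LaurentSeries ↥(GaloisRep.ratLocalizedAt ℓ))
    (hg : h63_iota ℓ gh = (g : LaurentSeries ℚ))
    (a : ↥(Algebra.adjoin ↥(GaloisRep.ratLocalizedAt ℓ) {g})) :
    algebraMap ↥(Algebra.adjoin ↥(GaloisRep.ratLocalizedAt ℓ) {g})
      ↥(modularFunctionFieldFull N) a ∈ h63_F0 N ℓ := by
  obtain ⟨P, hP⟩ := (h63_mem_adjoin_iff N ℓ g a).mp a.2
  change (a : ↥(modularFunctionFieldFull N)) ∈ h63_F0 N ℓ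
  rw [← hP]
  exact h63_aeval_mem_F0 N ℓ g gh hg P

omit [NeZero N] in
/-- If the reduction of `g` is transcendental over `𝔽_ℓ`, an element of `ℤ_(ℓ)[g]` with zero
reduction is divisible by `ℓ` in `ℤ_(ℓ)[g]`. -/
theorem h63_dvd_of_rho_eq_zero (g : ↥(modularFunctionFieldFull N))
    (gh : LaurentSeries ↥(GaloisRep.ratLocalizedAt ℓ))
    (hg : h63_iota ℓ gh = (g : LaurentSeries ℚ))
    (htr : ∀ Q : Polynomial (ZMod ℓ), Q.eval₂ HahnSeries.C (h63_redL ℓ gh) = 0 → Q = 0)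
    (a : ↥(Algebra.adjoin ↥(GaloisRep.ratLocalizedAt ℓ) {g}))
    (ha : h63_rho N ℓ ⟨algebraMap ↥(Algebra.adjoin ↥(GaloisRep.ratLocalizedAt ℓ) {g})
      ↥(modularFunctionFieldFull N) a, h63_adjoin_le_F0 N ℓ g gh hg a⟩ = 0) :
    ((ℓ : ℕ) : ↥(Algebra.adjoin ↥(GaloisRep.ratLocalizedAt ℓ) {g})) ∣ a := by
  obtain ⟨P, hP⟩ := (h63_mem_adjoin_iff N ℓ g a).mp a.2
  have h1 : h63_rho N ℓ ⟨Polynomial.aeval g P, h63_aeval_mem_F0 N ℓ g gh hg P⟩ = 0 := by
    rw [← ha]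
    congr 1
    exact Subtype.ext hP
  rw [h63_rho_aeval N ℓ g gh hg P] at h1
  have h2 := htr _ h1
  have h3 : Polynomial.C (ℓ : ↥(GaloisRep.ratLocalizedAt ℓ)) ∣ P := by
    rw [Polynomial.C_dvd_iff_dvd_coeff]
    intro i
    rw [← h63_red_eq_zero_iff]
    have h4 := congrArg (fun Q : Polynomial (ZMod ℓ) => Q.coeff i) h2
    simpa using h4
  obtain ⟨P1, hP1⟩ := h3
  refine ⟨⟨Polynomial.aeval g P1, (h63_mem_adjoin_iff N ℓ g _).mpr ⟨P1, rfl⟩⟩, Subtype.ext ?_⟩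
  rw [Subalgebra.coe_mul, ← hP, hP1, map_mul, Polynomial.aeval_C]
  simp

omit [NeZero N] in
/-- The reduction of an element of `ℤ_(ℓ)[g]` lies in any subalgebra containing the reduction
of `g`. -/
theorem h63_rho_mem (g : ↥(modularFunctionFieldFull N))
    (gh : LaurentSeries ↥(GaloisRep.ratLocalizedAt ℓ))
    (hg : h63_iota ℓ gh = (g : LaurentSeries ℚ))
    (E : Subalgebra (ZMod ℓ) (LaurentSeries (ZMod ℓ))) (hE : h63_redL ℓ gh ∈ E)
    (a : ↥(Algebra.adjoin ↥(GaloisRep.ratLocalizedAt ℓ) {g})) :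
    h63_rho N ℓ ⟨algebraMap ↥(Algebra.adjoin ↥(GaloisRep.ratLocalizedAt ℓ) {g})
      ↥(modularFunctionFieldFull N) a, h63_adjoin_le_F0 N ℓ g gh hg a⟩ ∈ E := by
  obtain ⟨P, hP⟩ := (h63_mem_adjoin_iff N ℓ g a).mp a.2
  have h1 : h63_rho N ℓ ⟨algebraMap ↥(Algebra.adjoin ↥(GaloisRep.ratLocalizedAt ℓ) {g})
      ↥(modularFunctionFieldFull N) a, h63_adjoin_le_F0 N ℓ g gh hg a⟩ =
      h63_rho N ℓ ⟨Polynomial.aeval g P, h63_aeval_mem_F0 N ℓ g gh hg P⟩ := by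
    congr 1
    exact Subtype.ext hP.symm
  rw [h1, h63_rho_aeval N ℓ g gh hg P, ← h63_algebraMap_eq_C', ← Polynomial.aeval_def]
  exact Algebra.adjoin_le (Set.singleton_subset_iff.mpr hE)
    (Polynomial.aeval_mem_adjoin_singleton _ _)

end Base

section Charts

variable (N : ℕ) [NeZero N] (ℓ : ℕ) [Fact ℓ.Prime]

/-! ### The two chart generators and their integral expansions -/

omit [Fact ℓ.Prime] in
theorem h63_iota_jqModC :
    h63_iota ℓ (jqModC ↥(GaloisRep.ratLocalizedAt ℓ)) =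
      ((jFull N : ↥(modularFunctionFieldFull N)) : LaurentSeries ℚ) := by
  rw [h63_iota, coeffMap_jqModC]
  rfl

omit [Fact ℓ.Prime] in
theorem h63_iota_jInv :
    h63_iota ℓ (h63_jInv ↥(GaloisRep.ratLocalizedAt ℓ)) =
      (((jFull N)⁻¹ : ↥(modularFunctionFieldFull N)) : LaurentSeries ℚ) := by
  rw [h63_iota, h63_coeffMap_jInv, h63_jInv_eq_inv]
  rfl

theorem h63_redL_jqModC :
    h63_redL ℓ (jqModC ↥(GaloisRep.ratLocalizedAt ℓ)) = jqModC (ZMod ℓ) := by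
  rw [h63_redL, coeffMap_jqModC]

theorem h63_redL_jInv :
    h63_redL ℓ (h63_jInv ↥(GaloisRep.ratLocalizedAt ℓ)) = (jqModC (ZMod ℓ))⁻¹ := by
  rw [h63_redL, h63_coeffMap_jInv, h63_jInv_eq_inv]

/-! ### Transcendence -/

omit [Fact ℓ.Prime] in
theorem h63_transcendental_jFull :
    Transcendental ↥(GaloisRep.ratLocalizedAt ℓ) (jFull N) := by
  rintro ⟨P, hP0, hP⟩
  apply hP0
  apply h63_eval₂_jqModC_eq_zero _ P
  apply h63_iota_injective ℓ
  rw [← h63_coe_aeval N ℓ (jFull N) _ (h63_iota_jqModC N ℓ) P, hP, map_zero]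
  rfl

omit [Fact ℓ.Prime] in
theorem h63_transcendental_jFull_inv :
    Transcendental ↥(GaloisRep.ratLocalizedAt ℓ) (jFull N)⁻¹ := fun h =>
  h63_transcendental_jFull N ℓ (IsAlgebraic.inv_iff.mp h)

/-! ### Ring theory of `ℤ_(ℓ)[g]` for transcendental `g` -/

omit [NeZero N] [Fact ℓ.Prime] in
/-- `ℤ_(ℓ)[g]` is a polynomial ring when `g` is transcendental. -/
def h63_polyEquiv (g : ↥(modularFunctionFieldFull N))
    (hg : Transcendental ↥(GaloisRep.ratLocalizedAt ℓ) g) :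
    Polynomial ↥(GaloisRep.ratLocalizedAt ℓ) ≃ₐ[↥(GaloisRep.ratLocalizedAt ℓ)]
      ↥(Algebra.adjoin ↥(GaloisRep.ratLocalizedAt ℓ) {g}) :=
  (AlgEquiv.ofInjective (Polynomial.aeval g) (transcendental_iff_injective.mp hg)).trans
    (Subalgebra.equivOfEq _ _ (Algebra.adjoin_singleton_eq_range_aeval _ g).symm)

omit [NeZero N] [Fact ℓ.Prime] in
theorem h63_ufm_adjoin (g : ↥(modularFunctionFieldFull N))
    (hg : Transcendental ↥(GaloisRep.ratLocalizedAt ℓ) g) :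
    UniqueFactorizationMonoid ↥(Algebra.adjoin ↥(GaloisRep.ratLocalizedAt ℓ) {g}) :=
  MulEquiv.uniqueFactorizationMonoid (h63_polyEquiv N ℓ g hg).toMulEquiv inferInstance

omit [NeZero N] in
theorem h63_prime_adjoin (g : ↥(modularFunctionFieldFull N))
    (hg : Transcendental ↥(GaloisRep.ratLocalizedAt ℓ) g) :
    Prime ((ℓ : ℕ) : ↥(Algebra.adjoin ↥(GaloisRep.ratLocalizedAt ℓ) {g})) := by
  have h1 : Prime ((ℓ : ℕ) : Polynomial ↥(GaloisRep.ratLocalizedAt ℓ)) := by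
    rw [← Polynomial.C_eq_natCast, Polynomial.prime_C_iff]
    exact h63_prime_natCast ℓ
  have h2 := (MulEquiv.prime_iff (h63_polyEquiv N ℓ g hg).toMulEquiv).mpr h1
  have h3 : (h63_polyEquiv N ℓ g hg).toMulEquiv ((ℓ : ℕ) : Polynomial ↥(GaloisRep.ratLocalizedAt ℓ))
      = ((ℓ : ℕ) : ↥(Algebra.adjoin ↥(GaloisRep.ratLocalizedAt ℓ) {g})) :=
    map_natCast (h63_polyEquiv N ℓ g hg) ℓ
  rwa [h3] at h2

end Charts

section Family

variable (N : ℕ) [NeZero N] (ℓ : ℕ) [Fact ℓ.Prime]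

omit [NeZero N] in
theorem h63_JdC_mem_full (d : N.divisors) : JdC ℚ d.1 ∈ modularFunctionFieldFull N := by
  have : NeZero d.1 := ⟨(Nat.pos_of_mem_divisors d.2).ne'⟩
  rw [JdC_of_neZero]
  exact jqd_mem_full N (Nat.dvd_of_mem_divisors d.2)

/-- `J(q^d)` as an element of the function field. -/
def h63_Jd (d : N.divisors) : ↥(modularFunctionFieldFull N) := ⟨JdC ℚ d.1, h63_JdC_mem_full N d⟩

/-- The element of the function field obtained by evaluating an integral polynomial at the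
`J(q^d)`, `d ∣ N`. -/
def h63_bF (P : MvPolynomial N.divisors ℤ) : ↥(modularFunctionFieldFull N) :=
  MvPolynomial.eval₂ (Int.castRingHom ↥(modularFunctionFieldFull N)) (h63_Jd N) P

omit [NeZero N] in
theorem h63_coe_bF (P : MvPolynomial N.divisors ℤ) :
    ((h63_bF N P : ↥(modularFunctionFieldFull N)) : LaurentSeries ℚ) =
      MvPolynomial.eval₂ (Int.castRingHom (LaurentSeries ℚ))
        (fun d : N.divisors => JdC ℚ d.1) P := by
  have h1 : ((h63_bF N P : ↥(modularFunctionFieldFull N)) : LaurentSeries ℚ) =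
      (algebraMap ↥(modularFunctionFieldFull N) (LaurentSeries ℚ)) (h63_bF N P) := rfl
  rw [h1, h63_bF, MvPolynomial.eval₂_comp_left]
  congr 1

omit [NeZero N] [Fact ℓ.Prime] in
theorem h63_iota_eval₂ (P : MvPolynomial N.divisors ℤ) :
    h63_iota ℓ (MvPolynomial.eval₂ (Int.castRingHom (LaurentSeries ↥(GaloisRep.ratLocalizedAt ℓ)))
      (fun d : N.divisors => JdC ↥(GaloisRep.ratLocalizedAt ℓ) d.1) P) =
      ((h63_bF N P : ↥(modularFunctionFieldFull N)) : LaurentSeries ℚ) := by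
  rw [h63_coe_bF, MvPolynomial.eval₂_comp_left]
  congr 1
  · exact RingHom.ext_int _ _
  · funext d
    exact coeffMap_JdC _ _

omit [NeZero N] [Fact ℓ.Prime] in
theorem h63_bF_mem_F0 (P : MvPolynomial N.divisors ℤ) : h63_bF N P ∈ h63_F0 N ℓ :=
  ⟨_, h63_iota_eval₂ N ℓ P⟩

omit [NeZero N] in
/-- The reduction of the family is the family of Part C. -/
theorem h63_rho_bF (P : MvPolynomial N.divisors ℤ) :
    h63_rho N ℓ ⟨h63_bF N P, h63_bF_mem_F0 N ℓ P⟩ =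
      MvPolynomial.eval₂ (Int.castRingHom (LaurentSeries (ZMod ℓ)))
        (fun d : N.divisors => JdC (ZMod ℓ) d.1) P := by
  rw [h63_rho_mk N ℓ _ _ _ (h63_iota_eval₂ N ℓ P), MvPolynomial.eval₂_comp_left]
  congr 1
  · exact RingHom.ext_int _ _
  · funext d
    exact coeffMap_JdC _ _

omit [NeZero N] in
/-- `hind` in the shape of `partD_exists_red`, for a generator `g` with integral expansion `gh`
whose reduction is transcendental over `𝔽_ℓ` and lies in `𝔽_ℓ(J̄)`. -/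
theorem h63_hind (g : ↥(modularFunctionFieldFull N))
    (gh : LaurentSeries ↥(GaloisRep.ratLocalizedAt ℓ))
    (hg : h63_iota ℓ gh = (g : LaurentSeries ℚ))
    (htr : ∀ Q : Polynomial (ZMod ℓ), Q.eval₂ HahnSeries.C (h63_redL ℓ gh) = 0 → Q = 0)
    (hE : h63_redL ℓ gh ∈ IntermediateField.adjoin (ZMod ℓ) {jqModC (ZMod ℓ)})
    {ι : Type*} [Fintype ι] (b : ι → MvPolynomial N.divisors ℤ)
    (hC : LinearIndependent (IntermediateField.adjoin (ZMod ℓ) {jqModC (ZMod ℓ)})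
      (fun i => MvPolynomial.eval₂ (Int.castRingHom (LaurentSeries (ZMod ℓ)))
        (fun d : N.divisors => JdC (ZMod ℓ) d.1) (b i)))
    (a : ι → ↥(Algebra.adjoin ↥(GaloisRep.ratLocalizedAt ℓ) {g}))
    (h : ∑ i, h63_rho N ℓ ⟨algebraMap ↥(Algebra.adjoin ↥(GaloisRep.ratLocalizedAt ℓ) {g})
        ↥(modularFunctionFieldFull N) (a i), h63_adjoin_le_F0 N ℓ g gh hg (a i)⟩ *
      h63_rho N ℓ ⟨h63_bF N (b i), h63_bF_mem_F0 N ℓ (b i)⟩ = 0) :
    ∀ i, ((ℓ : ℕ) : ↥(Algebra.adjoin ↥(GaloisRep.ratLocalizedAt ℓ) {g})) ∣ a i := by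
  intro i
  apply h63_dvd_of_rho_eq_zero N ℓ g gh hg htr
  rw [Fintype.linearIndependent_iff] at hC
  have hmem : ∀ i, h63_rho N ℓ ⟨algebraMap ↥(Algebra.adjoin ↥(GaloisRep.ratLocalizedAt ℓ) {g})
        ↥(modularFunctionFieldFull N) (a i), h63_adjoin_le_F0 N ℓ g gh hg (a i)⟩ ∈
      IntermediateField.adjoin (ZMod ℓ) {jqModC (ZMod ℓ)} := fun i =>
    h63_rho_mem N ℓ g gh hg (IntermediateField.adjoin (ZMod ℓ) {jqModC (ZMod ℓ)}).toSubalgebra
      hE (a i)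
  have h2 := hC (fun i => ⟨_, hmem i⟩) (by
    rw [← h]
    refine Finset.sum_congr rfl fun i _ => ?_
    rw [h63_rho_bF]
    rfl) i
  exact congrArg Subtype.val h2

end Family

section Pack

variable (N : ℕ) [NeZero N] (ℓ : ℕ) [Fact ℓ.Prime]

omit [NeZero N] in
/-- The reduction kills `ℓ`. -/
theorem h63_rho_eq_zero_of_coe_eq_natCast (x : ↥(h63_F0 N ℓ))
    (hx : ((x : ↥(modularFunctionFieldFull N)) : LaurentSeries ℚ) = ((ℓ : ℕ) : LaurentSeries ℚ)) :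
    h63_rho N ℓ x = 0 := by
  rw [h63_rho_spec N ℓ x ((ℓ : ℕ) : LaurentSeries ↥(GaloisRep.ratLocalizedAt ℓ))
    (by rw [map_natCast, hx]), map_natCast, ← map_natCast (HahnSeries.C : ZMod ℓ →+* _),
    ZMod.natCast_self, map_zero]

omit [NeZero N] in
/-- `hρℓ` in the shape of `partD_exists_red`. -/
theorem h63_rho_prime (g : ↥(modularFunctionFieldFull N))
    (h : algebraMap ↥(Algebra.adjoin ↥(GaloisRep.ratLocalizedAt ℓ) {g})
      ↥(modularFunctionFieldFull N)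
      ((ℓ : ℕ) : ↥(Algebra.adjoin ↥(GaloisRep.ratLocalizedAt ℓ) {g})) ∈ h63_F0 N ℓ) :
    h63_rho N ℓ ⟨algebraMap ↥(Algebra.adjoin ↥(GaloisRep.ratLocalizedAt ℓ) {g})
      ↥(modularFunctionFieldFull N)
      ((ℓ : ℕ) : ↥(Algebra.adjoin ↥(GaloisRep.ratLocalizedAt ℓ) {g})), h⟩ = 0 := by
  apply h63_rho_eq_zero_of_coe_eq_natCast
  change ((algebraMap ↥(modularFunctionFieldFull N) (LaurentSeries ℚ))
    (algebraMap ↥(Algebra.adjoin ↥(GaloisRep.ratLocalizedAt ℓ) {g})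
      ↥(modularFunctionFieldFull N)
      ((ℓ : ℕ) : ↥(Algebra.adjoin ↥(GaloisRep.ratLocalizedAt ℓ) {g})))) = _
  rw [map_natCast, map_natCast]

/-! ### The finite chart: `g = j` -/

instance h63_fin_ufm :
    UniqueFactorizationMonoid ↥(Algebra.adjoin ↥(GaloisRep.ratLocalizedAt ℓ) {jFull N}) :=
  h63_ufm_adjoin N ℓ _ (h63_transcendental_jFull N ℓ)

instance h63_fin_isIntegrallyClosed :
    IsIntegrallyClosed ↥(Algebra.adjoin ↥(GaloisRep.ratLocalizedAt ℓ) {jFull N}) :=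
  UniqueFactorizationMonoid.instIsIntegrallyClosed

instance h63_fin_wfDvdMonoid :
    WfDvdMonoid ↥(Algebra.adjoin ↥(GaloisRep.ratLocalizedAt ℓ) {jFull N}) :=
  inferInstance

theorem h63_fin_prime :
    Prime ((ℓ : ℕ) : ↥(Algebra.adjoin ↥(GaloisRep.ratLocalizedAt ℓ) {jFull N})) :=
  h63_prime_adjoin N ℓ _ (h63_transcendental_jFull N ℓ)

omit [Fact ℓ.Prime] in
theorem h63_fin_hmem (a : ↥(Algebra.adjoin ↥(GaloisRep.ratLocalizedAt ℓ) {jFull N})) :
    algebraMap ↥(Algebra.adjoin ↥(GaloisRep.ratLocalizedAt ℓ) {jFull N})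
      ↥(modularFunctionFieldFull N) a ∈ h63_F0 N ℓ :=
  h63_adjoin_le_F0 N ℓ (jFull N) _ (h63_iota_jqModC N ℓ) a

theorem h63_fin_rho_prime :
    h63_rho N ℓ ⟨algebraMap ↥(Algebra.adjoin ↥(GaloisRep.ratLocalizedAt ℓ) {jFull N})
      ↥(modularFunctionFieldFull N)
      ((ℓ : ℕ) : ↥(Algebra.adjoin ↥(GaloisRep.ratLocalizedAt ℓ) {jFull N})),
      h63_fin_hmem N ℓ _⟩ = 0 :=
  h63_rho_prime N ℓ _ _

theorem h63_fin_hind {ι : Type*} [Fintype ι] (b : ι → MvPolynomial N.divisors ℤ)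
    (hC : LinearIndependent (IntermediateField.adjoin (ZMod ℓ) {jqModC (ZMod ℓ)})
      (fun i => MvPolynomial.eval₂ (Int.castRingHom (LaurentSeries (ZMod ℓ)))
        (fun d : N.divisors => JdC (ZMod ℓ) d.1) (b i)))
    (a : ι → ↥(Algebra.adjoin ↥(GaloisRep.ratLocalizedAt ℓ) {jFull N}))
    (h : ∑ i, h63_rho N ℓ ⟨algebraMap ↥(Algebra.adjoin ↥(GaloisRep.ratLocalizedAt ℓ) {jFull N})
        ↥(modularFunctionFieldFull N) (a i), h63_fin_hmem N ℓ (a i)⟩ *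
      h63_rho N ℓ ⟨h63_bF N (b i), h63_bF_mem_F0 N ℓ (b i)⟩ = 0) :
    ∀ i, ((ℓ : ℕ) : ↥(Algebra.adjoin ↥(GaloisRep.ratLocalizedAt ℓ) {jFull N})) ∣ a i := by
  refine h63_hind N ℓ (jFull N) _ (h63_iota_jqModC N ℓ) ?_ ?_ b hC a h
  · intro Q hQ
    rw [h63_redL_jqModC] at hQ
    exact h63_eval₂_jqModC_eq_zero _ Q hQ
  · rw [h63_redL_jqModC]
    exact IntermediateField.mem_adjoin_simple_self _ _

/-- The reduction of `j` is `J̄`. -/
theorem h63_rho_jFull (h : jFull N ∈ h63_F0 N ℓ) :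
    h63_rho N ℓ ⟨jFull N, h⟩ = jqModC (ZMod ℓ) := by
  rw [h63_rho_mk N ℓ _ _ _ (h63_iota_jqModC N ℓ), h63_redL_jqModC]

/-! ### The chart at infinity: `g = j⁻¹` -/

instance h63_inf_ufm :
    UniqueFactorizationMonoid ↥(Algebra.adjoin ↥(GaloisRep.ratLocalizedAt ℓ) {(jFull N)⁻¹}) :=
  h63_ufm_adjoin N ℓ _ (h63_transcendental_jFull_inv N ℓ)

instance h63_inf_isIntegrallyClosed :
    IsIntegrallyClosed ↥(Algebra.adjoin ↥(GaloisRep.ratLocalizedAt ℓ) {(jFull N)⁻¹}) :=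
  UniqueFactorizationMonoid.instIsIntegrallyClosed

instance h63_inf_wfDvdMonoid :
    WfDvdMonoid ↥(Algebra.adjoin ↥(GaloisRep.ratLocalizedAt ℓ) {(jFull N)⁻¹}) :=
  inferInstance

theorem h63_inf_prime :
    Prime ((ℓ : ℕ) : ↥(Algebra.adjoin ↥(GaloisRep.ratLocalizedAt ℓ) {(jFull N)⁻¹})) :=
  h63_prime_adjoin N ℓ _ (h63_transcendental_jFull_inv N ℓ)

omit [Fact ℓ.Prime] in
theorem h63_inf_hmem (a : ↥(Algebra.adjoin ↥(GaloisRep.ratLocalizedAt ℓ) {(jFull N)⁻¹})) :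
    algebraMap ↥(Algebra.adjoin ↥(GaloisRep.ratLocalizedAt ℓ) {(jFull N)⁻¹})
      ↥(modularFunctionFieldFull N) a ∈ h63_F0 N ℓ :=
  h63_adjoin_le_F0 N ℓ (jFull N)⁻¹ _ (h63_iota_jInv N ℓ) a

theorem h63_inf_rho_prime :
    h63_rho N ℓ ⟨algebraMap ↥(Algebra.adjoin ↥(GaloisRep.ratLocalizedAt ℓ) {(jFull N)⁻¹})
      ↥(modularFunctionFieldFull N)
      ((ℓ : ℕ) : ↥(Algebra.adjoin ↥(GaloisRep.ratLocalizedAt ℓ) {(jFull N)⁻¹})),
      h63_inf_hmem N ℓ _⟩ = 0 :=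
  h63_rho_prime N ℓ _ _

theorem h63_eval₂_jqModC_inv_eq_zero (Q : Polynomial (ZMod ℓ))
    (hQ : Q.eval₂ HahnSeries.C (jqModC (ZMod ℓ))⁻¹ = 0) : Q = 0 := by
  have h1 : Transcendental (ZMod ℓ) (jqModC (ZMod ℓ))⁻¹ := fun h =>
    h63_transcendental_jqModC (ZMod ℓ) (IsAlgebraic.inv_iff.mp h)
  rw [transcendental_iff] at h1
  apply h1
  rw [Polynomial.aeval_def, h63_algebraMap_eq_C']
  exact hQ

theorem h63_inf_hind {ι : Type*} [Fintype ι] (b : ι → MvPolynomial N.divisors ℤ)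
    (hC : LinearIndependent (IntermediateField.adjoin (ZMod ℓ) {jqModC (ZMod ℓ)})
      (fun i => MvPolynomial.eval₂ (Int.castRingHom (LaurentSeries (ZMod ℓ)))
        (fun d : N.divisors => JdC (ZMod ℓ) d.1) (b i)))
    (a : ι → ↥(Algebra.adjoin ↥(GaloisRep.ratLocalizedAt ℓ) {(jFull N)⁻¹}))
    (h : ∑ i, h63_rho N ℓ ⟨algebraMap ↥(Algebra.adjoin ↥(GaloisRep.ratLocalizedAt ℓ) {(jFull N)⁻¹})
        ↥(modularFunctionFieldFull N) (a i), h63_inf_hmem N ℓ (a i)⟩ *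
      h63_rho N ℓ ⟨h63_bF N (b i), h63_bF_mem_F0 N ℓ (b i)⟩ = 0) :
    ∀ i, ((ℓ : ℕ) : ↥(Algebra.adjoin ↥(GaloisRep.ratLocalizedAt ℓ) {(jFull N)⁻¹})) ∣ a i := by
  refine h63_hind N ℓ (jFull N)⁻¹ _ (h63_iota_jInv N ℓ) ?_ ?_ b hC a h
  · intro Q hQ
    rw [h63_redL_jInv] at hQ
    exact h63_eval₂_jqModC_inv_eq_zero ℓ Q hQ
  · rw [h63_redL_jInv]
    exact inv_mem (IntermediateField.mem_adjoin_simple_self _ _)

/-- The reduction of `j⁻¹` is `J̄⁻¹`. -/
theorem h63_rho_jFull_inv (h : (jFull N)⁻¹ ∈ h63_F0 N ℓ) :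
    h63_rho N ℓ ⟨(jFull N)⁻¹, h⟩ = (jqModC (ZMod ℓ))⁻¹ := by
  rw [h63_rho_mk N ℓ _ _ _ (h63_iota_jInv N ℓ), h63_redL_jInv]

/-- In the chart at infinity, `ℓ` does not divide a power of the coordinate `t = j⁻¹`
(the denominators `s = t^m` allowed in `hbint`). -/
theorem h63_inf_not_dvd_pow (m : ℕ)
    (t : ↥(Algebra.adjoin ↥(GaloisRep.ratLocalizedAt ℓ) {(jFull N)⁻¹}))
    (ht : (t : ↥(modularFunctionFieldFull N)) = (jFull N)⁻¹) :
    ¬ ((ℓ : ℕ) : ↥(Algebra.adjoin ↥(GaloisRep.ratLocalizedAt ℓ) {(jFull N)⁻¹})) ∣ t ^ m := by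
  rintro ⟨c, hc⟩
  let ρR : ↥(Algebra.adjoin ↥(GaloisRep.ratLocalizedAt ℓ) {(jFull N)⁻¹}) →+*
      LaurentSeries (ZMod ℓ) :=
    (h63_rho N ℓ).comp ((algebraMap ↥(Algebra.adjoin ↥(GaloisRep.ratLocalizedAt ℓ) {(jFull N)⁻¹})
      ↥(modularFunctionFieldFull N)).codRestrict (h63_F0 N ℓ) (h63_inf_hmem N ℓ))
  have h1 : ρR ((ℓ : ℕ) : ↥(Algebra.adjoin ↥(GaloisRep.ratLocalizedAt ℓ) {(jFull N)⁻¹})) = 0 :=
    h63_inf_rho_prime N ℓ
  have h2 : ρR t = (jqModC (ZMod ℓ))⁻¹ := by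
    have h3 : ρR t = h63_rho N ℓ ⟨(jFull N)⁻¹, by rw [← ht]; exact h63_inf_hmem N ℓ t⟩ := by
      change h63_rho N ℓ ⟨(t : ↥(modularFunctionFieldFull N)), _⟩ = _
      congr 1
      exact Subtype.ext ht
    rw [h3, h63_rho_jFull_inv]
  have h4 := congrArg ρR hc
  rw [map_pow, map_mul, h1, zero_mul, h2] at h4
  exact pow_ne_zero m (inv_ne_zero (jqModC_ne_zero_of_nontrivial (ZMod ℓ))) h4

end Pack

end

end Fermat.Agent.S28
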