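import Fermat.Agent.S24.AsmDegree
import Fermat.Agent.S24.AsmBridgeB
import Fermat.Agent.S24.ModData
import Fermat.Agent.Lib.Gamma0Cosets
import Fermat.Prelude.Def_ModularCurve_IgusaScheme

/-!
# S28, Part B (helper81): the degree of the formal function field of `X₀(N)` over `ℚ(j)`
is at most `ψ(N)`.

The formal function field `F_N = ℚ(j(q^d) : d ∣ N) ⊆ ℚ((q))` has degree `≤ ψ(N)` over `ℚ(j)`.
This is deduced from the S24 analysis (`asmA_finrank`: the field `ℚ̄ · F_N` has degree
`[SL(2,ℤ) : Γ₀(N)]` over `ℚ̄(j)`), the coset count `Lib.card_quotient_Gamma0` and the linear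
disjointness of `ℚ((q))` and `ℚ̄` over `ℚ`.

Exports: `h81B_card_le`, `h81B_card_le'` (no `n` elements of `F_N` without a nontrivial
`ℤ[j]`-linear relation unless `n ≤ ψ(N)`), `h81B_exists_rel` (any `ψ(N) + 1` elements of `F_N`
satisfy a nontrivial `ℤ[j]`-linear relation).
-/

set_option autoImplicit false

open ModularCurve IntermediateField

namespace Fermat.Agent.S28


open Fermat.Agent.S24 in
/-- The generator `j` of the formal function field over `ℚ̄`. -/
noncomputable def h81B_xbar (N : ℕ) [NeZero N] : ↥(modularFunctionFieldBar N) :=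
  ⟨JJ 1, asmAb_JJ_mem N 1 (one_dvd N)⟩

open Fermat.Agent.S24 in
/-- Degree of the formal function field over `ℚ̄(j)` (from the S24 analysis). -/
theorem h81B_finrank_bar (N : ℕ) [NeZero N] :
    FiniteDimensional ↥(Kbar⟮h81B_xbar N⟯) ↥(modularFunctionFieldBar N) ∧
      Module.finrank ↥(Kbar⟮h81B_xbar N⟯) ↥(modularFunctionFieldBar N) = dedekindPsi N := by
  obtain ⟨D⟩ := wpA_nonempty_modularData N
  obtain ⟨ι, hι, hΓ⟩ := asmAb_exists_iota N D
  have h := asmA_finrank N D ι (h81B_xbar N) ⟨JJ N, asmAb_JJ_mem N N dvd_rfl⟩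
    (hι 1 (one_dvd N)) (hι N dvd_rfl) hΓ
  refine ⟨h.1, ?_⟩
  rw [h.2]
  exact Fermat.Agent.Lib.card_quotient_Gamma0 N



/-- Linear disjointness of `ℚ((q))` and `L` over `ℚ`: extension of the coefficient field
preserves linear independence. -/
theorem h81B_linearIndependent_coeffEmb (L : Type*) [Field L] [Algebra ℚ L] {A : Type*}
    (y : A → LaurentSeries ℚ) (hy : LinearIndependent ℚ y) :
    LinearIndependent L (fun a => coeffEmb L (y a)) := by
  rw [linearIndependent_iff'] at hy ⊢
  intro s g hg a ha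
  rw [← Module.forall_dual_apply_eq_zero_iff ℚ (g a)]
  intro φ
  have h1 : ∑ i ∈ s, φ (g i) • y i = 0 := by
    ext k
    have h2 := congrArg (fun z : LaurentSeries L => z.coeff k) hg
    simp only [HahnSeries.coeff_sum, HahnSeries.coeff_smul, coeffEmb_coeff,
      HahnSeries.coeff_zero] at h2 ⊢
    have h3 := congrArg φ h2
    rw [map_sum, map_zero] at h3
    rw [← h3]
    refine Finset.sum_congr rfl fun i _ => ?_
    rw [smul_eq_mul, smul_eq_mul, mul_comm (g i), ← Algebra.smul_def, map_smul, smul_eq_mul,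
      mul_comm]
  exact hy s (fun i => φ (g i)) h1 a ha



open Fermat.Agent.S24 IntermediateField.algebraAdjoinAdjoin in
/-- From `ℚ̄`-independence of the products `j^m * w_i` to `ℚ̄(j)`-independence of the `w_i`. -/
theorem h81B_linearIndependent_bar (N : ℕ) [NeZero N] {n : ℕ}
    (w : Fin n → ↥(modularFunctionFieldBar N))
    (hw : LinearIndependent Kbar
      (fun p : ℕ × Fin n => (JJ 1) ^ p.1 * (w p.2 : LaurentSeries Kbar))) :
    LinearIndependent ↥(Kbar⟮h81B_xbar N⟯) w := by
  rw [← LinearIndependent.iff_fractionRing (R := Algebra.adjoin Kbar {h81B_xbar N})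
    (K := ↥(Kbar⟮h81B_xbar N⟯))]
  rw [linearIndependent_iff']
  intro t g hg i hi
  have hP : ∀ j, ∃ P : Polynomial Kbar,
      Polynomial.aeval (h81B_xbar N) P = (g j : ↥(modularFunctionFieldBar N)) := by
    intro j
    have h : ((g j : ↥(modularFunctionFieldBar N))) ∈
        (Polynomial.aeval (R := Kbar) (h81B_xbar N)).range := by
      rw [← Algebra.adjoin_singleton_eq_range_aeval]
      exact (g j).2
    exact h
  choose P hP using hP
  -- a uniform degree bound
  obtain ⟨D, hD⟩ : ∃ D : ℕ, ∀ j ∈ t, (P j).natDegree < D :=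
    ⟨t.sup (fun j => (P j).natDegree) + 1, fun j hj =>
      Nat.lt_succ_of_le (Finset.le_sup (f := fun j => (P j).natDegree) hj)⟩
  rw [linearIndependent_iff'] at hw
  have key : ∑ p ∈ (Finset.range D) ×ˢ t,
      (P p.2).coeff p.1 • ((JJ 1) ^ p.1 * (w p.2 : LaurentSeries Kbar)) = 0 := by
    rw [Finset.sum_product_right]
    have h1 := congrArg (fun z : ↥(modularFunctionFieldBar N) => (z : LaurentSeries Kbar)) hg
    simp only [AddSubmonoidClass.coe_finsetSum, ZeroMemClass.coe_zero] at h1
    rw [← h1]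
    refine Finset.sum_congr rfl fun j hj => ?_
    have h2 : ((g j • w j : ↥(modularFunctionFieldBar N)) : LaurentSeries Kbar) =
        ((g j : ↥(modularFunctionFieldBar N)) : LaurentSeries Kbar) * (w j : LaurentSeries Kbar) := rfl
    rw [h2, ← hP j, Polynomial.aeval_eq_sum_range' (hD j hj)]
    simp only [AddSubmonoidClass.coe_finsetSum, Finset.sum_mul]
    refine Finset.sum_congr rfl fun m _ => ?_
    have e1 : (P j).coeff m • ((JJ 1) ^ m * (w j : LaurentSeries Kbar)) =
        algebraMap Kbar (LaurentSeries Kbar) ((P j).coeff m) *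
          ((JJ 1) ^ m * (w j : LaurentSeries Kbar)) := by
      rw [algebraMap_laurentSeries_eq_single, HahnSeries.single_zero_mul_eq_smul]
    rw [e1, ← mul_assoc, Algebra.smul_def]
    rfl
  have h3 := hw _ (fun p => (P p.2).coeff p.1) key
  have hPi : P i = 0 := by
    ext m
    rw [Polynomial.coeff_zero]
    by_cases hm : m < D
    · exact h3 (m, i) (Finset.mem_product.2 ⟨Finset.mem_range.2 hm, hi⟩)
    · exact Polynomial.coeff_eq_zero_of_natDegree_lt (lt_of_lt_of_le (hD i hi) (not_lt.1 hm))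
  apply Subtype.ext
  rw [← hP i, hPi, map_zero]
  rfl


/-- From the absence of `ℤ[j]`-relations to `ℚ`-linear independence of the products `j^m * v_i`. -/
theorem h81B_linearIndependent_rat {n : ℕ} (v : Fin n → LaurentSeries ℚ)
    (hv : ∀ P : Fin n → Polynomial ℤ,
      ∑ i, (P i).eval₂ (Int.castRingHom (LaurentSeries ℚ)) jq * v i = 0 → ∀ i, P i = 0) :
    LinearIndependent ℚ (fun p : ℕ × Fin n => jq ^ p.1 * v p.2) := by
  classical
  rw [← LinearIndependent.iff_fractionRing (R := ℤ) (K := ℚ), linearIndependent_iff']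
  intro s g hg p hp
  set P : Fin n → Polynomial ℤ :=
    fun i => ∑ q ∈ s, if q.2 = i then Polynomial.monomial q.1 (g q) else 0 with hPdef
  have h0 : ∑ i, (P i).eval₂ (Int.castRingHom (LaurentSeries ℚ)) jq * v i = 0 := by
    rw [← hg]
    simp only [hPdef, Polynomial.eval₂_finsetSum, Finset.sum_mul]
    rw [Finset.sum_comm]
    refine Finset.sum_congr rfl fun q _ => ?_
    rw [Finset.sum_eq_single q.2]
    · simp [Polynomial.eval₂_monomial, zsmul_eq_mul, mul_assoc]
    · intro i _ hne
      simp [Ne.symm hne]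
    · intro h
      exact absurd (Finset.mem_univ _) h
  have h1 := hv P h0 p.2
  have h2 := congrArg (fun Q : Polynomial ℤ => Q.coeff p.1) h1
  simp only [hPdef, Polynomial.finsetSum_coeff, Polynomial.coeff_zero] at h2
  rw [Finset.sum_eq_single p] at h2
  · simpa using h2
  · intro q _ hne
    by_cases h : q.2 = p.2
    · have h' : q.1 ≠ p.1 := fun h' => hne (Prod.ext h' h)
      simp [h, Polynomial.coeff_monomial, h']
    · simp [h]
  · intro h
    exact absurd hp h

open Fermat.Agent.S24 in
/-- **Part B.** `n` elements of the formal function field `F_N ⊆ ℚ((q))` without a nontrivial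
`ℤ[j]`-linear relation: then `n ≤ ψ(N)`. -/
theorem h81B_card_le (N : ℕ) [NeZero N] (n : ℕ) (v : Fin n → LaurentSeries ℚ)
    (hmem : ∀ i, v i ∈ modularFunctionFieldFull N)
    (hv : ∀ P : Fin n → Polynomial ℤ,
      ∑ i, (P i).eval₂ (Int.castRingHom (LaurentSeries ℚ)) jq * v i = 0 → ∀ i, P i = 0) :
    n ≤ dedekindPsi N := by
  have h1 := h81B_linearIndependent_rat v hv
  have h2 := h81B_linearIndependent_coeffEmb Kbar _ h1
  let w : Fin n → ↥(modularFunctionFieldBar N) :=
    fun i => ⟨coeffEmb Kbar (v i), coeffEmb_mem_laurentBaseChange Kbar (hmem i)⟩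
  have h3 : LinearIndependent Kbar
      (fun p : ℕ × Fin n => (JJ 1) ^ p.1 * (w p.2 : LaurentSeries Kbar)) := by
    have e : (fun p : ℕ × Fin n => (JJ 1) ^ p.1 * (w p.2 : LaurentSeries Kbar)) =
        fun p : ℕ × Fin n => coeffEmb Kbar (jq ^ p.1 * v p.2) := by
      funext p
      rw [map_mul, map_pow, asmAb_JJ_one]
    rw [e]
    exact h2
  have h4 := h81B_linearIndependent_bar N w h3
  obtain ⟨hfin, hrank⟩ := h81B_finrank_bar N
  have h5 := h4.fintype_card_le_finrank
  rw [Fintype.card_fin, hrank] at h5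
  exact h5

open IgusaScheme in
/-- **Part B**, for elements of the subtype `↥(modularFunctionFieldFull N)`. -/
theorem h81B_card_le' (N : ℕ) [NeZero N] (n : ℕ) (v : Fin n → ↥(modularFunctionFieldFull N))
    (hv : ∀ P : Fin n → Polynomial ℤ,
      ∑ i, (P i).eval₂ (Int.castRingHom ↥(modularFunctionFieldFull N)) (jFull N) * v i = 0 →
        ∀ i, P i = 0) :
    n ≤ dedekindPsi N := by
  refine h81B_card_le N n (fun i => (v i : LaurentSeries ℚ)) (fun i => (v i).2) ?_
  intro P hP
  apply hv P
  apply Subtype.ext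
  rw [ZeroMemClass.coe_zero, ← hP]
  simp only [AddSubmonoidClass.coe_finsetSum, MulMemClass.coe_mul]
  refine Finset.sum_congr rfl fun i _ => ?_
  congr 1
  let φ : ↥(modularFunctionFieldFull N) →+* LaurentSeries ℚ :=
    { toFun := fun x => x.1
      map_one' := rfl
      map_mul' := fun _ _ => rfl
      map_zero' := rfl
      map_add' := fun _ _ => rfl }
  have h := Polynomial.hom_eval₂ (P i) (Int.castRingHom ↥(modularFunctionFieldFull N)) φ (jFull N)
  have e : φ.comp (Int.castRingHom ↥(modularFunctionFieldFull N)) =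
      Int.castRingHom (LaurentSeries ℚ) := RingHom.ext_int _ _
  rw [e] at h
  exact h

open IgusaScheme in
/-- **Part B**, existence form: more than `ψ(N)` elements of the formal function field satisfy a
nontrivial `ℤ[j]`-linear relation. -/
theorem h81B_exists_rel (N : ℕ) [NeZero N] (n : ℕ) (hn : dedekindPsi N < n)
    (v : Fin n → ↥(modularFunctionFieldFull N)) :
    ∃ P : Fin n → Polynomial ℤ, (∃ i, P i ≠ 0) ∧
      ∑ i, (P i).eval₂ (Int.castRingHom ↥(modularFunctionFieldFull N)) (jFull N) * v i = 0 := by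
  by_contra hcon
  have h := h81B_card_le' N n v (fun P hP i => by
    by_contra hne
    exact hcon ⟨P, ⟨i, hne⟩, hP⟩)
  omega

/-- `j(q)` satisfies no nontrivial polynomial equation with integer coefficients: it has a pole. -/
theorem h81B_eval₂_jq_eq_zero (P : Polynomial ℤ)
    (h : P.eval₂ (Int.castRingHom (LaurentSeries ℚ)) jq = 0) : P = 0 := by
  by_contra hP
  have h1 : (P.eval₂ (Int.castRingHom (LaurentSeries ℚ)) jq).coeff (-(P.natDegree : ℤ)) =
      (P.leadingCoeff : ℚ) := by
    rw [Polynomial.eval₂_eq_sum_range, HahnSeries.coeff_sum, Finset.sum_eq_single P.natDegree]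
    · rw [eq_intCast, ← zsmul_eq_mul, HahnSeries.coeff_smul, coeff_jq_pow_self, zsmul_eq_mul,
        mul_one]
      rfl
    · intro i hi hne
      have hlt : i < P.natDegree :=
        lt_of_le_of_ne (Nat.lt_succ_iff.mp (Finset.mem_range.mp hi)) hne
      rw [eq_intCast, ← zsmul_eq_mul, HahnSeries.coeff_smul, coeff_jq_pow_of_lt (by omega),
        smul_zero]
    · intro h'
      exact absurd (Finset.mem_range.mpr (Nat.lt_succ_self _)) h'
  rw [h, HahnSeries.coeff_zero] at h1
  exact hP (Polynomial.leadingCoeff_eq_zero.mp (by exact_mod_cast h1.symm))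

theorem h81B_eval₂_mem (P : Polynomial ℤ) :
    P.eval₂ (Int.castRingHom (LaurentSeries ℚ)) jq ∈ ℚ⟮jq⟯ := by
  rw [Polynomial.eval₂_eq_sum_range]
  refine sum_mem fun i _ => mul_mem ?_ (pow_mem (mem_adjoin_simple_self ℚ jq) i)
  rw [eq_intCast]
  exact intCast_mem _ _

/-- **Part B2**, in the exact form of the S28 skeleton: `[ℚ(J(q^d) : d ∣ N) : ℚ(J)] ≤ ψ(N)`. -/
theorem card_le_dedekindPsi (N : ℕ) [NeZero N] (n : ℕ) (b : Fin n → LaurentSeries ℚ)
    (hb : ∀ i, b i ∈ modularFunctionFieldFull N) (hli : LinearIndependent ℚ⟮jq⟯ b) :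
    n ≤ dedekindPsi N := by
  refine h81B_card_le N n b hb ?_
  intro P hP i
  rw [linearIndependent_iff'] at hli
  have h1 := hli Finset.univ (fun i => ⟨_, h81B_eval₂_mem (P i)⟩) hP i (Finset.mem_univ i)
  exact h81B_eval₂_jq_eq_zero (P i) (congrArg Subtype.val h1)

end Fermat.Agent.S28
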