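import Mathlib
import Fermat.Agent.S28.Defs

/-!
# S28, Part C, Step A

`J(q^p) ∉ k(J(q^d) : d ∣ M)` for a prime `p ∤ M` (everything in `k((q))`, `k` algebraically closed,
`p * M` invertible in `k`), from the prime-level modular equations and `J(q^p) ∉ k(J)`.

By-products: the factorisation of `Φ_r(X, J(w^r))` over `k((w))` (`partC_stepA_roots`) and the
irreducibility statement (P1') (`partC_stepA_minpoly`, `partC_stepA_natDegree_le`).
-/

set_option autoImplicit false

open ModularCurve Polynomial IntermediateField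

namespace Fermat.Agent.S28

noncomputable section

variable {k : Type*} [Field k]

/-! ### Part 0: evaluation homomorphisms -/

theorem partC_stepA_comp_aeval {A : Type*} [CommRing A] (ψ : LaurentSeries k →+* A)
    (x : LaurentSeries k) (g : Polynomial k →+* A) (hC : ∀ a : k, g (C a) = ψ (HahnSeries.C a))
    (hX : g X = ψ x) :
    ψ.comp (aeval x : Polynomial k →ₐ[k] LaurentSeries k).toRingHom = g := by
  refine Polynomial.ringHom_ext (fun a => ?_) ?_
  · rw [hC]
    simp [LaurentSeries.algebraMap_apply]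
  · rw [hX]
    simp

theorem partC_stepA_comp_aeval' (ψ : LaurentSeries k →+* LaurentSeries k)
    (hψ : ∀ a : k, ψ (HahnSeries.C a) = HahnSeries.C a) (x : LaurentSeries k) :
    ψ.comp (aeval x : Polynomial k →ₐ[k] LaurentSeries k).toRingHom =
      (aeval (ψ x) : Polynomial k →ₐ[k] LaurentSeries k).toRingHom := by
  refine partC_stepA_comp_aeval ψ x _ (fun a => ?_) ?_
  · rw [hψ]
    simp [LaurentSeries.algebraMap_apply]
  · simp

theorem partC_stepA_qE_C (d : ℕ) (a : k) : qE k d (HahnSeries.C a) = HahnSeries.C a := by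
  by_cases hd : d = 0
  · subst hd
    unfold qE
    rw [dif_pos rfl]
    rfl
  · have : NeZero d := ⟨hd⟩
    rw [qE_of_neZero]
    exact qExpand_C d a

theorem partC_stepA_qE_coeff_of_not_dvd (d : ℕ) (hd : d ≠ 0) (f : LaurentSeries k) {n : ℤ}
    (hn : ¬ (d : ℤ) ∣ n) : (qE k d f).coeff n = 0 := by
  have : NeZero d := ⟨hd⟩
  rw [qE_of_neZero]
  exact qExpand_coeff_of_not_dvd d f hn

theorem partC_stepA_qE_coeff_mul (d : ℕ) (hd : d ≠ 0) (f : LaurentSeries k) (n : ℤ) :
    (qE k d f).coeff ((d : ℤ) * n) = f.coeff n := by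
  have : NeZero d := ⟨hd⟩
  rw [qE_of_neZero]
  exact qExpand_coeff_mul d f n

/-! ### Part 1: the roots of `Φ_r(X, J(w^r))` -/

/-- The `r + 1` roots of `Φ_r(X, J(w^r))` in `k((w))`: `J(ζ^b w)` for `b < r` and `J(w^(r^2))`. -/
def partC_stepA_rt (J : LaurentSeries k) (r : ℕ) (ζ : kˣ) (b : ℕ) : LaurentSeries k :=
  if b < r then twist (ζ ^ b) J else qE k (r * r) J

theorem partC_stepA_rt_of_lt (J : LaurentSeries k) (r : ℕ) (ζ : kˣ) {b : ℕ} (hb : b < r) :
    partC_stepA_rt J r ζ b = twist (ζ ^ b) J := by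
  unfold partC_stepA_rt
  rw [if_pos hb]

theorem partC_stepA_rt_self (J : LaurentSeries k) (r : ℕ) (ζ : kˣ) :
    partC_stepA_rt J r ζ r = qE k (r * r) J := by
  unfold partC_stepA_rt
  rw [if_neg (lt_irrefl r)]

theorem partC_stepA_rt_injOn (J : LaurentSeries k) (hJ1 : J.coeff (-1) = 1) (r : ℕ) (hr : 2 ≤ r)
    (ζ : kˣ) (hζ : IsPrimitiveRoot ζ r) :
    Set.InjOn (partC_stepA_rt J r ζ) (Finset.range (r + 1) : Set ℕ) := by
  have hc : ∀ b : ℕ, b < r → (partC_stepA_rt J r ζ b).coeff (-1) = (((ζ ^ b)⁻¹ : kˣ) : k) := by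
    intro b hb
    rw [partC_stepA_rt_of_lt J r ζ hb, twist_coeff, hJ1, mul_one, zpow_neg_one]
  have hc' : (partC_stepA_rt J r ζ r).coeff (-1) = 0 := by
    rw [partC_stepA_rt_self]
    refine partC_stepA_qE_coeff_of_not_dvd _ (by positivity) _ ?_
    intro hdvd
    have h1 : ((r * r : ℕ) : ℤ) ∣ 1 := by
      have := (dvd_neg (a := ((r * r : ℕ) : ℤ)) (b := (-1 : ℤ))).mpr hdvd
      simpa using this
    have h2 : r * r ∣ 1 := by exact_mod_cast h1
    have h3 : r * r = 1 := Nat.dvd_one.mp h2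
    nlinarith
  intro b hb b' hb' h
  simp only [Finset.coe_range, Set.mem_Iio] at hb hb'
  rcases Nat.lt_succ_iff_lt_or_eq.mp hb with hb | hb <;>
    rcases Nat.lt_succ_iff_lt_or_eq.mp hb' with hb' | hb'
  · have h1 : (partC_stepA_rt J r ζ b).coeff (-1) = (partC_stepA_rt J r ζ b').coeff (-1) := by
      rw [h]
    rw [hc b hb, hc b' hb'] at h1
    have h2 : (ζ ^ b)⁻¹ = (ζ ^ b')⁻¹ := Units.ext h1
    exact hζ.pow_inj hb hb' (inv_injective h2)
  · rw [hb'] at h
    have h1 : (partC_stepA_rt J r ζ b).coeff (-1) = (partC_stepA_rt J r ζ r).coeff (-1) := by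
      rw [h]
    rw [hc b hb, hc'] at h1
    exact absurd h1 (Units.ne_zero _)
  · rw [hb] at h
    have h1 : (partC_stepA_rt J r ζ r).coeff (-1) = (partC_stepA_rt J r ζ b').coeff (-1) := by
      rw [h]
    rw [hc b' hb', hc'] at h1
    exact absurd h1.symm (Units.ne_zero _)
  · rw [hb, hb']

/-- A nonzero polynomial vanishing at the first `n` roots has degree at least `n`. -/
theorem partC_stepA_le_natDegree (J : LaurentSeries k) (hJ1 : J.coeff (-1) = 1) (r : ℕ)
    (hr : 2 ≤ r) (ζ : kˣ) (hζ : IsPrimitiveRoot ζ r) (f : Polynomial (LaurentSeries k))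
    (hf : f ≠ 0) (n : ℕ) (hn : n ≤ r + 1)
    (hroots : ∀ b : ℕ, b < n → f.eval (partC_stepA_rt J r ζ b) = 0) : n ≤ f.natDegree := by
  classical
  have hinj : Set.InjOn (partC_stepA_rt J r ζ) (Finset.range n : Set ℕ) :=
    (partC_stepA_rt_injOn J hJ1 r hr ζ hζ).mono (by
      intro b hb
      simp only [Finset.coe_range, Set.mem_Iio] at hb ⊢
      omega)
  have hcard : ((Finset.range n).image (partC_stepA_rt J r ζ)).card = n := by
    rw [Finset.card_image_of_injOn hinj, Finset.card_range]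
  rw [← hcard]
  refine Polynomial.card_le_degree_of_subset_roots ?_
  intro y hy
  rw [Finset.mem_val, Finset.mem_image] at hy
  obtain ⟨b, hb, rfl⟩ := hy
  rw [Polynomial.mem_roots hf]
  exact hroots b (Finset.mem_range.mp hb)

/-- **Roots lemma**: over `k((w))`, `Φ_r(X, J(w^r)) = (X - J(w^(r^2))) ∏_b (X - J(ζ^b w))`. -/
theorem partC_stepA_roots (J : LaurentSeries k) (hJ1 : J.coeff (-1) = 1) (r : ℕ) [NeZero r]
    (hr : 2 ≤ r) (ζ : kˣ) (hζ : IsPrimitiveRoot ζ r)
    (Φ : Polynomial (Polynomial k)) (hm : Φ.Monic) (hd : Φ.natDegree = r + 1)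
    (h1 : Φ.eval₂ (aeval J : Polynomial k →ₐ[k] LaurentSeries k).toRingHom (qExpand k r J) = 0)
    (h2 : Φ.eval₂ (aeval (qExpand k r J) : Polynomial k →ₐ[k] LaurentSeries k).toRingHom J = 0) :
    Φ.map (aeval (qExpand k r J) : Polynomial k →ₐ[k] LaurentSeries k).toRingHom =
      (X - C (qE k (r * r) J)) * ∏ b ∈ Finset.range r, (X - C (twist (ζ ^ b) J)) := by
  classical
  have hr0 : r ≠ 0 := NeZero.ne r
  set ev : Polynomial k →+* LaurentSeries k :=
    (aeval (qExpand k r J) : Polynomial k →ₐ[k] LaurentSeries k).toRingHom with hev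
  set P := Φ.map ev with hP
  have hPm : P.Monic := hm.map _
  have hPd : P.natDegree = r + 1 := by rw [hP, hm.natDegree_map, hd]
  -- the roots
  have hroot : ∀ b : ℕ, b < r + 1 → P.eval (partC_stepA_rt J r ζ b) = 0 := by
    intro b hb
    rcases Nat.lt_succ_iff_lt_or_eq.mp hb with hb | hb
    · rw [partC_stepA_rt_of_lt J r ζ hb, hP, eval_map]
      have h := congrArg (twist (ζ ^ b)) h2
      rw [Polynomial.hom_eval₂, map_zero, partC_stepA_comp_aeval' _ (twist_C _)] at h
      rwa [twist_qExpand_of_pow_eq_one (ζ ^ b) r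
        (by rw [← pow_mul, mul_comm, pow_mul, hζ.pow_eq_one, one_pow])] at h
    · subst hb
      rw [partC_stepA_rt_self, hP, eval_map]
      have h := congrArg (qExpand k b) h1
      rw [Polynomial.hom_eval₂, map_zero, partC_stepA_comp_aeval' _ (qExpand_C b)] at h
      have e : qExpand k b (qExpand k b J) = qE k (b * b) J := by
        rw [← qE_of_neZero, qE_qE k hr0 hr0]
      rwa [e] at h
  set Q : Polynomial (LaurentSeries k) :=
    ∏ b ∈ Finset.range (r + 1), (X - C (partC_stepA_rt J r ζ b)) with hQ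
  have hQm : Q.Monic := monic_prod_of_monic _ _ fun b _ => monic_X_sub_C _
  have hQd : Q.natDegree = r + 1 := by
    rw [hQ, natDegree_finsetProd_X_sub_C_eq_card, Finset.card_range]
  have hinj := partC_stepA_rt_injOn J hJ1 r hr ζ hζ
  have hPQ : P = Q := by
    refine Polynomial.eq_of_degree_sub_lt_of_eval_finset_eq
      ((Finset.range (r + 1)).image (partC_stepA_rt J r ζ)) ?_ ?_
    · rw [Finset.card_image_of_injOn hinj, Finset.card_range]
      have hdeg : P.degree = Q.degree := by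
        rw [degree_eq_natDegree hPm.ne_zero, degree_eq_natDegree hQm.ne_zero, hPd, hQd]
      have := degree_sub_lt_left hdeg hPm.ne_zero (by rw [hPm.leadingCoeff, hQm.leadingCoeff])
      rwa [degree_eq_natDegree hPm.ne_zero, hPd] at this
    · intro y hy
      rw [Finset.mem_image] at hy
      obtain ⟨b, hb, rfl⟩ := hy
      rw [hroot b (Finset.mem_range.mp hb), hQ, eval_prod]
      exact (Finset.prod_eq_zero hb (by simp)).symm
  rw [hPQ, hQ, Finset.prod_range_succ, partC_stepA_rt_self, mul_comm]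
  congr 1
  exact Finset.prod_congr rfl fun b hb => by
    rw [partC_stepA_rt_of_lt J r ζ (Finset.mem_range.mp hb)]

/-! ### Part 2: (P1') — `Φ_p(X, J)` is the minimal polynomial of `J(q^p)` over every
intermediate field `L ∋ J` of `k((q))` not containing `J(q^p)` -/

theorem partC_stepA_minpoly (J : LaurentSeries k) (hJ1 : J.coeff (-1) = 1) (p : ℕ) [NeZero p]
    (hp : 2 ≤ p) (ζ : kˣ) (hζ : IsPrimitiveRoot ζ p)
    (Φ : Polynomial (Polynomial k)) (hm : Φ.Monic) (hd : Φ.natDegree = p + 1)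
    (h1 : Φ.eval₂ (aeval J : Polynomial k →ₐ[k] LaurentSeries k).toRingHom (qExpand k p J) = 0)
    (h2 : Φ.eval₂ (aeval (qExpand k p J) : Polynomial k →ₐ[k] LaurentSeries k).toRingHom J = 0)
    (L : IntermediateField k (LaurentSeries k)) (hJL : J ∈ L) (hJp : qExpand k p J ∉ L) :
    minpoly L (qExpand k p J) =
      Φ.map (aeval (⟨J, hJL⟩ : L) : Polynomial k →ₐ[k] L).toRingHom := by
  have hp0 : p ≠ 0 := NeZero.ne p
  set x : LaurentSeries k := qExpand k p J with hx
  set evL : Polynomial k →+* L := (aeval (⟨J, hJL⟩ : L) : Polynomial k →ₐ[k] L).toRingHom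
    with hevL
  set ΦL : Polynomial L := Φ.map evL with hΦL
  have hΦLm : ΦL.Monic := hm.map _
  have hΦLd : ΦL.natDegree = p + 1 := by rw [hΦL, hm.natDegree_map, hd]
  have hval : (algebraMap L (LaurentSeries k)).comp evL =
      (aeval J : Polynomial k →ₐ[k] LaurentSeries k).toRingHom := by
    refine Polynomial.ringHom_ext (fun a => ?_) ?_
    · simp [hevL]
    · simp [hevL]
  have hroot : aeval x ΦL = 0 := by
    rw [aeval_def, hΦL, eval₂_map, hval]
    exact h1
  have hint : IsIntegral L x := ⟨ΦL, hΦLm, by rwa [← aeval_def]⟩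
  obtain ⟨h, hh⟩ := minpoly.dvd L x hroot
  set m := minpoly L x with hmdef
  have hmm : m.Monic := minpoly.monic hint
  have hh0 : h ≠ 0 := by
    rintro rfl
    rw [mul_zero] at hh
    exact hΦLm.ne_zero hh
  set θ : L →+* LaurentSeries k := (qExpand k p).comp (algebraMap L (LaurentSeries k)) with hθ
  have hθfix : ∀ b : ℕ, (twist (ζ ^ b)).comp θ = θ := by
    intro b
    refine RingHom.ext fun a => ?_
    simp only [hθ, RingHom.comp_apply]
    exact twist_qExpand_of_pow_eq_one (ζ ^ b) p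
      (by rw [← pow_mul, mul_comm, pow_mul, hζ.pow_eq_one, one_pow]) _
  have hmap : ΦL.map θ =
      (X - C (qE k (p * p) J)) * ∏ b ∈ Finset.range p, (X - C (twist (ζ ^ b) J)) := by
    rw [hΦL, Polynomial.map_map]
    have e : θ.comp evL =
        (aeval (qExpand k p J) : Polynomial k →ₐ[k] LaurentSeries k).toRingHom := by
      rw [hθ, RingHom.comp_assoc, hval, partC_stepA_comp_aeval' _ (qExpand_C p)]
    rw [e]
    exact partC_stepA_roots J hJ1 p hp ζ hζ Φ hm hd h1 h2
  -- twist invariance of the roots of polynomials over `L`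
  have htw : ∀ f : Polynomial L, (f.map θ).eval J = 0 →
      ∀ b : ℕ, (f.map θ).eval (twist (ζ ^ b) J) = 0 := by
    intro f hf b
    have h := congrArg (twist (ζ ^ b)) hf
    rw [map_zero, eval_map, Polynomial.hom_eval₂, hθfix b] at h
    rwa [eval_map]
  have hnat : ∀ f : Polynomial L, (f.map θ).natDegree = f.natDegree := fun f =>
    Polynomial.natDegree_map θ
  have hne : ∀ f : Polynomial L, f ≠ 0 → f.map θ ≠ 0 := fun f hf =>
    (Polynomial.map_ne_zero_iff θ.injective).mpr hf
  -- the value at `J = J(ζ^0 w)`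
  have h0 : (m.map θ).eval J * (h.map θ).eval J = 0 := by
    rw [← eval_mul, ← Polynomial.map_mul, ← hh, hmap, eval_mul, eval_prod]
    rw [Finset.prod_eq_zero (Finset.mem_range.mpr (Nat.pos_of_ne_zero hp0)) (by
      rw [pow_zero, twist_one]
      simp), mul_zero]
  rcases mul_eq_zero.mp h0 with h0 | h0
  · -- `m` has all `p + 1` roots
    have hdeg : p + 1 ≤ (m.map θ).natDegree := by
      refine partC_stepA_le_natDegree J hJ1 p hp ζ hζ _ (hne m hmm.ne_zero) (p + 1) le_rfl ?_
      intro b hb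
      rcases Nat.lt_succ_iff_lt_or_eq.mp hb with hb | hb
      · rw [partC_stepA_rt_of_lt J p ζ hb]
        exact htw m h0 b
      · rw [hb, partC_stepA_rt_self, eval_map]
        have h := congrArg (qExpand k p) (minpoly.aeval L x)
        rw [aeval_def, Polynomial.hom_eval₂, map_zero] at h
        have e : qExpand k p x = qE k (p * p) J := by
          rw [hx, ← qE_of_neZero, qE_qE k hp0 hp0]
        rwa [e] at h
    rw [hnat] at hdeg
    exact (Polynomial.eq_of_monic_of_dvd_of_natDegree_le hmm hΦLm ⟨h, hh⟩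
      (by rw [hΦLd]; exact hdeg)).symm
  · -- `h` has `p` roots, so `m` is linear: contradiction
    exfalso
    have hdeg : p ≤ (h.map θ).natDegree := by
      refine partC_stepA_le_natDegree J hJ1 p hp ζ hζ _ (hne h hh0) p (Nat.le_succ p) ?_
      intro b hb
      rw [partC_stepA_rt_of_lt J p ζ hb]
      exact htw h h0 b
    rw [hnat] at hdeg
    have hsum : m.natDegree + h.natDegree = p + 1 := by
      rw [← Polynomial.natDegree_mul hmm.ne_zero hh0, ← hh, hΦLd]
    have hpos : 0 < m.natDegree := minpoly.natDegree_pos hint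
    have hone : m.natDegree = 1 := by omega
    have hmem := (minpoly.natDegree_eq_one_iff (A := L) (x := x)).mp hone
    obtain ⟨y, hy⟩ := hmem
    exact hJp (hy ▸ y.2)

/-- (P1') in degree form: a nonzero polynomial with coefficients in `L` vanishing at `J(q^p)`
has degree at least `p + 1`. -/
theorem partC_stepA_natDegree_le (J : LaurentSeries k) (hJ1 : J.coeff (-1) = 1) (p : ℕ) [NeZero p]
    (hp : 2 ≤ p) (ζ : kˣ) (hζ : IsPrimitiveRoot ζ p)
    (Φ : Polynomial (Polynomial k)) (hm : Φ.Monic) (hd : Φ.natDegree = p + 1)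
    (h1 : Φ.eval₂ (aeval J : Polynomial k →ₐ[k] LaurentSeries k).toRingHom (qExpand k p J) = 0)
    (h2 : Φ.eval₂ (aeval (qExpand k p J) : Polynomial k →ₐ[k] LaurentSeries k).toRingHom J = 0)
    (L : IntermediateField k (LaurentSeries k)) (hJL : J ∈ L) (hJp : qExpand k p J ∉ L)
    (g : Polynomial (LaurentSeries k)) (hg : g ≠ 0) (hgL : ∀ n, g.coeff n ∈ L)
    (hroot : g.eval (qExpand k p J) = 0) : p + 1 ≤ g.natDegree := by
  have hmin := partC_stepA_minpoly J hJ1 p hp ζ hζ Φ hm hd h1 h2 L hJL hJp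
  have hl : g ∈ Polynomial.lifts (algebraMap L (LaurentSeries k)) :=
    (Polynomial.lifts_iff_coeff_lifts g).mpr fun n => ⟨⟨g.coeff n, hgL n⟩, rfl⟩
  obtain ⟨gL, hgLeq⟩ := hl
  replace hgLeq : gL.map (algebraMap L (LaurentSeries k)) = g := hgLeq
  have hgL0 : gL ≠ 0 := by
    rintro rfl
    exact hg (by rw [← hgLeq, Polynomial.map_zero])
  have hdvd : minpoly L (qExpand k p J) ∣ gL := by
    refine minpoly.dvd L _ ?_
    rw [aeval_def, eval₂_eq_eval_map, hgLeq]
    exact hroot
  have h3 := Polynomial.natDegree_le_of_dvd hdvd hgL0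
  rw [hmin, hm.natDegree_map, hd] at h3
  have h4 : g.natDegree = gL.natDegree := by
    rw [← hgLeq]
    exact Polynomial.natDegree_map _
  omega

/-! ### Part 3: `J(q^d)` is integral over `k(J)` -/

theorem partC_stepA_isIntegral_of_root {R A : Type*} [CommRing R] [CommRing A] [Algebra R A]
    (P : Polynomial A) (hP : P.Monic) (hc : ∀ n, IsIntegral R (P.coeff n)) (x : A)
    (hx : P.eval x = 0) : IsIntegral R x := by
  have hl : P ∈ Polynomial.lifts (algebraMap (integralClosure R A) A) :=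
    (Polynomial.lifts_iff_coeff_lifts P).mpr fun n => ⟨⟨P.coeff n, hc n⟩, rfl⟩
  obtain ⟨q, hq, -, hqm⟩ := Polynomial.lifts_and_natDegree_eq_and_monic hl hP
  have hx' : IsIntegral (integralClosure R A) x := ⟨q, hqm, by rw [← eval_map, hq]; exact hx⟩
  exact isIntegral_trans x hx'

theorem partC_stepA_isIntegral_aeval (K₀ : IntermediateField k (LaurentSeries k))
    (y : LaurentSeries k) (hy : IsIntegral K₀ y) (g : Polynomial k) :
    IsIntegral K₀ (aeval y g) := by
  rw [aeval_eq_sum_range]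
  refine IsIntegral.sum _ fun i _ => ?_
  rw [Algebra.smul_def]
  refine IsIntegral.mul ?_ (hy.pow i)
  rw [IsScalarTower.algebraMap_apply k K₀ (LaurentSeries k)]
  exact isIntegral_algebraMap

theorem partC_stepA_isIntegral (J : LaurentSeries k) (M : ℕ)
    (hmod : ∀ (r : ℕ) [NeZero r], r.Prime → r ∣ M → ∃ Φ : Polynomial (Polynomial k), Φ.Monic ∧
      Φ.eval₂ (aeval J : Polynomial k →ₐ[k] LaurentSeries k).toRingHom (qExpand k r J) = 0) :
    ∀ d : ℕ, d ≠ 0 → d ∣ M → IsIntegral (IntermediateField.adjoin k {J}) (qE k d J) := by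
  intro d
  induction d using Nat.strong_induction_on with
  | _ d ih =>
    intro hd0 hdM
    by_cases hd1 : d = 1
    · subst hd1
      rw [qE_one]
      exact isIntegral_algebraMap
        (x := (⟨J, mem_adjoin_simple_self k J⟩ : IntermediateField.adjoin k {J}))
    · have hr : d.minFac.Prime := Nat.minFac_prime hd1
      obtain ⟨d', hd'⟩ := Nat.minFac_dvd d
      set r := d.minFac with hrdef
      have hr0 : r ≠ 0 := hr.ne_zero
      have hd'0 : d' ≠ 0 := by
        rintro rfl
        exact hd0 (by rw [hd', mul_zero])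
      have hd'lt : d' < d := by
        rw [hd']
        have := hr.two_le
        have h0 : 0 < d' := Nat.pos_of_ne_zero hd'0
        nlinarith
      have hd'M : d' ∣ M := dvd_trans ⟨r, by rw [hd', mul_comm]⟩ hdM
      have ih' := ih d' hd'lt hd'0 hd'M
      have : NeZero r := ⟨hr0⟩
      obtain ⟨Φ, hΦm, hΦ1⟩ := hmod r hr (dvd_trans ⟨d', hd'⟩ hdM)
      have h := congrArg (qE k d') hΦ1
      rw [Polynomial.hom_eval₂, map_zero, partC_stepA_comp_aeval' _ (partC_stepA_qE_C d')] at h
      have e : qE k d' (qExpand k r J) = qE k d J := by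
        rw [← qE_of_neZero, qE_qE k hd'0 hr0, hd', mul_comm]
      rw [e] at h
      refine partC_stepA_isIntegral_of_root
        (Φ.map (aeval (qE k d' J) : Polynomial k →ₐ[k] LaurentSeries k).toRingHom)
        (hΦm.map _) (fun n => ?_) _ (by rw [eval_map]; exact h)
      rw [coeff_map]
      exact partC_stepA_isIntegral_aeval _ _ ih' _

/-! ### Part 4: extending embeddings -/

theorem partC_stepA_ext {K₀ E Ω : Type*} [Field K₀] [Field E] [Field Ω] [IsAlgClosed Ω]
    [Algebra K₀ E] (ι₀ : K₀ →+* Ω) (S : Set E) (hS : ∀ s ∈ S, IsIntegral K₀ s) (x : E)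
    (hx : x ∈ IntermediateField.adjoin K₀ S) (y : Ω) (hy : (minpoly K₀ x).eval₂ ι₀ y = 0) :
    ∃ φ : ↥(IntermediateField.adjoin K₀ S) →+* Ω,
      (∀ a : K₀, φ (algebraMap K₀ ↥(IntermediateField.adjoin K₀ S) a) = ι₀ a) ∧
        φ ⟨x, hx⟩ = y := by
  let _ : Algebra K₀ Ω := ι₀.toAlgebra
  obtain ⟨φ, hφ⟩ := IntermediateField.exists_algHom_adjoin_of_splits_of_aeval
    (F := K₀) (E := E) (K := Ω) (S := S)
    (fun s hs => ⟨hS s hs, IsAlgClosed.splits _⟩) hx (y := y) (by
      rw [aeval_def]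
      exact hy)
  exact ⟨φ.toRingHom, fun a => φ.commutes a, hφ⟩

/-! ### Part 5: the conjugates `J(ξ u^m)` and Step A -/

/-- The roots of `Φ_r(X, ψ(J(w^r)))` in a domain, for any ring hom `ψ` out of `k((w))`. -/
theorem partC_stepA_root_cases (J : LaurentSeries k) (hJ1 : J.coeff (-1) = 1) (r : ℕ) [NeZero r]
    (hr : 2 ≤ r) (ζ : kˣ) (hζ : IsPrimitiveRoot ζ r)
    (Φ : Polynomial (Polynomial k)) (hm : Φ.Monic) (hd : Φ.natDegree = r + 1)
    (h1 : Φ.eval₂ (aeval J : Polynomial k →ₐ[k] LaurentSeries k).toRingHom (qExpand k r J) = 0)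
    (h2 : Φ.eval₂ (aeval (qExpand k r J) : Polynomial k →ₐ[k] LaurentSeries k).toRingHom J = 0)
    {Ω : Type*} [CommRing Ω] [IsDomain Ω] (ψ : LaurentSeries k →+* Ω) (y : Ω)
    (hy : Φ.eval₂
      (ψ.comp (aeval (qExpand k r J) : Polynomial k →ₐ[k] LaurentSeries k).toRingHom) y = 0) :
    y = ψ (qE k (r * r) J) ∨ ∃ b : ℕ, y = ψ (twist (ζ ^ b) J) := by
  have h := congrArg (fun P => (P.map ψ).eval y)
    (partC_stepA_roots J hJ1 r hr ζ hζ Φ hm hd h1 h2)
  simp only [Polynomial.map_map, eval_map, hy, Polynomial.map_mul, Polynomial.map_sub,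
    Polynomial.map_X, Polynomial.map_C, Polynomial.map_prod, eval_mul, eval_sub, eval_X, eval_C,
    eval_prod] at h
  rcases mul_eq_zero.mp h.symm with h | h
  · exact Or.inl (sub_eq_zero.mp h)
  · obtain ⟨b, -, hb⟩ := Finset.prod_eq_zero_iff.mp h
    exact Or.inr ⟨b, sub_eq_zero.mp hb⟩

/-- One step: the roots of `Φ_r(X, J(ξ u^m))`, `r ∣ m`, are of the form `J(ξ' u^(m r))` or
`J(ξ' u^(m / r))`. -/
theorem partC_stepA_step [IsAlgClosed k] (J : LaurentSeries k) (hJ1 : J.coeff (-1) = 1) (r : ℕ)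
    [NeZero r] (hr : r.Prime) (hrk : (r : k) ≠ 0)
    (Φ : Polynomial (Polynomial k)) (hm : Φ.Monic) (hd : Φ.natDegree = r + 1)
    (h1 : Φ.eval₂ (aeval J : Polynomial k →ₐ[k] LaurentSeries k).toRingHom (qExpand k r J) = 0)
    (h2 : Φ.eval₂ (aeval (qExpand k r J) : Polynomial k →ₐ[k] LaurentSeries k).toRingHom J = 0)
    {Ω : Type*} [CommRing Ω] [IsDomain Ω] (j : LaurentSeries k →+* Ω) (g : Polynomial k →+* Ω)
    (hgC : ∀ a : k, g (C a) = j (HahnSeries.C a)) (ξ : kˣ) (m : ℕ) (hm0 : m ≠ 0) (hrm : r ∣ m)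
    (hgX : g X = j (qE k m (twist ξ J))) (y : Ω) (hy : Φ.eval₂ g y = 0) :
    ∃ ξ' : kˣ, y = j (qE k (m * r) (twist ξ' J)) ∨ y = j (qE k (m / r) (twist ξ' J)) := by
  have hr0 : r ≠ 0 := hr.ne_zero
  have : NeZero (r : k) := ⟨hrk⟩
  obtain ⟨ζ₀, hζ₀⟩ := HasEnoughRootsOfUnity.exists_primitiveRoot k r
  obtain ⟨ζ, rfl⟩ : ∃ ζ : kˣ, (ζ : k) = ζ₀ := (hζ₀.isUnit hr0)
  have hζ : IsPrimitiveRoot ζ r := IsPrimitiveRoot.coe_units_iff.mp hζ₀
  obtain ⟨z, hz⟩ := IsAlgClosed.exists_pow_nat_eq (ξ : k) (Nat.pos_of_ne_zero hr0)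
  have hz0 : z ≠ 0 := by
    rintro rfl
    rw [zero_pow hr0] at hz
    exact ξ.ne_zero hz.symm
  set ξ₀ : kˣ := Units.mk0 z hz0 with hξ₀
  have hξ₀r : ξ₀ ^ r = ξ := Units.ext (by rw [Units.val_pow_eq_pow_val, hξ₀, Units.val_mk0, hz])
  have hmr0 : m / r ≠ 0 := by
    obtain ⟨c, rfl⟩ := hrm
    rw [Nat.mul_div_cancel_left c (Nat.pos_of_ne_zero hr0)]
    rintro rfl
    exact hm0 (mul_zero r)
  set ψ : LaurentSeries k →+* Ω := j.comp ((qE k (m / r)).comp (twist ξ₀)) with hψ
  have hcomp : ψ.comp (aeval (qExpand k r J) : Polynomial k →ₐ[k] LaurentSeries k).toRingHom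
      = g := by
    refine partC_stepA_comp_aeval ψ _ g (fun a => ?_) ?_
    · rw [hgC, hψ]
      simp only [RingHom.comp_apply]
      rw [twist_C, partC_stepA_qE_C]
    · rw [hgX, hψ]
      simp only [RingHom.comp_apply]
      rw [← qE_of_neZero, twist_qE ξ₀ r hr0, hξ₀r, qE_qE k hmr0 hr0, Nat.div_mul_cancel hrm]
  rw [← hcomp] at hy
  rcases partC_stepA_root_cases J hJ1 r hr.two_le ζ hζ Φ hm hd h1 h2 ψ y hy with h | ⟨b, h⟩
  · refine ⟨ξ₀ ^ (r * r), Or.inl ?_⟩
    rw [h, hψ]
    simp only [RingHom.comp_apply]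
    rw [twist_qE ξ₀ (r * r) (mul_ne_zero hr0 hr0), qE_qE k hmr0 (mul_ne_zero hr0 hr0),
      ← mul_assoc, Nat.div_mul_cancel hrm]
  · refine ⟨ξ₀ * ζ ^ b, Or.inr ?_⟩
    rw [h, hψ]
    simp only [RingHom.comp_apply]
    rw [twist_twist]

theorem partC_stepA_val_comp (J : LaurentSeries k) (L : IntermediateField k (LaurentSeries k))
    (hJL : J ∈ L) :
    (algebraMap L (LaurentSeries k)).comp
        (aeval (⟨J, hJL⟩ : L) : Polynomial k →ₐ[k] L).toRingHom =
      (aeval J : Polynomial k →ₐ[k] LaurentSeries k).toRingHom := by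
  refine Polynomial.ringHom_ext (fun a => ?_) ?_
  · simp
  · simp

/-- **Step A of Part C**: for a prime `p ∤ M`, `J(q^p)` does not lie in `k(J(q^d) : d ∣ M)`. -/
theorem partC_stepA [IsAlgClosed k] (J : LaurentSeries k) (hJ1 : J.coeff (-1) = 1)
    (_hJ0 : ∀ n : ℤ, n < -1 → J.coeff n = 0)
    (p : ℕ) [NeZero p] (M : ℕ) (hp : p.Prime) (hpM : ¬ p ∣ M) (hk : ((p * M : ℕ) : k) ≠ 0)
    (hmod : ∀ (r : ℕ) [NeZero r], r.Prime → r ∣ p * M →
      ∃ Φ : Polynomial (Polynomial k), Φ.Monic ∧ Φ.natDegree = r + 1 ∧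
        Φ.eval₂ (aeval J : Polynomial k →ₐ[k] LaurentSeries k).toRingHom (qExpand k r J) = 0 ∧
        Φ.eval₂ (aeval (qExpand k r J) : Polynomial k →ₐ[k] LaurentSeries k).toRingHom J = 0)
    (hP1 : qExpand k p J ∉ IntermediateField.adjoin k {J}) :
    qExpand k p J ∉ IntermediateField.adjoin k
      {x | ∃ (d : ℕ) (_ : NeZero d), d ∣ M ∧ x = qExpand k d J} := by
  intro hx
  have hM0 : M ≠ 0 := by
    rintro rfl
    exact hpM (dvd_zero p)
  have hp0 : p ≠ 0 := hp.ne_zero
  have hpk : (p : k) ≠ 0 := by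
    intro h
    apply hk
    rw [Nat.cast_mul, h, zero_mul]
  have hrk : ∀ r : ℕ, r ∣ p * M → (r : k) ≠ 0 := by
    rintro r ⟨c, hc⟩ h
    apply hk
    rw [hc, Nat.cast_mul, h, zero_mul]
  set T : Set (LaurentSeries k) := {x | ∃ (d : ℕ) (_ : NeZero d), d ∣ M ∧ x = qExpand k d J}
    with hT
  set K₀ : IntermediateField k (LaurentSeries k) := IntermediateField.adjoin k {J} with hK₀
  have hJK : J ∈ K₀ := mem_adjoin_simple_self k J
  have hTmem : ∀ d : ℕ, d ≠ 0 → d ∣ M → qE k d J ∈ T := fun d hd0 hdM =>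
    ⟨d, ⟨hd0⟩, hdM, by rw [qE_of_ne_zero k hd0]⟩
  -- the modular equation at `p` and the minimal polynomial of `J(q^p)` over `k(J)`
  obtain ⟨Φp, hΦm, hΦd, hΦ1, hΦ2⟩ := hmod p hp (dvd_mul_right p M)
  have : NeZero (p : k) := ⟨hpk⟩
  obtain ⟨ζ₀, hζ₀⟩ := HasEnoughRootsOfUnity.exists_primitiveRoot k p
  obtain ⟨ζ, rfl⟩ : ∃ ζ : kˣ, (ζ : k) = ζ₀ := (hζ₀.isUnit hp0)
  have hζ : IsPrimitiveRoot ζ p := IsPrimitiveRoot.coe_units_iff.mp hζ₀
  have hmin := partC_stepA_minpoly J hJ1 p hp.two_le ζ hζ Φp hΦm hΦd hΦ1 hΦ2 K₀ hJK hP1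
  -- membership over `k(J)`
  have hxF : qExpand k p J ∈ IntermediateField.adjoin K₀ T := by
    have hle : IntermediateField.adjoin k T ≤
        (IntermediateField.adjoin K₀ T).restrictScalars k := by
      rw [IntermediateField.adjoin_le_iff]
      intro t ht
      exact IntermediateField.subset_adjoin K₀ T ht
    exact hle hx
  -- integrality of the generators
  have hint : ∀ s ∈ T, IsIntegral K₀ s := by
    rintro s ⟨d, hd, hdM, rfl⟩
    rw [← qE_of_neZero]
    refine partC_stepA_isIntegral J M (fun r _ hr hrM => ?_) d (NeZero.ne d) hdM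
    obtain ⟨Φ, h1, -, h3, -⟩ := hmod r hr (dvd_mul_of_dvd_right hrM p)
    exact ⟨Φ, h1, h3⟩
  -- the target field and the embedding of `k(J)`: `q ↦ u^(M p)`
  let Ω := AlgebraicClosure (LaurentSeries k)
  let j : LaurentSeries k →+* Ω := algebraMap (LaurentSeries k) Ω
  have hjinj : Function.Injective j := j.injective
  set ι₀ : K₀ →+* Ω := (j.comp (qE k (M * p))).comp (algebraMap K₀ (LaurentSeries k)) with hι₀
  have hy : (minpoly K₀ (qExpand k p J)).eval₂ ι₀ (j (qE k M J)) = 0 := by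
    rw [hmin, eval₂_map, hι₀, RingHom.comp_assoc, partC_stepA_val_comp J K₀ hJK]
    have h := congrArg (j.comp (qE k M)) hΦ2
    rw [Polynomial.hom_eval₂, map_zero] at h
    have e : (j.comp (qE k M)).comp
        (aeval (qExpand k p J) : Polynomial k →ₐ[k] LaurentSeries k).toRingHom =
        (j.comp (qE k (M * p))).comp
          (aeval J : Polynomial k →ₐ[k] LaurentSeries k).toRingHom := by
      refine partC_stepA_comp_aeval _ _ _ (fun a => ?_) ?_
      · simp only [RingHom.comp_apply, AlgHom.toRingHom_eq_coe, RingHom.coe_coe, aeval_C]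
        rw [LaurentSeries.algebraMap_apply, partC_stepA_qE_C, partC_stepA_qE_C]
      · simp only [RingHom.comp_apply, AlgHom.toRingHom_eq_coe, RingHom.coe_coe, aeval_X]
        rw [← qE_of_neZero, qE_qE k hM0 hp0]
    rw [e] at h
    exact h
  obtain ⟨φ, hφ0, hφx⟩ := partC_stepA_ext ι₀ T hint (qExpand k p J) hxF (j (qE k M J)) hy
  -- `φ` on constants
  have hφC : ∀ a : k, φ (algebraMap K₀ ↥(IntermediateField.adjoin K₀ T) (algebraMap k K₀ a)) =
      j (HahnSeries.C a) := by
    intro a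
    rw [hφ0, hι₀]
    simp only [RingHom.comp_apply]
    rw [← IsScalarTower.algebraMap_apply k K₀ (LaurentSeries k), LaurentSeries.algebraMap_apply,
      partC_stepA_qE_C]
  -- the invariant: `φ(J(q^d)) = J(ξ u^m)` with `p ∣ m` and `M / d ∣ m`
  have hinv : ∀ d : ℕ, d ≠ 0 → d ∣ M → ∀ hd : qE k d J ∈ IntermediateField.adjoin K₀ T,
      ∃ (ξ : kˣ) (m : ℕ), m ≠ 0 ∧ p ∣ m ∧ (M / d) ∣ m ∧
        φ ⟨qE k d J, hd⟩ = j (qE k m (twist ξ J)) := by
    intro d
    induction d using Nat.strong_induction_on with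
    | _ d ih =>
      intro hd0 hdM hdF
      by_cases hd1 : d = 1
      · subst hd1
        refine ⟨1, M * p, mul_ne_zero hM0 hp0, dvd_mul_left p M, ?_, ?_⟩
        · rw [Nat.div_one]
          exact dvd_mul_right M p
        · have e : (⟨qE k 1 J, hdF⟩ : ↥(IntermediateField.adjoin K₀ T)) =
              algebraMap K₀ ↥(IntermediateField.adjoin K₀ T) ⟨J, hJK⟩ :=
            Subtype.ext (show qE k 1 J = J by rw [qE_one]; rfl)
          rw [e, hφ0, twist_one, hι₀]
          rfl
      · have hr : d.minFac.Prime := Nat.minFac_prime hd1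
        obtain ⟨d', hd'⟩ := Nat.minFac_dvd d
        set r := d.minFac with hrdef
        have hr0 : r ≠ 0 := hr.ne_zero
        have hd'0 : d' ≠ 0 := by
          rintro rfl
          exact hd0 (by rw [hd', mul_zero])
        have hd'lt : d' < d := by
          rw [hd']
          have := hr.two_le
          have h0 : 0 < d' := Nat.pos_of_ne_zero hd'0
          nlinarith
        have hd'd : d' ∣ d := ⟨r, by rw [hd', mul_comm]⟩
        have hd'M : d' ∣ M := dvd_trans hd'd hdM
        have hrM : r ∣ M := dvd_trans ⟨d', hd'⟩ hdM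
        have hd'F : qE k d' J ∈ IntermediateField.adjoin K₀ T :=
          IntermediateField.subset_adjoin K₀ T (hTmem d' hd'0 hd'M)
        obtain ⟨ξ, m, hm0, hpm, hMm, hφd'⟩ := ih d' hd'lt hd'0 hd'M hd'F
        have : NeZero r := ⟨hr0⟩
        obtain ⟨Φ, hΦrm, hΦrd, hΦr1, hΦr2⟩ := hmod r hr (dvd_mul_of_dvd_right hrM p)
        -- the relation `Φ_r(J(q^d), J(q^d')) = 0` in `k((q))`
        have hE : Φ.eval₂ (aeval (qE k d' J) : Polynomial k →ₐ[k] LaurentSeries k).toRingHom
            (qE k d J) = 0 := by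
          have h := congrArg (qE k d') hΦr1
          rw [Polynomial.hom_eval₂, map_zero,
            partC_stepA_comp_aeval' _ (partC_stepA_qE_C d')] at h
          have e : qE k d' (qExpand k r J) = qE k d J := by
            rw [← qE_of_neZero, qE_qE k hd'0 hr0, hd', mul_comm]
          rwa [e] at h
        -- transport to the field `F` and apply `φ`
        set χ : Polynomial k →+* ↥(IntermediateField.adjoin K₀ T) :=
          Polynomial.eval₂RingHom
            ((algebraMap K₀ ↥(IntermediateField.adjoin K₀ T)).comp (algebraMap k K₀))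
            ⟨qE k d' J, hd'F⟩ with hχ
        have hχ1 : (algebraMap ↥(IntermediateField.adjoin K₀ T) (LaurentSeries k)).comp χ =
            (aeval (qE k d' J) : Polynomial k →ₐ[k] LaurentSeries k).toRingHom := by
          refine Polynomial.ringHom_ext (fun a => ?_) ?_
          · simp [hχ]
          · simp [hχ]
        have hF : Φ.eval₂ χ ⟨qE k d J, hdF⟩ = 0 := by
          apply (algebraMap ↥(IntermediateField.adjoin K₀ T) (LaurentSeries k)).injective
          rw [Polynomial.hom_eval₂, map_zero, hχ1]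
          exact hE
        have hg := congrArg φ hF
        rw [Polynomial.hom_eval₂, map_zero] at hg
        obtain ⟨c, hc⟩ := hdM
        have hMd : M / d = c := by
          rw [hc]
          exact Nat.mul_div_cancel_left c (Nat.pos_of_ne_zero hd0)
        have hMd' : M / d' = r * c := by
          rw [hc, hd']
          exact Nat.div_eq_of_eq_mul_left (Nat.pos_of_ne_zero hd'0) (by ring)
        rw [hMd'] at hMm
        have hrm : r ∣ m := dvd_trans (dvd_mul_right r c) hMm
        obtain ⟨ξ', h | h⟩ := partC_stepA_step J hJ1 r hr (hrk r (dvd_mul_of_dvd_right hrM p))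
          Φ hΦrm hΦrd hΦr1 hΦr2 j (φ.comp χ) (fun a => by
            simp only [hχ, RingHom.comp_apply, Polynomial.coe_eval₂RingHom, eval₂_C]
            exact hφC a) ξ m hm0 hrm (by
            simp only [hχ, RingHom.comp_apply, Polynomial.coe_eval₂RingHom, eval₂_X]
            exact hφd') _ hg
        · refine ⟨ξ', m * r, mul_ne_zero hm0 hr0, dvd_mul_of_dvd_left hpm r, ?_, h⟩
          rw [hMd]
          exact dvd_mul_of_dvd_left (dvd_trans (dvd_mul_left c r) hMm) r
        · obtain ⟨e, he⟩ := hMm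
          have hmr : m / r = c * e := by
            rw [he, mul_assoc]
            exact Nat.mul_div_cancel_left _ (Nat.pos_of_ne_zero hr0)
          refine ⟨ξ', m / r, ?_, ?_, ?_, h⟩
          · rw [hmr]
            intro h0
            apply hm0
            rw [he, mul_assoc, h0, mul_zero]
          · have h3 : p ∣ r * (m / r) := by
              rw [Nat.mul_div_cancel' hrm]
              exact hpm
            rcases (Nat.Prime.dvd_mul hp).mp h3 with h4 | h4
            · exfalso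
              have h5 := (Nat.prime_dvd_prime_iff_eq hp hr).mp h4
              exact hpM (h5 ▸ hrM)
            · exact h4
          · rw [hMd, hmr]
            exact dvd_mul_right c e
  -- consequently `φ` maps everything into the image of `u ↦ u^p`
  have hrange : ∀ (x : LaurentSeries k) (hx : x ∈ IntermediateField.adjoin K₀ T),
      ∃ z : LaurentSeries k, φ ⟨x, hx⟩ = j (qE k p z) := by
    intro x hx
    induction hx using IntermediateField.adjoin_induction with
    | mem x hx =>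
      obtain ⟨d, hd, hdM, rfl⟩ := hx
      have e : qExpand k d J = qE k d J := by rw [qE_of_neZero]
      have hdF : qE k d J ∈ IntermediateField.adjoin K₀ T :=
        IntermediateField.subset_adjoin K₀ T (hTmem d (NeZero.ne d) hdM)
      obtain ⟨ξ, m, hm0, ⟨m', rfl⟩, -, hφd⟩ := hinv d (NeZero.ne d) hdM hdF
      have hm'0 : m' ≠ 0 := by
        rintro rfl
        exact hm0 (mul_zero p)
      refine ⟨qE k m' (twist ξ J), ?_⟩
      rw [qE_qE k hp0 hm'0, ← hφd]
      exact congrArg φ (Subtype.ext e)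
    | algebraMap a =>
      refine ⟨qE k M (algebraMap K₀ (LaurentSeries k) a), ?_⟩
      rw [qE_qE k hp0 hM0, mul_comm p M]
      exact hφ0 a
    | add x y hx hy ihx ihy =>
      obtain ⟨z₁, h₁⟩ := ihx
      obtain ⟨z₂, h₂⟩ := ihy
      refine ⟨z₁ + z₂, ?_⟩
      rw [map_add, map_add, ← h₁, ← h₂, ← map_add]
      rfl
    | inv x hx ihx =>
      obtain ⟨z, h⟩ := ihx
      refine ⟨z⁻¹, ?_⟩
      rw [map_inv₀, map_inv₀, ← h, ← map_inv₀]
      rfl
    | mul x y hx hy ihx ihy =>
      obtain ⟨z₁, h₁⟩ := ihx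
      obtain ⟨z₂, h₂⟩ := ihy
      refine ⟨z₁ * z₂, ?_⟩
      rw [map_mul, map_mul, ← h₁, ← h₂, ← map_mul]
      rfl
  obtain ⟨z, hz⟩ := hrange _ hxF
  rw [hφx] at hz
  have hz' : qE k M J = qE k p z := hjinj hz
  have h1 : (qE k M J).coeff ((M : ℤ) * (-1)) = 1 := by
    rw [partC_stepA_qE_coeff_mul M hM0, hJ1]
  have h2 : (qE k p z).coeff ((M : ℤ) * (-1)) = 0 := by
    refine partC_stepA_qE_coeff_of_not_dvd p hp0 z ?_
    intro hdvd
    apply hpM
    have h3 : (p : ℤ) ∣ (M : ℤ) := by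
      have := (dvd_neg (a := (p : ℤ)) (b := (M : ℤ) * (-1))).mpr hdvd
      simpa using this
    exact_mod_cast h3
  rw [hz', h2] at h1
  exact zero_ne_one h1

end

end Fermat.Agent.S28
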