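import Fermat.Agent.S28.CMain
import Fermat.Agent.S28.CStepA

/-!
# S28, Part C: the export `partC_igusa` (helper90)

`ψ(N) ≤ [k(J(q^d) : d ∣ N) : k(J)]` over an algebraically closed field `k` in which `N` is
invertible (Igusa's theorem in formal `q`-expansion form), assembled from

* (P1), (P1') — `CPrime.lean` (helper35),
* Step A — `CStepA.lean` (helper85),
* Step B and the induction — `CAsm.lean`, `CMain.lean` (helper90).

The statement is the one of the interface file `CIface.lean` (helper35), consumed by the bridge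
`CharLBridge.lean` (helper58).
-/

set_option autoImplicit false

open ModularCurve Polynomial IntermediateField

namespace Fermat.Agent.S28

variable {k : Type*} [Field k]

/-- **Part C (Igusa).** -/
theorem partC_igusa [IsAlgClosed k] (J Δ T : LaurentSeries k)
    (hJ1 : J.coeff (-1) = 1) (hJ0 : ∀ n : ℤ, n < -1 → J.coeff n = 0)
    (hΔ1 : Δ.coeff 1 = 1) (hΔ0 : ∀ n : ℤ, n < 1 → Δ.coeff n = 0)
    (hT : ∀ n : ℤ, T.coeff n = (n : k) * J.coeff n)
    (hA3 : T ^ 6 = J ^ 4 * (J - HahnSeries.C (1728 : k)) ^ 3 * Δ)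
    (N : ℕ) [NeZero N] (hN : (N : k) ≠ 0)
    (hlev : ∀ (p : ℕ) [NeZero p], p.Prime → p ∣ N → PartCLevel J Δ p) :
    (dedekindPsi N : Cardinal) ≤
      IntermediateField.relrank k⟮J⟯ (IntermediateField.adjoin k (partC_divSet J N)) :=
  partC_igusa_of_stepA J Δ T hJ1 hJ0 hΔ1 hΔ0 hT hA3 N hN hlev
    (fun p _ M hp hpM hM hP1 =>
      partC_stepA J hJ1 hJ0 p M hp hM
        (fun h0 => hN (by
          obtain ⟨c, rfl⟩ := hpM
          rw [Nat.cast_mul, h0, zero_mul]))
        (fun r _ hr hrd => (hlev r hr (hrd.trans hpM)).exists_modEq) hP1)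

end Fermat.Agent.S28
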