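import Fermat.Agent.S28.UnitExp

/-!
S28, Part A2: the unit equations.  `U = p^12 Δ(q^p)/Δ(q)` and `V = p^12 Δ(q)/Δ(q^p)` are roots of
monic polynomials with coefficients in `ℤ[J]` (formal identities in `ℤ((q))`).

Analytically: the `SL(2,ℤ)`-translates of `u(τ) = p^12 Δ(pτ)/Δ(τ)` are `u` itself and
`Δ((τ+b)/p)/Δ(τ)`; all have expansions in `w = e^{2πiτ/p}` with algebraic integer coefficients,
and the same holds for the translates of `p^24/u`.
-/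

set_option autoImplicit false

open ModularCurve AlgebraicCurve MatrixGroups UpperHalfPlane ModularForm EisensteinSeries

open scoped Manifold

open Fermat.Agent.S24

namespace Fermat.Agent.S28

local notation "Δf" => ModularForm.discriminant

/-! ### Matrices -/

/-- The matrix `S T^b`. -/
def Mb (b : ℤ) : SL(2, ℤ) := ⟨!![0, -1; 1, b], by simp [Matrix.det_fin_two_of]⟩

/-- The inverse of `S T^b`. -/
def Mb' (b : ℤ) : SL(2, ℤ) := ⟨!![b, 1; -1, 0], by simp [Matrix.det_fin_two_of]⟩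

theorem Mb'_mul_Mb (b : ℤ) : Mb' b * Mb b = 1 := by
  apply Subtype.ext
  show (!![b, 1; -1, 0] * !![0, -1; 1, b] : Matrix (Fin 2) (Fin 2) ℤ) = 1
  ext i j
  fin_cases i <;> fin_cases j <;> simp [Matrix.mul_apply, Fin.sum_univ_two]

theorem exists_mul_Mb'_mem (p : ℕ) (hp : p.Prime) (A : SL(2, ℤ))
    (hA : A ∉ CongruenceSubgroup.Gamma0 p) :
    ∃ b : ℕ, A * Mb' b ∈ CongruenceSubgroup.Gamma0 p := by
  have : Fact p.Prime := ⟨hp⟩
  rw [CongruenceSubgroup.Gamma0_mem] at hA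
  refine ⟨(((A 1 1 : ℤ) : ZMod p) * ((A 1 0 : ℤ) : ZMod p)⁻¹).val, ?_⟩
  rw [CongruenceSubgroup.Gamma0_mem]
  have h10 : (A * Mb' ((((A 1 1 : ℤ) : ZMod p) * ((A 1 0 : ℤ) : ZMod p)⁻¹).val : ℕ)) 1 0 =
      A 1 0 * ((((A 1 1 : ℤ) : ZMod p) * ((A 1 0 : ℤ) : ZMod p)⁻¹).val : ℕ) - A 1 1 := by
    show ((A : Matrix (Fin 2) (Fin 2) ℤ) *
      !![(((((A 1 1 : ℤ) : ZMod p) * ((A 1 0 : ℤ) : ZMod p)⁻¹).val : ℕ) : ℤ), 1; -1, 0]) 1 0 = _
    simp [Matrix.mul_apply, Fin.sum_univ_two]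
    ring
  rw [h10]
  push_cast
  rw [ZMod.natCast_zmod_val]
  field_simp
  ring

/-! ### Points of the upper half plane -/

/-- The point `(τ + b) / p`. -/
noncomputable def zb (p b : ℕ) [NeZero p] (τ : ℍ) : ℍ :=
  ⟨((τ : ℂ) + b) / p, by
    have hp : (0 : ℝ) < p := by exact_mod_cast Nat.pos_of_ne_zero (NeZero.ne p)
    have h : (((τ : ℂ) + b) / p).im = τ.im / p := by
      rw [Complex.div_natCast_im]
      simp
    rw [h]
    exact div_pos τ.im_pos hp⟩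

theorem coe_zb (p b : ℕ) [NeZero p] (τ : ℍ) : ((zb p b τ : ℍ) : ℂ) = ((τ : ℂ) + b) / p := rfl

theorem coe_Mb_smul (b : ℤ) (τ : ℍ) : ((Mb b • τ : ℍ) : ℂ) = -1 / ((τ : ℂ) + b) := by
  rw [coe_specialLinearGroup_apply]
  simp [Mb]

theorem denom_Mb (b : ℤ) (τ : ℍ) : denom (Mb b) τ = (τ : ℂ) + b := by
  rw [ModularGroup.denom_apply]
  simp [Mb]

theorem add_ne_zero' (b : ℤ) (τ : ℍ) : (τ : ℂ) + b ≠ 0 := by
  rw [← denom_Mb]
  exact UpperHalfPlane.denom_ne_zero (Mb b) τ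

theorem scaleH_Mb_smul (p b : ℕ) [NeZero p] (τ : ℍ) :
    scaleH p (Mb b • τ) = ModularGroup.S • zb p b τ := by
  apply UpperHalfPlane.ext
  rw [coe_scaleH p (NeZero.ne p), coe_Mb_smul, UpperHalfPlane.modular_S_smul]
  have h1 := add_ne_zero' b τ
  have hp : (p : ℂ) ≠ 0 := by exact_mod_cast NeZero.ne p
  show (p : ℂ) * (-1 / ((τ : ℂ) + ((b : ℕ) : ℤ))) = (-((zb p b τ : ℍ) : ℂ))⁻¹
  rw [coe_zb]
  push_cast at h1 ⊢
  field_simp

/-! ### The functions -/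

/-- `u(τ) = p^12 Δ(pτ)/Δ(τ)`. -/
noncomputable def uInf (p : ℕ) (τ : ℍ) : ℂ := (p : ℂ) ^ 12 * Δf (scaleH p τ) * (Δf τ)⁻¹

/-- `Δ((τ+b)/p)/Δ(τ)`. -/
noncomputable def uFin (p b : ℕ) [NeZero p] (τ : ℍ) : ℂ := Δf (zb p b τ) * (Δf τ)⁻¹

/-- `v(τ) = p^12 Δ(τ)/Δ(pτ)`. -/
noncomputable def vInf (p : ℕ) (τ : ℍ) : ℂ := (p : ℂ) ^ 12 * Δf τ * (Δf (scaleH p τ))⁻¹

/-- `p^24 Δ(τ)/Δ((τ+b)/p)`. -/
noncomputable def vFin (p b : ℕ) [NeZero p] (τ : ℍ) : ℂ :=
  (p : ℂ) ^ 24 * Δf τ * (Δf (zb p b τ))⁻¹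

theorem vInf_eq (p : ℕ) [NeZero p] (τ : ℍ) : vInf p τ = (p : ℂ) ^ 24 * (uInf p τ)⁻¹ := by
  have hp : (p : ℂ) ≠ 0 := by exact_mod_cast NeZero.ne p
  have h1 := ModularForm.discriminant_ne_zero τ
  have h2 := ModularForm.discriminant_ne_zero (scaleH p τ)
  unfold vInf uInf
  field_simp

theorem vFin_eq (p b : ℕ) [NeZero p] (τ : ℍ) : vFin p b τ = (p : ℂ) ^ 24 * (uFin p b τ)⁻¹ := by
  have h1 := ModularForm.discriminant_ne_zero τ
  have h2 := ModularForm.discriminant_ne_zero (zb p b τ)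
  unfold vFin uFin
  field_simp

/-- `u` is invariant under `Γ₀(p)`. -/
theorem uInf_smul_of_mem (p : ℕ) [NeZero p] (γ : SL(2, ℤ))
    (hγ : γ ∈ CongruenceSubgroup.Gamma0 p) (z : ℍ) : uInf p (γ • z) = uInf p z := by
  have hp0 : p ≠ 0 := NeZero.ne p
  have h : (p : ℤ) ∣ γ 1 0 := by
    rw [CongruenceSubgroup.Gamma0_mem] at hγ
    exact (ZMod.intCast_zmod_eq_zero_iff_dvd _ _).mp hγ
  have hden : denom (wpA5b2_conj p γ h) (scaleH p z) = denom γ z := by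
    rw [ModularGroup.denom_apply, ModularGroup.denom_apply, coe_scaleH p hp0]
    obtain ⟨c, hc⟩ := h
    have hpz : (p : ℤ) ≠ 0 := by exact_mod_cast hp0
    have h10 : (wpA5b2_conj p γ ⟨c, hc⟩) 1 0 = c := by
      change γ 1 0 / (p : ℤ) = c
      rw [hc, Int.mul_ediv_cancel_left _ hpz]
    have h11 : (wpA5b2_conj p γ ⟨c, hc⟩) 1 1 = γ 1 1 := rfl
    rw [h10, h11, hc]
    push_cast
    ring
  have hd : denom γ z ≠ 0 := UpperHalfPlane.denom_ne_zero γ z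
  have h1 := ModularForm.discriminant_ne_zero z
  unfold uInf
  rw [wpA5b2_scaleH_smul p hp0 γ h z, aj1_disc_smul, aj1_disc_smul, hden]
  field_simp

/-- The translate of `u` by `S T^b`. -/
theorem uInf_Mb_smul (p b : ℕ) [NeZero p] (τ : ℍ) : uInf p (Mb b • τ) = uFin p b τ := by
  have hp : (p : ℂ) ≠ 0 := by exact_mod_cast NeZero.ne p
  have h1 := add_ne_zero' b τ
  have h2 := ModularForm.discriminant_ne_zero τ
  unfold uInf uFin
  rw [scaleH_Mb_smul, aj1_disc_smul, aj1_disc_smul, ModularGroup.denom_S, denom_Mb, coe_zb]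
  push_cast at h1 ⊢
  field_simp

theorem uInf_actFn_of_mem (p : ℕ) [NeZero p] (γ : SL(2, ℤ))
    (hγ : γ ∈ CongruenceSubgroup.Gamma0 p) : actFn γ (uInf p) = uInf p := by
  funext τ
  rw [actFn_apply, uInf_smul_of_mem p γ⁻¹ (inv_mem hγ)]

/-- The translates of `u`. -/
theorem uInf_translate (p : ℕ) (hp : p.Prime) [NeZero p] (g : SL(2, ℤ)) :
    actFn g (uInf p) = uInf p ∨ ∃ b : ℕ, actFn g (uInf p) = uFin p b := by
  by_cases hA : g⁻¹ ∈ CongruenceSubgroup.Gamma0 p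
  · left
    funext τ
    rw [actFn_apply, uInf_smul_of_mem p _ hA]
  · right
    obtain ⟨b, hb⟩ := exists_mul_Mb'_mem p hp g⁻¹ hA
    refine ⟨b, ?_⟩
    funext τ
    have hdec : g⁻¹ = (g⁻¹ * Mb' b) * Mb b := by
      rw [mul_assoc, Mb'_mul_Mb, mul_one]
    rw [actFn_apply, hdec, mul_smul, uInf_smul_of_mem p _ hb, uInf_Mb_smul]

theorem vInf_actFn_of_mem (p : ℕ) [NeZero p] (γ : SL(2, ℤ))
    (hγ : γ ∈ CongruenceSubgroup.Gamma0 p) : actFn γ (vInf p) = vInf p := by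
  funext τ
  rw [actFn_apply, vInf_eq, vInf_eq, uInf_smul_of_mem p γ⁻¹ (inv_mem hγ)]

/-- The translates of `v`. -/
theorem vInf_translate (p : ℕ) (hp : p.Prime) [NeZero p] (g : SL(2, ℤ)) :
    actFn g (vInf p) = vInf p ∨ ∃ b : ℕ, actFn g (vInf p) = vFin p b := by
  rcases uInf_translate p hp g with h | ⟨b, h⟩
  · left
    funext τ
    have := congrFun h τ
    rw [actFn_apply] at this
    rw [actFn_apply, vInf_eq, vInf_eq, this]
  · right
    refine ⟨b, ?_⟩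
    funext τ
    have := congrFun h τ
    rw [actFn_apply] at this
    rw [actFn_apply, vInf_eq, vFin_eq, this]

/-! ### Roots of unity and `q`-parameters -/

/-- The root of unity `e^{2πi b/p}`. -/
noncomputable def zetaB (p b : ℕ) : ℂ :=
  Complex.exp (2 * Real.pi * Complex.I * ((b : ℤ) : ℂ) / (p : ℂ))

theorem zetaB_pow (p b : ℕ) [NeZero p] : zetaB p b ^ p = 1 := by
  have hp : (p : ℂ) ≠ 0 := by exact_mod_cast NeZero.ne p
  rw [zetaB, ← Complex.exp_nat_mul]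
  have : (p : ℂ) * (2 * Real.pi * Complex.I * ((b : ℤ) : ℂ) / (p : ℂ)) =
      ((b : ℤ) : ℂ) * (2 * Real.pi * Complex.I) := by
    field_simp
  rw [this]
  exact Complex.exp_int_mul_two_pi_mul_I b

theorem zetaB_norm (p b : ℕ) [NeZero p] : ‖zetaB p b‖ = 1 := by
  have h := congrArg norm (zetaB_pow p b)
  rw [norm_pow, norm_one] at h
  exact (pow_eq_one_iff_of_nonneg (norm_nonneg _) (NeZero.ne p)).1 h

theorem zetaB_mem (p b : ℕ) [NeZero p] : zetaB p b ∈ Zbar := by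
  rw [mem_Zbar]
  refine IsIntegral.of_pow (Nat.pos_of_ne_zero (NeZero.ne p)) ?_
  rw [zetaB_pow]
  exact isIntegral_one

theorem zetaB_inv_mem (p b : ℕ) [NeZero p] : (zetaB p b)⁻¹ ∈ Zbar := by
  have hp : 0 < p := Nat.pos_of_ne_zero (NeZero.ne p)
  have h : (zetaB p b)⁻¹ = zetaB p b ^ (p - 1) := by
    refine inv_eq_of_mul_eq_one_right ?_
    rw [← pow_succ', Nat.sub_add_cancel hp, zetaB_pow]
  rw [h]
  exact Zbar.pow_mem (zetaB_mem p b) _

theorem qParam_id (p : ℕ) [NeZero p] (τ : ℍ) :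
    Function.Periodic.qParam 1 (τ : ℂ) = 1 * wN p τ ^ p := by
  have h := wpA4b_qParam_eq p τ τ 1 0 1 one_ne_zero (one_dvd p) (by simp)
  simpa using h

theorem qParam_scaleH (p : ℕ) [NeZero p] (τ : ℍ) :
    Function.Periodic.qParam 1 ((scaleH p τ : ℍ) : ℂ) = 1 * wN p τ ^ (p * p) := by
  have h := wpA4b_qParam_eq p τ (scaleH p τ) p 0 1 one_ne_zero (one_dvd p)
    (by rw [coe_scaleH p (NeZero.ne p)]; simp)
  simpa using h

theorem qParam_zb (p b : ℕ) [NeZero p] (τ : ℍ) :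
    Function.Periodic.qParam 1 ((zb p b τ : ℍ) : ℂ) = zetaB p b * wN p τ ^ 1 := by
  have h := wpA4b_qParam_eq p τ (zb p b τ) 1 (b : ℤ) p (NeZero.ne p) dvd_rfl
    (by rw [coe_zb]; simp)
  rw [Nat.div_self (Nat.pos_of_ne_zero (NeZero.ne p)), mul_one] at h
  exact h

/-! ### Expansions with algebraic integer coefficients -/

theorem h22_coeff_single_mem (R : Subring ℂ) (k n : ℤ) :
    (HahnSeries.single k (1 : ℂ) : LaurentSeries ℂ).coeff n ∈ R := by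
  rw [HahnSeries.coeff_single]
  split_ifs
  · exact R.one_mem
  · exact R.zero_mem

theorem cE_mem (R : Subring ℂ) (n : ℕ) : cE n ∈ R := intCast_mem R _

theorem cEinv_mem (R : Subring ℂ) (n : ℕ) : cEinv n ∈ R := intCast_mem R _

theorem const_mem_expSubring (N : ℕ) [NeZero N] (R : Subring ℂ) {c : ℂ} (hc : c ∈ R) :
    (fun _ : ℍ => c) ∈ expSubring N R :=
  ⟨HahnSeries.C c, hasWExp_const N c, h22_coeff_C_mem R hc⟩

theorem disc_comp_mem (N : ℕ) [NeZero N] (R : Subring ℂ) (z : ℍ → ℍ) (e : ℕ) (he : 0 < e)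
    (ξ : ℂ) (hξ : ‖ξ‖ = 1) (hξR : ξ ∈ R)
    (hz : ∀ τ : ℍ, Function.Periodic.qParam 1 (z τ : ℂ) = ξ * wN N τ ^ e) :
    (fun τ : ℍ => Δf (z τ)) ∈ expSubring N R :=
  ⟨_, hasWExp_disc_comp N z e he ξ hξ hz,
    h22_coeff_mul_mem R (h22_coeff_mul_mem R (h22_coeff_C_mem R hξR) (h22_coeff_single_mem R _))
      (serZ_coeff_mem R cE e ξ hξR (cE_mem R))⟩

theorem disc_inv_comp_mem (N : ℕ) [NeZero N] (R : Subring ℂ) (z : ℍ → ℍ) (e : ℕ) (he : 0 < e)
    (ξ : ℂ) (hξ : ‖ξ‖ = 1) (hξR : ξ ∈ R) (hξR' : ξ⁻¹ ∈ R)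
    (hz : ∀ τ : ℍ, Function.Periodic.qParam 1 (z τ : ℂ) = ξ * wN N τ ^ e) :
    (fun τ : ℍ => (Δf (z τ))⁻¹) ∈ expSubring N R :=
  ⟨_, hasWExp_disc_inv_comp N z e he ξ hξ hz,
    h22_coeff_mul_mem R (h22_coeff_mul_mem R (h22_coeff_C_mem R hξR') (h22_coeff_single_mem R _))
      (serZ_coeff_mem R cEinv e ξ hξR (cEinv_mem R))⟩

theorem natCast_pow_mem_Zbar (p k : ℕ) : ((p : ℂ) ^ k) ∈ Zbar :=
  Zbar.pow_mem (natCast_mem Zbar p) k

theorem uInf_mem (p : ℕ) [NeZero p] : uInf p ∈ expSubring p Zbar := by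
  have hp : 0 < p := Nat.pos_of_ne_zero (NeZero.ne p)
  have h1 := const_mem_expSubring p Zbar (natCast_pow_mem_Zbar p 12)
  have h2 := disc_comp_mem p Zbar (scaleH p) (p * p) (Nat.mul_pos hp hp) 1 norm_one Zbar.one_mem
    (qParam_scaleH p)
  have h3 := disc_inv_comp_mem p Zbar id p hp 1 norm_one Zbar.one_mem
    (by rw [inv_one]; exact Zbar.one_mem) (qParam_id p)
  exact Subring.mul_mem _ (Subring.mul_mem _ h1 h2) h3

theorem uFin_mem (p b : ℕ) [NeZero p] : uFin p b ∈ expSubring p Zbar := by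
  have hp : 0 < p := Nat.pos_of_ne_zero (NeZero.ne p)
  have h2 := disc_comp_mem p Zbar (zb p b) 1 one_pos (zetaB p b) (zetaB_norm p b)
    (zetaB_mem p b) (qParam_zb p b)
  have h3 := disc_inv_comp_mem p Zbar id p hp 1 norm_one Zbar.one_mem
    (by rw [inv_one]; exact Zbar.one_mem) (qParam_id p)
  exact Subring.mul_mem _ h2 h3

theorem vInf_mem (p : ℕ) [NeZero p] : vInf p ∈ expSubring p Zbar := by
  have hp : 0 < p := Nat.pos_of_ne_zero (NeZero.ne p)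
  have h1 := const_mem_expSubring p Zbar (natCast_pow_mem_Zbar p 12)
  have h2 := disc_comp_mem p Zbar id p hp 1 norm_one Zbar.one_mem (qParam_id p)
  have h3 := disc_inv_comp_mem p Zbar (scaleH p) (p * p) (Nat.mul_pos hp hp) 1 norm_one
    Zbar.one_mem (by rw [inv_one]; exact Zbar.one_mem) (qParam_scaleH p)
  exact Subring.mul_mem _ (Subring.mul_mem _ h1 h2) h3

theorem vFin_mem (p b : ℕ) [NeZero p] : vFin p b ∈ expSubring p Zbar := by
  have hp : 0 < p := Nat.pos_of_ne_zero (NeZero.ne p)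
  have h1 := const_mem_expSubring p Zbar (natCast_pow_mem_Zbar p 24)
  have h2 := disc_comp_mem p Zbar id p hp 1 norm_one Zbar.one_mem (qParam_id p)
  have h3 := disc_inv_comp_mem p Zbar (zb p b) 1 one_pos (zetaB p b) (zetaB_norm p b)
    (zetaB_mem p b) (zetaB_inv_mem p b) (qParam_zb p b)
  exact Subring.mul_mem _ (Subring.mul_mem _ h1 h2) h3

/-! ### The exact expansions of `u` and `v` -/

theorem DeltaSer_complex :
    DeltaSer ℂ =
      HahnSeries.single (1 : ℤ) 1 * HahnSeries.ofPowerSeries ℤ ℂ (PowerSeries.mk cE) := by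
  rw [DeltaSer]
  congr 2
  ext n
  simp [cE]

theorem DeltaInv_complex :
    DeltaInv ℂ =
      HahnSeries.single (-1 : ℤ) 1 * HahnSeries.ofPowerSeries ℤ ℂ (PowerSeries.mk cEinv) := by
  rw [DeltaInv]
  congr 2
  ext n
  simp [cEinv]

/-- The formal series `U = p^12 Δ(q^p)/Δ(q)` over `ℤ`. -/
noncomputable def Useries (p : ℕ) : LaurentSeries ℤ :=
  (p : LaurentSeries ℤ) ^ 12 * (qE ℤ p (DeltaSer ℤ) * DeltaInv ℤ)

/-- The formal series `V = p^12 Δ(q)/Δ(q^p)` over `ℤ`. -/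
noncomputable def Vseries (p : ℕ) : LaurentSeries ℤ :=
  (p : LaurentSeries ℤ) ^ 12 * (DeltaSer ℤ * qE ℤ p (DeltaInv ℤ))

theorem Useries_eq (p : ℕ) [NeZero p] [NeZero (p * p)] :
    qExpand ℂ p (coeffMap (Int.castRingHom ℂ) (Useries p)) =
      HahnSeries.C ((p : ℂ) ^ 12) *
        (HahnSeries.C 1 * HahnSeries.single ((p * p : ℕ) : ℤ) 1 * serZ cE (p * p) 1) *
        (HahnSeries.C (1 : ℂ)⁻¹ * HahnSeries.single (-(p : ℤ)) 1 * serZ cEinv p 1) := by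
  rw [Useries, qE_of_neZero]
  simp only [map_mul, map_pow, map_natCast, coeffMap_qExpand, coeffMap_DeltaSer,
    coeffMap_DeltaInv, DeltaSer_complex, DeltaInv_complex, qExpand_qExpand, qExpand_single,
    serZ_one, inv_one, map_one, mul_one, one_mul, mul_neg, Nat.cast_mul]
  ring

theorem Vseries_eq (p : ℕ) [NeZero p] [NeZero (p * p)] :
    qExpand ℂ p (coeffMap (Int.castRingHom ℂ) (Vseries p)) =
      HahnSeries.C ((p : ℂ) ^ 12) *
        (HahnSeries.C 1 * HahnSeries.single (p : ℤ) 1 * serZ cE p 1) *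
        (HahnSeries.C (1 : ℂ)⁻¹ * HahnSeries.single (-((p * p : ℕ) : ℤ)) 1 *
          serZ cEinv (p * p) 1) := by
  rw [Vseries, qE_of_neZero]
  simp only [map_mul, map_pow, map_natCast, coeffMap_qExpand, coeffMap_DeltaSer,
    coeffMap_DeltaInv, DeltaSer_complex, DeltaInv_complex, qExpand_qExpand, qExpand_single,
    serZ_one, inv_one, map_one, mul_one, one_mul, mul_neg, Nat.cast_mul]
  ring

theorem uInf_hasWExp (p : ℕ) [NeZero p] :
    HasWExp p (uInf p) (qExpand ℂ p (coeffMap (Int.castRingHom ℂ) (Useries p))) := by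
  have hp : 0 < p := Nat.pos_of_ne_zero (NeZero.ne p)
  have : NeZero (p * p) := ⟨(Nat.mul_pos hp hp).ne'⟩
  rw [Useries_eq]
  exact ((hasWExp_const p ((p : ℂ) ^ 12)).mul
    (hasWExp_disc_comp p (scaleH p) (p * p) (Nat.mul_pos hp hp) 1 norm_one (qParam_scaleH p))).mul
    (hasWExp_disc_inv_comp p id p hp 1 norm_one (qParam_id p))

theorem vInf_hasWExp (p : ℕ) [NeZero p] :
    HasWExp p (vInf p) (qExpand ℂ p (coeffMap (Int.castRingHom ℂ) (Vseries p))) := by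
  have hp : 0 < p := Nat.pos_of_ne_zero (NeZero.ne p)
  have : NeZero (p * p) := ⟨(Nat.mul_pos hp hp).ne'⟩
  rw [Vseries_eq]
  exact ((hasWExp_const p ((p : ℂ) ^ 12)).mul
    (hasWExp_disc_comp p id p hp 1 norm_one (qParam_id p))).mul
    (hasWExp_disc_inv_comp p (scaleH p) (p * p) (Nat.mul_pos hp hp) 1 norm_one (qParam_scaleH p))

/-! ### The unit equations -/

/-- **Part A2 of the S28 plan.** `U = p^12 Δ(q^p)/Δ(q)` and `V = p^12 Δ(q)/Δ(q^p)` are integral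
over `ℤ[J]` inside `ℤ((q))`. -/
theorem exists_unit_equations (p : ℕ) (hp : p.Prime) :
    ∃ P Q : Polynomial (Polynomial ℤ), P.Monic ∧ Q.Monic ∧
      P.eval₂ (evJ ℤ) ((p : LaurentSeries ℤ) ^ 12 * (qE ℤ p (DeltaSer ℤ) * DeltaInv ℤ)) = 0 ∧
      Q.eval₂ (evJ ℤ) ((p : LaurentSeries ℤ) ^ 12 * (DeltaSer ℤ * qE ℤ p (DeltaInv ℤ))) = 0 := by
  have : NeZero p := ⟨hp.ne_zero⟩
  -- the equation for `U`
  have hexpU : ∀ g : SL(2, ℤ), ∃ L : LaurentSeries ℂ, HasWExp p (actFn g (uInf p)) L ∧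
      ∀ n, L.coeff n ∈ Zbar := by
    intro g
    rcases uInf_translate p hp g with h | ⟨b, h⟩
    · rw [h]
      exact uInf_mem p
    · rw [h]
      exact uFin_mem p b
  obtain ⟨Q₁, hQ₁m, hQ₁⟩ := exists_monic_of_invariant p Zbar (uInf p) (uInf_actFn_of_mem p) hexpU
  have hf₁ := formal_root_q p Zbar Q₁ (uInf p) _ (uInf_hasWExp p) hQ₁
  obtain ⟨P, hPm, hP⟩ := exists_int_monic _ Q₁ hQ₁m hf₁
  -- the equation for `V`
  have hexpV : ∀ g : SL(2, ℤ), ∃ L : LaurentSeries ℂ, HasWExp p (actFn g (vInf p)) L ∧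
      ∀ n, L.coeff n ∈ Zbar := by
    intro g
    rcases vInf_translate p hp g with h | ⟨b, h⟩
    · rw [h]
      exact vInf_mem p
    · rw [h]
      exact vFin_mem p b
  obtain ⟨Q₂, hQ₂m, hQ₂⟩ := exists_monic_of_invariant p Zbar (vInf p) (vInf_actFn_of_mem p) hexpV
  have hf₂ := formal_root_q p Zbar Q₂ (vInf p) _ (vInf_hasWExp p) hQ₂
  obtain ⟨Q, hQm, hQ⟩ := exists_int_monic _ Q₂ hQ₂m hf₂
  exact ⟨P, Q, hPm, hQm, eval₂_int_of_complex P (Useries p) hP,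
    eval₂_int_of_complex Q (Vseries p) hQ⟩

/-- The shape of `Skel.exists_unit_equation`: only `U`. -/
theorem exists_unit_equation (p : ℕ) (hp : p.Prime) :
    ∃ P : Polynomial (Polynomial ℤ), P.Monic ∧
      P.eval₂ (evJ ℤ) ((p : LaurentSeries ℤ) ^ 12 * (qE ℤ p (DeltaSer ℤ) * DeltaInv ℤ)) = 0 := by
  obtain ⟨P, -, hPm, -, hP, -⟩ := exists_unit_equations p hp
  exact ⟨P, hPm, hP⟩

end Fermat.Agent.S28
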