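import Fermat.Agent.S28.CharLBridge
import Fermat.Agent.S28.ThetaJ
import Fermat.Agent.S28.JdIntegral
import Fermat.Agent.S28.ModEq
import Fermat.Agent.S28.UnitEq
import Fermat.Agent.S28.CIgusa

/-!
S28 / row C-Bridge (helper58; integrated with the real modules by helper90):
`exists_independent` (the frozen cross-part statement of Part C) from `partC_igusa` (`CIgusa.lean`),
(A1) `exists_modular_equation`, (A2) `exists_unit_equation`, (A3) `theta_J_pow_six`,
(B1) `exists_monic_JdC_of_modEq`.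
-/

set_option autoImplicit false

open ModularCurve IntermediateField

namespace Fermat.Agent.S28

/-- (C) `[𝔽_ℓ(J(q^d) : d ∣ N) : 𝔽_ℓ(J)] ≥ ψ(N)` for `ℓ ∤ N`, witnessed by integral polynomial
expressions in the `J(q^d)`. -/
theorem exists_independent (ℓ : ℕ) [Fact ℓ.Prime] (N : ℕ) [NeZero N] (hN : ¬ ℓ ∣ N) :
    ∃ b : Fin (dedekindPsi N) → MvPolynomial N.divisors ℤ,
      LinearIndependent (IntermediateField.adjoin (ZMod ℓ) {jqModC (ZMod ℓ)})
        (fun i => MvPolynomial.eval₂ (Int.castRingHom (LaurentSeries (ZMod ℓ)))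
          (fun d : N.divisors => JdC (ZMod ℓ) d.1) (b i)) := by
  have hNk : (N : AlgebraicClosure (ZMod ℓ)) ≠ 0 := by
    rw [Ne, CharP.cast_eq_zero_iff (AlgebraicClosure (ZMod ℓ)) ℓ]
    exact hN
  have hA1 : ∀ p : ℕ, p.Prime → ∃ Φ : Polynomial (Polynomial ℤ), Φ.Monic ∧
      Φ.natDegree = p + 1 ∧ Φ.eval₂ (evJ ℤ) (JdC ℤ p) = 0 ∧
      Φ.eval₂ (evJd ℤ p) (jqModC ℤ) = 0 := exists_modular_equation
  have hA2 : ∀ p : ℕ, p.Prime → ∃ P : Polynomial (Polynomial ℤ), P.Monic ∧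
      P.eval₂ (evJ ℤ) ((p : LaurentSeries ℤ) ^ 12 * (qE ℤ p (DeltaSer ℤ) * DeltaInv ℤ)) = 0 :=
    exists_unit_equation
  exact h58_exists_independent_of_relrank ℓ N
    (exists_monic_JdC_of_modEq fun p hp => let ⟨Φ, hΦ, _, h, _⟩ := hA1 p hp; ⟨Φ, hΦ, h⟩)
    (partC_igusa (jqModC (AlgebraicClosure (ZMod ℓ))) (DeltaSer (AlgebraicClosure (ZMod ℓ)))
      (theta (jqModC (AlgebraicClosure (ZMod ℓ))))
      (coeff_jqModC_neg_one _) (fun n hn => coeff_jqModC_of_lt _ hn)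
      (h58_DeltaSer_coeff_one _) (h58_DeltaSer_coeff_of_lt _)
      (fun n => rfl) (h58_theta_pow_six theta_J_pow_six) N hNk
      (fun p _ hp _ => ⟨h58_level_modEq p (hA1 p hp), h58_level_unit p (hA2 p hp)⟩))

end Fermat.Agent.S28
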