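import Mathlib
import Fermat.Prelude.Def_ModularCurve_IgusaScheme
import Fermat.Prelude.Def_ModularCurve_LaurentCoeff

/-!
S28, Part D2 = tensor step (helper38): from a `q`-expansion homomorphism `φ : A →+* 𝔽_ℓ((q))` with kernel `ℓA`
to the integrality of `A ⊗[ℤ_(ℓ)] K` for every field `K` of characteristic `ℓ`.
Also the "minpoly lemma" `partD_isIntegral_of_mul` (integrality from coprime multiples over an
integrally closed domain).
Everything is in `namespace Fermat.Agent.S28`; own names are prefixed `partD_`.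
-/

set_option autoImplicit false

open TensorProduct ModularCurve

namespace Fermat.Agent.S28

section UniqueHom

variable (ℓ : ℕ) [Fact ℓ.Prime]

omit [Fact ℓ.Prime] in
/-- Every integer prime to `ℓ` is a unit of `ℤ_(ℓ)`; in particular denominators are units. -/
theorem partD_den_isUnit (r : ↥(GaloisRep.ratLocalizedAt ℓ)) :
    IsUnit ((r : ℚ).den : ↥(GaloisRep.ratLocalizedAt ℓ)) := by
  have hmem : ((r : ℚ).den : ℚ)⁻¹ ∈ GaloisRep.ratLocalizedAt ℓ := by
    change (((r : ℚ).den : ℚ)⁻¹).den.Coprime ℓ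
    have h1 : (((r : ℚ).den : ℚ)⁻¹).den = (r : ℚ).den := by
      rw [Rat.inv_natCast_den, if_neg (r : ℚ).den_ne_zero]
    rw [h1]
    exact r.2
  refine IsUnit.of_mul_eq_one ⟨((r : ℚ).den : ℚ)⁻¹, hmem⟩ (Subtype.ext ?_)
  push_cast
  exact mul_inv_cancel₀ (Nat.cast_ne_zero.mpr (r : ℚ).den_ne_zero)

omit [Fact ℓ.Prime] in
/-- Two ring homomorphisms out of `ℤ_(ℓ)` agree. -/
theorem partD_ringHom_ext {S : Type*} [Ring S]
    (f g : ↥(GaloisRep.ratLocalizedAt ℓ) →+* S) : f = g := by
  ext r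
  have hu := partD_den_isUnit ℓ r
  have hnum : (r * ((r : ℚ).den : ↥(GaloisRep.ratLocalizedAt ℓ)) :
      ↥(GaloisRep.ratLocalizedAt ℓ)) = ((r : ℚ).num : ↥(GaloisRep.ratLocalizedAt ℓ)) := by
    apply Subtype.ext
    push_cast
    exact Rat.mul_den_eq_num (r : ℚ)
  have hf : f r * f ((r : ℚ).den : ↥(GaloisRep.ratLocalizedAt ℓ)) =
      g r * g ((r : ℚ).den : ↥(GaloisRep.ratLocalizedAt ℓ)) := by
    rw [← map_mul, ← map_mul, hnum, map_intCast, map_intCast]
  rw [map_natCast g, ← map_natCast f] at hf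
  exact (hu.map f).mul_right_cancel hf

end UniqueHom

section Tensor

universe uA uK

variable (ℓ : ℕ) [Fact ℓ.Prime]
variable {A : Type uA} [CommRing A] [Algebra ↥(GaloisRep.ratLocalizedAt ℓ) A]
variable (K : Type uK) [Field K] [CharP K ℓ] [Algebra ↥(GaloisRep.ratLocalizedAt ℓ) K]

omit [Fact ℓ.Prime] in
/-- The coefficient embedding `𝔽_ℓ((q)) → K((q))`. -/
noncomputable def partD_coeffEmb : LaurentSeries (ZMod ℓ) →+* LaurentSeries K :=
  coeffMap (ZMod.castHom (dvd_refl ℓ) K)

/-- The homomorphism `A ⊗ K → K((q))`, `a ⊗ k ↦ φ(a) · k`. -/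
noncomputable def partD_tensorHom (φ : A →+* LaurentSeries (ZMod ℓ)) :
    A ⊗[↥(GaloisRep.ratLocalizedAt ℓ)] K →+* LaurentSeries K :=
  (Algebra.TensorProduct.productMap
    ({ toRingHom := (partD_coeffEmb ℓ K).comp φ
       commutes' := fun r => by
         have h := partD_ringHom_ext ℓ
           (((partD_coeffEmb ℓ K).comp φ).comp (algebraMap ↥(GaloisRep.ratLocalizedAt ℓ) A))
           (algebraMap ↥(GaloisRep.ratLocalizedAt ℓ) (LaurentSeries K))
         exact congrFun (congrArg DFunLike.coe h) r } :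
      A →ₐ[↥(GaloisRep.ratLocalizedAt ℓ)] LaurentSeries K)
    ({ toRingHom := HahnSeries.C
       commutes' := fun r => by
         have h := partD_ringHom_ext ℓ
           ((HahnSeries.C : K →+* LaurentSeries K).comp
             (algebraMap ↥(GaloisRep.ratLocalizedAt ℓ) K))
           (algebraMap ↥(GaloisRep.ratLocalizedAt ℓ) (LaurentSeries K))
         exact congrFun (congrArg DFunLike.coe h) r } :
      K →ₐ[↥(GaloisRep.ratLocalizedAt ℓ)] LaurentSeries K)).toRingHom

theorem partD_tensorHom_tmul (φ : A →+* LaurentSeries (ZMod ℓ)) (a : A) (k : K) :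
    partD_tensorHom ℓ K φ (a ⊗ₜ k) = partD_coeffEmb ℓ K (φ a) * HahnSeries.C k := by
  unfold partD_tensorHom
  simp

omit [Fact ℓ.Prime] [CharP K ℓ] in
/-- Normal form of tensors: if every element of `K` is an `ℕ`-combination of the family `𝔟`,
every element of `A ⊗ K` is a finite sum `∑ aᵢ ⊗ 𝔟ᵢ`. -/
theorem partD_exists_finsupp {ι : Type*} (𝔟 : ι → K)
    (hspan : ∀ k : K, ∃ c : ι →₀ ℕ, k = c.sum (fun i n => (n : K) * 𝔟 i))
    (x : A ⊗[↥(GaloisRep.ratLocalizedAt ℓ)] K) :
    ∃ f : ι →₀ A, x = f.sum (fun i a => a ⊗ₜ[↥(GaloisRep.ratLocalizedAt ℓ)] 𝔟 i) := by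
  induction x using TensorProduct.induction_on with
  | zero => exact ⟨0, by simp⟩
  | tmul a k =>
    obtain ⟨c, rfl⟩ := hspan k
    refine ⟨c.mapRange (fun n : ℕ => n • a) (zero_smul ℕ a), ?_⟩
    rw [Finsupp.sum_mapRange_index
      (h := fun i a => a ⊗ₜ[↥(GaloisRep.ratLocalizedAt ℓ)] 𝔟 i)
      (fun i => TensorProduct.zero_tmul _ _)]
    unfold Finsupp.sum
    rw [TensorProduct.tmul_sum]
    refine Finset.sum_congr rfl fun i _ => ?_
    change a ⊗ₜ[↥(GaloisRep.ratLocalizedAt ℓ)] ((c i : K) * 𝔟 i)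
      = (c i • a) ⊗ₜ[↥(GaloisRep.ratLocalizedAt ℓ)] 𝔟 i
    rw [TensorProduct.smul_tmul, nsmul_eq_mul]
  | add x y hx hy =>
    obtain ⟨f, rfl⟩ := hx
    obtain ⟨g, rfl⟩ := hy
    refine ⟨f + g, ?_⟩
    rw [Finsupp.sum_add_index'
      (h := fun i a => a ⊗ₜ[↥(GaloisRep.ratLocalizedAt ℓ)] 𝔟 i)
      (fun i => TensorProduct.zero_tmul _ _) (fun i a b => TensorProduct.add_tmul _ _ _)]

omit [Algebra ↥(GaloisRep.ratLocalizedAt ℓ) K] in
/-- Existence of an `𝔽_ℓ`-basis of `K`, phrased without module structures. -/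
theorem partD_exists_basis :
    ∃ (ι : Type uK) (𝔟 : ι → K),
      (∀ k : K, ∃ c : ι →₀ ℕ, k = c.sum (fun i n => (n : K) * 𝔟 i)) ∧
      ∀ (s : Finset ι) (g : ι → ZMod ℓ),
        ∑ i ∈ s, ZMod.castHom (dvd_refl ℓ) K (g i) * 𝔟 i = 0 → ∀ i ∈ s, g i = 0 := by
  let _ : Algebra (ZMod ℓ) K := ZMod.algebra K ℓ
  let b := Module.Basis.ofVectorSpace (ZMod ℓ) K
  have hsmul : ∀ (c : ZMod ℓ) (x : K), c • x = ZMod.castHom (dvd_refl ℓ) K c * x := by
    intro c x
    rw [Algebra.smul_def]
    rfl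
  refine ⟨_, fun i => b i, ?_, ?_⟩
  · intro k
    refine ⟨(b.repr k).mapRange ZMod.val ZMod.val_zero, ?_⟩
    rw [Finsupp.sum_mapRange_index (fun i => by simp)]
    conv_lhs => rw [← b.linearCombination_repr k, Finsupp.linearCombination_apply]
    refine Finset.sum_congr rfl fun i _ => ?_
    change (b.repr k i) • b i = (((b.repr k i).val : ℕ) : K) * b i
    rw [hsmul, ZMod.castHom_apply, ZMod.natCast_val]
  · intro s g hg
    have hli := b.linearIndependent
    rw [linearIndependent_iff'] at hli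
    refine hli s g ?_
    rw [← hg]
    exact Finset.sum_congr rfl fun i _ => hsmul _ _

theorem partD_tensorHom_injective (φ : A →+* LaurentSeries (ZMod ℓ))
    (hker : RingHom.ker φ = Ideal.span {(ℓ : A)}) :
    Function.Injective (partD_tensorHom ℓ K φ) := by
  obtain ⟨ι, 𝔟, hspan, hindep⟩ := partD_exists_basis ℓ K
  rw [injective_iff_map_eq_zero]
  intro z hz
  obtain ⟨f, rfl⟩ := partD_exists_finsupp ℓ K 𝔟 hspan z
  unfold Finsupp.sum at hz ⊢
  rw [map_sum] at hz
  have hcoeff : ∀ i ∈ f.support, φ (f i) = 0 := by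
    intro i hi
    ext m
    have hm := congrArg (fun y : LaurentSeries K => y.coeff m) hz
    simp only [partD_tensorHom_tmul] at hm
    have hterm : ∀ j : ι, (partD_coeffEmb ℓ K (φ (f j)) * HahnSeries.C (𝔟 j)).coeff m
        = ZMod.castHom (dvd_refl ℓ) K ((φ (f j)).coeff m) * 𝔟 j := by
      intro j
      rw [mul_comm, HahnSeries.C_mul_eq_smul, HahnSeries.coeff_smul, smul_eq_mul, mul_comm]
      rfl
    have hsum : (∑ j ∈ f.support, partD_coeffEmb ℓ K (φ (f j)) * HahnSeries.C (𝔟 j)).coeff m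
        = ∑ j ∈ f.support, ZMod.castHom (dvd_refl ℓ) K ((φ (f j)).coeff m) * 𝔟 j := by
      rw [HahnSeries.coeff_sum]
      exact Finset.sum_congr rfl fun j _ => hterm j
    rw [hsum] at hm
    exact hindep f.support (fun j => (φ (f j)).coeff m) hm i hi
  refine Finset.sum_eq_zero fun i hi => ?_
  have hmem : f i ∈ RingHom.ker φ := (RingHom.mem_ker).mpr (hcoeff i hi)
  rw [hker, Ideal.mem_span_singleton'] at hmem
  obtain ⟨a, ha⟩ := hmem
  have h1 : f i = ℓ • a := by
    rw [← ha, nsmul_eq_mul, mul_comm]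
  change f i ⊗ₜ[↥(GaloisRep.ratLocalizedAt ℓ)] 𝔟 i = 0
  rw [h1, TensorProduct.smul_tmul, nsmul_eq_mul, CharP.cast_eq_zero K ℓ, zero_mul,
    TensorProduct.tmul_zero]

/-- **Part D3**: a `q`-expansion homomorphism with kernel `ℓA` makes `A ⊗ K` a domain for every
field `K` of characteristic `ℓ`. -/
theorem partD_isDomain_tensor (φ : A →+* LaurentSeries (ZMod ℓ))
    (hker : RingHom.ker φ = Ideal.span {(ℓ : A)}) :
    IsDomain (A ⊗[↥(GaloisRep.ratLocalizedAt ℓ)] K) :=
  Function.Injective.isDomain (partD_tensorHom ℓ K φ) (partD_tensorHom_injective ℓ K φ hker)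

/-- Any `q`-expansion homomorphism makes `A ⊗ K` non-trivial. -/
theorem partD_nontrivial_tensor (φ : A →+* LaurentSeries (ZMod ℓ)) :
    Nontrivial (A ⊗[↥(GaloisRep.ratLocalizedAt ℓ)] K) :=
  (partD_tensorHom ℓ K φ).domain_nontrivial

end Tensor

section Integrality

open Polynomial

/-- Coprimality in a fraction field: if `c·ℓ^a` and `c·g^b` both lie in `R`, with `ℓ` prime and
`ℓ ∤ g`, then `c ∈ R`. -/
theorem partD_mem_range_of_mul_pow {R K : Type*} [CommRing R] [IsDomain R] [Field K] [Algebra R K]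
    [IsFractionRing R K] {ℓ g : R} (hℓ : Prime ℓ) (hg : ¬ ℓ ∣ g) (c : K) (a b : ℕ)
    (h1 : c * algebraMap R K ℓ ^ a ∈ (algebraMap R K).range)
    (h2 : c * algebraMap R K g ^ b ∈ (algebraMap R K).range) :
    c ∈ (algebraMap R K).range := by
  obtain ⟨r1, hr1⟩ := h1
  obtain ⟨r2, hr2⟩ := h2
  have hinj : Function.Injective (algebraMap R K) := IsFractionRing.injective R K
  have hℓK : algebraMap R K ℓ ≠ 0 := by
    intro h
    exact hℓ.ne_zero (hinj (by rw [h, map_zero]))
  have hmul : r1 * g ^ b = r2 * ℓ ^ a := by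
    apply hinj
    rw [map_mul, map_mul, map_pow, map_pow, hr1, hr2]
    ring
  have hgb : ¬ ℓ ∣ g ^ b := fun h => hg (hℓ.dvd_of_dvd_pow h)
  have hdvd : ℓ ^ a ∣ r1 := hℓ.pow_dvd_of_dvd_mul_right a hgb ⟨r2, by rw [hmul]; ring⟩
  obtain ⟨r, rfl⟩ := hdvd
  refine ⟨r, ?_⟩
  have h3 : algebraMap R K r * algebraMap R K ℓ ^ a = c * algebraMap R K ℓ ^ a := by
    rw [← hr1, map_mul, map_pow]
    ring
  exact mul_right_cancel₀ (pow_ne_zero a hℓK) h3

/-- The minimal polynomial of `s·y` over a field is the minimal polynomial of `y` with roots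
scaled by `s ≠ 0`. -/
theorem partD_minpoly_algebraMap_mul {K F : Type*} [Field K] [Field F] [Algebra K F] {s : K}
    (hs : s ≠ 0) {y : F} (hy : IsIntegral K y) :
    minpoly K (algebraMap K F s * y) = (minpoly K y).scaleRoots s := by
  symm
  refine minpoly.unique K _ ((monic_scaleRoots_iff s).mpr (minpoly.monic hy))
    (scaleRoots_aeval_eq_zero (minpoly.aeval K y)) ?_
  intro q hq hq0
  rw [degree_scaleRoots]
  have h1 : aeval (algebraMap K F s⁻¹ * (algebraMap K F s * y)) (q.scaleRoots s⁻¹) = 0 :=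
    scaleRoots_aeval_eq_zero hq0
  have h2 : algebraMap K F s⁻¹ * (algebraMap K F s * y) = y := by
    rw [← mul_assoc, ← map_mul, inv_mul_cancel₀ hs, map_one, one_mul]
  rw [h2] at h1
  have h3 := minpoly.min K y ((monic_scaleRoots_iff s⁻¹).mpr hq) h1
  rwa [degree_scaleRoots] at h3

/-- **Part D, integrality from coprime multiples** (the "minpoly lemma"): over an integrally
closed domain `R`, if `ℓ·y` and `g·y` are integral over `R` with `ℓ` prime and `ℓ ∤ g`, then `y`
is integral over `R`. -/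
theorem partD_isIntegral_of_mul {R F : Type*} [CommRing R] [IsDomain R] [IsIntegrallyClosed R]
    [Field F] [Algebra R F] [FaithfulSMul R F] {ℓ g : R} (hℓ : Prime ℓ) (hg : ¬ ℓ ∣ g) {y : F}
    (h1 : IsIntegral R (algebraMap R F ℓ * y)) (h2 : IsIntegral R (algebraMap R F g * y)) :
    IsIntegral R y := by
  classical
  let _ : Algebra (FractionRing R) F := FractionRing.liftAlgebra R F
  have : IsScalarTower R (FractionRing R) F := FractionRing.isScalarTower_liftAlgebra R F
  have hinj : Function.Injective (algebraMap R (FractionRing R)) :=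
    IsFractionRing.injective R (FractionRing R)
  have hℓ0 : algebraMap R (FractionRing R) ℓ ≠ 0 := by
    intro h
    exact hℓ.ne_zero (hinj (by rw [h, map_zero]))
  have hg0 : algebraMap R (FractionRing R) g ≠ 0 := by
    intro h
    exact hg ((hinj (by rw [h, map_zero]) : g = 0) ▸ dvd_zero ℓ)
  have hy1 : IsIntegral (FractionRing R) (algebraMap R F ℓ * y) := h1.tower_top
  have hy : IsIntegral (FractionRing R) y := by
    have h3 : IsIntegral (FractionRing R)
        (algebraMap (FractionRing R) F (algebraMap R (FractionRing R) ℓ)⁻¹) := isIntegral_algebraMap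
    have h4 := h3.mul hy1
    have h5 : algebraMap (FractionRing R) F (algebraMap R (FractionRing R) ℓ)⁻¹ *
        (algebraMap R F ℓ * y) = y := by
      rw [IsScalarTower.algebraMap_apply R (FractionRing R) F, ← mul_assoc, ← map_mul,
        inv_mul_cancel₀ hℓ0, map_one, one_mul]
    rwa [h5] at h4
  have key : ∀ s : R, algebraMap R (FractionRing R) s ≠ 0 → IsIntegral R (algebraMap R F s * y) →
      ∀ i : ℕ, (minpoly (FractionRing R) y).coeff i *
        algebraMap R (FractionRing R) s ^ ((minpoly (FractionRing R) y).natDegree - i)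
          ∈ (algebraMap R (FractionRing R)).range := by
    intro s hs hsy i
    have e1 : minpoly (FractionRing R) (algebraMap R F s * y)
        = (minpoly (FractionRing R) y).scaleRoots (algebraMap R (FractionRing R) s) := by
      rw [IsScalarTower.algebraMap_apply R (FractionRing R) F]
      exact partD_minpoly_algebraMap_mul hs hy
    have e2 : minpoly (FractionRing R) (algebraMap R F s * y)
        = (minpoly R (algebraMap R F s * y)).map (algebraMap R (FractionRing R)) :=
      minpoly.isIntegrallyClosed_eq_field_fractions' (FractionRing R) hsy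
    rw [← coeff_scaleRoots, ← e1, e2, coeff_map]
    exact ⟨_, rfl⟩
  have hc : ∀ i : ℕ, (minpoly (FractionRing R) y).coeff i ∈ Set.range (algebraMap R (FractionRing R)) :=
    fun i => partD_mem_range_of_mul_pow hℓ hg _ _ _ (key ℓ hℓ0 h1 i) (key g hg0 h2 i)
  have hlift : minpoly (FractionRing R) y ∈ Polynomial.lifts (algebraMap R (FractionRing R)) :=
    (Polynomial.lifts_iff_coeff_lifts _).mpr hc
  obtain ⟨Q, hQ, -, hmonic⟩ :=
    Polynomial.lifts_and_natDegree_eq_and_monic hlift (minpoly.monic hy)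
  refine ⟨Q, hmonic, ?_⟩
  have h6 := minpoly.aeval (FractionRing R) y
  rw [← hQ, aeval_map_algebraMap] at h6
  exact h6

end Integrality

end Fermat.Agent.S28
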