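import Fermat.Agent.S28.ChartInt
import Fermat.Agent.S28.RedCore
import Fermat.Agent.S28.RedTensor

/-!
S28, Part D-Apply (helper48), half Y3: assembly of the abstract reduction lemma (D1), the tensor
step (D2) and the chart inputs.
-/

set_option autoImplicit false
set_option linter.unusedSectionVars false

open ModularCurve ModularCurve.IgusaScheme TensorProduct

namespace Fermat.Agent.S28

noncomputable section

variable (N : ℕ) [NeZero N] (ℓ : ℕ) [Fact ℓ.Prime]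

/-- Generic chart step: the abstract reduction lemma, instantiated at `chartAlg N ℓ {g}`, with the
kernel rewritten as the principal ideal `(ℓ)`. -/
theorem h48_chart_exists_red (g : ↥(modularFunctionFieldFull N))
    [IsIntegrallyClosed ↥(Algebra.adjoin ↥(GaloisRep.ratLocalizedAt ℓ) {g})]
    [WfDvdMonoid ↥(Algebra.adjoin ↥(GaloisRep.ratLocalizedAt ℓ) {g})]
    (ℓR : ↥(Algebra.adjoin ↥(GaloisRep.ratLocalizedAt ℓ) {g}))
    (hℓR : algebraMap ↥(Algebra.adjoin ↥(GaloisRep.ratLocalizedAt ℓ) {g})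
      ↥(modularFunctionFieldFull N) ℓR = (ℓ : ↥(modularFunctionFieldFull N)))
    (hprime : Prime ℓR)
    (F0 : Subring ↥(modularFunctionFieldFull N))
    (hmem : ∀ a : ↥(Algebra.adjoin ↥(GaloisRep.ratLocalizedAt ℓ) {g}),
      algebraMap ↥(Algebra.adjoin ↥(GaloisRep.ratLocalizedAt ℓ) {g})
        ↥(modularFunctionFieldFull N) a ∈ F0)
    (ρ : F0 →+* LaurentSeries (ZMod ℓ))
    (hρℓ : ρ ⟨algebraMap ↥(Algebra.adjoin ↥(GaloisRep.ratLocalizedAt ℓ) {g})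
      ↥(modularFunctionFieldFull N) ℓR, hmem ℓR⟩ = 0)
    {ι : Type*} [Fintype ι] (b : ι → ↥(modularFunctionFieldFull N)) (hb : ∀ i, b i ∈ F0)
    (hind : ∀ a : ι → ↥(Algebra.adjoin ↥(GaloisRep.ratLocalizedAt ℓ) {g}),
      ∑ i, ρ ⟨algebraMap ↥(Algebra.adjoin ↥(GaloisRep.ratLocalizedAt ℓ) {g})
        ↥(modularFunctionFieldFull N) (a i), hmem (a i)⟩ * ρ ⟨b i, hb i⟩ = 0 → ∀ i, ℓR ∣ a i)
    (hbint : ∀ i, ∃ s : ↥(Algebra.adjoin ↥(GaloisRep.ratLocalizedAt ℓ) {g}), ¬ ℓR ∣ s ∧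
      IsIntegral ↥(Algebra.adjoin ↥(GaloisRep.ratLocalizedAt ℓ) {g})
        (algebraMap ↥(Algebra.adjoin ↥(GaloisRep.ratLocalizedAt ℓ) {g})
          ↥(modularFunctionFieldFull N) s * b i))
    (hcard : ∀ (n : ℕ) (c : Fin n → ↥(modularFunctionFieldFull N)),
      LinearIndependent ↥(Algebra.adjoin ↥(GaloisRep.ratLocalizedAt ℓ) {g}) c →
        n ≤ Fintype.card ι) :
    ∃ φ : ↥(chartAlg N ℓ {g}) →+* LaurentSeries (ZMod ℓ),
      RingHom.ker φ = Ideal.span {((ℓ : ℕ) : ↥(chartAlg N ℓ {g}))} ∧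
      ∀ (x : ↥(chartAlg N ℓ {g})) (hx : (x : ↥(modularFunctionFieldFull N)) ∈ F0),
        φ x = ρ ⟨x, hx⟩ := by
  obtain ⟨φ, hφ1, hφ2⟩ := partD_exists_red hprime F0 hmem ρ hρℓ b hb hind hbint hcard
    ((chartAlg N ℓ {g}).val : ↥(chartAlg N ℓ {g}) →+* ↥(modularFunctionFieldFull N))
    (fun x => ⟨fun ⟨y, hy⟩ => hy ▸ y.2, fun hx => ⟨⟨x, hx⟩, rfl⟩⟩)
  refine ⟨φ, ?_, fun x hx => hφ2 x hx⟩
  ext x
  rw [RingHom.mem_ker, hφ1 x, Ideal.mem_span_singleton']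
  constructor
  · rintro ⟨y, hy⟩
    refine ⟨y, Subtype.ext ?_⟩
    rw [hℓR] at hy
    rw [Subalgebra.coe_mul, SubringClass.coe_natCast, mul_comm]
    exact hy.symm
  · rintro ⟨y, hy⟩
    refine ⟨y, ?_⟩
    rw [hℓR, ← hy]
    show ((y * (ℓ : ↥(chartAlg N ℓ {g})) : ↥(chartAlg N ℓ {g})) : ↥(modularFunctionFieldFull N)) = _
    rw [Subalgebra.coe_mul, SubringClass.coe_natCast, mul_comm]
    rfl

/-- Tensor step for a chart with a reduction map of kernel `(ℓ)`. -/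
theorem h48_isDomain_chart_tensor (g : ↥(modularFunctionFieldFull N))
    (φ : ↥(chartAlg N ℓ {g}) →+* LaurentSeries (ZMod ℓ))
    (hker : RingHom.ker φ = Ideal.span {((ℓ : ℕ) : ↥(chartAlg N ℓ {g}))})
    (K : Type) [Field K] [CharP K ℓ] [Algebra ↥(GaloisRep.ratLocalizedAt ℓ) K] :
    IsDomain (↥(chartAlg N ℓ {g}) ⊗[↥(GaloisRep.ratLocalizedAt ℓ)] K) :=
  partD_isDomain_tensor ℓ K φ hker

/-- The middle chart: any reduction map of the finite chart which does not kill `j` extends to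
`A_mid = A_fin[1/j]`, so `A_mid ⊗ K` is nontrivial. -/
theorem h48_nontrivial_chartAlgMid_tensor
    (φ : ↥(chartAlgFin N ℓ) →+* LaurentSeries (ZMod ℓ)) (hj : φ (jChartFin N ℓ) ≠ 0)
    (K : Type) [Field K] [CharP K ℓ] [Algebra ↥(GaloisRep.ratLocalizedAt ℓ) K] :
    Nontrivial (↥(chartAlgMid N ℓ) ⊗[↥(GaloisRep.ratLocalizedAt ℓ)] K) := by
  let _ : Algebra ↥(chartAlgFin N ℓ) ↥(chartAlgMid N ℓ) := (inclFin N ℓ).toRingHom.toAlgebra
  have : IsLocalization.Away (jChartFin N ℓ) ↥(chartAlgMid N ℓ) := isLocalization_away_inclFin N ℓ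
  exact partD_nontrivial_tensor ℓ K
    (IsLocalization.Away.lift (jChartFin N ℓ) (g := φ) (IsUnit.mk0 _ hj))

/-- **Assembly of Part D** from the chart base data (`F0`, `ρ`, the two chart rings), the family
`b` and the cardinality bound: the three tensor statements needed by the scheme glue. -/
theorem h48_charts_of_base
    (F0 : Subring ↥(modularFunctionFieldFull N)) (ρ : F0 →+* LaurentSeries (ZMod ℓ))
    (hρℓ : ∀ h : (ℓ : ↥(modularFunctionFieldFull N)) ∈ F0, ρ ⟨(ℓ : ↥(modularFunctionFieldFull N)), h⟩ = 0)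
    -- the finite chart ring `ℤ_(ℓ)[j]`
    [IsIntegrallyClosed ↥(Algebra.adjoin ↥(GaloisRep.ratLocalizedAt ℓ) {jFull N})]
    [WfDvdMonoid ↥(Algebra.adjoin ↥(GaloisRep.ratLocalizedAt ℓ) {jFull N})]
    (ℓfin : ↥(Algebra.adjoin ↥(GaloisRep.ratLocalizedAt ℓ) {jFull N}))
    (hℓfin : algebraMap ↥(Algebra.adjoin ↥(GaloisRep.ratLocalizedAt ℓ) {jFull N})
      ↥(modularFunctionFieldFull N) ℓfin = (ℓ : ↥(modularFunctionFieldFull N)))
    (hprime_fin : Prime ℓfin)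
    (hmem_fin : ∀ a : ↥(Algebra.adjoin ↥(GaloisRep.ratLocalizedAt ℓ) {jFull N}),
      algebraMap ↥(Algebra.adjoin ↥(GaloisRep.ratLocalizedAt ℓ) {jFull N})
        ↥(modularFunctionFieldFull N) a ∈ F0)
    -- the chart ring at infinity `ℤ_(ℓ)[j⁻¹]`
    [IsIntegrallyClosed ↥(Algebra.adjoin ↥(GaloisRep.ratLocalizedAt ℓ) {(jFull N)⁻¹})]
    [WfDvdMonoid ↥(Algebra.adjoin ↥(GaloisRep.ratLocalizedAt ℓ) {(jFull N)⁻¹})]
    (ℓinf : ↥(Algebra.adjoin ↥(GaloisRep.ratLocalizedAt ℓ) {(jFull N)⁻¹}))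
    (hℓinf : algebraMap ↥(Algebra.adjoin ↥(GaloisRep.ratLocalizedAt ℓ) {(jFull N)⁻¹})
      ↥(modularFunctionFieldFull N) ℓinf = (ℓ : ↥(modularFunctionFieldFull N)))
    (hprime_inf : Prime ℓinf)
    (hmem_inf : ∀ a : ↥(Algebra.adjoin ↥(GaloisRep.ratLocalizedAt ℓ) {(jFull N)⁻¹}),
      algebraMap ↥(Algebra.adjoin ↥(GaloisRep.ratLocalizedAt ℓ) {(jFull N)⁻¹})
        ↥(modularFunctionFieldFull N) a ∈ F0)
    -- the family
    {ι : Type*} [Fintype ι] (b : ι → ↥(modularFunctionFieldFull N)) (hb : ∀ i, b i ∈ F0)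
    (hbfin : ∀ i, IsIntegral ↥(Algebra.adjoin ↥(GaloisRep.ratLocalizedAt ℓ) {jFull N}) (b i))
    (hind_fin : ∀ a : ι → ↥(Algebra.adjoin ↥(GaloisRep.ratLocalizedAt ℓ) {jFull N}),
      ∑ i, ρ ⟨algebraMap ↥(Algebra.adjoin ↥(GaloisRep.ratLocalizedAt ℓ) {jFull N})
        ↥(modularFunctionFieldFull N) (a i), hmem_fin (a i)⟩ * ρ ⟨b i, hb i⟩ = 0 →
        ∀ i, ℓfin ∣ a i)
    (hind_inf : ∀ a : ι → ↥(Algebra.adjoin ↥(GaloisRep.ratLocalizedAt ℓ) {(jFull N)⁻¹}),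
      ∑ i, ρ ⟨algebraMap ↥(Algebra.adjoin ↥(GaloisRep.ratLocalizedAt ℓ) {(jFull N)⁻¹})
        ↥(modularFunctionFieldFull N) (a i), hmem_inf (a i)⟩ * ρ ⟨b i, hb i⟩ = 0 →
        ∀ i, ℓinf ∣ a i)
    (hcard_fin : ∀ (n : ℕ) (c : Fin n → ↥(modularFunctionFieldFull N)),
      LinearIndependent ↥(Algebra.adjoin ↥(GaloisRep.ratLocalizedAt ℓ) {jFull N}) c →
        n ≤ Fintype.card ι)
    (hcard_inf : ∀ (n : ℕ) (c : Fin n → ↥(modularFunctionFieldFull N)),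
      LinearIndependent ↥(Algebra.adjoin ↥(GaloisRep.ratLocalizedAt ℓ) {(jFull N)⁻¹}) c →
        n ≤ Fintype.card ι)
    (K : Type) [Field K] [CharP K ℓ] [Algebra ↥(GaloisRep.ratLocalizedAt ℓ) K] :
    IsDomain (↥(chartAlgFin N ℓ) ⊗[↥(GaloisRep.ratLocalizedAt ℓ)] K) ∧
    IsDomain (↥(chartAlgInf N ℓ) ⊗[↥(GaloisRep.ratLocalizedAt ℓ)] K) ∧
    Nontrivial (↥(chartAlgMid N ℓ) ⊗[↥(GaloisRep.ratLocalizedAt ℓ)] K) := by
  -- `j` and `j⁻¹` in the chart rings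
  let jR : ↥(Algebra.adjoin ↥(GaloisRep.ratLocalizedAt ℓ) {jFull N}) :=
    ⟨jFull N, Algebra.subset_adjoin rfl⟩
  let tR : ↥(Algebra.adjoin ↥(GaloisRep.ratLocalizedAt ℓ) {(jFull N)⁻¹}) :=
    ⟨(jFull N)⁻¹, Algebra.subset_adjoin rfl⟩
  have hj0 : jFull N ∈ F0 := hmem_fin jR
  have ht0 : (jFull N)⁻¹ ∈ F0 := hmem_inf tR
  have hρtj : ρ ⟨(jFull N)⁻¹, ht0⟩ * ρ ⟨jFull N, hj0⟩ = 1 := by
    rw [← map_mul, ← map_one ρ]
    congr 1
    exact Subtype.ext (inv_mul_cancel₀ (jFull_ne_zero N))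
  have hρj : ρ ⟨jFull N, hj0⟩ ≠ 0 := by
    intro h
    rw [h, mul_zero] at hρtj
    exact zero_ne_one hρtj
  have hρt : ρ ⟨(jFull N)⁻¹, ht0⟩ ≠ 0 := by
    intro h
    rw [h, zero_mul] at hρtj
    exact zero_ne_one hρtj
  have hρℓfin : ρ ⟨algebraMap ↥(Algebra.adjoin ↥(GaloisRep.ratLocalizedAt ℓ) {jFull N})
      ↥(modularFunctionFieldFull N) ℓfin, hmem_fin ℓfin⟩ = 0 := by
    have h := hρℓ (hℓfin ▸ hmem_fin ℓfin)
    rw [← h]
    congr 1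
    exact Subtype.ext hℓfin
  have hρℓinf : ρ ⟨algebraMap ↥(Algebra.adjoin ↥(GaloisRep.ratLocalizedAt ℓ) {(jFull N)⁻¹})
      ↥(modularFunctionFieldFull N) ℓinf, hmem_inf ℓinf⟩ = 0 := by
    have h := hρℓ (hℓinf ▸ hmem_inf ℓinf)
    rw [← h]
    congr 1
    exact Subtype.ext hℓinf
  -- `ℓ ∤ (j⁻¹)^m` in the chart ring at infinity
  have hndvd : ∀ m : ℕ, ¬ ℓinf ∣ tR ^ m := by
    intro m hdvd
    obtain ⟨a, ha⟩ := hprime_inf.dvd_of_dvd_pow hdvd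
    apply hρt
    have h1 : (⟨(jFull N)⁻¹, ht0⟩ : F0) =
        ⟨algebraMap ↥(Algebra.adjoin ↥(GaloisRep.ratLocalizedAt ℓ) {(jFull N)⁻¹})
          ↥(modularFunctionFieldFull N) ℓinf, hmem_inf ℓinf⟩ *
        ⟨algebraMap ↥(Algebra.adjoin ↥(GaloisRep.ratLocalizedAt ℓ) {(jFull N)⁻¹})
          ↥(modularFunctionFieldFull N) a, hmem_inf a⟩ := by
      apply Subtype.ext
      show (jFull N)⁻¹ = _ * _
      rw [← map_mul, ← ha]
      rfl
    rw [h1, map_mul, hρℓinf, zero_mul]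
  -- the two reductions
  obtain ⟨φfin, hkerfin, hφfin⟩ := h48_chart_exists_red N ℓ (jFull N) ℓfin hℓfin hprime_fin F0
    hmem_fin ρ hρℓfin b hb hind_fin
    (fun i => ⟨1, hprime_fin.not_dvd_one, by rw [map_one, one_mul]; exact hbfin i⟩) hcard_fin
  obtain ⟨φinf, hkerinf, -⟩ := h48_chart_exists_red N ℓ (jFull N)⁻¹ ℓinf hℓinf hprime_inf F0
    hmem_inf ρ hρℓinf b hb hind_inf
    (fun i => by
      obtain ⟨m, hm⟩ := partD_int_pow_mul_mem_chartAlgInf N ℓ (x := b i) (hbfin i)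
      refine ⟨tR ^ m, hndvd m, ?_⟩
      rw [map_pow]
      exact hm) hcard_inf
  refine ⟨h48_isDomain_chart_tensor N ℓ (jFull N) φfin hkerfin K,
    h48_isDomain_chart_tensor N ℓ (jFull N)⁻¹ φinf hkerinf K,
    h48_nontrivial_chartAlgMid_tensor N ℓ φfin ?_ K⟩
  rw [hφfin (jChartFin N ℓ) hj0]
  exact hρj

end

end Fermat.Agent.S28
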