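import Fermat.Agent.S28.ChartBase
import Fermat.Agent.S28.ChartAsm
import Fermat.Agent.S28.ChartCard
import Fermat.Agent.S28.DegreeBound
import Fermat.Agent.S28.JdIntegral
import Fermat.Agent.S28.ModEq

/-!
S28, Part D-Apply (helper63): instantiation of helper48's `h48_charts_of_base` with the chart base
data of `ChartBase.lean`, helper38's `ChartInt.lean` and helper19's `ChartCard.lean`.
`h63_charts` gives the three chart statements from the Part C independence statement (`hC`) and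
the integrality of the `J(q^d)` (`hB1`), both as explicit hypotheses.
-/

set_option autoImplicit false

open ModularCurve ModularCurve.IgusaScheme TensorProduct IntermediateField

namespace Fermat.Agent.S28

noncomputable section

/-- All three chart statements, from Part C (hypothesis `hC`) and B1 (hypothesis `hB1`). -/
theorem h63_charts (N : ℕ) [NeZero N] (ℓ : ℕ) [Fact ℓ.Prime]
    (hC : ∃ b : Fin (dedekindPsi N) → MvPolynomial N.divisors ℤ,
      LinearIndependent (IntermediateField.adjoin (ZMod ℓ) {jqModC (ZMod ℓ)})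
        (fun i => MvPolynomial.eval₂ (Int.castRingHom (LaurentSeries (ZMod ℓ)))
          (fun d : N.divisors => JdC (ZMod ℓ) d.1) (b i)))
    (hB1 : ∀ d : ℕ, d ≠ 0 →
      ∃ P : Polynomial (Polynomial ℤ), P.Monic ∧ P.eval₂ (evJ ℤ) (JdC ℤ d) = 0)
    (K : Type) [Field K] [CharP K ℓ] [Algebra ↥(GaloisRep.ratLocalizedAt ℓ) K] :
    IsDomain (↥(chartAlgFin N ℓ) ⊗[↥(GaloisRep.ratLocalizedAt ℓ)] K) ∧
    IsDomain (↥(chartAlgInf N ℓ) ⊗[↥(GaloisRep.ratLocalizedAt ℓ)] K) ∧
    Nontrivial (↥(chartAlgMid N ℓ) ⊗[↥(GaloisRep.ratLocalizedAt ℓ)] K) := by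
  obtain ⟨bC, hbC⟩ := hC
  exact h48_charts_of_base N ℓ (h63_F0 N ℓ) (h63_rho N ℓ)
    (fun h => h63_rho_eq_zero_of_coe_eq_natCast N ℓ ⟨_, h⟩
      (map_natCast (algebraMap ↥(modularFunctionFieldFull N) (LaurentSeries ℚ)) ℓ))
    ((ℓ : ℕ) : ↥(Algebra.adjoin ↥(GaloisRep.ratLocalizedAt ℓ) {jFull N})) (map_natCast _ _)
    (h63_fin_prime N ℓ) (h63_fin_hmem N ℓ)
    ((ℓ : ℕ) : ↥(Algebra.adjoin ↥(GaloisRep.ratLocalizedAt ℓ) {(jFull N)⁻¹})) (map_natCast _ _)
    (h63_inf_prime N ℓ) (h63_inf_hmem N ℓ)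
    (fun i => h63_bF N (bC i)) (fun i => h63_bF_mem_F0 N ℓ (bC i))
    (fun i => partD_int_eval_fin N ℓ hB1 (bC i) _ (h63_coe_bF N (bC i)))
    (h63_fin_hind N ℓ bC hbC) (h63_inf_hind N ℓ bC hbC)
    (fun n c hc => by
      rw [Fintype.card_fin]
      exact partD_hcard N ℓ (card_le_dedekindPsi N) (jFull N) (Or.inl rfl) n c hc)
    (fun n c hc => by
      rw [Fintype.card_fin]
      exact partD_hcard N ℓ (card_le_dedekindPsi N) (jFull N)⁻¹ (Or.inr rfl) n c hc)
    K

end

end Fermat.Agent.S28
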