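/-
S28 Part E (scheme glue): the base change of the Igusa scheme along `ℤℓ → K` is integral
as soon as the two chart algebras stay domains after `⊗ K` and the overlap stays nonempty.
-/
import Mathlib
import Fermat.Prelude.Def_ModularCurve_IgusaScheme

set_option autoImplicit false

noncomputable section

open CategoryTheory CategoryTheory.Limits AlgebraicGeometry TensorProduct
open ModularCurve ModularCurve.IgusaScheme

namespace Fermat.Agent.S28

/-- Two irreducible opens that meet and cover the space: the space is (pre)irreducible. -/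
theorem partE_isPreirreducible_univ {X : Type*} [TopologicalSpace X] {U V : Set X}
    (hU : IsOpen U) (hV : IsOpen V) (hUi : IsPreirreducible U) (hVi : IsPreirreducible V)
    (hUV : (U ∩ V).Nonempty) (hcov : ∀ x, x ∈ U ∨ x ∈ V) :
    IsPreirreducible (Set.univ : Set X) := by
  have key : ∀ W : Set X, IsOpen W → W.Nonempty → (U ∩ (V ∩ W)).Nonempty := by
    intro W hW ⟨x, hx⟩
    obtain ⟨z, hzU, hzV⟩ := hUV
    rcases hcov x with hxU | hxV
    · obtain ⟨y, hyU, hyV, hyW⟩ := hUi V W hV hW ⟨z, hzU, hzV⟩ ⟨x, hxU, hx⟩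
      exact ⟨y, hyU, hyV, hyW⟩
    · obtain ⟨y, hyV, hyU, hyW⟩ := hVi U W hU hW ⟨z, hzV, hzU⟩ ⟨x, hxV, hx⟩
      exact ⟨y, hyU, hyV, hyW⟩
  intro W₁ W₂ h₁ h₂ ⟨x, _, hx⟩ ⟨y, _, hy⟩
  obtain ⟨a, haU, _, haW⟩ := key W₁ h₁ ⟨x, hx⟩
  obtain ⟨b, hbU, _, hbW⟩ := key W₂ h₂ ⟨y, hy⟩
  obtain ⟨c, _, hc⟩ := hUi W₁ W₂ h₁ h₂ ⟨a, haU, haW⟩ ⟨b, hbU, hbW⟩
  exact ⟨c, Set.mem_univ _, hc⟩

/-- An affine chart of a fibre product over `Spec R` is integral when the tensor product
is a domain. -/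
theorem partE_isIntegral_pullback_of_eq {R : Type} [CommRing R] (A : Type) [CommRing A]
    [Algebra R A] (K : Type) [CommRing K] [Algebra R K]
    {f : Spec (CommRingCat.of A) ⟶ Spec (CommRingCat.of R)}
    (hf : f = Spec.map (CommRingCat.ofHom (algebraMap R A)))
    (hdom : IsDomain (A ⊗[R] K)) :
    IsIntegral (pullback f (Spec.map (CommRingCat.ofHom (algebraMap R K)))) := by
  subst hf
  have : IsDomain ↑(CommRingCat.of (A ⊗[R] K)) := hdom
  exact IsIntegral.of_isIso (pullbackSpecIso R A K).inv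

/-- An affine chart of a fibre product over `Spec R` is nonempty when the tensor product
is nontrivial. -/
theorem partE_nonempty_pullback_of_eq {R : Type} [CommRing R] (A : Type) [CommRing A]
    [Algebra R A] (K : Type) [CommRing K] [Algebra R K]
    {f : Spec (CommRingCat.of A) ⟶ Spec (CommRingCat.of R)}
    (hf : f = Spec.map (CommRingCat.ofHom (algebraMap R A)))
    (hnt : Nontrivial (A ⊗[R] K)) :
    Nonempty ↥(pullback f (Spec.map (CommRingCat.ofHom (algebraMap R K)))) := by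
  subst hf
  have : Nonempty ↥(Spec (CommRingCat.of (A ⊗[R] K))) :=
    inferInstanceAs (Nonempty (PrimeSpectrum (A ⊗[R] K)))
  exact Nonempty.map (pullbackSpecIso R A K).inv inferInstance

set_option backward.isDefEq.respectTransparency false in
/-- Base change of two maps `a`, `b` into `X` that agree on a common source `M`:
if the base change of `M` is nonempty, the ranges of the two base-changed maps meet. -/
theorem partE_range_inter_nonempty {X Y S A B M : Scheme.{0}} (f : X ⟶ S) (g : Y ⟶ S)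
    (a : A ⟶ X) (b : B ⟶ X) (u : M ⟶ A) (v : M ⟶ B) (huv : u ≫ a = v ≫ b)
    (φ : M ⟶ S) (hφ : φ = u ≫ a ≫ f) (hne : Nonempty ↥(pullback φ g)) :
    (Set.range (pullback.map (a ≫ f) g f g a (𝟙 Y) (𝟙 S) (by simp) (by simp)) ∩
      Set.range (pullback.map (b ≫ f) g f g b (𝟙 Y) (𝟙 S) (by simp) (by simp))).Nonempty := by
  obtain ⟨y⟩ := hne
  let mL : pullback φ g ⟶ pullback (a ≫ f) g :=
    pullback.map φ g (a ≫ f) g u (𝟙 Y) (𝟙 S) (by simp [hφ]) (by simp)
  let mR : pullback φ g ⟶ pullback (b ≫ f) g :=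
    pullback.map φ g (b ≫ f) g v (𝟙 Y) (𝟙 S) (by simp [hφ, reassoc_of% huv]) (by simp)
  have hLR : mL ≫ pullback.map (a ≫ f) g f g a (𝟙 Y) (𝟙 S) (by simp) (by simp) =
      mR ≫ pullback.map (b ≫ f) g f g b (𝟙 Y) (𝟙 S) (by simp) (by simp) := by
    apply pullback.hom_ext <;> simp [mL, mR, huv]
  refine ⟨(mL ≫ pullback.map (a ≫ f) g f g a (𝟙 Y) (𝟙 S) (by simp) (by simp)) y,
    ⟨mL y, by simp⟩, ⟨mR y, ?_⟩⟩
  rw [hLR]
  simp

/-- If `M = A[1/x]` and `A ⊗ K` is a domain in which `x ⊗ 1 ≠ 0`, then `M ⊗ K` is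
nontrivial (it maps to the fraction field of `A ⊗ K`). -/
theorem partE_nontrivial_tensor_of_away {R A M K : Type} [CommRing R] [CommRing A] [CommRing M]
    [CommRing K] [Algebra R A] [Algebra R M] [Algebra R K] (i : A →ₐ[R] M) (x : A)
    (hloc : letI := i.toRingHom.toAlgebra; IsLocalization.Away x M)
    (hdom : IsDomain (A ⊗[R] K)) (hx : x ⊗ₜ[R] (1 : K) ≠ 0) : Nontrivial (M ⊗[R] K) := by
  let _ := i.toRingHom.toAlgebra
  have hloc' : IsLocalization.Away x M := hloc
  let g : A →ₐ[R] FractionRing (A ⊗[R] K) :=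
    (IsScalarTower.toAlgHom R (A ⊗[R] K) (FractionRing (A ⊗[R] K))).comp
      Algebra.TensorProduct.includeLeft
  have hgj : IsUnit (g.toRingHom x) := by
    refine IsUnit.mk0 _ ?_
    change algebraMap (A ⊗[R] K) (FractionRing (A ⊗[R] K)) (x ⊗ₜ 1) ≠ 0
    exact (map_ne_zero_iff _ (IsFractionRing.injective (A ⊗[R] K) _)).mpr hx
  let φ : M →+* FractionRing (A ⊗[R] K) := IsLocalization.Away.lift x hgj
  have hφ : ∀ a, φ (i a) = g a := fun a => IsLocalization.Away.lift_eq x hgj a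
  let φ' : M →ₐ[R] FractionRing (A ⊗[R] K) :=
    { φ with
      commutes' := fun r => by
        have h1 : algebraMap R M r = i (algebraMap R A r) := (i.commutes r).symm
        change φ (algebraMap R M r) = _
        rw [h1, hφ]
        exact g.commutes r }
  let ψ : K →ₐ[R] FractionRing (A ⊗[R] K) :=
    (IsScalarTower.toAlgHom R (A ⊗[R] K) (FractionRing (A ⊗[R] K))).comp
      Algebra.TensorProduct.includeRight
  exact (Algebra.TensorProduct.productMap φ' ψ).toRingHom.domain_nontrivial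

variable (N : ℕ) [NeZero N] (ℓ : ℕ) [Fact ℓ.Prime]

set_option quotPrecheck false in
local notation "ℤℓ" => ↥(GaloisRep.ratLocalizedAt ℓ)

/-- The two charts of the Igusa scheme, as a family. -/
def partE_X : WalkingPair → Scheme.{0}
  | .left => XFin N ℓ
  | .right => XInf N ℓ

/-- The two chart inclusions, as a family. -/
def partE_ι : (i : WalkingPair) → (partE_X N ℓ i ⟶ ModularCurve.IgusaScheme N ℓ)
  | .left => ιFin N ℓ
  | .right => ιInf N ℓ

instance partE_isOpenImmersion_ι (i : WalkingPair) : IsOpenImmersion (partE_ι N ℓ i) := by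
  cases i
  · exact isOpenImmersion_ιFin N ℓ
  · exact isOpenImmersion_ιInf N ℓ

/-- The two-chart open cover of the Igusa scheme. -/
def partE_cover : (ModularCurve.IgusaScheme N ℓ).OpenCover :=
  Scheme.Cover.mkOfCovers WalkingPair (partE_X N ℓ) (partE_ι N ℓ)
    (by
      intro x
      rcases mem_range_ιFin_or_mem_range_ιInf N ℓ x with ⟨y, hy⟩ | ⟨y, hy⟩
      · exact ⟨.left, y, hy⟩
      · exact ⟨.right, y, hy⟩)

/-- **Part E**: the base change of the Igusa scheme is integral, given that the two chart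
algebras stay domains after `⊗ K` and the overlap algebra stays nontrivial. -/
theorem isIntegral_pullback_igusaTo (K : Type) [Field K] [Algebra ℤℓ K]
    (hFin : IsDomain (↥(chartAlgFin N ℓ) ⊗[ℤℓ] K))
    (hInf : IsDomain (↥(chartAlgInf N ℓ) ⊗[ℤℓ] K))
    (hMid : Nontrivial (↥(chartAlgMid N ℓ) ⊗[ℤℓ] K)) :
    IsIntegral ↑(pullback (igusaTo N ℓ) (Spec.map (CommRingCat.ofHom (algebraMap ℤℓ K)))) := by
  set g := Spec.map (CommRingCat.ofHom (algebraMap ℤℓ K)) with hg
  let 𝒱 := Scheme.Pullback.openCoverOfLeft (partE_cover N ℓ) (igusaTo N ℓ) g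
  have hL : IsIntegral (𝒱.X .left) :=
    partE_isIntegral_pullback_of_eq _ K (ιFin_igusaTo N ℓ) hFin
  have hR : IsIntegral (𝒱.X .right) :=
    partE_isIntegral_pullback_of_eq _ K (ιInf_igusaTo N ℓ) hInf
  have hred : ∀ i, IsReduced (𝒱.X i) := by
    rintro (_ | _) <;> infer_instance
  have hP : IsReduced (pullback (igusaTo N ℓ) g) := IsReduced.of_openCover _ 𝒱
  -- the overlap chart
  have hw : (fFin N ℓ ≫ ιFin N ℓ) ≫ igusaTo N ℓ =
      Spec.map (CommRingCat.ofHom (algebraMap ℤℓ ↥(chartAlgMid N ℓ))) := by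
    rw [Category.assoc, ιFin_igusaTo, ← Spec.map_comp, ← CommRingCat.ofHom_comp]
    rfl
  have hM : Nonempty ↥(pullback ((fFin N ℓ ≫ ιFin N ℓ) ≫ igusaTo N ℓ) g) :=
    partE_nonempty_pullback_of_eq _ K hw hMid
  have oL : IsOpenImmersion (𝒱.f .left) := 𝒱.map_prop _
  have oR : IsOpenImmersion (𝒱.f .right) := 𝒱.map_prop _
  have hUV : (Set.range (𝒱.f .left) ∩ Set.range (𝒱.f .right)).Nonempty :=
    partE_range_inter_nonempty (igusaTo N ℓ) g (ιFin N ℓ) (ιInf N ℓ) (fFin N ℓ) (fInf N ℓ)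
      (glue_condition N ℓ) _ (Category.assoc _ _ _) hM
  have hcov : ∀ x, x ∈ Set.range (𝒱.f .left) ∨ x ∈ Set.range (𝒱.f .right) := by
    intro x
    obtain ⟨i, z, rfl⟩ := 𝒱.exists_eq x
    rcases i with _ | _
    · exact Or.inl ⟨z, rfl⟩
    · exact Or.inr ⟨z, rfl⟩
  have hirr : ∀ i, IsPreirreducible (Set.range (𝒱.f i)) := by
    intro i
    have : IrreducibleSpace ↥(𝒱.X i) := by rcases i with _ | _ <;> infer_instance
    rw [← Set.image_univ]
    exact ((IrreducibleSpace.isIrreducible_univ _).image _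
      (𝒱.f i).continuous.continuousOn).isPreirreducible
  have : IrreducibleSpace ↥(pullback (igusaTo N ℓ) g) :=
    { isPreirreducible_univ := partE_isPreirreducible_univ
        (𝒱.f .left).isOpenEmbedding.isOpen_range (𝒱.f .right).isOpenEmbedding.isOpen_range
        (hirr _) (hirr _) hUV hcov
      toNonempty := ⟨hUV.some⟩ }
  exact isIntegral_of_irreducibleSpace_of_isReduced _

/-- The overlap algebra stays nontrivial after `⊗ K` as soon as `A_fin ⊗ K` is a domain in
which `j ⊗ 1` is nonzero (`A_mid = A_fin[1/j]`). -/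
theorem nontrivial_chartAlgMid_tensor_of_j_ne_zero (K : Type) [Field K] [Algebra ℤℓ K]
    (hFin : IsDomain (↥(chartAlgFin N ℓ) ⊗[ℤℓ] K))
    (hj : (jChartFin N ℓ) ⊗ₜ[ℤℓ] (1 : K) ≠ 0) :
    Nontrivial (↥(chartAlgMid N ℓ) ⊗[ℤℓ] K) :=
  partE_nontrivial_tensor_of_away (inclFin N ℓ) (jChartFin N ℓ)
    (isLocalization_away_inclFin N ℓ) hFin hj

/-- Part E in the form: two domains and `j ⊗ 1 ≠ 0`. -/
theorem isIntegral_pullback_igusaTo_of_j_ne_zero (K : Type) [Field K] [Algebra ℤℓ K]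
    (hFin : IsDomain (↥(chartAlgFin N ℓ) ⊗[ℤℓ] K))
    (hInf : IsDomain (↥(chartAlgInf N ℓ) ⊗[ℤℓ] K))
    (hj : (jChartFin N ℓ) ⊗ₜ[ℤℓ] (1 : K) ≠ 0) :
    IsIntegral ↑(pullback (igusaTo N ℓ) (Spec.map (CommRingCat.ofHom (algebraMap ℤℓ K)))) :=
  isIntegral_pullback_igusaTo N ℓ K hFin hInf
    (nontrivial_chartAlgMid_tensor_of_j_ne_zero N ℓ K hFin hj)

end Fermat.Agent.S28
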