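import Fermat.Agent.S28.Defs
import Fermat.Agent.S28.CDefs
import Fermat.Agent.Lib.Gamma0Cosets

/-!
# S28, Part C: Step B and the final induction (helper90)

* `partC_stepB_natDegree`: `J = c q⁻¹ + …` has `p` distinct conjugates `J(ζ^b q)` over the
  fixed field of the twist `q ↦ ζ q`.
* `partC_igusa_of_steps`: `ψ(N) ≤ [k(J(q^d) : d ∣ N) : k(J)]` from (P1') and Step A.
-/

set_option autoImplicit false

open ModularCurve Polynomial IntermediateField

namespace Fermat.Agent.S28

section General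

variable {k : Type*} [Field k] {E : Type*} [Field E] [Algebra k E]

/-- If every nonzero polynomial with coefficients in `A` killing `x` has degree `≥ n`, then
`[A(x) : A] ≥ n`. -/
theorem partC_asm_le_relrank (A : IntermediateField k E) (x : E) (n : ℕ)
    (h : ∀ g : Polynomial E, g ≠ 0 → (∀ i, g.coeff i ∈ A) → g.eval x = 0 → n ≤ g.natDegree) :
    (n : Cardinal) ≤ relrank A (A ⊔ k⟮x⟯) := by
  have hle : A ≤ A ⊔ k⟮x⟯ := le_sup_left
  have hx : x ∈ A ⊔ k⟮x⟯ := (le_sup_right : k⟮x⟯ ≤ A ⊔ k⟮x⟯) (mem_adjoin_simple_self k x)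
  rw [relrank_eq_rank_of_le hle]
  let v : Fin n → ↥(extendScalars hle) := fun i => ⟨x ^ (i : ℕ), pow_mem hx _⟩
  have hv : LinearIndependent ↥A v := by
    rw [Fintype.linearIndependent_iff]
    intro c hc
    have hc' : ∑ i : Fin n, (c i : E) * x ^ (i : ℕ) = 0 := by
      have := congrArg (fun y : ↥(extendScalars hle) => (y : E)) hc
      simpa [v, Algebra.smul_def] using this
    set g : Polynomial E := ∑ i : Fin n, Polynomial.C (c i : E) * Polynomial.X ^ (i : ℕ) with hg
    have hcoeff : ∀ j, g.coeff j = if hj : j < n then (c ⟨j, hj⟩ : E) else 0 := by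
      intro j
      rw [hg, Polynomial.finsetSum_coeff]
      simp only [Polynomial.coeff_C_mul_X_pow]
      split_ifs with hj
      · rw [Finset.sum_eq_single (⟨j, hj⟩ : Fin n)]
        · simp
        · intro b _ hb
          rw [if_neg]
          intro h'
          exact hb (Fin.ext h'.symm)
        · intro h'
          exact absurd (Finset.mem_univ _) h'
      · refine Finset.sum_eq_zero fun b _ => ?_
        rw [if_neg]
        intro h'
        exact hj (h' ▸ b.2)
    have hgeval : g.eval x = 0 := by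
      rw [hg, Polynomial.eval_finsetSum]
      simpa using hc'
    have hg0 : g = 0 := by
      by_contra hne
      have h1 := h g hne (fun i => by
        rw [hcoeff]
        split_ifs
        · exact (c _).2
        · exact zero_mem _) hgeval
      have h2 : g.degree < n := Polynomial.degree_sum_fin_lt _
      have h3 : g.natDegree < n := (Polynomial.natDegree_lt_iff_degree_lt hne).mpr h2
      omega
    intro i
    have := hcoeff i
    rw [hg0, Polynomial.coeff_zero, dif_pos i.2] at this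
    exact Subtype.ext this.symm
  have := hv.cardinal_lift_le_rank
  simpa using this

/-- If `x` is a root of a monic polynomial of degree `d` over `A`, then `[A(x) : A] ≤ d`. -/
theorem partC_asm_relrank_le (A : IntermediateField k E) (x : E) (g : Polynomial ↥A)
    (hg : g.Monic) (hx : Polynomial.aeval x g = 0) :
    relrank A (A ⊔ k⟮x⟯) ≤ (g.natDegree : Cardinal) := by
  have hle : A ≤ A ⊔ k⟮x⟯ := le_sup_left
  have hxm : x ∈ A ⊔ k⟮x⟯ := (le_sup_right : k⟮x⟯ ≤ A ⊔ k⟮x⟯) (mem_adjoin_simple_self k x)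
  have hint : IsIntegral ↥A x := ⟨g, hg, hx⟩
  have heq : extendScalars hle = IntermediateField.adjoin ↥A {x} := by
    apply le_antisymm
    · intro y hy
      have hy' : y ∈ A ⊔ k⟮x⟯ := hy
      have hsup : A ⊔ k⟮x⟯ ≤ (IntermediateField.adjoin ↥A {x}).restrictScalars k := by
        refine sup_le ?_ ?_
        · intro a ha
          exact (IntermediateField.adjoin ↥A {x}).algebraMap_mem ⟨a, ha⟩
        · rw [adjoin_le_iff]
          intro z hz
          rw [Set.mem_singleton_iff] at hz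
          subst hz
          exact mem_adjoin_simple_self ↥A z
      exact hsup hy'
    · rw [adjoin_le_iff]
      intro z hz
      rw [Set.mem_singleton_iff] at hz
      subst hz
      exact hxm
  rw [relrank_eq_rank_of_le hle, heq]
  have : FiniteDimensional ↥A ↥(IntermediateField.adjoin ↥A {x}) :=
    IntermediateField.adjoin.finiteDimensional hint
  rw [← Module.finrank_eq_rank, IntermediateField.adjoin.finrank hint]
  exact_mod_cast Polynomial.natDegree_le_natDegree (minpoly.min ↥A x hg hx)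

theorem partC_asm_relrank_mono_right {A B C : IntermediateField k E} (h1 : A ≤ B) (h2 : B ≤ C) :
    relrank A B ≤ relrank A C := by
  rw [← relrank_mul_relrank h1 h2]
  refine Cardinal.le_mul_right ?_
  rw [relrank_eq_rank_of_le h2]
  exact (rank_pos).ne'

end General

section StepB

variable {k : Type*} [Field k]

/-- `J = c q⁻¹ + …` (`c ≠ 0`) has `p` distinct conjugates `J(ζ^b q)` over the fixed field of
the twist `q ↦ ζ q`, `ζ` a primitive `p`-th root of unity: a nonzero polynomial with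
twist-invariant coefficients vanishing at `J` has degree at least `p`. -/
theorem partC_stepB_natDegree (p : ℕ) [NeZero p] (ζ : kˣ) (hζ : IsPrimitiveRoot ζ p)
    (J : LaurentSeries k) (hJ : J.coeff (-1) ≠ 0) (f : Polynomial (LaurentSeries k))
    (hf : f ≠ 0) (hfix : ∀ n, twist ζ (f.coeff n) = f.coeff n) (hroot : f.eval J = 0) :
    p ≤ f.natDegree := by
  classical
  have hfixb : ∀ b : ℕ, f.map (twist (ζ ^ b)) = f := by
    intro b
    induction b with
    | zero =>
      ext n : 1
      rw [Polynomial.coeff_map, pow_zero, twist_one]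
    | succ b ih =>
      ext n : 1
      rw [Polynomial.coeff_map, pow_succ, ← twist_twist, hfix]
      have := congrArg (fun g : Polynomial (LaurentSeries k) => g.coeff n) ih
      simpa [Polynomial.coeff_map] using this
  have hrootb : ∀ b : ℕ, f.eval (twist (ζ ^ b) J) = 0 := by
    intro b
    have h1 : (f.map (twist (ζ ^ b))).eval (twist (ζ ^ b) J) = twist (ζ ^ b) (f.eval J) := by
      rw [Polynomial.eval_map, Polynomial.eval₂_at_apply]
    rw [hfixb b, hroot, map_zero] at h1
    exact h1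
  have hinj : Set.InjOn (fun b : ℕ => twist (ζ ^ b) J) (Finset.range p : Set ℕ) := by
    intro b hb c hc hbc
    have hb' : b < p := Finset.mem_range.mp hb
    have hc' : c < p := Finset.mem_range.mp hc
    have h1 := congrArg (fun g : LaurentSeries k => g.coeff (-1)) hbc
    simp only [twist_coeff] at h1
    have h2 : (((ζ ^ b) ^ (-1 : ℤ) : kˣ) : k) = (((ζ ^ c) ^ (-1 : ℤ) : kˣ) : k) :=
      mul_right_cancel₀ hJ h1
    have h3 : (ζ ^ b) ^ (-1 : ℤ) = (ζ ^ c) ^ (-1 : ℤ) := Units.ext h2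
    have h4 : ζ ^ b = ζ ^ c := by
      simpa using h3
    exact hζ.pow_inj hb' hc' h4
  have hcard : ((Finset.range p).image (fun b : ℕ => twist (ζ ^ b) J)).card = p := by
    rw [Finset.card_image_of_injOn hinj, Finset.card_range]
  rw [← hcard]
  apply Polynomial.card_le_degree_of_subset_roots
  intro y hy
  rw [Finset.mem_val, Finset.mem_image] at hy
  obtain ⟨b, _, rfl⟩ := hy
  rw [Polynomial.mem_roots hf]
  exact hrootb b

end StepB

section Assembly

variable {k : Type*} [Field k]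

theorem partC_asm_self_mem (J : LaurentSeries k) (N : ℕ) : J ∈ partC_divSet J N :=
  ⟨1, ⟨one_ne_zero⟩, one_dvd N, (qExpand_one_apply J).symm⟩

theorem partC_asm_divSet_mono (J : LaurentSeries k) {M N : ℕ} (h : M ∣ N) :
    partC_divSet J M ⊆ partC_divSet J N := by
  rintro x ⟨d, hd, hdM, rfl⟩
  exact ⟨d, hd, hdM.trans h, rfl⟩

theorem partC_asm_divSet_one (J : LaurentSeries k) : partC_divSet J 1 = {J} := by
  ext x
  constructor
  · rintro ⟨d, hd, hd1, rfl⟩
    have : d = 1 := Nat.dvd_one.mp hd1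
    subst this
    exact qExpand_one_apply J
  · intro hx
    rw [Set.mem_singleton_iff] at hx
    subst hx
    exact partC_asm_self_mem x 1

theorem partC_asm_qExpand_mem (J : LaurentSeries k) (p : ℕ) [NeZero p] (M : ℕ) :
    qExpand k p J ∈ partC_divSet J (p * M) :=
  ⟨p, inferInstance, dvd_mul_right p M, rfl⟩

theorem partC_asm_image_divSet (J : LaurentSeries k) (p : ℕ) [NeZero p] (M : ℕ) :
    (qExpandAlgHomC k p) '' partC_divSet J M ⊆ partC_divSet J (p * M) := by
  rintro _ ⟨x, ⟨d, hd, hdM, rfl⟩, rfl⟩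
  have := hd
  refine ⟨p * d, ⟨Nat.mul_ne_zero (NeZero.ne p) (NeZero.ne d)⟩, Nat.mul_dvd_mul_left p hdM, ?_⟩
  rw [qExpandAlgHomC_apply]
  exact qExpand_qExpand d p J

/-- `ψ(pM) = (p + 1) ψ(M)` for `p ∤ M`. -/
theorem partC_asm_psi_of_not_dvd {p M : ℕ} (hp : p.Prime) (hM : ¬ p ∣ M) :
    dedekindPsi (p * M) = (p + 1) * dedekindPsi M := by
  have hcop : p.Coprime M := (Nat.Prime.coprime_iff_not_dvd hp).mpr hM
  rw [Fermat.Agent.Lib.G0C.dedekindPsi_mul hcop]
  have := Fermat.Agent.Lib.G0C.dedekindPsi_prime_pow hp (e := 1) one_pos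
  simp only [pow_one, Nat.sub_self, pow_zero] at this
  rw [this]

/-- `ψ(pM) = p ψ(M)` for `p ∣ M`. -/
theorem partC_asm_psi_of_dvd {p M : ℕ} (hp : p.Prime) (hM0 : M ≠ 0) (hM : p ∣ M) :
    dedekindPsi (p * M) = p * dedekindPsi M := by
  obtain ⟨e, M', hM', rfl⟩ := Nat.exists_eq_pow_mul_and_not_dvd hM0 p hp.ne_one
  have he : 0 < e := by
    rcases Nat.eq_zero_or_pos e with h | h
    · subst h
      rw [pow_zero, one_mul] at hM
      exact absurd hM hM'
    · exact h
  have hcop : ∀ n : ℕ, (p ^ n).Coprime M' := fun n =>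
    Nat.Coprime.pow_left n ((Nat.Prime.coprime_iff_not_dvd hp).mpr hM')
  have h1 : p * (p ^ e * M') = p ^ (e + 1) * M' := by ring
  obtain ⟨e', rfl⟩ : ∃ e', e = e' + 1 := ⟨e - 1, by omega⟩
  have h2 : dedekindPsi (p ^ (e' + 1 + 1)) = p ^ (e' + 1 + 1) + p ^ (e' + 1) :=
    Fermat.Agent.Lib.G0C.dedekindPsi_prime_pow hp (Nat.succ_pos _)
  have h3 : dedekindPsi (p ^ (e' + 1)) = p ^ (e' + 1) + p ^ e' :=
    Fermat.Agent.Lib.G0C.dedekindPsi_prime_pow hp (Nat.succ_pos _)
  rw [h1, Fermat.Agent.Lib.G0C.dedekindPsi_mul (hcop (e' + 1 + 1)),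
    Fermat.Agent.Lib.G0C.dedekindPsi_mul (hcop (e' + 1)), h2, h3]
  ring

/-- Inductive step `M → pM` for `p ∤ M` (given (P1') over `L_M`, i.e. `J_p ∉ L_M`):
`[L_{pM} : k(J)] ≥ (p + 1) [L_M : k(J)]`. -/
theorem partC_asm_stepA_rank (J : LaurentSeries k) (p : ℕ) [NeZero p] (M : ℕ)
    (hP1' : ∀ g : Polynomial (LaurentSeries k), g ≠ 0 →
      (∀ n, g.coeff n ∈ IntermediateField.adjoin k (partC_divSet J M)) →
      g.eval (qExpand k p J) = 0 → p + 1 ≤ g.natDegree) :
    relrank k⟮J⟯ (IntermediateField.adjoin k (partC_divSet J M)) * ((p + 1 : ℕ) : Cardinal) ≤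
      relrank k⟮J⟯ (IntermediateField.adjoin k (partC_divSet J (p * M))) := by
  set K : IntermediateField k (LaurentSeries k) := k⟮J⟯ with hK
  set LM : IntermediateField k (LaurentSeries k) :=
    IntermediateField.adjoin k (partC_divSet J M) with hLM
  set LN : IntermediateField k (LaurentSeries k) :=
    IntermediateField.adjoin k (partC_divSet J (p * M)) with hLN
  have hK_LM : K ≤ LM :=
    IntermediateField.adjoin.mono k _ _ (Set.singleton_subset_iff.mpr (partC_asm_self_mem J M))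
  have hLM_LN : LM ≤ LN :=
    IntermediateField.adjoin.mono k _ _ (partC_asm_divSet_mono J (dvd_mul_left M p))
  have hJp : k⟮qExpand k p J⟯ ≤ LN :=
    IntermediateField.adjoin.mono k _ _
      (Set.singleton_subset_iff.mpr (partC_asm_qExpand_mem J p M))
  have h1 : ((p + 1 : ℕ) : Cardinal) ≤ relrank LM (LM ⊔ k⟮qExpand k p J⟯) :=
    partC_asm_le_relrank LM (qExpand k p J) (p + 1) hP1'
  have h2 : relrank K (LM ⊔ k⟮qExpand k p J⟯) ≤ relrank K LN :=
    partC_asm_relrank_mono_right (hK_LM.trans le_sup_left) (sup_le hLM_LN hJp)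
  have h3 : relrank K LM * relrank LM (LM ⊔ k⟮qExpand k p J⟯) =
      relrank K (LM ⊔ k⟮qExpand k p J⟯) := relrank_mul_relrank hK_LM le_sup_left
  calc relrank K LM * ((p + 1 : ℕ) : Cardinal)
      ≤ relrank K LM * relrank LM (LM ⊔ k⟮qExpand k p J⟯) := mul_le_mul_right h1 _
    _ = relrank K (LM ⊔ k⟮qExpand k p J⟯) := h3
    _ ≤ relrank K LN := h2

/-- Inductive step `M → pM` (used for `p ∣ M`): `[L_{pM} : k(J)] ≥ p [L_M : k(J)]`. -/
theorem partC_asm_stepB_rank (J : LaurentSeries k) (hJ : J.coeff (-1) ≠ 0) (p : ℕ) [NeZero p]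
    (M : ℕ) (ζ : kˣ) (hζ : IsPrimitiveRoot ζ p)
    (Φ : Polynomial (Polynomial k)) (hΦm : Φ.Monic) (hΦd : Φ.natDegree = p + 1)
    (hΦ : Φ.eval₂ (aeval (qExpand k p J) : Polynomial k →ₐ[k] LaurentSeries k).toRingHom J = 0)
    (hP1' : ∀ g : Polynomial (LaurentSeries k), g ≠ 0 → (∀ n, g.coeff n ∈ k⟮J⟯) →
      g.eval (qExpand k p J) = 0 → p + 1 ≤ g.natDegree) :
    relrank k⟮J⟯ (IntermediateField.adjoin k (partC_divSet J M)) * ((p : ℕ) : Cardinal) ≤
      relrank k⟮J⟯ (IntermediateField.adjoin k (partC_divSet J (p * M))) := by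
  set K : IntermediateField k (LaurentSeries k) := k⟮J⟯ with hK
  set Kp : IntermediateField k (LaurentSeries k) := k⟮qExpand k p J⟯ with hKp
  set LM : IntermediateField k (LaurentSeries k) :=
    IntermediateField.adjoin k (partC_divSet J M) with hLM
  set LN : IntermediateField k (LaurentSeries k) :=
    IntermediateField.adjoin k (partC_divSet J (p * M)) with hLN
  set S : IntermediateField k (LaurentSeries k) := LM.map (qExpandAlgHomC k p) with hS
  have hK_LM : K ≤ LM :=
    IntermediateField.adjoin.mono k _ _ (Set.singleton_subset_iff.mpr (partC_asm_self_mem J M))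
  have hK_LN : K ≤ LN :=
    IntermediateField.adjoin.mono k _ _
      (Set.singleton_subset_iff.mpr (partC_asm_self_mem J (p * M)))
  have hKp_LN : Kp ≤ LN :=
    IntermediateField.adjoin.mono k _ _
      (Set.singleton_subset_iff.mpr (partC_asm_qExpand_mem J p M))
  have hKp_map : K.map (qExpandAlgHomC k p) = Kp := by
    rw [hK, hKp, IntermediateField.adjoin_map, Set.image_singleton, qExpandAlgHomC_apply]
  have hKp_S : Kp ≤ S := by
    rw [← hKp_map]
    exact IntermediateField.map_mono _ hK_LM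
  have hS_LN : S ≤ LN := by
    rw [hS, hLM, IntermediateField.adjoin_map]
    exact IntermediateField.adjoin.mono k _ _ (partC_asm_image_divSet J p M)
  -- (i) `[k(J, J_p) : k(J)] ≥ p + 1`
  have h1 : ((p + 1 : ℕ) : Cardinal) ≤ relrank K (K ⊔ Kp) :=
    partC_asm_le_relrank K (qExpand k p J) (p + 1) hP1'
  -- (ii) `[k(J, J_p) : k(J_p)] ≤ p + 1`
  have hJpmem : qExpand k p J ∈ Kp := mem_adjoin_simple_self k _
  have h2 : relrank Kp (K ⊔ Kp) ≤ ((p + 1 : ℕ) : Cardinal) := by
    have hcomm : K ⊔ Kp = Kp ⊔ k⟮J⟯ := sup_comm _ _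
    rw [hcomm]
    set f : Polynomial k →+* ↥Kp :=
      (aeval (⟨qExpand k p J, hJpmem⟩ : ↥Kp) : Polynomial k →ₐ[k] ↥Kp).toRingHom with hf
    have hcomp : (algebraMap ↥Kp (LaurentSeries k)).comp f =
        (aeval (qExpand k p J) : Polynomial k →ₐ[k] LaurentSeries k).toRingHom := by
      apply Polynomial.ringHom_ext
      · intro a
        simp [hf]
      · simp [hf]
    have hx : Polynomial.aeval J (Φ.map f) = 0 := by
      rw [Polynomial.aeval_def, Polynomial.eval₂_map, hcomp]
      exact hΦ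
    have := partC_asm_relrank_le Kp J (Φ.map f) (hΦm.map f) hx
    rwa [hΦm.natDegree_map, hΦd] at this
  -- (iii) `[L_N : k(J_p)] ≤ [L_N : k(J)]`
  have hT_LN : K ⊔ Kp ≤ LN := sup_le hK_LN hKp_LN
  have h3 : relrank Kp LN ≤ relrank K LN := by
    rw [← relrank_mul_relrank (le_sup_right : Kp ≤ K ⊔ Kp) hT_LN,
      ← relrank_mul_relrank (le_sup_left : K ≤ K ⊔ Kp) hT_LN]
    exact mul_le_mul_left (h2.trans h1) _
  -- (iv)-(vi)
  have h4 : relrank Kp (S ⊔ k⟮J⟯) ≤ relrank Kp LN :=
    partC_asm_relrank_mono_right (hKp_S.trans le_sup_left) (sup_le hS_LN hK_LN)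
  have h5 : relrank Kp S * relrank S (S ⊔ k⟮J⟯) = relrank Kp (S ⊔ k⟮J⟯) :=
    relrank_mul_relrank hKp_S le_sup_left
  have h6 : relrank Kp S = relrank K LM := by
    rw [← hKp_map, hS]
    exact IntermediateField.relrank_map_map K LM (qExpandAlgHomC k p)
  have h7 : ((p : ℕ) : Cardinal) ≤ relrank S (S ⊔ k⟮J⟯) := by
    refine partC_asm_le_relrank S J p fun g hg hc hr => ?_
    refine partC_stepB_natDegree p ζ hζ J hJ g hg (fun n => ?_) hr
    obtain ⟨y, _, hy⟩ := (IntermediateField.mem_map (S := LM) (f := qExpandAlgHomC k p)).mp (hc n)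
    rw [← hy, qExpandAlgHomC_apply]
    exact twist_qExpand_of_pow_eq_one ζ p hζ.pow_eq_one y
  calc relrank K LM * ((p : ℕ) : Cardinal)
      = relrank Kp S * ((p : ℕ) : Cardinal) := by rw [h6]
    _ ≤ relrank Kp S * relrank S (S ⊔ k⟮J⟯) := mul_le_mul_right h7 _
    _ = relrank Kp (S ⊔ k⟮J⟯) := h5
    _ ≤ relrank Kp LN := h4
    _ ≤ relrank K LN := h3

/-- The induction: `ψ(N) ≤ [L_N : k(J)]` for every `N ∣ N₀`, from (P1') and Step A at the
primes dividing `N₀`. -/
theorem partC_asm_induction (J : LaurentSeries k) (hJ1 : J.coeff (-1) = 1) (N₀ : ℕ)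
    (hroots : ∀ p : ℕ, p.Prime → p ∣ N₀ → ∃ ζ : kˣ, IsPrimitiveRoot ζ p)
    (hmod : ∀ (p : ℕ) [NeZero p], p.Prime → p ∣ N₀ →
      ∃ Φ : Polynomial (Polynomial k), Φ.Monic ∧ Φ.natDegree = p + 1 ∧
        Φ.eval₂ (aeval (qExpand k p J) : Polynomial k →ₐ[k] LaurentSeries k).toRingHom J = 0)
    (hP1' : ∀ (p : ℕ) [NeZero p], p.Prime → p ∣ N₀ →
      ∀ L : IntermediateField k (LaurentSeries k), J ∈ L → qExpand k p J ∉ L →
      ∀ g : Polynomial (LaurentSeries k), g ≠ 0 → (∀ n, g.coeff n ∈ L) →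
        g.eval (qExpand k p J) = 0 → p + 1 ≤ g.natDegree)
    (hA : ∀ (p : ℕ) [NeZero p] (M : ℕ), p.Prime → p * M ∣ N₀ → ¬ p ∣ M →
      qExpand k p J ∉ IntermediateField.adjoin k (partC_divSet J M)) :
    ∀ N : ℕ, N ≠ 0 → N ∣ N₀ →
      (dedekindPsi N : Cardinal) ≤
        relrank k⟮J⟯ (IntermediateField.adjoin k (partC_divSet J N)) := by
  intro N
  induction N using Nat.strong_induction_on with
  | _ N ih =>
    intro hN0 hN
    by_cases h1 : N = 1
    · subst h1
      rw [dedekindPsi_one, partC_asm_divSet_one, relrank_self, Nat.cast_one]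
    · have hp : N.minFac.Prime := Nat.minFac_prime h1
      obtain ⟨M, hM⟩ := Nat.minFac_dvd N
      set p := N.minFac with hpdef
      have : NeZero p := ⟨hp.ne_zero⟩
      have hM0 : M ≠ 0 := by
        rintro rfl
        exact hN0 (by rw [hM, mul_zero])
      have hMlt : M < N := by
        rw [hM]
        have h2 : 2 ≤ p := hp.two_le
        have hMpos : 0 < M := Nat.pos_of_ne_zero hM0
        nlinarith
      have hMN : M ∣ N := ⟨p, by rw [hM, mul_comm]⟩
      have hpN0 : p ∣ N₀ := (Nat.minFac_dvd N).trans hN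
      have hpMN0 : p * M ∣ N₀ := hM ▸ hN
      have ihM := ih M hMlt hM0 (hMN.trans hN)
      have hJ : J.coeff (-1) ≠ 0 := by
        rw [hJ1]
        exact one_ne_zero
      rw [hM]
      by_cases hpM : p ∣ M
      · -- Step B
        obtain ⟨ζ, hζ⟩ := hroots p hp hpN0
        obtain ⟨Φ, hΦm, hΦd, hΦ⟩ := hmod p hp hpN0
        have hnotin : qExpand k p J ∉ k⟮J⟯ := by
          have := hA p 1 hp (by rwa [mul_one]) (Nat.Prime.not_dvd_one hp)
          rwa [partC_asm_divSet_one] at this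
        have hstep := partC_asm_stepB_rank J hJ p M ζ hζ Φ hΦm hΦd hΦ
          (hP1' p hp hpN0 k⟮J⟯ (mem_adjoin_simple_self k J) hnotin)
        rw [partC_asm_psi_of_dvd hp hM0 hpM, Nat.cast_mul, mul_comm]
        exact (mul_le_mul_left ihM _).trans hstep
      · -- Step A
        have hJmem : J ∈ IntermediateField.adjoin k (partC_divSet J M) :=
          IntermediateField.subset_adjoin k _ (partC_asm_self_mem J M)
        have hstep := partC_asm_stepA_rank J p M
          (hP1' p hp hpN0 _ hJmem (hA p M hp hpMN0 hpM))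
        rw [partC_asm_psi_of_not_dvd hp hpM, Nat.cast_mul, mul_comm]
        exact (mul_le_mul_left ihM _).trans hstep

/-- **Part C assembly.**  `ψ(N) ≤ [k(J(q^d) : d ∣ N) : k(J)]`, given at every prime `p ∣ N`
the second modular identity, (P1') (the modular polynomial stays irreducible over every
intermediate field `L ∋ J` not containing `J(q^p)`) and Step A (`J(q^p) ∉ L_M` for `p ∤ M`,
`pM ∣ N`; the case `M = 1` is (P1)). -/
theorem partC_igusa_of_steps [IsAlgClosed k] (J : LaurentSeries k) (hJ1 : J.coeff (-1) = 1)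
    (N : ℕ) [NeZero N] (hN : (N : k) ≠ 0)
    (hmod : ∀ (p : ℕ) [NeZero p], p.Prime → p ∣ N →
      ∃ Φ : Polynomial (Polynomial k), Φ.Monic ∧ Φ.natDegree = p + 1 ∧
        Φ.eval₂ (aeval (qExpand k p J) : Polynomial k →ₐ[k] LaurentSeries k).toRingHom J = 0)
    (hP1' : ∀ (p : ℕ) [NeZero p], p.Prime → p ∣ N →
      ∀ L : IntermediateField k (LaurentSeries k), J ∈ L → qExpand k p J ∉ L →
      ∀ g : Polynomial (LaurentSeries k), g ≠ 0 → (∀ n, g.coeff n ∈ L) →
        g.eval (qExpand k p J) = 0 → p + 1 ≤ g.natDegree)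
    (hA : ∀ (p : ℕ) [NeZero p] (M : ℕ), p.Prime → p * M ∣ N → ¬ p ∣ M →
      qExpand k p J ∉ IntermediateField.adjoin k (partC_divSet J M)) :
    (dedekindPsi N : Cardinal) ≤
      relrank k⟮J⟯ (IntermediateField.adjoin k (partC_divSet J N)) := by
  refine partC_asm_induction J hJ1 N ?_ hmod hP1' hA N (NeZero.ne N) dvd_rfl
  intro p hp hpN
  have hpk : (p : k) ≠ 0 := by
    intro h0
    obtain ⟨c, rfl⟩ := hpN
    exact hN (by rw [Nat.cast_mul, h0, zero_mul])
  have : NeZero (p : k) := ⟨hpk⟩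
  obtain ⟨ζ, hζ⟩ := HasEnoughRootsOfUnity.exists_primitiveRoot k p
  have hu : IsUnit ζ := hζ.isUnit hp.ne_zero
  exact ⟨hu.unit, IsPrimitiveRoot.coe_units_iff.mp (by simpa using hζ)⟩

end Assembly

end Fermat.Agent.S28
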