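import Fermat.Agent.S28.CPrime
import Fermat.Agent.S28.CAsm

/-!
# S28, Part C: final glue (helper90)

`partC_igusa_of_stepA`: the export of Part C (shape of `CIface.lean`) from (P1), (P1')
(`CPrime.lean`, helper35), Step B and the induction (`CAsm.lean`, helper90), with Step A
(`J(q^p) ∉ k(J(q^d) : d ∣ M)` for `p ∤ M`) as the only remaining hypothesis.
-/

set_option autoImplicit false

open ModularCurve Polynomial IntermediateField

namespace Fermat.Agent.S28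

variable {k : Type*} [Field k]

/-- (P1') in degree form: a nonzero polynomial with coefficients in `L ∋ J` killing
`J(q^p) ∉ L` has degree at least `p + 1`. -/
theorem partC_main_natDegree_le (J : LaurentSeries k) (hJ1 : J.coeff (-1) = 1)
    (p : ℕ) [NeZero p] (hp : 2 ≤ p) (Φ : Polynomial (Polynomial k)) (hΦ : Φ.Monic)
    (hdeg : Φ.natDegree = p + 1)
    (h1 : Φ.eval₂ (aeval J : Polynomial k →ₐ[k] LaurentSeries k).toRingHom (qExpand k p J) = 0)
    (h2 : Φ.eval₂ (aeval (qExpand k p J) : Polynomial k →ₐ[k] LaurentSeries k).toRingHom J = 0)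
    (ω : kˣ) (hω : IsPrimitiveRoot ω p)
    (L : IntermediateField k (LaurentSeries k)) (hJL : J ∈ L) (hL : qExpand k p J ∉ L)
    (g : Polynomial (LaurentSeries k)) (hg : g ≠ 0) (hc : ∀ n, g.coeff n ∈ L)
    (hroot : g.eval (qExpand k p J) = 0) : p + 1 ≤ g.natDegree := by
  rw [partC_eval₂_aeval_eq] at h1 h2
  have hmin := partC_natDegree_minpoly J hJ1 p hp Φ hΦ hdeg h1 h2 ω hω L hJL hL
  -- lift `g` to `L[X]`
  have hlift : g ∈ Polynomial.lifts (algebraMap (↥L) (LaurentSeries k)) := by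
    rw [Polynomial.lifts_iff_coeff_lifts]
    intro n
    exact ⟨⟨g.coeff n, hc n⟩, rfl⟩
  obtain ⟨gL, hgL⟩ := (Polynomial.mem_lifts g).mp hlift
  have hgL0 : gL ≠ 0 := by
    rintro rfl
    rw [Polynomial.map_zero] at hgL
    exact hg hgL.symm
  have haeval : Polynomial.aeval (qExpand k p J) gL = 0 := by
    rw [Polynomial.aeval_def, ← Polynomial.eval_map, hgL]
    exact hroot
  have hdvd : minpoly (↥L) (qExpand k p J) ∣ gL := minpoly.dvd _ _ haeval
  have hle := Polynomial.natDegree_le_of_dvd hdvd hgL0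
  have hdeg' : gL.natDegree = g.natDegree := by
    rw [← hgL]
    exact (Polynomial.natDegree_map_eq_of_injective (algebraMap (↥L) (LaurentSeries k)).injective
      gL).symm
  omega

/-- **Part C** modulo Step A: `ψ(N) ≤ [k(J(q^d) : d ∣ N) : k(J)]`. -/
theorem partC_igusa_of_stepA [IsAlgClosed k] (J Δ T : LaurentSeries k)
    (hJ1 : J.coeff (-1) = 1) (hJ0 : ∀ n : ℤ, n < -1 → J.coeff n = 0)
    (hΔ1 : Δ.coeff 1 = 1) (hΔ0 : ∀ n : ℤ, n < 1 → Δ.coeff n = 0)
    (hT : ∀ n : ℤ, T.coeff n = (n : k) * J.coeff n)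
    (hA3 : T ^ 6 = J ^ 4 * (J - HahnSeries.C (1728 : k)) ^ 3 * Δ)
    (N : ℕ) [NeZero N] (hN : (N : k) ≠ 0)
    (hlev : ∀ (p : ℕ) [NeZero p], p.Prime → p ∣ N → PartCLevel J Δ p)
    (hA : ∀ (p : ℕ) [NeZero p] (M : ℕ), p.Prime → p * M ∣ N → ¬ p ∣ M →
      qExpand k p J ∉ k⟮J⟯ →
      qExpand k p J ∉ IntermediateField.adjoin k (partC_divSet J M)) :
    (dedekindPsi N : Cardinal) ≤
      IntermediateField.relrank k⟮J⟯ (IntermediateField.adjoin k (partC_divSet J N)) := by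
  have hpk : ∀ p : ℕ, p ∣ N → (p : k) ≠ 0 := by
    intro p hpN h0
    obtain ⟨c, rfl⟩ := hpN
    exact hN (by rw [Nat.cast_mul, h0, zero_mul])
  have hroots : ∀ p : ℕ, p.Prime → p ∣ N → ∃ ζ : kˣ, IsPrimitiveRoot ζ p := by
    intro p hp hpN
    have : NeZero (p : k) := ⟨hpk p hpN⟩
    obtain ⟨ζ, hζ⟩ := HasEnoughRootsOfUnity.exists_primitiveRoot k p
    have hu : IsUnit ζ := hζ.isUnit hp.ne_zero
    exact ⟨hu.unit, IsPrimitiveRoot.coe_units_iff.mp (by simpa using hζ)⟩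
  have hTθ : T = partC_theta J := partC_eq_theta_of_coeff J T hT
  have hP1 : ∀ (p : ℕ) [NeZero p], p.Prime → p ∣ N → qExpand k p J ∉ k⟮J⟯ := by
    intro p _ hp hpN
    exact partC_notMem_adjoin J Δ hJ1 hJ0 hΔ1 hΔ0 (hTθ ▸ hA3) p hp.two_le (hpk p hpN)
      (hlev p hp hpN).isIntegral_unit
  refine partC_igusa_of_steps J hJ1 N hN ?_ ?_ ?_
  · intro p _ hp hpN
    obtain ⟨Φ, hΦm, hΦd, -, h2⟩ := (hlev p hp hpN).exists_modEq
    exact ⟨Φ, hΦm, hΦd, h2⟩
  · intro p _ hp hpN L hJL hL g hg hc hroot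
    obtain ⟨Φ, hΦm, hΦd, h1, h2⟩ := (hlev p hp hpN).exists_modEq
    obtain ⟨ω, hω⟩ := hroots p hp hpN
    exact partC_main_natDegree_le J hJ1 p hp.two_le Φ hΦm hΦd h1 h2 ω hω L hJL hL g hg hc hroot
  · intro p _ M hp hpM hM
    exact hA p M hp hpM hM (hP1 p hp ((dvd_mul_right p M).trans hpM))

end Fermat.Agent.S28
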