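import Fermat.Agent.S28.CTools

/-!
# S28, Part C: prime level (`J(q^p) ∉ k(J)` and irreducibility of the modular equation)
-/

set_option autoImplicit false

open ModularCurve Polynomial IntermediateField

namespace Fermat.Agent.S28

variable {k : Type*} [Field k]

/-! ### Orders -/

theorem partC_orderTop_eq {f : LaurentSeries k} {n : ℤ} (h1 : f.coeff n ≠ 0)
    (h0 : ∀ m : ℤ, m < n → f.coeff m = 0) : f.orderTop = n := by
  refine HahnSeries.orderTop_eq_of_le (by simpa using h1) ?_
  intro m hm
  by_contra hlt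
  exact (HahnSeries.mem_support _ _).mp hm (h0 m (not_le.mp hlt))

theorem partC_ne_zero_of_coeff {f : LaurentSeries k} {n : ℤ} (h1 : f.coeff n ≠ 0) : f ≠ 0 := by
  rintro rfl; simp at h1

/-- The order of `f(q^m)`. -/
theorem partC_orderTop_qExpand {f : LaurentSeries k} {n : ℤ} (m : ℕ) [NeZero m]
    (h1 : f.coeff n ≠ 0) (h0 : ∀ i : ℤ, i < n → f.coeff i = 0) :
    (qExpand k m f).orderTop = ((m * n : ℤ) : WithTop ℤ) := by
  have hmpos : (0 : ℤ) < m := by exact_mod_cast Nat.pos_of_ne_zero (NeZero.ne m)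
  refine partC_orderTop_eq (by rwa [qExpand_coeff_mul]) ?_
  intro i hi
  by_cases hdvd : (m : ℤ) ∣ i
  · obtain ⟨c, rfl⟩ := hdvd
    rw [qExpand_coeff_mul]
    exact h0 c (lt_of_mul_lt_mul_left hi hmpos.le)
  · exact qExpand_coeff_of_not_dvd m f hdvd

section Pole

variable (J : LaurentSeries k) (hJ1 : J.coeff (-1) = 1) (hJ0 : ∀ n : ℤ, n < -1 → J.coeff n = 0)

include hJ1 hJ0

theorem partC_orderTop_J : J.orderTop = ((-1 : ℤ) : WithTop ℤ) :=
  partC_orderTop_eq (by rw [hJ1]; exact one_ne_zero) hJ0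

omit hJ0 in
theorem partC_J_ne_zero : J ≠ 0 :=
  partC_ne_zero_of_coeff (n := -1) (by rw [hJ1]; exact one_ne_zero)

theorem partC_orderTop_J_pow (n : ℕ) : (J ^ n).orderTop = ((-(n : ℤ) : ℤ) : WithTop ℤ) := by
  have h := (HahnSeries.addVal ℤ k).map_pow J n
  rw [HahnSeries.addVal_apply, HahnSeries.addVal_apply, partC_orderTop_J J hJ1 hJ0] at h
  rw [h, ← WithTop.coe_nsmul]
  congr 1
  simp

/-- A nonzero polynomial in `J` has order `-deg`. -/
theorem partC_orderTop_aeval (P : k[X]) (hP : P ≠ 0) :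
    (aeval J P).orderTop = ((-(P.natDegree : ℤ) : ℤ) : WithTop ℤ) := by
  induction' hn : P.natDegree with n ih generalizing P
  · rw [Polynomial.natDegree_eq_zero] at hn
    obtain ⟨c, rfl⟩ := hn
    have hc : c ≠ 0 := fun h => hP (by rw [h, map_zero])
    rw [aeval_C, LaurentSeries.algebraMap_apply, HahnSeries.C_apply,
      HahnSeries.orderTop_single hc]
    simp
  · -- P = divX P * X + C (P.coeff 0)
    have hdiv : P.divX ≠ 0 := by
      intro h
      have h' := Polynomial.divX_mul_X_add P
      rw [h, zero_mul, zero_add] at h'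
      rw [← h', Polynomial.natDegree_C] at hn
      omega
    have hdeg : P.divX.natDegree = n := by
      rw [Polynomial.natDegree_divX_eq_natDegree_tsub_one, hn]; rfl
    have hP' : P = P.divX * X + C (P.coeff 0) := (Polynomial.divX_mul_X_add P).symm
    have h1 : (aeval J (P.divX * X)).orderTop = ((-((n + 1 : ℕ) : ℤ) : ℤ) : WithTop ℤ) := by
      rw [map_mul, aeval_X]
      have h := (HahnSeries.addVal ℤ k).map_mul (aeval J P.divX) J
      rw [HahnSeries.addVal_apply, HahnSeries.addVal_apply, HahnSeries.addVal_apply,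
        ih P.divX hdiv hdeg, partC_orderTop_J J hJ1 hJ0] at h
      rw [h, ← WithTop.coe_add]
      congr 1
      push_cast; ring
    have h2 : ((-((n + 1 : ℕ) : ℤ) : ℤ) : WithTop ℤ) < (aeval J (C (P.coeff 0))).orderTop := by
      rw [aeval_C, LaurentSeries.algebraMap_apply, HahnSeries.C_apply]
      by_cases hc : P.coeff 0 = 0
      · rw [hc, HahnSeries.single_eq_zero, HahnSeries.orderTop_zero]
        exact WithTop.coe_lt_top _
      · rw [HahnSeries.orderTop_single hc]
        exact_mod_cast (by omega : (-((n + 1 : ℕ) : ℤ)) < 0)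
    conv_lhs => rw [hP', map_add]
    rw [HahnSeries.orderTop_add_eq_left (by rw [h1]; exact h2), h1]

theorem partC_transcendental : Transcendental k J := by
  intro halg
  obtain ⟨P, hP, hPJ⟩ := halg
  have h := partC_orderTop_aeval J hJ1 hJ0 P hP
  rw [hPJ, HahnSeries.orderTop_zero] at h
  exact WithTop.top_ne_coe h

/-- An element of `k(J)` which is integral over `k[J]` is a polynomial in `J`. -/
theorem partC_exists_aeval_of_isIntegral (x : LaurentSeries k) (hx : x ∈ k⟮J⟯)
    (hint : IsIntegral (Algebra.adjoin k {J}) x) : ∃ P : k[X], x = aeval J P := by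
  classical
  have hinj : Function.Injective (aeval J : k[X] →ₐ[k] LaurentSeries k) :=
    transcendental_iff_injective.mp (partC_transcendental J hJ1 hJ0)
  obtain ⟨a, b, hab⟩ := (IntermediateField.mem_adjoin_simple_iff k x).mp hx
  by_cases hb : aeval J b = 0
  · exact ⟨0, by rw [hab, hb, div_zero, map_zero]⟩
  -- the embedding of `RatFunc k`
  let g : k[X] →+* LaurentSeries k := (aeval J : k[X] →ₐ[k] LaurentSeries k).toRingHom
  have hg : Function.Injective g := hinj
  let ι : RatFunc k →+* LaurentSeries k := IsFractionRing.lift hg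
  have hι : ∀ P : k[X], ι (algebraMap k[X] (RatFunc k) P) = aeval J P := fun P =>
    IsFractionRing.lift_algebraMap hg P
  let r : RatFunc k := algebraMap k[X] (RatFunc k) a / algebraMap k[X] (RatFunc k) b
  have hr : ι r = x := by
    rw [hab, map_div₀, hι, hι]
  -- lift the integrality equation
  obtain ⟨P, hPmonic, hPx⟩ := hint
  have hsurj : Function.Surjective
      ((aeval J : k[X] →ₐ[k] LaurentSeries k).rangeRestrict) :=
    AlgHom.rangeRestrict_surjective _
  have hrange : Algebra.adjoin k {J} = (aeval J : k[X] →ₐ[k] LaurentSeries k).range :=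
    Algebra.adjoin_singleton_eq_range_aeval k J
  -- transport `P` to a polynomial over the range
  have hcoeff : ∀ i : ℕ, ∃ c : k[X], aeval J c = (P.coeff i : LaurentSeries k) := by
    intro i
    have hmem : (P.coeff i : LaurentSeries k) ∈ (aeval J : k[X] →ₐ[k] LaurentSeries k).range := by
      rw [← hrange]; exact (P.coeff i).2
    obtain ⟨c, hc⟩ := hmem
    exact ⟨c, hc⟩
  choose c hc using hcoeff
  let Q : k[X][X] := X ^ P.natDegree + ∑ i ∈ Finset.range P.natDegree, C (c i) * X ^ i
  have hQmonic : Q.Monic := by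
    refine Polynomial.monic_X_pow_add ?_
    refine lt_of_le_of_lt (Polynomial.degree_sum_le _ _) ?_
    rw [Finset.sup_lt_iff (WithBot.bot_lt_coe _)]
    intro i hi
    refine lt_of_le_of_lt (Polynomial.degree_C_mul_X_pow_le _ _) ?_
    exact_mod_cast Finset.mem_range.mp hi
  have hQx : Q.eval₂ g x = 0 := by
    have hP : P.eval₂ (algebraMap (Algebra.adjoin k {J}) (LaurentSeries k)) x = 0 := hPx
    rw [Polynomial.eval₂_eq_sum_range, Finset.sum_range_succ, hPmonic.coeff_natDegree, map_one,
      one_mul] at hP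
    simp only [Q, Polynomial.eval₂_add, Polynomial.eval₂_pow, Polynomial.eval₂_X,
      Polynomial.eval₂_finsetSum, Polynomial.eval₂_mul, Polynomial.eval₂_C]
    rw [add_comm]
    convert hP using 2
    refine Finset.sum_congr rfl fun i _ => ?_
    congr 1
    exact hc i
  -- so `r` is a root of `Q` in `RatFunc k`
  have hQr : aeval r Q = 0 := by
    apply ι.injective
    rw [map_zero, Polynomial.aeval_def, Polynomial.hom_eval₂, hr]
    have : ι.comp (algebraMap k[X] (RatFunc k)) = g := RingHom.ext hι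
    rw [this]
    exact hQx
  obtain ⟨R, hR⟩ := isInteger_of_is_root_of_monic hQmonic hQr
  exact ⟨R, by rw [← hr, ← hR, hι]⟩

omit hJ0 in
theorem partC_qExpand_J_ne_zero (m : ℕ) [NeZero m] : qExpand k m J ≠ 0 :=
  (map_ne_zero_iff _ (qExpand_injective m)).mpr (partC_J_ne_zero J hJ1)

omit hJ0 in
theorem partC_coeff_qExpand_J (m : ℕ) [NeZero m] : (qExpand k m J).coeff (-(m : ℤ)) = 1 := by
  have h := qExpand_coeff_mul m J (-1)
  rw [hJ1] at h
  rw [← h]; congr 1; ring

omit hJ0 in
theorem partC_qExpand_J_sub_C_ne_zero (m : ℕ) [NeZero m] (c : k) :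
    qExpand k m J - HahnSeries.C c ≠ 0 := by
  have hm : (0 : ℤ) < m := by exact_mod_cast Nat.pos_of_ne_zero (NeZero.ne m)
  refine partC_ne_zero_of_coeff (n := -(m : ℤ)) ?_
  rw [HahnSeries.coeff_sub, partC_coeff_qExpand_J J hJ1, HahnSeries.C_apply,
    HahnSeries.coeff_single_of_ne (by omega), sub_zero]
  exact one_ne_zero

omit hJ1 hJ0 in
theorem partC_aeval_mem (P : k[X]) : aeval J P ∈ k⟮J⟯ :=
  (IntermediateField.mem_adjoin_simple_iff k _).mpr ⟨P, 1, by simp⟩

omit hJ1 hJ0 in
theorem partC_C_mem (L : IntermediateField k (LaurentSeries k)) (c : k) :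
    HahnSeries.C c ∈ L := by
  rw [← LaurentSeries.algebraMap_apply]; exact L.algebraMap_mem c

omit hJ1 hJ0 in
theorem partC_C_ne_zero {c : k} (hc : c ≠ 0) : (HahnSeries.C c : LaurentSeries k) ≠ 0 :=
  HahnSeries.C_ne_zero hc

end Pole

/-! ### (P1): `J(q^p) ∉ k(J)` -/

section P1

variable (J Δ : LaurentSeries k) (hJ1 : J.coeff (-1) = 1) (hJ0 : ∀ n : ℤ, n < -1 → J.coeff n = 0)
  (hΔ1 : Δ.coeff 1 = 1) (hΔ0 : ∀ n : ℤ, n < 1 → Δ.coeff n = 0)
  (hA3 : (partC_theta J) ^ 6 = J ^ 4 * (J - HahnSeries.C (1728 : k)) ^ 3 * Δ)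

include hJ1 hJ0 hΔ1 hΔ0 hA3

theorem partC_notMem_adjoin (p : ℕ) [NeZero p] (hp : 2 ≤ p) (hpk : (p : k) ≠ 0)
    (hU : IsIntegral (Algebra.adjoin k {J})
      (HahnSeries.C ((p : k) ^ 12) * qExpand k p Δ * Δ⁻¹)) :
    qExpand k p J ∉ k⟮J⟯ := by
  intro hmem
  obtain ⟨a, b, hab⟩ := (IntermediateField.mem_adjoin_simple_iff k _).mp hmem
  have hJp0 : qExpand k p J ≠ 0 := partC_qExpand_J_ne_zero J hJ1 p
  have hb : aeval J b ≠ 0 := by
    intro h; rw [h, div_zero] at hab; exact hJp0 hab
  have hAB : qExpand k p J * aeval J b = aeval J a := by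
    rw [hab]; field_simp
  -- apply θ
  have hθ : partC_theta (qExpand k p J) * aeval J b
      + qExpand k p J * (aeval J (derivative b) * partC_theta J)
      = aeval J (derivative a) * partC_theta J := by
    have h := congrArg partC_theta hAB
    rw [Derivation.leibniz, Derivation.map_aeval, Derivation.map_aeval] at h
    simp only [smul_eq_mul] at h
    linear_combination h
  rw [partC_theta_qExpand] at hθ
  have hCp : (HahnSeries.C (p : k) : LaurentSeries k) ≠ 0 := partC_C_ne_zero hpk
  have hΔne : Δ ≠ 0 := partC_ne_zero_of_coeff (n := 1) (by rw [hΔ1]; exact one_ne_zero)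
  have hsΔne : qExpand k p Δ ≠ 0 := (map_ne_zero_iff _ (qExpand_injective p)).mpr hΔne
  have hJp1728 : qExpand k p J - HahnSeries.C (1728 : k) ≠ 0 :=
    partC_qExpand_J_sub_C_ne_zero J hJ1 p _
  -- the key relation `p * s_p(θ J) = G * θ J` with `G ∈ k(J)`
  obtain ⟨G, hGdef⟩ : ∃ G : LaurentSeries k, G =
    (aeval J (derivative a) - qExpand k p J * aeval J (derivative b)) / aeval J b := ⟨_, rfl⟩
  have hGB : G * aeval J b = aeval J (derivative a) - qExpand k p J * aeval J (derivative b) := by
    rw [hGdef, div_mul_cancel₀ _ hb]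
  have hG : HahnSeries.C (p : k) * qExpand k p (partC_theta J) = G * partC_theta J := by
    apply mul_right_cancel₀ hb
    linear_combination hθ - partC_theta J * hGB
  have hGmem : G ∈ k⟮J⟯ := by
    rw [hGdef]
    exact div_mem (sub_mem (partC_aeval_mem J _) (mul_mem hmem (partC_aeval_mem J _)))
      (partC_aeval_mem J _)
  -- sixth powers
  have h6 : HahnSeries.C (p : k) ^ 6 * ((qExpand k p J) ^ 4 *
      (qExpand k p J - HahnSeries.C (1728 : k)) ^ 3 * qExpand k p Δ)
      = G ^ 6 * (J ^ 4 * (J - HahnSeries.C (1728 : k)) ^ 3 * Δ) := by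
    have h := congrArg (fun x => x ^ 6) hG
    simp only [mul_pow] at h
    rw [← map_pow (qExpand k p) (partC_theta J) 6, hA3, map_mul, map_mul, map_pow, map_pow,
      map_sub, qExpand_C] at h
    exact h
  -- hence the unit lies in `k(J)`
  have hden : HahnSeries.C (p : k) ^ 6 * ((qExpand k p J) ^ 4 *
          (qExpand k p J - HahnSeries.C (1728 : k)) ^ 3) ≠ 0 :=
    mul_ne_zero (pow_ne_zero _ hCp) (mul_ne_zero (pow_ne_zero _ hJp0) (pow_ne_zero _ hJp1728))
  have hUeq : HahnSeries.C ((p : k) ^ 12) * qExpand k p Δ * Δ⁻¹ =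
      HahnSeries.C ((p : k) ^ 12) * (G ^ 6 * (J ^ 4 * (J - HahnSeries.C (1728 : k)) ^ 3)) /
        (HahnSeries.C (p : k) ^ 6 * ((qExpand k p J) ^ 4 *
          (qExpand k p J - HahnSeries.C (1728 : k)) ^ 3)) := by
    rw [eq_div_iff hden]
    have hinv : Δ⁻¹ * Δ = 1 := inv_mul_cancel₀ hΔne
    linear_combination (HahnSeries.C ((p : k) ^ 12) * Δ⁻¹) * h6 +
      (HahnSeries.C ((p : k) ^ 12) * G ^ 6 * J ^ 4 * (J - HahnSeries.C (1728 : k)) ^ 3) * hinv
  have hUmem : HahnSeries.C ((p : k) ^ 12) * qExpand k p Δ * Δ⁻¹ ∈ k⟮J⟯ := by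
    rw [hUeq]
    have hJmem : J ∈ k⟮J⟯ := IntermediateField.mem_adjoin_simple_self k J
    exact div_mem (mul_mem (partC_C_mem _ _) (mul_mem (pow_mem hGmem _)
      (mul_mem (pow_mem hJmem _) (pow_mem (sub_mem hJmem (partC_C_mem _ _)) _))))
      (mul_mem (pow_mem (partC_C_mem _ _) _) (mul_mem (pow_mem hmem _)
        (pow_mem (sub_mem hmem (partC_C_mem _ _)) _)))
  obtain ⟨P, hP⟩ := partC_exists_aeval_of_isIntegral J hJ1 hJ0 _ hUmem hU
  have hPΔ : aeval J P * Δ = HahnSeries.C ((p : k) ^ 12) * qExpand k p Δ := by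
    rw [← hP]; field_simp
  have hP0 : P ≠ 0 := by
    rintro rfl
    rw [map_zero, zero_mul] at hPΔ
    exact mul_ne_zero (partC_C_ne_zero (pow_ne_zero _ hpk)) hsΔne hPΔ.symm
  -- compare orders
  have hv := congrArg HahnSeries.orderTop hPΔ
  rw [HahnSeries.orderTop_mul, HahnSeries.orderTop_mul,
    partC_orderTop_aeval J hJ1 hJ0 P hP0,
    partC_orderTop_eq (f := Δ) (n := 1) (by rw [hΔ1]; exact one_ne_zero) hΔ0,
    partC_orderTop_qExpand (f := Δ) (n := 1) p (by rw [hΔ1]; exact one_ne_zero) hΔ0,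
    HahnSeries.C_apply, HahnSeries.orderTop_single (pow_ne_zero _ hpk)] at hv
  have hv' : (-(P.natDegree : ℤ) + 1 : ℤ) = (0 + (p * 1 : ℤ) : ℤ) := by
    exact_mod_cast hv
  have hp' : (2 : ℤ) ≤ p := by exact_mod_cast hp
  omega

end P1

/-! ### Two-variable polynomials `Φ(X, Y)`: the one-variable polynomial `Φ(X, B)` -/

section Ev

variable {R R' : Type*} [CommRing R] [CommRing R']

/-- `Φ(X, B) ∈ R[X]`, the inner variable evaluated at `B` through `c : k →+* R`. -/
noncomputable def partC_poly (c : k →+* R) (Φ : Polynomial (Polynomial k)) (B : R) : R[X] :=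
  Φ.map (Polynomial.eval₂RingHom c B)

theorem partC_poly_monic (c : k →+* R) {Φ : Polynomial (Polynomial k)} (hΦ : Φ.Monic) (B : R) :
    (partC_poly c Φ B).Monic := hΦ.map _

theorem partC_poly_natDegree [Nontrivial R] (c : k →+* R) {Φ : Polynomial (Polynomial k)}
    (hΦ : Φ.Monic) (B : R) : (partC_poly c Φ B).natDegree = Φ.natDegree :=
  hΦ.natDegree_map _

theorem partC_poly_map (c : k →+* R) (g : R →+* R') (Φ : Polynomial (Polynomial k)) (B : R) :
    (partC_poly c Φ B).map g = partC_poly (g.comp c) Φ (g B) := by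
  rw [partC_poly, Polynomial.map_map, partC_poly]
  congr 1
  refine Polynomial.ringHom_ext (fun a => ?_) ?_
  · simp
  · simp

/-- Transport of a root along a ring homomorphism. -/
theorem partC_poly_eval_map (c : k →+* R) (g : R →+* R') (Φ : Polynomial (Polynomial k))
    (A B : R) (h : (partC_poly c Φ B).eval A = 0) :
    (partC_poly (g.comp c) Φ (g B)).eval (g A) = 0 := by
  rw [← partC_poly_map, Polynomial.eval_map, Polynomial.eval₂_at_apply, h, map_zero]

/-- The interface form `Φ.eval₂ (aeval B).toRingHom A` in terms of `partC_poly`. -/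
theorem partC_eval₂_aeval_eq [Algebra k R] (Φ : Polynomial (Polynomial k)) (A B : R) :
    Φ.eval₂ (aeval B : k[X] →ₐ[k] R).toRingHom A = (partC_poly (algebraMap k R) Φ B).eval A := by
  rw [partC_poly, Polynomial.eval_map]
  rfl

/-- A monic polynomial over a field with `natDegree`-many known roots has no other root. -/
theorem partC_root_mem {E : Type*} [Field E] [DecidableEq E] (F : E[X]) (hF : F.Monic)
    (Z : Finset E) (hZ : ∀ z ∈ Z, F.eval z = 0) (hcard : F.natDegree ≤ Z.card) (x : E)
    (hx : F.eval x = 0) : x ∈ Z := by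
  by_contra hxZ
  have hsub : (insert x Z).val ⊆ F.roots := by
    intro z hz
    rw [Polynomial.mem_roots hF.ne_zero, Polynomial.IsRoot.def]
    rcases Finset.mem_insert.mp hz with rfl | hz'
    · exact hx
    · exact hZ z hz'
  have h := Polynomial.card_le_degree_of_subset_roots hsub
  rw [Finset.card_insert_of_notMem hxZ] at h
  omega

end Ev

theorem partC_qExpand_comp_algebraMap (m : ℕ) [NeZero m] :
    (qExpand k m).comp (algebraMap k (LaurentSeries k)) = algebraMap k (LaurentSeries k) :=
  RingHom.ext fun a => by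
    rw [RingHom.comp_apply, LaurentSeries.algebraMap_apply, qExpand_C]

theorem partC_twist_comp_algebraMap (ζ : kˣ) :
    (partC_twist ζ).comp (algebraMap k (LaurentSeries k)) = algebraMap k (LaurentSeries k) :=
  RingHom.ext fun a => by
    rw [RingHom.comp_apply, LaurentSeries.algebraMap_apply, partC_twist_C]

/-! ### The roots of `Φ_p(X, J(q^p))` in `k((q))` -/

section Roots

variable (J : LaurentSeries k) (hJ1 : J.coeff (-1) = 1)
  (p : ℕ) [NeZero p] (Φ : Polynomial (Polynomial k))
  (h1 : (partC_poly (algebraMap k (LaurentSeries k)) Φ J).eval (qExpand k p J) = 0)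
  (h2 : (partC_poly (algebraMap k (LaurentSeries k)) Φ (qExpand k p J)).eval J = 0)
  (ω : kˣ)

include h2 in
theorem partC_root_twist (hω : ω ^ p = 1) (c : ℕ) :
    (partC_poly (algebraMap k (LaurentSeries k)) Φ (qExpand k p J)).eval
      (partC_twist (ω ^ c) J) = 0 := by
  have h := partC_poly_eval_map (algebraMap k (LaurentSeries k)) (partC_twist (ω ^ c)) Φ _ _ h2
  rwa [partC_twist_comp_algebraMap,
    partC_twist_qExpand_of_pow_eq_one (ω ^ c) p (by rw [← pow_mul, mul_comm, pow_mul, hω, one_pow])]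
    at h

include h1 in
theorem partC_root_inf :
    (partC_poly (algebraMap k (LaurentSeries k)) Φ (qExpand k p J)).eval
      (qExpand k p (qExpand k p J)) = 0 := by
  have h := partC_poly_eval_map (algebraMap k (LaurentSeries k)) (qExpand k p) Φ _ _ h1
  rwa [partC_qExpand_comp_algebraMap] at h

open Classical in
/-- The `p + 1` roots of `Φ_p(X, J(q^p))`: `J(q^(p^2))` and `J(ω^c q)`, `c < p`. -/
noncomputable def partC_roots (ω : kˣ) : Finset (LaurentSeries k) :=
  insert (qExpand k p (qExpand k p J)) ((Finset.range p).image (fun c => partC_twist (ω ^ c) J))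

omit [NeZero p] in
include hJ1 in
theorem partC_twist_J_injOn (hω : IsPrimitiveRoot ω p) :
    Set.InjOn (fun c : ℕ => partC_twist (ω ^ c) J) (Finset.range p : Set ℕ) := by
  intro c hc c' hc' h
  have hcoeff := congrArg (fun f : LaurentSeries k => f.coeff (-1)) h
  simp only [partC_twist_coeff, hJ1, mul_one] at hcoeff
  have hu : (ω ^ c) ^ (-1 : ℤ) = (ω ^ c') ^ (-1 : ℤ) := Units.ext hcoeff
  rw [zpow_neg_one, zpow_neg_one, inv_inj] at hu
  exact hω.pow_inj (Finset.mem_range.mp (by exact_mod_cast hc))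
    (Finset.mem_range.mp (by exact_mod_cast hc')) hu

include hJ1 in
theorem partC_roots_card (hp : 2 ≤ p) (hω : IsPrimitiveRoot ω p) :
    (partC_roots J p ω).card = p + 1 := by
  classical
  rw [partC_roots, Finset.card_insert_of_notMem, Finset.card_image_of_injOn
    (partC_twist_J_injOn J hJ1 p ω hω), Finset.card_range]
  intro hmem
  obtain ⟨c, -, hc⟩ := Finset.mem_image.mp hmem
  have hcoeff := congrArg (fun f : LaurentSeries k => f.coeff (-1)) hc
  simp only [partC_twist_coeff, hJ1, mul_one] at hcoeff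
  rw [qExpand_coeff_of_not_dvd p _ (by
    intro hdvd
    have h2 : (2 : ℤ) ≤ p := by exact_mod_cast hp
    have := Int.le_of_dvd (by norm_num) ((dvd_neg).mp hdvd)
    omega)] at hcoeff
  exact Units.ne_zero _ hcoeff

include h1 h2 in
theorem partC_roots_eval (hω : ω ^ p = 1) :
    ∀ z ∈ partC_roots J p ω,
      (partC_poly (algebraMap k (LaurentSeries k)) Φ (qExpand k p J)).eval z = 0 := by
  classical
  intro z hz
  rcases Finset.mem_insert.mp hz with rfl | hz'
  · exact partC_root_inf J p Φ h1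
  · obtain ⟨c, -, rfl⟩ := Finset.mem_image.mp hz'
    exact partC_root_twist J p Φ h2 ω hω c

end Roots

/-! ### (P1'): over any intermediate field `L ∋ J`, either `J(q^p) ∈ L` or it has degree `p + 1` -/

section P1'

variable (J : LaurentSeries k) (hJ1 : J.coeff (-1) = 1)
  (p : ℕ) [NeZero p] (hp : 2 ≤ p) (Φ : Polynomial (Polynomial k)) (hΦ : Φ.Monic)
  (hdeg : Φ.natDegree = p + 1)
  (h1 : (partC_poly (algebraMap k (LaurentSeries k)) Φ J).eval (qExpand k p J) = 0)
  (h2 : (partC_poly (algebraMap k (LaurentSeries k)) Φ (qExpand k p J)).eval J = 0)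
  (ω : kˣ) (hω : IsPrimitiveRoot ω p)

include hΦ h1 in
/-- `J(q^p)` is integral over any intermediate field containing `J`. -/
theorem partC_isIntegral_Jp (L : IntermediateField k (LaurentSeries k)) (hJL : J ∈ L) :
    IsIntegral L (qExpand k p J) := by
  refine ⟨partC_poly (algebraMap k L) Φ ⟨J, hJL⟩, partC_poly_monic _ hΦ _, ?_⟩
  rw [← Polynomial.eval_map, partC_poly_map, ← IsScalarTower.algebraMap_eq]
  exact h1

include hJ1 hp hΦ hdeg h1 h2 hω in
theorem partC_natDegree_minpoly (L : IntermediateField k (LaurentSeries k)) (hJL : J ∈ L)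
    (hL : qExpand k p J ∉ L) : (minpoly L (qExpand k p J)).natDegree = p + 1 := by
  classical
  have hint : IsIntegral L (qExpand k p J) := partC_isIntegral_Jp J p Φ hΦ h1 L hJL
  have hωp : ω ^ p = 1 := hω.pow_eq_one
  set m := minpoly L (qExpand k p J) with hm
  -- the polynomial `Φ(X, J)` over `L`
  set FL : L[X] := partC_poly (algebraMap k L) Φ ⟨J, hJL⟩ with hFL
  have hFLroot : aeval (qExpand k p J) FL = 0 := by
    rw [Polynomial.aeval_def, ← Polynomial.eval_map, hFL, partC_poly_map,
      ← IsScalarTower.algebraMap_eq]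
    exact h1
  have hdvd : m ∣ FL := minpoly.dvd L _ hFLroot
  have h2le : 2 ≤ m.natDegree := by
    rw [hm, minpoly.two_le_natDegree_iff hint]
    rintro ⟨y, hy⟩
    exact hL (hy ▸ y.2)
  -- push everything to `k((q))` through `q ↦ q^p`
  set σ : L →+* LaurentSeries k := (qExpand k p).comp (algebraMap L (LaurentSeries k)) with hσ
  set g : (LaurentSeries k)[X] := m.map σ with hg
  set G : (LaurentSeries k)[X] :=
    partC_poly (algebraMap k (LaurentSeries k)) Φ (qExpand k p J) with hG
  have hFLG : FL.map σ = G := by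
    rw [hFL, partC_poly_map, hG]
    congr 1
    rw [hσ, RingHom.comp_assoc, ← IsScalarTower.algebraMap_eq, partC_qExpand_comp_algebraMap]
  have hgG : g ∣ G := hFLG ▸ Polynomial.map_dvd σ hdvd
  have hgmonic : g.Monic := (minpoly.monic hint).map σ
  have hgdeg : g.natDegree = m.natDegree := (minpoly.monic hint).natDegree_map σ
  have hGmonic : G.Monic := partC_poly_monic _ hΦ _
  have hGdeg : G.natDegree = p + 1 := by rw [hG, partC_poly_natDegree _ hΦ, hdeg]
  obtain ⟨h, hh⟩ := hgG
  have hh0 : h ≠ 0 := by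
    rintro rfl; rw [mul_zero] at hh; exact hGmonic.ne_zero hh
  have hdegsum : g.natDegree + h.natDegree = p + 1 := by
    rw [← hGdeg, hh, Polynomial.natDegree_mul hgmonic.ne_zero hh0]
  -- `g` is invariant under the twist
  have hginv : g.map (partC_twist ω) = g := by
    rw [hg, Polynomial.map_map]
    congr 1
    refine RingHom.ext fun x => ?_
    rw [hσ, RingHom.comp_apply, RingHom.comp_apply,
      partC_twist_qExpand_of_pow_eq_one ω p hωp]
  have hstep : ∀ r : LaurentSeries k, g.eval r = 0 → g.eval (partC_twist ω r) = 0 := by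
    intro r hr
    have := congrArg (partC_twist ω) hr
    rw [map_zero, ← Polynomial.eval₂_at_apply, ← Polynomial.eval_map, hginv] at this
    exact this
  have hiter : ∀ a n : ℕ, g.eval (partC_twist (ω ^ a) J) = 0 →
      g.eval (partC_twist (ω ^ (a + n)) J) = 0 := by
    intro a n ha
    induction n with
    | zero => simpa using ha
    | succ n ih =>
      have := hstep _ ih
      rw [partC_twist_twist, ← pow_succ'] at this
      exact this
  -- some twisted root is a root of `g`
  have hGroots := partC_roots_eval J p Φ h1 h2 ω hωp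
  have hA : ∃ c, c < p ∧ g.eval (partC_twist (ω ^ c) J) = 0 := by
    by_contra hno'
    have hno : ∀ c, c < p → g.eval (partC_twist (ω ^ c) J) ≠ 0 :=
      fun c hc hgc => hno' ⟨c, hc, hgc⟩
    have hsub : ((Finset.range p).image (fun c => partC_twist (ω ^ c) J)).val ⊆ h.roots := by
      intro z hz
      obtain ⟨c, hc, rfl⟩ := Finset.mem_image.mp (Finset.mem_val.mp hz)
      rw [Polynomial.mem_roots hh0, Polynomial.IsRoot.def]
      have hGz : G.eval (partC_twist (ω ^ c) J) = 0 :=
        hGroots _ (Finset.mem_insert_of_mem (Finset.mem_image_of_mem _ hc))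
      rw [hh, Polynomial.eval_mul] at hGz
      exact (mul_eq_zero.mp hGz).resolve_left (hno c (Finset.mem_range.mp hc))
    have hcard := Polynomial.card_le_degree_of_subset_roots hsub
    rw [Finset.card_image_of_injOn (partC_twist_J_injOn J hJ1 p ω hω), Finset.card_range]
      at hcard
    omega
  obtain ⟨c₀, -, hc₀⟩ := hA
  have hall : ∀ c : ℕ, g.eval (partC_twist (ω ^ c) J) = 0 := by
    intro c
    have := hiter c₀ (c + (p - 1) * c₀) hc₀
    have hexp : ω ^ (c₀ + (c + (p - 1) * c₀)) = ω ^ c := by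
      have : c₀ + (c + (p - 1) * c₀) = c + p * c₀ := by
        have hp1 : 1 ≤ p := by omega
        zify [hp1]; ring
      rw [this, pow_add, pow_mul, hωp, one_pow, mul_one]
    rwa [hexp] at this
  -- `J(q^(p^2))` is a root of `g`
  have hinf : g.eval (qExpand k p (qExpand k p J)) = 0 := by
    have hroot : (m.map (algebraMap L (LaurentSeries k))).eval (qExpand k p J) = 0 := by
      rw [Polynomial.eval_map, ← Polynomial.aeval_def, hm, minpoly.aeval]
    have := congrArg (qExpand k p) hroot
    rw [map_zero, ← Polynomial.eval₂_at_apply, ← Polynomial.eval_map, Polynomial.map_map]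
      at this
    exact this
  have hsub : (partC_roots J p ω).val ⊆ g.roots := by
    intro z hz
    rw [Polynomial.mem_roots hgmonic.ne_zero, Polynomial.IsRoot.def]
    rcases Finset.mem_insert.mp (Finset.mem_val.mp hz) with rfl | hz'
    · exact hinf
    · obtain ⟨c, -, rfl⟩ := Finset.mem_image.mp hz'
      exact hall c
  have hcard := Polynomial.card_le_degree_of_subset_roots hsub
  rw [partC_roots_card J hJ1 p ω hp hω] at hcard
  omega

include hJ1 hp hΦ hdeg h1 h2 hω in
/-- (P1') in `natDegree` form: a nonzero polynomial with coefficients in `L ∋ J` vanishing at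
`J(q^p) ∉ L` has degree at least `p + 1`. -/
theorem partC_natDegree_le_of_root (L : IntermediateField k (LaurentSeries k)) (hJL : J ∈ L)
    (hL : qExpand k p J ∉ L) (g : Polynomial (LaurentSeries k)) (hg : g ≠ 0)
    (hcoeff : ∀ n, g.coeff n ∈ L) (hroot : g.eval (qExpand k p J) = 0) :
    p + 1 ≤ g.natDegree := by
  have hlift : g ∈ Polynomial.lifts (algebraMap L (LaurentSeries k)) :=
    (Polynomial.lifts_iff_coeff_lifts g).mpr fun n => ⟨⟨g.coeff n, hcoeff n⟩, rfl⟩
  obtain ⟨g', hg0⟩ := hlift
  have hg' : g'.map (algebraMap L (LaurentSeries k)) = g := hg0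
  have hg'0 : g' ≠ 0 := by
    rintro rfl; rw [Polynomial.map_zero] at hg'; exact hg hg'.symm
  have haeval : aeval (qExpand k p J) g' = 0 := by
    rw [Polynomial.aeval_def, ← Polynomial.eval_map, hg', hroot]
  have hdvd := minpoly.dvd L (qExpand k p J) haeval
  have hle := Polynomial.natDegree_le_of_dvd hdvd hg'0
  rw [partC_natDegree_minpoly J hJ1 p hp Φ hΦ hdeg h1 h2 ω hω L hJL hL] at hle
  rw [← hg', Polynomial.natDegree_map]
  exact hle

end P1'

end Fermat.Agent.S28
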