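import Fermat.Agent.S28.CDefs

/-!
# S28, Part C: Laurent-series tools (twist `q ↦ ζ q`, `θ = q d/dq`)
-/

set_option autoImplicit false

open ModularCurve Polynomial

namespace Fermat.Agent.S28

variable {k : Type*} [Field k]

/-! ### The twist `q ↦ ζ q` -/

/-- Underlying function of the twist `f(q) ↦ f(ζ q)`. -/
def partC_twistFun (ζ : kˣ) (f : LaurentSeries k) : LaurentSeries k where
  coeff n := ((ζ ^ n : kˣ) : k) * f.coeff n
  isPWO_support' := f.isPWO_support.mono (fun n hn => by
    simp only [Function.mem_support, ne_eq] at hn ⊢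
    exact fun h => hn (by rw [h, mul_zero]))

@[simp] theorem partC_twistFun_coeff (ζ : kˣ) (f : LaurentSeries k) (n : ℤ) :
    (partC_twistFun ζ f).coeff n = ((ζ ^ n : kˣ) : k) * f.coeff n := rfl

theorem partC_twistFun_support (ζ : kˣ) (f : LaurentSeries k) :
    (partC_twistFun ζ f).support = f.support := by
  ext n
  simp only [HahnSeries.mem_support, partC_twistFun_coeff, ne_eq, mul_eq_zero, Units.ne_zero,
    false_or]

theorem partC_twistFun_mul (ζ : kˣ) (f g : LaurentSeries k) :
    partC_twistFun ζ (f * g) = partC_twistFun ζ f * partC_twistFun ζ g := by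
  ext n
  rw [partC_twistFun_coeff, HahnSeries.coeff_mul,
    HahnSeries.coeff_mul_left' (x := partC_twistFun ζ f) (y := partC_twistFun ζ g)
      f.isPWO_support (partC_twistFun_support ζ f).le,
    Finset.mul_sum]
  have hsupp : (partC_twistFun ζ g).support = g.support := partC_twistFun_support ζ g
  refine Finset.sum_congr ?_ ?_
  · ext ij
    simp only [Finset.mem_antidiagonal, hsupp]
  · intro ij hij
    have hij' : ij.1 + ij.2 = n := (Finset.mem_antidiagonal.mp hij).2.2
    simp only [partC_twistFun_coeff]
    rw [← hij', zpow_add, Units.val_mul]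
    ring

/-- The twist `f(q) ↦ f(ζ q)` as a ring homomorphism. -/
def partC_twist (ζ : kˣ) : LaurentSeries k →+* LaurentSeries k where
  toFun := partC_twistFun ζ
  map_one' := by
    ext n
    rw [partC_twistFun_coeff, HahnSeries.coeff_one]
    split_ifs with h
    · subst h; simp
    · simp
  map_mul' := partC_twistFun_mul ζ
  map_zero' := by ext n; simp
  map_add' f g := by ext n; simp [mul_add]

@[simp] theorem partC_twist_coeff (ζ : kˣ) (f : LaurentSeries k) (n : ℤ) :
    (partC_twist ζ f).coeff n = ((ζ ^ n : kˣ) : k) * f.coeff n := rfl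

@[simp] theorem partC_twist_C (ζ : kˣ) (a : k) :
    partC_twist ζ (HahnSeries.C a) = HahnSeries.C a := by
  ext n
  rw [partC_twist_coeff, HahnSeries.C_apply, HahnSeries.coeff_single]
  split_ifs with h
  · subst h; simp
  · simp

theorem partC_twist_one (f : LaurentSeries k) : partC_twist (1 : kˣ) f = f := by
  ext n; simp

theorem partC_twist_twist (ζ ξ : kˣ) (f : LaurentSeries k) :
    partC_twist ζ (partC_twist ξ f) = partC_twist (ζ * ξ) f := by
  ext n
  simp only [partC_twist_coeff, mul_zpow, Units.val_mul]
  ring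

theorem partC_twist_injective (ζ : kˣ) : Function.Injective (partC_twist ζ) :=
  (partC_twist ζ).injective

/-- `f(q^m)` twisted by `ζ` is `(f twisted by ζ^m)(q^m)`. -/
theorem partC_twist_qExpand (ζ : kˣ) (m : ℕ) [NeZero m] (f : LaurentSeries k) :
    partC_twist ζ (qExpand k m f) = qExpand k m (partC_twist (ζ ^ m) f) := by
  ext n
  by_cases hn : (m : ℤ) ∣ n
  · obtain ⟨c, rfl⟩ := hn
    rw [partC_twist_coeff, qExpand_coeff_mul, qExpand_coeff_mul, partC_twist_coeff,
      zpow_mul, zpow_natCast]
  · rw [partC_twist_coeff, qExpand_coeff_of_not_dvd m _ hn, qExpand_coeff_of_not_dvd m _ hn,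
      mul_zero]

/-- A twist by an `m`-th root of unity fixes the series in `q^m`. -/
theorem partC_twist_qExpand_of_pow_eq_one (ζ : kˣ) (m : ℕ) [NeZero m] (hζ : ζ ^ m = 1)
    (f : LaurentSeries k) : partC_twist ζ (qExpand k m f) = qExpand k m f := by
  rw [partC_twist_qExpand, hζ, partC_twist_one]

/-! ### The derivation `θ = q d/dq` -/

/-- Underlying function of `θ = q d/dq`. -/
def partC_thetaFun (f : LaurentSeries k) : LaurentSeries k where
  coeff n := (n : k) * f.coeff n
  isPWO_support' := f.isPWO_support.mono (fun n hn => by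
    simp only [Function.mem_support, ne_eq] at hn ⊢
    exact fun h => hn (by rw [h, mul_zero]))

@[simp] theorem partC_thetaFun_coeff (f : LaurentSeries k) (n : ℤ) :
    (partC_thetaFun f).coeff n = (n : k) * f.coeff n := rfl

theorem partC_thetaFun_support (f : LaurentSeries k) :
    (partC_thetaFun f).support ⊆ f.support := fun n hn => by
  simp only [HahnSeries.mem_support, partC_thetaFun_coeff, ne_eq] at hn ⊢
  exact fun h => hn (by rw [h, mul_zero])

theorem partC_thetaFun_mul (f g : LaurentSeries k) :
    partC_thetaFun (f * g) = partC_thetaFun f * g + f * partC_thetaFun g := by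
  ext n
  rw [partC_thetaFun_coeff, HahnSeries.coeff_add, HahnSeries.coeff_mul,
    HahnSeries.coeff_mul_left' (x := partC_thetaFun f) (y := g) f.isPWO_support
      (partC_thetaFun_support f),
    HahnSeries.coeff_mul_right' (x := f) (y := partC_thetaFun g) g.isPWO_support
      (partC_thetaFun_support g),
    Finset.mul_sum, ← Finset.sum_add_distrib]
  refine Finset.sum_congr rfl ?_
  intro ij hij
  have hij' : ij.1 + ij.2 = n := (Finset.mem_antidiagonal.mp hij).2.2
  simp only [partC_thetaFun_coeff]
  rw [← hij']
  push_cast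
  ring

/-- `θ = q d/dq` as a derivation of `k((q))` over `k`. -/
def partC_theta : Derivation k (LaurentSeries k) (LaurentSeries k) where
  toFun := partC_thetaFun
  map_add' f g := by ext n; simp [mul_add]
  map_smul' a f := by
    ext n
    have h1 : ∀ g : LaurentSeries k, (a • g).coeff n = a * g.coeff n := fun g => by
      rw [HahnSeries.coeff_smul, smul_eq_mul]
    have h2 : ∀ g : LaurentSeries k,
        (algebraMap k (LaurentSeries k) a * g).coeff n = a * g.coeff n := fun g => by
      rw [LaurentSeries.algebraMap_apply, HahnSeries.C_apply,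
        HahnSeries.coeff_single_zero_mul]
    simp only [RingHom.id_apply, Algebra.smul_def, partC_thetaFun_coeff, h2]
    rw [h1]; simp only [partC_thetaFun_coeff]; ring
  map_one_eq_zero' := by
    ext n
    show (partC_thetaFun (1 : LaurentSeries k)).coeff n = 0
    rw [partC_thetaFun_coeff, HahnSeries.coeff_one]
    split_ifs with h
    · subst h; simp
    · simp
  leibniz' f g := by
    show partC_thetaFun (f * g) = f • partC_thetaFun g + g • partC_thetaFun f
    rw [partC_thetaFun_mul, smul_eq_mul, smul_eq_mul]
    ring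

@[simp] theorem partC_theta_coeff (f : LaurentSeries k) (n : ℤ) :
    (partC_theta f).coeff n = (n : k) * f.coeff n := rfl

/-- `θ (f(q^m)) = m • (θ f)(q^m)`. -/
theorem partC_theta_qExpand (m : ℕ) [NeZero m] (f : LaurentSeries k) :
    partC_theta (qExpand k m f) = HahnSeries.C (m : k) * qExpand k m (partC_theta f) := by
  ext n
  rw [HahnSeries.C_mul_eq_smul, HahnSeries.coeff_smul, smul_eq_mul]
  by_cases hn : (m : ℤ) ∣ n
  · obtain ⟨c, rfl⟩ := hn
    rw [partC_theta_coeff, qExpand_coeff_mul, qExpand_coeff_mul, partC_theta_coeff]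
    push_cast
    ring
  · rw [partC_theta_coeff, qExpand_coeff_of_not_dvd m _ hn, qExpand_coeff_of_not_dvd m _ hn]
    simp

theorem partC_eq_theta_of_coeff (J T : LaurentSeries k)
    (hT : ∀ n : ℤ, T.coeff n = (n : k) * J.coeff n) : T = partC_theta J := by
  ext n; rw [hT, partC_theta_coeff]

/-! ### Basic facts on `qExpand` -/

theorem partC_coeff_eq_zero_of_mem_range_qExpand (m : ℕ) [NeZero m] {f : LaurentSeries k}
    (hf : f ∈ Set.range (qExpand k m)) {n : ℤ} (hn : ¬ (m : ℤ) ∣ n) : f.coeff n = 0 := by
  obtain ⟨g, rfl⟩ := hf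
  exact qExpand_coeff_of_not_dvd m g hn

end Fermat.Agent.S28
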