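import Fermat.Agent.S28.Defs
import Fermat.Prelude.Def_ModularCurve_IgusaScheme

/-!
S28, Part D-Apply, piece Y1 (helper38): the integrality hypothesis `hbint` of the abstract core,
for both charts.  `J(q^d)` (and every integral polynomial expression in the `J(q^d)`, `d ∣ N`) is
integral over `ℤ_(ℓ)[j]`, and becomes integral over `ℤ_(ℓ)[1/j]` after multiplication by a power
of `1/j`.  The integrality of `J(q^d)` over `ℤ[J]` (B1) is an explicit hypothesis.
Everything is in `namespace Fermat.Agent.S28`; own names are prefixed `partD_int_`.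
-/

set_option autoImplicit false

open ModularCurve ModularCurve.IgusaScheme

namespace Fermat.Agent.S28

section ChartInt

variable (N : ℕ) [NeZero N] (ℓ : ℕ) [Fact ℓ.Prime]

/-- `coeffMap` turns the evaluation at `J` over `ℤ` into the evaluation at `J` over `ℚ`. -/
theorem partD_int_coeffMap_comp_evJ :
    (coeffMap (Int.castRingHom ℚ)).comp (evJ ℤ) = evJ ℚ := by
  apply Polynomial.ringHom_ext
  · intro n
    simp [evJ]
  · simp [evJ, coeffMap_jqModC]

/-- The hypothesis (B1) transported to `ℚ((q))`. -/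
theorem partD_int_rat_of_int {d : ℕ} {P : Polynomial (Polynomial ℤ)}
    (hP : P.eval₂ (evJ ℤ) (JdC ℤ d) = 0) : P.eval₂ (evJ ℚ) (JdC ℚ d) = 0 := by
  have h := congrArg (coeffMap (Int.castRingHom ℚ)) hP
  rwa [Polynomial.hom_eval₂, map_zero, partD_int_coeffMap_comp_evJ, coeffMap_JdC] at h

/-- `J(q^d)` lies in the full function field for `d ∣ N`. -/
theorem partD_int_JdC_mem {d : ℕ} (hd : d ∣ N) : JdC ℚ d ∈ modularFunctionFieldFull N := by
  have hd0 : d ≠ 0 := fun h => NeZero.ne N (Nat.eq_zero_of_zero_dvd (h ▸ hd))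
  have : NeZero d := ⟨hd0⟩
  rw [JdC_of_neZero]
  exact jqd_mem_full N hd

/-- The generator `j` as an element of `ℤ_(ℓ)[j]`. -/
noncomputable def partD_int_jGen :
    ↥(Algebra.adjoin ↥(GaloisRep.ratLocalizedAt ℓ) ({jFull N} : Set ↥(modularFunctionFieldFull N))) :=
  ⟨jFull N, Algebra.subset_adjoin rfl⟩

/-- Evaluation `ℤ[Y] → ℤ_(ℓ)[j]`, `Y ↦ j`. -/
noncomputable def partD_int_evR : Polynomial ℤ →+*
    ↥(Algebra.adjoin ↥(GaloisRep.ratLocalizedAt ℓ) ({jFull N} : Set ↥(modularFunctionFieldFull N))) :=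
  Polynomial.eval₂RingHom (Int.castRingHom _) (partD_int_jGen N ℓ)

theorem partD_int_val_comp_evR :
    ((algebraMap ↥(modularFunctionFieldFull N) (LaurentSeries ℚ)).comp
      (algebraMap ↥(Algebra.adjoin ↥(GaloisRep.ratLocalizedAt ℓ)
        ({jFull N} : Set ↥(modularFunctionFieldFull N))) ↥(modularFunctionFieldFull N))).comp
      (partD_int_evR N ℓ) = evJ ℚ := by
  apply Polynomial.ringHom_ext
  · intro n
    simp [evJ]
  · simp only [RingHom.comp_apply, partD_int_evR, Polynomial.coe_eval₂RingHom, Polynomial.eval₂_X,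
      evJ]
    rfl

/-- **(Y1a)** `J(q^d)` is integral over `ℤ_(ℓ)[j]`, i.e. lies in the finite chart. -/
theorem partD_int_Jd_fin
    (hB1 : ∀ d : ℕ, d ≠ 0 →
      ∃ P : Polynomial (Polynomial ℤ), P.Monic ∧ P.eval₂ (evJ ℤ) (JdC ℤ d) = 0)
    (d : ℕ) (hd : d ≠ 0) (x : ↥(modularFunctionFieldFull N))
    (hx : (x : LaurentSeries ℚ) = JdC ℚ d) :
    IsIntegral ↥(Algebra.adjoin ↥(GaloisRep.ratLocalizedAt ℓ)
      ({jFull N} : Set ↥(modularFunctionFieldFull N))) x := by
  obtain ⟨P, hP, hP0⟩ := hB1 d hd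
  refine ⟨P.map (partD_int_evR N ℓ), hP.map _, ?_⟩
  rw [Polynomial.eval₂_map]
  apply Subtype.ext
  have h1 : (algebraMap ↥(modularFunctionFieldFull N) (LaurentSeries ℚ)
      (P.eval₂ ((algebraMap ↥(Algebra.adjoin ↥(GaloisRep.ratLocalizedAt ℓ)
        ({jFull N} : Set ↥(modularFunctionFieldFull N))) ↥(modularFunctionFieldFull N)).comp
          (partD_int_evR N ℓ)) x)) = 0 := by
    rw [Polynomial.hom_eval₂, ← RingHom.comp_assoc, partD_int_val_comp_evR]
    change P.eval₂ (evJ ℚ) (x : LaurentSeries ℚ) = 0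
    rw [hx]
    exact partD_int_rat_of_int hP0
  exact h1

/-- The generators `J(q^d)`, `d ∣ N`, as elements of the full function field. -/
noncomputable def partD_int_gen (d : N.divisors) : ↥(modularFunctionFieldFull N) :=
  ⟨JdC ℚ d.1, partD_int_JdC_mem N (Nat.dvd_of_mem_divisors d.2)⟩

/-- The element of the full function field with `q`-expansion `P(J(q^d) : d ∣ N)`. -/
noncomputable def partD_int_bF (P : MvPolynomial N.divisors ℤ) : ↥(modularFunctionFieldFull N) :=
  MvPolynomial.eval₂ (Int.castRingHom _) (partD_int_gen N) P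

theorem partD_int_bF_coe (P : MvPolynomial N.divisors ℤ) :
    (partD_int_bF N P : LaurentSeries ℚ) =
      MvPolynomial.eval₂ (Int.castRingHom (LaurentSeries ℚ))
        (fun d : N.divisors => JdC ℚ d.1) P := by
  have h := MvPolynomial.eval₂_comp_left
    (algebraMap ↥(modularFunctionFieldFull N) (LaurentSeries ℚ))
    (Int.castRingHom ↥(modularFunctionFieldFull N)) (partD_int_gen N) P
  have h2 : (algebraMap ↥(modularFunctionFieldFull N) (LaurentSeries ℚ)).comp
      (Int.castRingHom ↥(modularFunctionFieldFull N)) = Int.castRingHom (LaurentSeries ℚ) :=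
    RingHom.ext_int _ _
  rw [h2] at h
  exact h

theorem partD_int_eq_bF (P : MvPolynomial N.divisors ℤ) (x : ↥(modularFunctionFieldFull N))
    (hx : (x : LaurentSeries ℚ) = MvPolynomial.eval₂ (Int.castRingHom (LaurentSeries ℚ))
      (fun d : N.divisors => JdC ℚ d.1) P) : x = partD_int_bF N P :=
  Subtype.ext (hx.trans (partD_int_bF_coe N P).symm)

/-- **(Y1b)** every integral polynomial expression in the `J(q^d)`, `d ∣ N`, lies in the finite
chart. -/
theorem partD_int_bF_mem_chartAlgFin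
    (hB1 : ∀ d : ℕ, d ≠ 0 →
      ∃ P : Polynomial (Polynomial ℤ), P.Monic ∧ P.eval₂ (evJ ℤ) (JdC ℤ d) = 0)
    (P : MvPolynomial N.divisors ℤ) : partD_int_bF N P ∈ chartAlgFin N ℓ := by
  unfold partD_int_bF
  induction P using MvPolynomial.induction_on with
  | C a =>
    rw [MvPolynomial.eval₂_C]
    exact intCast_mem _ a
  | add p q hp hq =>
    rw [MvPolynomial.eval₂_add]
    exact add_mem hp hq
  | mul_X p i hp =>
    rw [MvPolynomial.eval₂_mul, MvPolynomial.eval₂_X]
    refine mul_mem hp ?_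
    have hi : (i : ℕ) ≠ 0 := (Nat.pos_of_mem_divisors i.2).ne'
    exact (mem_chartAlg_iff N ℓ).mpr (partD_int_Jd_fin N ℓ hB1 i.1 hi _ rfl)

/-- **(Y1b)**, stated for any element with the given `q`-expansion. -/
theorem partD_int_eval_fin
    (hB1 : ∀ d : ℕ, d ≠ 0 →
      ∃ P : Polynomial (Polynomial ℤ), P.Monic ∧ P.eval₂ (evJ ℤ) (JdC ℤ d) = 0)
    (P : MvPolynomial N.divisors ℤ) (x : ↥(modularFunctionFieldFull N))
    (hx : (x : LaurentSeries ℚ) = MvPolynomial.eval₂ (Int.castRingHom (LaurentSeries ℚ))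
      (fun d : N.divisors => JdC ℚ d.1) P) :
    IsIntegral ↥(Algebra.adjoin ↥(GaloisRep.ratLocalizedAt ℓ)
      ({jFull N} : Set ↥(modularFunctionFieldFull N))) x := by
  rw [partD_int_eq_bF N P x hx]
  exact (mem_chartAlg_iff N ℓ).mp (partD_int_bF_mem_chartAlgFin N ℓ hB1 P)

/-- An element of the finite chart lands in the chart at infinity after multiplication by a power
of `1/j`. -/
theorem partD_int_pow_mul_mem_chartAlgInf {x : ↥(modularFunctionFieldFull N)}
    (hx : x ∈ chartAlgFin N ℓ) : ∃ m : ℕ, (jFull N)⁻¹ ^ m * x ∈ chartAlgInf N ℓ := by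
  have hx' : x ∈ chartAlg N ℓ (insert ((jFull N)⁻¹)⁻¹ {(jFull N)⁻¹}) := by
    rw [inv_inv]
    exact chartAlg_mono N ℓ (sFin_subset N) hx
  exact exists_pow_mul_mem_chartAlg (Set.mem_singleton _) (inv_ne_zero (jFull_ne_zero N)) hx'

/-- **(Y1c)** every integral polynomial expression in the `J(q^d)`, `d ∣ N`, becomes integral over
`ℤ_(ℓ)[1/j]` after multiplication by a power of `1/j`. -/
theorem partD_int_eval_inf
    (hB1 : ∀ d : ℕ, d ≠ 0 →
      ∃ P : Polynomial (Polynomial ℤ), P.Monic ∧ P.eval₂ (evJ ℤ) (JdC ℤ d) = 0)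
    (P : MvPolynomial N.divisors ℤ) (x : ↥(modularFunctionFieldFull N))
    (hx : (x : LaurentSeries ℚ) = MvPolynomial.eval₂ (Int.castRingHom (LaurentSeries ℚ))
      (fun d : N.divisors => JdC ℚ d.1) P) :
    ∃ m : ℕ, IsIntegral ↥(Algebra.adjoin ↥(GaloisRep.ratLocalizedAt ℓ)
      ({(jFull N)⁻¹} : Set ↥(modularFunctionFieldFull N))) ((jFull N)⁻¹ ^ m * x) := by
  rw [partD_int_eq_bF N P x hx]
  obtain ⟨m, hm⟩ := partD_int_pow_mul_mem_chartAlgInf N ℓ
    (partD_int_bF_mem_chartAlgFin N ℓ hB1 P)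
  exact ⟨m, (mem_chartAlg_iff N ℓ).mp hm⟩

end ChartInt

end Fermat.Agent.S28
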