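/-
S28 helper (helper44): base change of a ring with an injective "q-expansion mod ℓ" map.

Generic commutative algebra, no dependence on the S28 skeleton:

* `h44_exists_finsupp_tmul`: if `R → k` is surjective (`k` a field) and `b` is a `k`-basis of `K`,
  every element of `M ⊗[R] K` is a finite sum `∑ mᵢ ⊗ bᵢ`.
* `h44_tensor_laurent_injective`: if `ρ : A →+* k((q))` is a ring hom compatible with `R → k`
  whose kernel is contained in `(ker (R → k)) • A`, then
  `a ⊗ c ↦ C c * coeffMap (ρ a)` is an injective ring hom `A ⊗[R] K →+* K((q))`.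
* `h44_isDomain_tensor`: consequently `A ⊗[R] K` is a domain.
-/
import Mathlib
import Fermat.Prelude.Def_ModularCurve_LaurentCoeff

set_option autoImplicit false

open scoped TensorProduct
open ModularCurve

namespace Fermat.Agent.S28

section Finsupp

variable {R : Type*} [CommRing R] {k : Type*} [Field k] [Algebra R k]
variable {M : Type*} [AddCommGroup M] [Module R M]
variable {K : Type*} [AddCommGroup K] [Module R K] [Module k K] [IsScalarTower R k K]

/-- If `R → k` is surjective and `b` is a `k`-basis of `K`, every element of `M ⊗[R] K` is a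
finite sum of pure tensors `m i ⊗ₜ b i`. -/
theorem h44_exists_finsupp_tmul (hsurj : Function.Surjective (algebraMap R k))
    {ι : Type*} (b : Module.Basis ι k K) (t : M ⊗[R] K) :
    ∃ m : ι →₀ M, t = m.sum fun i x => x ⊗ₜ[R] b i := by
  classical
  have hadd : ∀ (i : ι) (y₁ y₂ : M), (y₁ + y₂) ⊗ₜ[R] b i = y₁ ⊗ₜ[R] b i + y₂ ⊗ₜ[R] b i :=
    fun i y₁ y₂ => TensorProduct.add_tmul _ _ _
  have hzero : ∀ i : ι, (0 : M) ⊗ₜ[R] b i = 0 := fun i => TensorProduct.zero_tmul _ _
  induction t using TensorProduct.induction_on with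
  | zero => exact ⟨0, by simp⟩
  | tmul x c =>
    choose lift hlift using hsurj
    refine ⟨∑ i ∈ (b.repr c).support, Finsupp.single i (lift (b.repr c i) • x), ?_⟩
    rw [← Finsupp.sum_finsetSum_index hzero hadd]
    have hs : ∀ i ∈ (b.repr c).support,
        ((Finsupp.single i (lift (b.repr c i) • x) : ι →₀ M).sum fun i x => x ⊗ₜ[R] b i) =
          (lift (b.repr c i) • x) ⊗ₜ[R] b i :=
      fun i _ => Finsupp.sum_single_index (hzero i)
    rw [Finset.sum_congr rfl hs]
    have hc : c = ∑ i ∈ (b.repr c).support, (b.repr c i) • b i := by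
      conv_lhs => rw [← b.linearCombination_repr c]
      rw [Finsupp.linearCombination_apply, Finsupp.sum]
    conv_lhs => rw [hc]
    rw [TensorProduct.tmul_sum]
    refine Finset.sum_congr rfl fun i _ => ?_
    have h1 : (b.repr c i) • b i = lift (b.repr c i) • b i := by
      rw [← hlift (b.repr c i), algebraMap_smul, hlift]
    rw [h1, TensorProduct.tmul_smul, TensorProduct.smul_tmul']
  | add t₁ t₂ h₁ h₂ =>
    obtain ⟨m₁, rfl⟩ := h₁
    obtain ⟨m₂, rfl⟩ := h₂
    exact ⟨m₁ + m₂, (Finsupp.sum_add_index' hzero hadd).symm⟩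

end Finsupp

section Laurent

variable {R : Type*} [CommRing R] {A : Type*} [CommRing A] [Algebra R A]
variable {k : Type*} [Field k] [Algebra R k]
variable {K : Type*} [Field K] [Algebra R K] [Algebra k K] [IsScalarTower R k K]

/-- The ring hom `A ⊗[R] K → K((q))`, `a ⊗ c ↦ coeffMap (ρ a) * C c`. -/
noncomputable def h44TensorLaurent (ρ : A →+* LaurentSeries k)
    (hρ : ∀ r : R, ρ (algebraMap R A r) = HahnSeries.C (algebraMap R k r)) :
    A ⊗[R] K →+* LaurentSeries K :=
  letI : Algebra R (LaurentSeries K) :=
    ((HahnSeries.C : K →+* LaurentSeries K).comp (algebraMap R K)).toAlgebra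
  (Algebra.TensorProduct.productMap
    (R := R) (A := A) (B := K) (S := LaurentSeries K)
    { toRingHom := (coeffMap (algebraMap k K)).comp ρ
      commutes' := fun r => by
        show coeffMap (algebraMap k K) (ρ (algebraMap R A r)) =
          HahnSeries.C (algebraMap R K r)
        rw [hρ, HahnSeries.C_apply, coeffMap_single,
          ← IsScalarTower.algebraMap_apply, HahnSeries.C_apply] }
    { toRingHom := (HahnSeries.C : K →+* LaurentSeries K)
      commutes' := fun r => rfl }).toRingHom

theorem h44TensorLaurent_tmul (ρ : A →+* LaurentSeries k)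
    (hρ : ∀ r : R, ρ (algebraMap R A r) = HahnSeries.C (algebraMap R k r)) (a : A) (c : K) :
    h44TensorLaurent (K := K) ρ hρ (a ⊗ₜ[R] c) =
      coeffMap (algebraMap k K) (ρ a) * HahnSeries.C c := by
  let _ : Algebra R (LaurentSeries K) :=
    ((HahnSeries.C : K →+* LaurentSeries K).comp (algebraMap R K)).toAlgebra
  show (Algebra.TensorProduct.productMap _ _) (a ⊗ₜ[R] c) = _
  rw [Algebra.TensorProduct.productMap_apply_tmul]
  rfl

/-- **Injectivity of the base-changed expansion map.** If `ρ : A →+* k((q))` is compatible with a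
surjection `R → k` and `ker ρ ⊆ (ker (R → k)) • A`, then `A ⊗[R] K → K((q))` is injective for every
field extension `K / k`. -/
theorem h44_tensor_laurent_injective (hsurj : Function.Surjective (algebraMap R k))
    (ρ : A →+* LaurentSeries k)
    (hρ : ∀ r : R, ρ (algebraMap R A r) = HahnSeries.C (algebraMap R k r))
    (hker : ∀ a : A, ρ a = 0 → ∃ (r : R) (a' : A), algebraMap R k r = 0 ∧ a = r • a') :
    Function.Injective (h44TensorLaurent (K := K) ρ hρ) := by
  classical
  rw [injective_iff_map_eq_zero]
  intro t ht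
  set b := Module.Basis.ofVectorSpace k K with hb
  obtain ⟨m, rfl⟩ := h44_exists_finsupp_tmul (M := A) hsurj b t
  rw [Finsupp.sum, map_sum] at ht
  simp only [h44TensorLaurent_tmul] at ht
  -- every coefficient vanishes, hence every `ρ (m i)` vanishes
  have hzero : ∀ i ∈ m.support, ρ (m i) = 0 := by
    intro i hi
    ext n
    have hn := congrArg (fun x : LaurentSeries K => x.coeff n) ht
    simp only [HahnSeries.coeff_sum, HahnSeries.C_apply, HahnSeries.coeff_mul_single_zero,
      coeffMap_coeff, HahnSeries.coeff_zero] at hn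
    have hlin := b.linearIndependent
    rw [linearIndependent_iff'] at hlin
    have := hlin m.support (fun i => (ρ (m i)).coeff n) (by
      rw [← hn]
      refine Finset.sum_congr rfl fun j _ => ?_
      rw [Algebra.smul_def]) i hi
    simpa using this
  rw [Finsupp.sum]
  refine Finset.sum_eq_zero fun i hi => ?_
  obtain ⟨r, a', hr, ha'⟩ := hker (m i) (hzero i hi)
  rw [ha', ← TensorProduct.smul_tmul', ← TensorProduct.tmul_smul,
    ← algebraMap_smul k r (b i), hr, zero_smul, TensorProduct.tmul_zero]

/-- Under the hypotheses of `h44_tensor_laurent_injective`, `A ⊗[R] K` is a domain. -/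
theorem h44_isDomain_tensor (hsurj : Function.Surjective (algebraMap R k))
    (ρ : A →+* LaurentSeries k)
    (hρ : ∀ r : R, ρ (algebraMap R A r) = HahnSeries.C (algebraMap R k r))
    (hker : ∀ a : A, ρ a = 0 → ∃ (r : R) (a' : A), algebraMap R k r = 0 ∧ a = r • a') :
    IsDomain (A ⊗[R] K) :=
  (h44_tensor_laurent_injective (K := K) hsurj ρ hρ hker).isDomain _

end Laurent

end Fermat.Agent.S28
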