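import Fermat.Agent.S24.Infinity

/-!
S28, Part A (shared analytic lemma): a holomorphic `SL(2,ℤ)`-invariant function on `ℍ` with a
Laurent expansion at `i∞` (in `w = e^{2πiτ/N}`) whose coefficients lie in a subring `R ⊆ ℂ`
is a polynomial in Klein's `j` with coefficients in `R`.
-/

set_option autoImplicit false

open ModularCurve AlgebraicCurve MatrixGroups UpperHalfPlane ModularForm EisensteinSeries

open scoped Manifold

open Fermat.Agent.S24

namespace Fermat.Agent.S28

/-- The expansion of `kleinJ` in `w = e^{2πiτ/N}`, with complex coefficients. -/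
noncomputable def JcN (N : ℕ) [NeZero N] : LaurentSeries ℂ :=
  coeffMap phi (qExpand Kbar N (coeffEmb Kbar jq))

theorem hasWExp_kleinJ (N : ℕ) [NeZero N] : HasWExp N kleinJ (JcN N) :=
  wpA4c_hasWExp_kleinJ

/-- The coefficients of the powers of the formal `j` are integers. -/
theorem h22_jq_pow_coeff_int (M : ℕ) (k : ℤ) : ∃ z : ℤ, (jq ^ M).coeff k = (z : ℚ) := by
  rw [jq_pow, HahnSeries.coeff_single_mul, one_mul]
  by_cases hk : k - -(M : ℤ) < 0
  · exact ⟨0, by rw [ofPowerSeries_coeff_of_neg _ hk]; simp⟩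
  · obtain ⟨m, hm⟩ : ∃ m : ℕ, (m : ℤ) = k - -(M : ℤ) :=
      ⟨(k - -(M : ℤ)).toNat, Int.toNat_of_nonneg (by omega)⟩
    rw [← hm, HahnSeries.ofPowerSeries_apply_coeff]
    have h1 : jNumQ ^ M = PowerSeries.map (Int.castRingHom ℚ) (jNum ^ M) := by
      rw [map_pow]; rfl
    rw [h1, PowerSeries.coeff_map]
    exact ⟨_, rfl⟩

/-- The coefficients of the powers of the expansion of `kleinJ` are integers. -/
theorem JcN_pow_coeff_int (N : ℕ) [NeZero N] (M : ℕ) (k : ℤ) :
    ∃ z : ℤ, ((JcN N) ^ M).coeff k = (z : ℂ) := by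
  have h1 : (JcN N) ^ M = coeffMap phi (qExpand Kbar N (coeffEmb Kbar (jq ^ M))) := by
    rw [JcN, map_pow, map_pow, map_pow]
  rw [h1, coeffMap_coeff]
  by_cases hdvd : (N : ℤ) ∣ k
  · obtain ⟨k', rfl⟩ := hdvd
    obtain ⟨z, hz⟩ := h22_jq_pow_coeff_int M k'
    refine ⟨z, ?_⟩
    rw [qExpand_coeff_mul, coeffEmb_coeff, hz]
    simp
  · refine ⟨0, ?_⟩
    rw [qExpand_coeff_of_not_dvd N _ hdvd]
    simp

theorem JcN_pow_coeff_mem (N : ℕ) [NeZero N] (R : Subring ℂ) (M : ℕ) (k : ℤ) :
    ((JcN N) ^ M).coeff k ∈ R := by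
  obtain ⟨z, hz⟩ := JcN_pow_coeff_int N M k
  rw [hz]
  exact intCast_mem R z

theorem JcN_pow_coeff_self (N : ℕ) [NeZero N] (M : ℕ) :
    ((JcN N) ^ M).coeff (-((N : ℤ) * M)) = 1 := by
  have h1 : (JcN N) ^ M = coeffMap phi ((qExpand Kbar N (coeffEmb Kbar jq)) ^ M) := by
    rw [JcN, map_pow]
  rw [h1, coeffMap_coeff, wpA4c_jpow_coeff_self, map_one]

theorem JcN_pow_coeff_of_lt (N : ℕ) [NeZero N] (M : ℕ) {k : ℤ} (hk : k < -((N : ℤ) * M)) :
    ((JcN N) ^ M).coeff k = 0 := by
  have h1 : (JcN N) ^ M = coeffMap phi ((qExpand Kbar N (coeffEmb Kbar jq)) ^ M) := by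
    rw [JcN, map_pow]
  rw [h1, coeffMap_coeff, wpA4c_jpow_coeff_of_lt M hk, map_zero]

/-- A polynomial in `kleinJ` has the expected expansion. -/
theorem hasWExp_eval_kleinJ (N : ℕ) [NeZero N] (P : Polynomial ℂ) :
    HasWExp N (fun τ => P.eval (kleinJ τ)) (P.eval₂ HahnSeries.C (JcN N)) := by
  induction P using Polynomial.induction_on' with
  | add p q hp hq =>
    have e : (fun τ => (p + q).eval (kleinJ τ)) =
        (fun τ => p.eval (kleinJ τ)) + (fun τ => q.eval (kleinJ τ)) := by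
      funext τ
      simp
    rw [e, Polynomial.eval₂_add]
    exact hp.add hq
  | monomial n a =>
    have e : (fun τ => (Polynomial.monomial n a).eval (kleinJ τ)) =
        (fun _ : ℍ => a) * kleinJ ^ n := by
      funext τ
      simp
    rw [e, Polynomial.eval₂_monomial]
    exact (hasWExp_const N a).mul (wpA4c_hasWExp_pow (hasWExp_kleinJ N) n)

theorem h22_levelOne_aux (N : ℕ) [NeZero N] (R : Subring ℂ) (M : ℕ) :
    ∀ f : ℍ → ℂ, (∀ g : SL(2, ℤ), actFn g f = f) → ∀ L : LaurentSeries ℂ, HasWExp N f L →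
    (∀ n : ℤ, L.coeff n ∈ R) → (∀ n : ℤ, n < -(M : ℤ) → L.coeff n = 0) →
    ∃ P : Polynomial R, f = fun τ => (P.map R.subtype).eval (kleinJ τ) := by
  induction M with
  | zero =>
    intro f hinv L hL hR hcoeff
    have ht := hL.tendsto (fun n hn => hcoeff n (by simpa using hn))
    have hconst := wpA4c_const_of_invariant hL.mdiff hinv ht
    refine ⟨Polynomial.C ⟨L.coeff 0, hR 0⟩, ?_⟩
    rw [hconst]
    funext τ
    simp
  | succ M ih =>
    intro f hinv L hL hR hcoeff
    by_cases hc : L.coeff (-((M : ℤ) + 1)) = 0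
    · apply ih f hinv L hL hR
      intro n hn
      rcases lt_or_eq_of_le (show n ≤ -((M : ℤ) + 1) by omega) with h | h
      · exact hcoeff n (by push_cast; omega)
      · rw [h]; exact hc
    · have h1 := hL.twist 1
      rw [pow_one, hinv] at h1
      have h2 : twistL N 1 L = L := h1.unique hL
      have h3 : (N : ℤ) ∣ ((1 : ℕ) : ℤ) * (-((M : ℤ) + 1)) := wpA4c_dvd_of_twistL_eq h2 hc
      obtain ⟨e, he⟩ := h3
      have hNpos : (0 : ℤ) < N := by exact_mod_cast Nat.pos_of_ne_zero (NeZero.ne N)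
      have he0 : e < 0 := by
        by_contra hcon
        have : 0 ≤ (N : ℤ) * e := mul_nonneg hNpos.le (not_lt.1 hcon)
        push_cast at he
        omega
      obtain ⟨M', hM'⟩ : ∃ M' : ℕ, (M' : ℤ) = -e := ⟨(-e).toNat, Int.toNat_of_nonneg (by omega)⟩
      have hNM : (N : ℤ) * M' = (M : ℤ) + 1 := by
        rw [hM']
        push_cast at he
        linarith
      set c := L.coeff (-((M : ℤ) + 1)) with hcdef
      have hcR : c ∈ R := hR _
      have hinv' : ∀ g : SL(2, ℤ), actFn g (f + (fun _ : ℍ => -c) * kleinJ ^ M') =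
          f + (fun _ : ℍ => -c) * kleinJ ^ M' := by
        intro g
        funext τ
        have e1 := congrFun (hinv g) τ
        have e2 := congrFun (wpA4c_actFn_kleinJ g) τ
        simp only [actFn_apply, Pi.add_apply, Pi.mul_apply, Pi.pow_apply] at e1 e2 ⊢
        rw [e1, e2]
      have hL' : HasWExp N (f + (fun _ : ℍ => -c) * kleinJ ^ M')
          (L + HahnSeries.C (-c) * (JcN N) ^ M') :=
        hL.add ((hasWExp_const N (-c)).mul (wpA4c_hasWExp_pow (hasWExp_kleinJ N) M'))
      have hR' : ∀ n : ℤ, (L + HahnSeries.C (-c) * (JcN N) ^ M').coeff n ∈ R := by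
        intro n
        rw [HahnSeries.coeff_add, HahnSeries.C_mul_eq_smul, HahnSeries.coeff_smul, smul_eq_mul]
        exact R.add_mem (hR n) (R.mul_mem (R.neg_mem hcR) (JcN_pow_coeff_mem N R M' n))
      have hcoeff' : ∀ n : ℤ, n < -(M : ℤ) →
          (L + HahnSeries.C (-c) * (JcN N) ^ M').coeff n = 0 := by
        intro n hn
        rw [HahnSeries.coeff_add, HahnSeries.C_mul_eq_smul, HahnSeries.coeff_smul, smul_eq_mul]
        rcases lt_or_eq_of_le (show n ≤ -((M : ℤ) + 1) by omega) with h | h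
        · rw [hcoeff n (by push_cast; omega), JcN_pow_coeff_of_lt N M' (by rw [hNM]; exact h)]
          simp
        · have h' : n = -((N : ℤ) * M') := by rw [hNM]; exact h
          rw [h', JcN_pow_coeff_self, ← hNM] at *
          rw [hcdef]
          ring
      obtain ⟨P', hP'⟩ := ih _ hinv' _ hL' hR' hcoeff'
      refine ⟨P' + Polynomial.C ⟨c, hcR⟩ * Polynomial.X ^ M', ?_⟩
      funext τ
      have e3 := congrFun hP' τ
      simp only [Pi.add_apply, Pi.mul_apply, Pi.pow_apply] at e3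
      simp only [Polynomial.map_add, Polynomial.map_mul, Polynomial.map_C, Polynomial.map_pow,
        Polynomial.map_X, Polynomial.eval_add, Polynomial.eval_mul, Polynomial.eval_C,
        Polynomial.eval_pow, Polynomial.eval_X, Subring.coe_subtype]
      rw [← e3]
      ring

/-- **Level-one principle with coefficients.** A holomorphic `SL(2,ℤ)`-invariant function with an
expansion at `i∞` in `w = e^{2πiτ/N}` (finite principal part) whose coefficients lie in a subring
`R ⊆ ℂ` is a polynomial in `kleinJ` with coefficients in `R`. -/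
theorem invariant_eq_eval_kleinJ (N : ℕ) [NeZero N] (R : Subring ℂ) (f : ℍ → ℂ)
    (hinv : ∀ g : SL(2, ℤ), actFn g f = f) (L : LaurentSeries ℂ) (hL : HasWExp N f L)
    (hR : ∀ n : ℤ, L.coeff n ∈ R) :
    ∃ P : Polynomial R, f = fun τ => (P.map R.subtype).eval (kleinJ τ) := by
  by_cases hL0 : L = 0
  · have : f = 0 := hL.eq_zero_iff.2 hL0
    refine ⟨0, ?_⟩
    rw [this]
    funext τ
    simp
  · obtain ⟨M, hM⟩ : ∃ M : ℕ, -(M : ℤ) ≤ L.order :=
      ⟨(-L.order).toNat, by have := Int.self_le_toNat (-L.order); omega⟩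
    exact h22_levelOne_aux N R M f hinv L hL hR
      (fun n hn => HahnSeries.coeff_eq_zero_of_lt_order (lt_of_lt_of_le hn hM))

/-- Formal counterpart: the expansion is the same polynomial in the expansion of `kleinJ`. -/
theorem invariant_expansion_eq (N : ℕ) [NeZero N] (R : Subring ℂ) (f : ℍ → ℂ)
    (hinv : ∀ g : SL(2, ℤ), actFn g f = f) (L : LaurentSeries ℂ) (hL : HasWExp N f L)
    (hR : ∀ n : ℤ, L.coeff n ∈ R) :
    ∃ P : Polynomial R, (f = fun τ => (P.map R.subtype).eval (kleinJ τ)) ∧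
      L = (P.map R.subtype).eval₂ HahnSeries.C (JcN N) := by
  obtain ⟨P, hP⟩ := invariant_eq_eval_kleinJ N R f hinv L hL hR
  refine ⟨P, hP, ?_⟩
  have h := hasWExp_eval_kleinJ N (P.map R.subtype)
  rw [← hP] at h
  exact hL.unique h

end Fermat.Agent.S28
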