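import Fermat.Agent.S28.ModEqDescent

/-!
S28, Part A1 (pure algebra): from the coefficients of `(X - J(w^(p^2))) * ∏_b (X - J(ζ^b w))`
being integer polynomials in `J(w^p)` to the modular equation in the exact export shape.
-/

set_option autoImplicit false

open ModularCurve

namespace Fermat.Agent.S28

noncomputable section

theorem h82_qExpand_comp_evJ (p : ℕ) [NeZero p] : (qExpand ℤ p).comp (evJ ℤ) = evJd ℤ p := by
  apply Polynomial.ringHom_ext
  · intro a
    simp [evJ, evJd]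
  · simp [evJ, evJd, JdC_of_neZero]

/-- `J(w^(p^2))` is a root. -/
theorem h82_Phi_eval_top (R : Type*) [CommRing R] (p : ℕ) [NeZero p] (ζ : Rˣ) :
    (h82_Phi R p ζ).eval (qExpand R p (qExpand R p (jqModC R))) = 0 := by
  unfold h82_Phi
  rw [Polynomial.eval_mul, Polynomial.eval_sub, Polynomial.eval_X, Polynomial.eval_C, sub_self,
    zero_mul]

/-- `J(w)` is a root. -/
theorem h82_Phi_eval_self (R : Type*) [CommRing R] (p : ℕ) [NeZero p] (ζ : Rˣ) :
    (h82_Phi R p ζ).eval (jqModC R) = 0 := by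
  unfold h82_Phi
  rw [Polynomial.eval_mul, Polynomial.eval_prod]
  have h0 : ∏ b : Fin p, (Polynomial.X - Polynomial.C (twist (ζ ^ (b : ℕ)) (jqModC R)) :
      Polynomial (LaurentSeries R)).eval (jqModC R) = 0 := by
    refine Finset.prod_eq_zero (Finset.mem_univ (⟨0, NeZero.pos p⟩ : Fin p)) ?_
    rw [Polynomial.eval_sub, Polynomial.eval_X, Polynomial.eval_C, pow_zero, twist_one, sub_self]
  rw [h0, mul_zero]

/-- **Final glue for the modular equation**: if the lower coefficients of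
`(X - J(w^(p^2))) * ∏_b (X - J(ζ^b w))` are integer polynomials in `J(w^p)`, then the modular
equation holds in the export shape. -/
theorem modEq_of_coeffs (p : ℕ) [NeZero p] (ζ : ℂˣ)
    (hcoef : ∀ k < p + 1, ∃ P : Polynomial ℤ,
      coeffMap (Int.castRingHom ℂ) (qExpand ℤ p (evJ ℤ P)) = (h82_Phi ℂ p ζ).coeff k) :
    ∃ Φ : Polynomial (Polynomial ℤ), Φ.Monic ∧ Φ.natDegree = p + 1 ∧
      Φ.eval₂ (evJ ℤ) (JdC ℤ p) = 0 ∧ Φ.eval₂ (evJd ℤ p) (jqModC ℤ) = 0 := by
  classical
  have hcoef' : ∀ k : ℕ, ∃ P : Polynomial ℤ, k < p + 1 →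
      coeffMap (Int.castRingHom ℂ) (qExpand ℤ p (evJ ℤ P)) = (h82_Phi ℂ p ζ).coeff k := fun k => by
    by_cases hk : k < p + 1
    · obtain ⟨P, hP⟩ := hcoef k hk
      exact ⟨P, fun _ => hP⟩
    · exact ⟨0, fun h => absurd h hk⟩
  choose P hP using hcoef'
  set Q : Polynomial (Polynomial ℤ) :=
    ∑ k ∈ Finset.range (p + 1), Polynomial.C (P k) * Polynomial.X ^ k with hQ
  have hQcoeff : ∀ m, Q.coeff m = if m < p + 1 then P m else 0 := fun m => by
    rw [hQ, Polynomial.finsetSum_coeff]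
    simp only [Polynomial.coeff_C_mul_X_pow]
    rw [Finset.sum_ite_eq]
    simp
  have hQdeg : Q.degree < ((p + 1 : ℕ) : WithBot ℕ) := by
    rw [Polynomial.degree_lt_iff_coeff_zero]
    intro m hm
    rw [hQcoeff, if_neg (by omega)]
  set Φ : Polynomial (Polynomial ℤ) := Polynomial.X ^ (p + 1) + Q with hΦ
  have hmonic : Φ.Monic := Polynomial.monic_X_pow_add hQdeg
  have hnat : Φ.natDegree = p + 1 := by
    apply Polynomial.natDegree_eq_of_degree_eq_some
    rw [hΦ, Polynomial.degree_add_eq_left_of_degree_lt (by rwa [Polynomial.degree_X_pow]),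
      Polynomial.degree_X_pow]
  set ev : Polynomial ℤ →+* LaurentSeries ℂ :=
    (coeffMap (Int.castRingHom ℂ)).comp ((qExpand ℤ p).comp (evJ ℤ)) with hev
  have hmap : Φ.map ev = h82_Phi ℂ p ζ := by
    ext k : 1
    rw [Polynomial.coeff_map, hΦ, Polynomial.coeff_add, Polynomial.coeff_X_pow, hQcoeff]
    rcases lt_trichotomy k (p + 1) with hk | hk | hk
    · rw [if_neg hk.ne, if_pos hk, zero_add]
      exact hP k hk
    · rw [if_pos hk, if_neg hk.not_lt, add_zero, map_one, hk]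
      have h1 := h82_Phi_monic ℂ p ζ
      rw [Polynomial.Monic, Polynomial.leadingCoeff, h82_Phi_natDegree ℂ p ζ] at h1
      exact h1.symm
    · rw [if_neg hk.ne', if_neg (by omega), add_zero, map_zero]
      exact (Polynomial.coeff_eq_zero_of_natDegree_lt
        (by rw [h82_Phi_natDegree ℂ p ζ]; exact hk)).symm
  have hinjc : Function.Injective (coeffMap (Int.castRingHom ℂ)) :=
    h82_coeffMap_injective _ Int.cast_injective
  refine ⟨Φ, hmonic, hnat, ?_, ?_⟩
  · apply qExpand_injective p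
    apply hinjc
    rw [map_zero, map_zero]
    have h1 := Polynomial.hom_eval₂ Φ (evJ ℤ)
      ((coeffMap (Int.castRingHom ℂ)).comp (qExpand ℤ p)) (JdC ℤ p)
    rw [RingHom.comp_apply] at h1
    rw [h1, RingHom.comp_assoc, ← hev, ← Polynomial.eval_map, hmap, RingHom.comp_apply,
      JdC_of_neZero, coeffMap_qExpand, coeffMap_qExpand, coeffMap_jqModC]
    exact h82_Phi_eval_top ℂ p ζ
  · apply hinjc
    rw [map_zero]
    have h1 := Polynomial.hom_eval₂ Φ (evJd ℤ p) (coeffMap (Int.castRingHom ℂ)) (jqModC ℤ)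
    rw [h1, ← h82_qExpand_comp_evJ, ← hev, ← Polynomial.eval_map, hmap, coeffMap_jqModC]
    exact h82_Phi_eval_self ℂ p ζ

theorem h82_evJ_eq_aeval (R : Type*) [CommRing R] (P : Polynomial ℤ) :
    evJ R P = Polynomial.aeval (jqModC R) P := by
  rw [evJ, Polynomial.coe_eval₂RingHom, Polynomial.aeval_def]
  congr 1
  exact RingHom.ext_int _ _

/-- Variant of `modEq_of_coeffs` with the hypothesis phrased with `Polynomial.aeval` and the
integral series `M k` of `modEq_descent`. -/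
theorem modEq_of_coeffs' (p : ℕ) [NeZero p] (ζ : ℂˣ)
    (hcoef : ∀ k < p + 1, ∃ (M : LaurentSeries ℤ) (P : Polynomial ℤ),
      coeffMap (Int.castRingHom ℂ) M = (h82_Phi ℂ p ζ).coeff k ∧
      M = qExpand ℤ p (Polynomial.aeval (jqModC ℤ) P)) :
    ∃ Φ : Polynomial (Polynomial ℤ), Φ.Monic ∧ Φ.natDegree = p + 1 ∧
      Φ.eval₂ (evJ ℤ) (JdC ℤ p) = 0 ∧ Φ.eval₂ (evJd ℤ p) (jqModC ℤ) = 0 := by
  refine modEq_of_coeffs p ζ fun k hk => ?_
  obtain ⟨M, P, h1, h2⟩ := hcoef k hk
  exact ⟨P, by rw [h82_evJ_eq_aeval, ← h2, h1]⟩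

end

end Fermat.Agent.S28
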