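import Fermat.Agent.S28.InvFamily
import Fermat.Agent.S24.EtaBridge
import Fermat.Agent.S24.JFun

/-!
S28, Part A2 (expansions): building blocks for the expansions at `i∞` of `Δ(z(τ))` and
`Δ(z(τ))⁻¹` when `e^{2πi z(τ)} = ξ · w^e`, `w = e^{2πiτ/N}`.
-/

set_option autoImplicit false

open ModularCurve AlgebraicCurve MatrixGroups UpperHalfPlane ModularForm EisensteinSeries

open scoped Manifold

open Fermat.Agent.S24

namespace Fermat.Agent.S28

/-- `E(q) = ∏ (1 - q^n)^24` on the unit disc. -/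
noncomputable def Efun (q : ℂ) : ℂ := (∏' n : ℕ, (1 - q ^ (n + 1))) ^ 24

theorem Efun_differentiableOn : DifferentiableOn ℂ Efun (Metric.ball 0 1) :=
  ModularForm.differentiableOn_tprod_one_sub_pow.fun_pow 24

theorem EfunInv_differentiableOn :
    DifferentiableOn ℂ (fun q : ℂ => (Efun q)⁻¹) (Metric.ball 0 1) :=
  aj5_differentiableOn_etaInv

theorem Efun_ne_zero {q : ℂ} (hq : ‖q‖ < 1) : Efun q ≠ 0 :=
  pow_ne_zero 24 (aj5_tprod_ne_zero hq)

/-- Coefficients of `E`. -/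
noncomputable def cE (n : ℕ) : ℂ := ((PowerSeries.coeff n dedekindEtaUnit : ℤ) : ℂ)

/-- Coefficients of `1 / E`. -/
noncomputable def cEinv (n : ℕ) : ℂ := ((PowerSeries.coeff n dedekindEtaUnitInv : ℤ) : ℂ)

theorem hasSum_Efun (q : ℂ) (hq : ‖q‖ < 1) : HasSum (fun n : ℕ => cE n * q ^ n) (Efun q) := by
  have hF : AnalyticAt ℂ (fun q : ℂ => ∏' n : ℕ, (1 - q ^ (n + 1))) 0 :=
    ModularForm.differentiableOn_tprod_one_sub_pow.analyticAt aj5_ball_mem_nhds
  have h1 : aj5_ts Efun = PowerSeries.map (Int.castRingHom ℂ) dedekindEtaUnit := by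
    show aj5_ts (fun q : ℂ => (∏' n : ℕ, (1 - q ^ (n + 1))) ^ 24) = _
    rw [aj5_ts_pow hF, aj5_ts_tprod, dedekindEtaUnit, map_pow]
  have h := aj5_hasSum_ts Efun_differentiableOn hq
  rw [h1] at h
  simpa [PowerSeries.coeff_map, cE] using h

theorem hasSum_EfunInv (q : ℂ) (hq : ‖q‖ < 1) :
    HasSum (fun n : ℕ => cEinv n * q ^ n) (Efun q)⁻¹ :=
  aj5_hasSum_etaUnitInv q hq

theorem disc_eq_q_mul_Efun (z : ℍ) :
    ModularForm.discriminant z =
      Function.Periodic.qParam 1 z * Efun (Function.Periodic.qParam 1 z) := by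
  have hq : ‖Function.Periodic.qParam 1 (z : ℂ)‖ < 1 :=
    Function.Periodic.norm_qParam_lt_one one_pos z.im_pos
  rw [Efun, ModularForm.discriminant_eq_q_prod, (ModularForm.multipliable_one_sub_pow hq).tprod_pow]

/-! ### The series `∑ ξ^n c_n w^{e n}` -/

/-- The series `∑ ξ^n c_n w^{e n}`. -/
noncomputable def serZ (c : ℕ → ℂ) (e : ℕ) (ξ : ℂ) : LaurentSeries ℂ :=
  HahnSeries.ofPowerSeries ℤ ℂ
    (PowerSeries.mk fun k => if e ∣ k then ξ ^ (k / e) * c (k / e) else 0)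

theorem serZ_coeff_mem (R : Subring ℂ) (c : ℕ → ℂ) (e : ℕ) (ξ : ℂ) (hξ : ξ ∈ R)
    (hc : ∀ n, c n ∈ R) (n : ℤ) : (serZ c e ξ).coeff n ∈ R := by
  unfold serZ
  rcases lt_or_ge n 0 with hn | hn
  · rw [ofPowerSeries_coeff_of_neg _ hn]
    exact R.zero_mem
  · lift n to ℕ using hn
    rw [HahnSeries.ofPowerSeries_apply_coeff, PowerSeries.coeff_mk]
    split_ifs
    · exact R.mul_mem (R.pow_mem hξ _) (hc _)
    · exact R.zero_mem

theorem serZ_one (c : ℕ → ℂ) (e : ℕ) [NeZero e] :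
    serZ c e 1 = qExpand ℂ e (HahnSeries.ofPowerSeries ℤ ℂ (PowerSeries.mk c)) := by
  have he : 0 < e := Nat.pos_of_ne_zero (NeZero.ne e)
  ext k
  unfold serZ
  by_cases hk : (e : ℤ) ∣ k
  · obtain ⟨m, rfl⟩ := hk
    rw [qExpand_coeff_mul]
    rcases lt_or_ge m 0 with hm | hm
    · have hem : (e : ℤ) * m < 0 := mul_neg_of_pos_of_neg (by exact_mod_cast he) hm
      rw [ofPowerSeries_coeff_of_neg _ hm, ofPowerSeries_coeff_of_neg _ hem]
    · lift m to ℕ using hm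
      rw [show (e : ℤ) * (m : ℤ) = ((e * m : ℕ) : ℤ) by push_cast; ring,
        HahnSeries.ofPowerSeries_apply_coeff, HahnSeries.ofPowerSeries_apply_coeff,
        PowerSeries.coeff_mk, PowerSeries.coeff_mk, if_pos (dvd_mul_right e m),
        Nat.mul_div_cancel_left _ he, one_pow, one_mul]
  · rw [qExpand_coeff_of_not_dvd e _ hk]
    rcases lt_or_ge k 0 with hk0 | hk0
    · exact ofPowerSeries_coeff_of_neg _ hk0
    · lift k to ℕ using hk0
      rw [HahnSeries.ofPowerSeries_apply_coeff, PowerSeries.coeff_mk, if_neg]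
      intro h
      exact hk (by exact_mod_cast h)

/-! ### Expansions of functions of `ξ w^e` -/

/-- A function `F(ξ w^e)`, `F` holomorphic on the unit disc with Taylor coefficients `c`, has the
expansion `∑ ξ^n c_n w^{e n}`. -/
theorem hasWExp_disc (N : ℕ) [NeZero N] (F : ℂ → ℂ)
    (hF : DifferentiableOn ℂ F (Metric.ball 0 1)) (c : ℕ → ℂ)
    (hc : ∀ q : ℂ, ‖q‖ < 1 → HasSum (fun n : ℕ => c n * q ^ n) (F q))
    (e : ℕ) (he : 0 < e) (ξ : ℂ) (hξ : ‖ξ‖ = 1) :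
    HasWExp N (fun τ : ℍ => F (ξ * wN N τ ^ e)) (serZ c e ξ) := by
  have hnormC : ∀ y : ℂ, 0 < y.im → ‖ξ * Function.Periodic.qParam (N : ℝ) y ^ e‖ < 1 := by
    intro y hy
    rw [norm_mul, hξ, one_mul, norm_pow]
    exact pow_lt_one₀ (norm_nonneg _)
      (Function.Periodic.norm_qParam_lt_one (wpA4a_Npos N) hy) he.ne'
  have hnorm : ∀ τ : ℍ, ‖ξ * wN N τ ^ e‖ < 1 := fun τ => hnormC τ τ.im_pos
  have hmd : MDiff (fun τ : ℍ => F (ξ * wN N τ ^ e)) := by
    rw [UpperHalfPlane.mdifferentiable_iff]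
    intro z hz
    have h1 : DifferentiableWithinAt ℂ
        (fun y : ℂ => ξ * Function.Periodic.qParam (N : ℝ) y ^ e) {z : ℂ | 0 < z.im} z :=
      ((((Function.Periodic.differentiable_qParam (h := (N : ℝ))) z).pow e).const_mul
        ξ).differentiableWithinAt
    have h2 : DifferentiableWithinAt ℂ F (Metric.ball 0 1)
        (ξ * Function.Periodic.qParam (N : ℝ) z ^ e) :=
      hF _ (by simpa using hnormC z hz)
    have h3 := h2.comp z h1 (fun y hy => by simpa using hnormC y hy)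
    refine h3.congr (fun y hy => ?_) ?_
    · simp [Function.comp, ofComplex_apply_of_im_pos hy, wN]
    · simp [Function.comp, ofComplex_apply_of_im_pos hz, wN]
  have h := hasWExp_of_hasSum N _ hmd 0
    (fun k => if e ∣ k then ξ ^ (k / e) * c (k / e) else 0) ?_
  · simpa [serZ] using h
  · intro τ
    have hs := hc _ (hnorm τ)
    have hinj : Function.Injective (fun n : ℕ => e * n) :=
      fun a b hab => Nat.eq_of_mul_eq_mul_left he hab
    rw [pow_zero, mul_one]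
    refine (hinj.hasSum_iff ?_).mp ?_
    · intro k hk
      simp only [Set.mem_range, not_exists] at hk
      have hk' : ¬ e ∣ k := fun ⟨n, hn⟩ => hk n hn.symm
      simp [hk']
    · have e1 : ((fun k : ℕ => (if e ∣ k then ξ ^ (k / e) * c (k / e) else 0) * wN N τ ^ k) ∘
          fun n : ℕ => e * n) = fun n : ℕ => c n * (ξ * wN N τ ^ e) ^ n := by
        funext n
        simp only [Function.comp, dvd_mul_right, if_true, Nat.mul_div_cancel_left _ he]
        rw [mul_pow, ← pow_mul]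
        ring
      rw [e1]
      exact hs

/-- The monomial `w^e`. -/
theorem hasWExp_wN_pow (N : ℕ) [NeZero N] (e : ℕ) :
    HasWExp N (fun τ : ℍ => wN N τ ^ e) (HahnSeries.single (e : ℤ) 1) := by
  have h := hasWExp_of_hasSum N (fun τ : ℍ => wN N τ ^ e) (wpA4a_isNice_wN_pow N e).2.1 0
    (fun n => if n = e then 1 else 0) ?_
  · have e1 : PowerSeries.mk (fun n => if n = e then (1 : ℂ) else 0) = PowerSeries.X ^ e := by
      ext n
      simp [PowerSeries.coeff_X_pow]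
    rw [e1, HahnSeries.ofPowerSeries_X_pow] at h
    simpa using h
  · intro τ
    rw [pow_zero, mul_one]
    have := hasSum_ite_eq e (wN N τ ^ e)
    convert this using 2 with n
    split_ifs with hn
    · rw [hn, one_mul]
    · rw [zero_mul]

/-- The monomial `w^(-e)`. -/
theorem hasWExp_wN_pow_inv (N : ℕ) [NeZero N] (e : ℕ) :
    HasWExp N (fun τ : ℍ => (wN N τ ^ e)⁻¹) (HahnSeries.single (-(e : ℤ)) 1) := by
  have hne : ∀ τ : ℍ, wN N τ ^ e ≠ 0 := fun τ => pow_ne_zero e (wpA4a_wN_ne_zero N τ)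
  have hnice : IsNice N (fun τ : ℍ => (wN N τ ^ e)⁻¹ * wN N τ ^ e) := by
    have : (fun τ : ℍ => (wN N τ ^ e)⁻¹ * wN N τ ^ e) = fun _ => (1 : ℂ) := by
      funext τ
      exact inv_mul_cancel₀ (hne τ)
    rw [this]
    exact wpA4a_isNice_const N 1
  obtain ⟨M, hM⟩ : ∃ M, HasWExp N (fun τ : ℍ => (wN N τ ^ e)⁻¹) M := ⟨_, e, hnice, rfl⟩
  have h1 := (hasWExp_wN_pow N e).mul hM
  have e1 : ((fun τ : ℍ => wN N τ ^ e) * fun τ : ℍ => (wN N τ ^ e)⁻¹) = fun _ : ℍ => (1 : ℂ) := by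
    funext τ
    exact mul_inv_cancel₀ (hne τ)
  rw [e1] at h1
  have h2 := h1.unique (hasWExp_const N 1)
  have h3 : HahnSeries.single (-(e : ℤ)) (1 : ℂ) * HahnSeries.single (e : ℤ) (1 : ℂ) = 1 := by
    rw [HahnSeries.single_mul_single]
    simp
  have h4 : M = HahnSeries.single (-(e : ℤ)) (1 : ℂ) := by
    calc M = (HahnSeries.single (-(e : ℤ)) (1 : ℂ) * HahnSeries.single (e : ℤ) (1 : ℂ)) * M := by
          rw [h3, one_mul]
      _ = HahnSeries.single (-(e : ℤ)) (1 : ℂ) * (HahnSeries.single (e : ℤ) (1 : ℂ) * M) := by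
          ring
      _ = HahnSeries.single (-(e : ℤ)) (1 : ℂ) := by
          rw [h2]
          simp
  rw [← h4]
  exact hM

/-- Expansion of `Δ(z(τ))` when `e^{2πi z(τ)} = ξ w^e`. -/
theorem hasWExp_disc_comp (N : ℕ) [NeZero N] (z : ℍ → ℍ) (e : ℕ) (he : 0 < e) (ξ : ℂ)
    (hξ : ‖ξ‖ = 1) (hz : ∀ τ : ℍ, Function.Periodic.qParam 1 (z τ : ℂ) = ξ * wN N τ ^ e) :
    HasWExp N (fun τ : ℍ => ModularForm.discriminant (z τ))
      (HahnSeries.C ξ * HahnSeries.single (e : ℤ) 1 * serZ cE e ξ) := by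
  have e1 : (fun τ : ℍ => ModularForm.discriminant (z τ)) =
      (fun _ : ℍ => ξ) * (fun τ : ℍ => wN N τ ^ e) * (fun τ : ℍ => Efun (ξ * wN N τ ^ e)) := by
    funext τ
    simp only [Pi.mul_apply]
    rw [disc_eq_q_mul_Efun, hz]
  rw [e1]
  exact ((hasWExp_const N ξ).mul (hasWExp_wN_pow N e)).mul
    (hasWExp_disc N Efun Efun_differentiableOn cE hasSum_Efun e he ξ hξ)

/-- Expansion of `Δ(z(τ))⁻¹` when `e^{2πi z(τ)} = ξ w^e`. -/
theorem hasWExp_disc_inv_comp (N : ℕ) [NeZero N] (z : ℍ → ℍ) (e : ℕ) (he : 0 < e) (ξ : ℂ)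
    (hξ : ‖ξ‖ = 1) (hz : ∀ τ : ℍ, Function.Periodic.qParam 1 (z τ : ℂ) = ξ * wN N τ ^ e) :
    HasWExp N (fun τ : ℍ => (ModularForm.discriminant (z τ))⁻¹)
      (HahnSeries.C ξ⁻¹ * HahnSeries.single (-(e : ℤ)) 1 * serZ cEinv e ξ) := by
  have e1 : (fun τ : ℍ => (ModularForm.discriminant (z τ))⁻¹) =
      (fun _ : ℍ => ξ⁻¹) * (fun τ : ℍ => (wN N τ ^ e)⁻¹) *
        (fun τ : ℍ => (Efun (ξ * wN N τ ^ e))⁻¹) := by
    funext τ
    simp only [Pi.mul_apply]
    rw [disc_eq_q_mul_Efun, hz, mul_inv, mul_inv]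
  rw [e1]
  exact ((hasWExp_const N ξ⁻¹).mul (hasWExp_wN_pow_inv N e)).mul
    (hasWExp_disc N (fun q => (Efun q)⁻¹) EfunInv_differentiableOn cEinv hasSum_EfunInv e he ξ hξ)

end Fermat.Agent.S28
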